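import Fermat.Agent.Mazur.Moduli.StableLine

/-!
# A point fixed by one Frobenius stays out of the disc at infinity

The argument of `FA.Mazur.Moduli.ne_discPlace` only uses that the chosen Frobenius at `l` fixes the
point.
-/

set_option autoImplicit false
set_option linter.unusedSectionVars false
set_option linter.style.haveILetI false
set_option synthInstance.maxHeartbeats 400000
set_option maxHeartbeats 1600000

noncomputable section

namespace FA.Ribet

open Polynomial ModularCurve AlgebraicCurve FA.Curve FA.CurveRed FA.ModField FA.Level FA.Mazur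
  FA.Mazur.Moduli WeierstrassCurve
open HahnSeries (ofPowerSeries)
open scoped WeierstrassCurve.Affine

local notation "Qb" => AlgebraicClosure ℚ
local notation "GQ" => AlgebraicClosure ℚ ≃ₐ[ℚ] AlgebraicClosure ℚ

variable {p : ℕ} [hp : Fact p.Prime] {l : ℕ} [hl : Fact l.Prime] [Algebra Qb (PadicComplex l)]
  [Algebra (AlgebraicClosure ℚ) ℂ]

/-- **A point fixed by Frobenius stays out of the disc at infinity.** -/
theorem ne_discPlace_of_frobEl (W : WeierstrassCurve ℚ) [W.IsElliptic] (h0 : W.j ≠ 0)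
    {P : (W.toAffine⁄Qb).Point} (hP : p • P = 0) (hP0 : P ≠ 0) (hfix : frobEl l • P = P)
    (hinj : Set.InjOn (lineRoot W P) (half p : Set ℕ)) {ζ : Qb} (hζp : IsPrimitiveRoot ζ p)
    {v : Place Qb (levelField p Qb)} (hj : HasValue v (upJ (L := Qb) p)⁻¹ (algebraMap ℚ Qb W.j⁻¹))
    {F : Polynomial (levelField p Qb)}
    (hF : F.map (algebraMap _ (LaurentSeries Qb)) = serPoly p ζ)
    (hval : ∀ k, HasValue v (F.coeff k) ((linePoly p W P).coeff k))
    (hlp : l ≠ p) (hl2 : ¬ p ∣ l ^ 2 - 1) (t : Param Qb (Cl l)) :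
    v ≠ discPlace p (isEmbAt_placeAt l) t := by
  classical
  haveI : NeZero p := ⟨hp.out.ne_zero⟩
  rintro rfl
  have ht : t.1 = algebraMap ℚ Qb W.j⁻¹ := (hasValue_jInv p (isEmbAt_placeAt l) t).unique hj
  set a := qPar t
  set ha := norm_qPar_lt t
  have hη : ∀ m ∈ half p, (ζ ^ m) ^ p = 1 ∧ ζ ^ m ≠ 1 := fun m hm =>
    ⟨by rw [← pow_mul, mul_comm, pow_mul, hζp.pow_eq_one, one_pow], fun h =>
      half_cast_ne_zero hm ((ZMod.natCast_eq_zero_iff m p).2 ((hζp.pow_eq_one_iff_dvd m).1 h))⟩
  choose! w hw using fun m hm => exists_intSer (p := p) (l := l) (ζ ^ m) (hη m hm).1 (hη m hm).2 hlp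
  -- the scaled polynomial
  let P' : Polynomial (PowerSeries (placeAt l)) := ∏ m ∈ half p, (X - C (w m))
  let φ : PowerSeries (placeAt l) →+* LaurentSeries Qb :=
    (coeffMap (placeAt l).subtype).comp (ofPowerSeries ℤ (placeAt l))
  let jiS : LaurentSeries Qb := (((upJ (L := Qb) p)⁻¹ : upField (L := Qb) p) : LaurentSeries Qb)
  have hji : jiS = ofPowerSeries ℤ Qb (PowerSeries.X * jV Qb) := by
    show (((upJ (L := Qb) p)⁻¹ : upField (L := Qb) p) : LaurentSeries Qb) = _
    rw [IntermediateField.coe_inv, coe_upJ]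
    exact (eq_inv_of_mul_eq_one_right (jqModC_mul_X_jV Qb)).symm
  have hFm : F.Monic := monic_of_injective (algebraMap _ (LaurentSeries Qb)).injective
    (by rw [hF]; exact monic_serPoly p ζ)
  have hFd : F.natDegree = (half p).card := by
    rw [← natDegree_serPoly p ζ, ← hF,
      natDegree_map_eq_of_injective (algebraMap (levelField p Qb) (LaurentSeries Qb)).injective]
  set F' := F.scaleRoots ((upJ (L := Qb) p)⁻¹ : levelField p Qb) with hF'
  have hser : F'.map (algebraMap _ (LaurentSeries Qb)) = P'.map φ := by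
    rw [hF', map_scaleRoots _ _ _ (by rw [hFm.leadingCoeff, map_one]; exact one_ne_zero), hF,
      serPoly, map_prod_X_sub_C]
    refine (scaleRoots_prod _ _ _).trans (Finset.prod_congr rfl fun m hm => ?_)
    congr 2
    show uLaurent p (ζ ^ m) * jiS = coeffMap (placeAt l).subtype (ofPowerSeries ℤ (placeAt l) (w m))
    rw [coeffMap_ofPowerSeries, hw m hm, hji, uLaurent, map_mul, map_mul,
      HahnSeries.ofPowerSeries_X, mul_mul_mul_comm, HahnSeries.single_mul_single]
    simp
  -- values
  have hinv : HasValue (discPlace p (isEmbAt_placeAt l) t) (upJ (L := Qb) p)⁻¹ t.1 :=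
    hasValue_jInv p (isEmbAt_placeAt l) t
  have hlm : (linePoly p W P).Monic := monic_prod_of_monic _ _ fun m _ => monic_X_sub_C _
  have hld : (linePoly p W P).natDegree = (half p).card := by
    rw [linePoly, natDegree_finsetProd_X_sub_C_eq_card]
  have hval' : ∀ k, HasValue (discPlace p (isEmbAt_placeAt l) t) (F'.coeff k)
      (((linePoly p W P).scaleRoots t.1).coeff k) := fun k => by
    rw [hF', coeff_scaleRoots, coeff_scaleRoots, hFd, hld]
    exact hasValue_mul (hval k) (hasValue_pow hinv _)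
  let ψ : PowerSeries (placeAt l) →+* Cl l :=
    (unitBall (Cl l)).subtype.comp ((evalHom a ha).comp
      (PowerSeries.map (isEmbAt_placeAt l).toBall))
  have hψ : ((linePoly p W P).scaleRoots t.1).map (algebraMap Qb (Cl l)) = P'.map ψ := by
    refine Polynomial.ext fun k => ?_
    have hk : ((F'.coeff k : upField (L := Qb) p) : LaurentSeries Qb) =
        coeffMap (placeAt l).subtype (ofPowerSeries ℤ (placeAt l) (P'.coeff k)) := by
      have h := congrArg (fun q : Polynomial (LaurentSeries Qb) => q.coeff k) hser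
      simp only [Polynomial.coeff_map] at h
      exact h
    let Y : intW (placeAt l) p := ⟨ofPowerSeries ℤ (placeAt l) (P'.coeff k), by
      show coeffMap (placeAt l).subtype _ ∈ upField (L := Qb) p
      rw [← hk]; exact SetLike.coe_mem _⟩
    have hY : wUp (placeAt l) p Y = F'.coeff k := Subtype.ext (by rw [coe_wUp]; exact hk.symm)
    have h1 := (coeff_zero_of_hasValue p (isEmbAt_placeAt l) (hval' k)).1
    rw [← hY, evHom_wUp] at h1
    simp only [Polynomial.coeff_map]
    rw [← h1]
    show (shiftL a ha (coeffMap (isEmbAt_placeAt l).toBall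
      (ofPowerSeries ℤ (placeAt l) (P'.coeff k)))).coeff 0 = _
    rw [coeffMap_ofPowerSeries, shiftL_ofPowerSeries, shiftPS, RingHom.comp_apply,
      RingHom.comp_apply, show (0 : ℤ) = ((0 : ℕ) : ℤ) from rfl,
      HahnSeries.ofPowerSeries_apply_coeff, PowerSeries.coeff_map,
      PowerSeries.coeff_zero_eq_constantCoeff_apply, constantCoeff_shiftHom]
    rfl
  let S : ℕ → Cl l := fun m => ψ (w m)
  let T : ℕ → Cl l := fun m => algebraMap Qb (Cl l) (lineRoot W P m * t.1)
  have hST : ∏ m ∈ half p, (X - C (T m)) = ∏ m ∈ half p, (X - C (S m)) := by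
    rw [linePoly, scaleRoots_prod, map_prod_X_sub_C] at hψ
    rw [show P'.map ψ = ∏ m ∈ half p, (X - C (S m)) from map_prod_X_sub_C _ _ _] at hψ
    exact hψ
  have ht0 : t.1 ≠ 0 := by rw [ht]; exact (_root_.map_ne_zero _).2 (inv_ne_zero h0)
  have hroots : (half p).1.map S = (half p).1.map T := by
    have h := congrArg Polynomial.roots hST
    rw [Finset.prod_eq_multiset_prod, Finset.prod_eq_multiset_prod] at h
    rw [← Function.comp_def (fun c => X - C c) T, ← Function.comp_def (fun c => X - C c) S,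
      ← Multiset.map_map, ← Multiset.map_map, roots_multiset_prod_X_sub_C,
      roots_multiset_prod_X_sub_C] at h
    exact h.symm
  have hTnd : ((half p).1.map T).Nodup := Multiset.Nodup.map_on (fun m hm m' hm' h => hinj
    (Finset.mem_coe.2 (Finset.mem_def.2 hm)) (Finset.mem_coe.2 (Finset.mem_def.2 hm'))
    (mul_right_cancel₀ ht0 ((algebraMap Qb (Cl l)).injective h))) (half p).2
  have hSinj : ∀ m ∈ half p, ∀ m' ∈ half p, S m = S m' → m = m' := fun m hm m' hm' h =>
    Multiset.inj_on_of_nodup_map (hroots ▸ hTnd) m (Finset.mem_def.1 hm) m' (Finset.mem_def.1 hm') h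
  -- Frobenius
  set σ := frobEl l
  have hσ : σ ∈ decGp l := frobEl_mem l
  have hfr : ∀ x : Qb, x ^ p = 1 → σ x = x ^ l := fun x hx =>
    FA.TW.frobenius_apply_rootOfUnity hp.out hl.out hlp (placeAt_liesOver l) (frobEl_spec l)
      (m := 1) (by rw [pow_one]; exact hx)
  have hT : ∀ m ∈ half p, galExt hσ (T m) = T m := fun m hm => by
    show galExt hσ (emb l (lineRoot W P m * t.1)) = emb l (lineRoot W P m * t.1)
    rw [galExt_emb, map_mul, gal_lineRoot σ P hP hP0 (half_cast_ne_zero hm), hfix, ht,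
      AlgEquiv.commutes]
  have hS : ∀ m ∈ half p, galExt hσ (S m) = S m := fun m hm => by
    obtain ⟨m', hm', e⟩ := Multiset.mem_map.1 (hroots ▸ Multiset.mem_map_of_mem S
      (Finset.mem_def.1 hm) : S m ∈ (half p).1.map T)
    rw [← e]; exact hT m' hm'
  -- the residue of `l` on the half line
  set m₁ := ((l : ZMod p)).valMinAbs.natAbs with hm₁
  have hl0 : (l : ZMod p) ≠ 0 := fun h => hlp
    ((Nat.prime_dvd_prime_iff_eq hp.out hl.out).1 ((ZMod.natCast_eq_zero_iff l p).1 h)).symm
  have hm₁mem : m₁ ∈ half p := mem_half.2 ⟨Nat.one_le_iff_ne_zero.2 (by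
    simp [hm₁, ZMod.valMinAbs_eq_zero, hl0]), ZMod.natAbs_valMinAbs_le _⟩
  have hm₁l : (m₁ : ZMod p) = l ∨ (m₁ : ZMod p) = -(l : ZMod p) := by
    rcases Int.natAbs_eq ((l : ZMod p)).valMinAbs with e | e <;>
      have e' := congrArg (fun z : ℤ => (z : ZMod p)) e <;>
      simp only [ZMod.coe_valMinAbs, Int.cast_neg, Int.cast_natCast, ← hm₁] at e'
    · exact Or.inl e'.symm
    · exact Or.inr (by rw [e', neg_neg])
  have h1 : 1 ∈ half p := mem_half.2 ⟨le_rfl, by have := hp.out.two_le; omega⟩
  have hζl : uPow p (σ ζ) = uPow p (ζ ^ m₁) := by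
    rw [hfr ζ hζp.pow_eq_one]
    rcases hm₁l with h | h
    · rw [pow_eq_of_cast_eq hζp.pow_eq_one h.symm]
    · have : ζ ^ m₁ = (ζ ^ l)⁻¹ := eq_inv_of_mul_eq_one_left (by
        rw [← pow_add, pow_eq_of_cast_eq hζp.pow_eq_one (b := 0) (by simp [h]), pow_zero])
      simp only [this, uPow, lineSer, xCoeff_inv p (pow_ne_zero _ (hζp.ne_zero hp.out.ne_zero))]
  have hmove : galExt hσ (S 1) = S m₁ := by
    have hwmap : PowerSeries.map (galInt hσ) (w 1) = w m₁ := by
      apply PowerSeries.map_injective (placeAt l).subtype Subtype.val_injective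
      rw [hw m₁ hm₁mem, ← hζl]
      have hcomm : ∀ q : PowerSeries (placeAt l), PowerSeries.map (placeAt l).subtype
          (PowerSeries.map (galInt hσ) q) =
          PowerSeries.map (σ : Qb →+* Qb) (PowerSeries.map (placeAt l).subtype q) := fun q => by
        ext n; simp [galInt]
      rw [hcomm, hw 1 h1, map_mul, map_uPow, map_jV, pow_one]
      rfl
    have hga : galBall hσ a = a := by
      rw [← qPar_galParam hσ t]
      congr 1
      exact Subtype.ext (show σ t.1 = t.1 by rw [ht, AlgEquiv.commutes])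
    show galExt hσ ((evalHom a ha (PowerSeries.map (isEmbAt_placeAt l).toBall (w 1)) :
      unitBall (Cl l)) : Cl l) = ((evalHom a ha
        (PowerSeries.map (isEmbAt_placeAt l).toBall (w m₁)) : unitBall (Cl l)) : Cl l)
    rw [← hwmap]
    have hmap : PowerSeries.map (isEmbAt_placeAt l).toBall (PowerSeries.map (galInt hσ) (w 1)) =
        PowerSeries.map (galBall hσ) (PowerSeries.map (isEmbAt_placeAt l).toBall (w 1)) := by
      ext1 n
      simp only [PowerSeries.coeff_map, toBall_galInt hσ]
    rw [hmap, ← coe_galBall, ← evalHom_map (galBall hσ) (continuous_galBall hσ) ha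
      (norm_galBall_lt hσ ha)]
    exact congrArg Subtype.val (evalHom_congr hga _ _ _)
  have hm1 : m₁ = 1 := hSinj m₁ hm₁mem 1 h1 (by rw [← hmove, hS 1 h1])
  refine hl2 ((ZMod.natCast_eq_zero_iff _ p).1 ?_)
  rw [Nat.cast_sub (Nat.one_le_pow _ _ hl.out.pos), Nat.cast_pow, Nat.cast_one, sub_eq_zero]
  rcases hm₁l with h | h <;> rw [hm1, Nat.cast_one] at h
  · rw [← h, one_pow]
  · rw [show (l : ZMod p) = -1 by rw [h, neg_neg]]; ring

end FA.Ribet

end
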