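import Fermat.Agent.Mazur.Moduli.Place

/-!
# The places of level `p` above an invariant and the lines of the torsion

Every place of level `p` over the invariant of a curve over `ℚ` takes at the coefficients of the
half line polynomial the values of some point of order `p`, and these values determine the place.
-/

set_option autoImplicit false
set_option linter.unusedSectionVars false
set_option linter.style.haveILetI false
set_option synthInstance.maxHeartbeats 400000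
set_option maxHeartbeats 1600000

noncomputable section

namespace FA.Ribet

open UpperHalfPlane hiding I
open Complex FA.ModField FA.Level ModularCurve AlgebraicCurve FA.Curve FA.Mazur FA.Mazur.Moduli
  WeierstrassCurve FA.EC
open scoped MatrixGroups WeierstrassCurve.Affine

local notation "Qb" => AlgebraicClosure ℚ

variable {W : WeierstrassCurve ℚ} [W.IsElliptic]

/-- Points with the same normalised abscissa are opposite or equal. -/
theorem eq_or_eq_neg_of_uVal_eq (h0 : W.j ≠ 0) (h1728 : W.j ≠ 1728) {P R : (W.toAffine⁄Qb).Point}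
    (hP : P ≠ 0) (hR : R ≠ 0) (h : uVal W (xc P) = uVal W (xc R)) : P = R ∨ P = -R := by
  refine eq_or_eq_neg_of_xc_eq hP hR ?_
  have h4 : W.c₄ ≠ 0 := fun e => h0 (by simp [WeierstrassCurve.j, e])
  have h6 : W.c₆ ≠ 0 := fun e => h1728 (by
    have hc := W.c_relation
    rw [e] at hc
    rw [WeierstrassCurve.j, Units.val_inv_eq_inv_val, coe_Δ', inv_mul_eq_div,
      div_eq_iff (W.coe_Δ' ▸ W.Δ'.ne_zero)]
    linear_combination -hc)
  have hs : 3 * (W.j - 1728) * (W.c₄ / W.c₆) ≠ 0 :=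
    mul_ne_zero (mul_ne_zero three_ne_zero (sub_ne_zero.2 h1728)) (div_ne_zero h4 h6)
  have h' := mul_left_cancel₀ ((_root_.map_ne_zero _).2 hs) h
  linear_combination (1 / 12 : Qb) * h'

variable [Algebra (AlgebraicClosure ℚ) ℂ] {p : ℕ} [hp : Fact p.Prime]

/-- The half line of a point, over `ℂ`. -/
theorem exists_vec_linePoly (h0 : W.j ≠ 0) (h1728 : W.j ≠ 1728) {τ : ℍ}
    (hτ : jfun τ = algebraMap ℚ ℂ W.j) {P : (W.toAffine⁄Qb).Point} (hP : p • P = 0) (hP0 : P ≠ 0) :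
    ∃ v : ℤ × ℤ, ¬ ((p : ℤ) ∣ v.1 ∧ (p : ℤ) ∣ v.2) ∧
      algebraMap Qb ℂ (lineRoot W P 1) = uFun p v τ ∧
      (linePoly p W P).map (algebraMap Qb ℂ) = funPoly p v τ ∧
      Set.InjOn (lineRoot W P) (half p : Set ℕ) := by
  classical
  let ι : Qb →ₐ[ℚ] ℂ := AlgHom.mk (algebraMap Qb ℂ) algebraMap_rat
  let φC := Affine.Point.map (W' := W.toAffine) ι
  have hφC0 : φC P ≠ 0 := fun h =>
    hP0 (Affine.Point.map_injective (f := ι) (h.trans (map_zero φC).symm))
  obtain ⟨v₀, hv₀, hroot⟩ := exists_vec_of_point (p := p) W hτ h0 h1728 (φC P)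
    (by rw [← map_nsmul, hP, map_zero]) hφC0
  have hroot' : ∀ m ∈ half p, algebraMap Qb ℂ (lineRoot W P m) = uFun p ((m : ℤ) • v₀) τ :=
    fun m hm => by
    have hne := nsmul_ne_zero hP hP0 (half_cast_ne_zero hm)
    have hne' : m • φC P ≠ 0 := fun h => hne (Affine.Point.map_injective (f := ι)
      ((map_nsmul φC m P).trans (h.trans (map_zero φC).symm)))
    rw [← hroot m hne', ← map_nsmul]
    refine (map_uVal W ι _).trans (congrArg (uVal W) ?_)
    obtain ⟨x, y, hxy, he⟩ := exists_some_of_ne_zero hne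
    rw [he]
    rfl
  refine ⟨v₀, hv₀, ?_, ?_, fun m hm m' hm' h => ?_⟩
  · simpa using hroot' 1 (mem_half.2 ⟨le_rfl, by have := hp.out.two_le; omega⟩)
  · simp only [linePoly, funPoly, Polynomial.map_prod, Polynomial.map_sub, Polynomial.map_X,
      Polynomial.map_C]
    exact Finset.prod_congr rfl fun m hm => by rw [hroot' m hm]
  · refine uFun_injOn (scaleU_ne_zero ?_ ?_) hv₀ hm hm' (by
      show uFun p ((m : ℤ) • v₀) τ = uFun p ((m' : ℤ) • v₀) τ
      rw [← hroot' m hm, ← hroot' m' hm', h])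
    · rw [hτ]; exact (_root_.map_ne_zero _).2 h0
    · rw [hτ, ← map_ofNat (algebraMap ℚ ℂ) 1728]
      exact fun e => h1728 ((algebraMap ℚ ℂ).injective e)

/-- **Every line of the lattice comes from a point.** -/
theorem exists_point_of_vec (hp2 : p ≠ 2) (h0 : W.j ≠ 0) (h1728 : W.j ≠ 1728) {τ : ℍ}
    (hτ : jfun τ = algebraMap ℚ ℂ W.j) {v : ℤ × ℤ} (hv : ¬ ((p : ℤ) ∣ v.1 ∧ (p : ℤ) ∣ v.2)) :
    ∃ P : (W.toAffine⁄Qb).Point, p • P = 0 ∧ P ≠ 0 ∧
      (linePoly p W P).map (algebraMap Qb ℂ) = funPoly p v τ := by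
  classical
  haveI : NeZero p := ⟨hp.out.ne_zero⟩
  have hs : scaleU τ ≠ 0 := scaleU_ne_zero (by rw [hτ]; exact (_root_.map_ne_zero _).2 h0) (by
    rw [hτ, ← map_ofNat (algebraMap ℚ ℂ) 1728]
    exact fun h => h1728 ((algebraMap ℚ ℂ).injective h))
  haveI : (W⁄Qb).IsElliptic := inferInstanceAs (W.map (algebraMap ℚ Qb)).IsElliptic
  have hcard : Nat.card {P : (W.toAffine⁄Qb).Point // p • P = 0} = p ^ 2 :=
    natCard_nsmul_eq_zero (W.baseChange Qb) (Nat.cast_ne_zero.2 hp.out.ne_zero)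
  haveI : Finite {P : (W.toAffine⁄Qb).Point // p • P = 0} :=
    Nat.finite_of_card_ne_zero (hcard ▸ pow_ne_zero 2 hp.out.ne_zero)
  haveI := Fintype.ofFinite {P : (W.toAffine⁄Qb).Point // p • P = 0}
  let vec : ZMod p × ZMod p → ℤ × ℤ := fun x => ((x.1.val : ℤ), (x.2.val : ℤ))
  let T := Finset.univ.erase (⟨0, nsmul_zero p⟩ : {P : (W.toAffine⁄Qb).Point // p • P = 0})
  let S := Finset.univ.erase (0 : ZMod p × ZMod p)
  let f : {P : (W.toAffine⁄Qb).Point // p • P = 0} → ℂ := fun P =>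
    algebraMap Qb ℂ (lineRoot W P.1 1)
  let g : ZMod p × ZMod p → ℂ := fun x => uFun p (vec x) τ
  have hT : ∀ P ∈ T, P.1 ≠ 0 := fun P hP h => Finset.ne_of_mem_erase hP (Subtype.ext h)
  have hvec : ∀ w : ℤ × ℤ, uFun p (vec ((w.1 : ZMod p), (w.2 : ZMod p))) τ = uFun p w τ :=
    fun w => uFun_congr' (by simp [vec]) (by simp [vec]) τ
  have hsub : T.image f ⊆ S.image g := by
    intro z hz
    obtain ⟨P, hP, rfl⟩ := Finset.mem_image.1 hz
    obtain ⟨w, hw, hw1, -, -⟩ := exists_vec_linePoly h0 h1728 hτ P.2 (hT P hP)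
    refine Finset.mem_image.2 ⟨((w.1 : ZMod p), (w.2 : ZMod p)), Finset.mem_erase.2 ⟨fun e => ?_,
      Finset.mem_univ _⟩, (hvec w).trans hw1.symm⟩
    rw [Prod.ext_iff] at e
    exact hw ⟨(ZMod.intCast_zmod_eq_zero_iff_dvd _ p).1 e.1,
      (ZMod.intCast_zmod_eq_zero_iff_dvd _ p).1 e.2⟩
  have hTle : T.card ≤ 2 * (T.image f).card := by
    refine Finset.card_le_mul_card_image T 2 fun z hz => ?_
    obtain ⟨R, hR, rfl⟩ := Finset.mem_image.1 hz
    refine (Finset.card_le_card (t := {R, ⟨-R.1, by rw [neg_nsmul, R.2, neg_zero]⟩}) fun P hP => ?_).trans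
      Finset.card_le_two
    obtain ⟨hP, he⟩ := Finset.mem_filter.1 hP
    have he' : lineRoot W P.1 1 = lineRoot W R.1 1 := (algebraMap Qb ℂ).injective he
    simp only [lineRoot, one_nsmul] at he'
    rcases eq_or_eq_neg_of_uVal_eq h0 h1728 (hT P hP) (hT R hR) he' with e | e
    · exact Finset.mem_insert.2 (Or.inl (Subtype.ext e))
    · exact Finset.mem_insert.2 (Or.inr (Finset.mem_singleton.2 (Subtype.ext e)))
  have hSle : 2 * (S.image g).card ≤ S.card := by
    refine Finset.mul_card_image_le_card S 2 fun z hz => ?_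
    obtain ⟨x, hx, rfl⟩ := Finset.mem_image.1 hz
    have hx0 := Finset.ne_of_mem_erase hx
    have hne : x ≠ -x := fun e => hx0 <| by
      have h2 : (2 : ZMod p) ≠ 0 := fun h => hp2 ((Nat.prime_dvd_prime_iff_eq hp.out Nat.prime_two).1
        ((ZMod.natCast_eq_zero_iff 2 p).1 (by exact_mod_cast h)))
      refine Prod.ext ((mul_eq_zero.1 (?_ : (2 : ZMod p) * x.1 = 0)).resolve_left h2)
        ((mul_eq_zero.1 (?_ : (2 : ZMod p) * x.2 = 0)).resolve_left h2)
      · have e' : x.1 = -x.1 := congrArg Prod.fst e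
        linear_combination e'
      · have e' : x.2 = -x.2 := congrArg Prod.snd e
        linear_combination e'
    refine (Finset.card_pair hne).ge.trans (Finset.card_le_card fun y hy => ?_)
    rcases Finset.mem_insert.1 hy with rfl | hy
    · exact Finset.mem_filter.2 ⟨hx, rfl⟩
    rw [Finset.mem_singleton] at hy
    subst hy
    refine Finset.mem_filter.2 ⟨Finset.mem_erase.2 ⟨neg_ne_zero.2 hx0, Finset.mem_univ _⟩, ?_⟩
    show uFun p (vec (-x)) τ = uFun p (vec x) τ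
    rw [← uFun_neg (vec x)]
    exact uFun_congr' (by simp [vec]) (by simp [vec]) τ
  have hTS : T.card = S.card := by
    rw [Finset.card_erase_of_mem (Finset.mem_univ _), Finset.card_erase_of_mem (Finset.mem_univ _),
      Finset.card_univ, Finset.card_univ, ← Nat.card_eq_fintype_card, hcard, Fintype.card_prod,
      ZMod.card, sq]
  have heq := Finset.eq_of_subset_of_card_le hsub (by omega)
  have hmem : uFun p v τ ∈ S.image g := Finset.mem_image.2 ⟨((v.1 : ZMod p), (v.2 : ZMod p)),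
    Finset.mem_erase.2 ⟨fun e => by
      rw [Prod.ext_iff] at e
      exact hv ⟨(ZMod.intCast_zmod_eq_zero_iff_dvd _ p).1 e.1,
        (ZMod.intCast_zmod_eq_zero_iff_dvd _ p).1 e.2⟩, Finset.mem_univ _⟩, hvec v⟩
  rw [← heq] at hmem
  obtain ⟨P, hP, hPv⟩ := Finset.mem_image.1 hmem
  obtain ⟨w, hw, hw1, hw2, -⟩ := exists_vec_linePoly h0 h1728 hτ P.2 (hT P hP)
  refine ⟨P.1, P.2, hT P hP, hw2.trans ?_⟩
  rcases eq_or_of_uFun_eq hs hv hw (hPv.symm.trans hw1) with ⟨a, b⟩ | ⟨a, b⟩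
  · have a' := (ZMod.intCast_zmod_eq_zero_iff_dvd _ p).2 a
    have b' := (ZMod.intCast_zmod_eq_zero_iff_dvd _ p).2 b
    push_cast at a' b'
    exact funPoly_congr one_ne_zero (by linear_combination a') (by linear_combination b') τ
  · have a' := (ZMod.intCast_zmod_eq_zero_iff_dvd _ p).2 a
    have b' := (ZMod.intCast_zmod_eq_zero_iff_dvd _ p).2 b
    push_cast at a' b'
    exact funPoly_congr (neg_ne_zero.2 one_ne_zero) (by linear_combination a')
      (by linear_combination b') τ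

/-- The places over the invariant, by matrices. -/
theorem exists_fibre (h0 : W.j ≠ 0) (h1728 : W.j ≠ 1728) {ζ : Qb}
    (hζ : algebraMap Qb ℂ ζ = Wp.eta p 1) (hζp : IsPrimitiveRoot ζ p)
    {F : Polynomial (levelField p Qb)}
    (hF : F.map (algebraMap _ (LaurentSeries Qb)) = serPoly p ζ) :
    ∃ τ : ℍ, jfun τ = algebraMap ℚ ℂ W.j ∧ scaleU τ ≠ 0 ∧
      ∃ pl : SL(2, ℤ) → Place Qb (levelField p Qb),
        (∀ w, HasValue w (upJ (L := Qb) p)⁻¹ (algebraMap ℚ Qb W.j⁻¹) → ∃ γ, pl γ = w) ∧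
        (∀ γ k c, HasValue (pl γ) (F.coeff k) c ↔
          algebraMap Qb ℂ c = (funPoly p (0, 1) (γ • τ)).coeff k) ∧
        ∀ γ γ', γ * γ'⁻¹ ∈ CongruenceSubgroup.Gamma0 p → pl γ = pl γ' := by
  haveI : NeZero p := ⟨hp.out.ne_zero⟩
  set a : Qb := algebraMap ℚ Qb W.j with ha
  obtain ⟨τ, hτ⟩ := exists_jfun_eq (algebraMap ℚ ℂ W.j)
  have hτ0 : jfun τ ≠ 0 := by rw [hτ]; exact (_root_.map_ne_zero _).2 h0
  have hτ1 : jfun τ ≠ 1728 := by
    rw [hτ, ← map_ofNat (algebraMap ℚ ℂ) 1728]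
    exact fun h => h1728 ((algebraMap ℚ ℂ).injective h)
  have hτa : jfun τ = algebraMap Qb ℂ a := by rw [ha, algebraMap_rat, hτ]
  let V := lvlGamma0 p
  let E := V.pointFam Qb a τ hτa 1 (one_smul _ τ) 1 one_pos (order_jLocal_general hτ0 hτ1)
    (rotUnit_one τ)
  have hE : ∀ γ : SL(2, ℤ), E.σ (QuotientGroup.mk γ⁻¹) = emb (pointPar V τ) γ := fun γ => by
    show embCos (pointPar V τ) (QuotientGroup.mk γ⁻¹) = _
    rw [Level.embCos_mk, inv_inv]
  obtain ⟨F', hF', hFexp, -⟩ := exists_fieldPoly hζ hζp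
  obtain rfl : F' = F := Polynomial.map_injective _
    (algebraMap (levelField p Qb) (LaurentSeries Qb)).injective (hF'.trans hF.symm)
  refine ⟨τ, hτ, scaleU_ne_zero hτ0 hτ1, fun γ => E.pl (QuotientGroup.mk γ⁻¹), fun w hw => ?_,
    fun γ k c => ⟨fun h => ?_, fun h => ?_⟩, fun γ γ' hγ => ?_⟩
  · have hj : HasValue w (upJ (L := Qb) p) a := by
      have h := hasValue_inv hw ((_root_.map_ne_zero _).2 (inv_ne_zero h0))
      rwa [inv_inv, map_inv₀, inv_inv] at h
    let w' : Place Qb (V.fld Qb) := w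
    have hjF : (upJ (L := Qb) p) = V.jF Qb := Subtype.ext (V.coe_jF Qb).symm
    have hw' : HasValue w' (V.jF Qb) a := by rw [← hjF]; exact hj
    obtain ⟨i, hi⟩ := E.pl_surjective w' (by
      rcases hw' with h | h
      · rw [sub_eq_zero] at h
        exact absurd (h ▸ V.jF_transcendental Qb) (fun h' => h' (isAlgebraic_algebraMap a))
      · exact lt_of_lt_of_le zero_lt_one h)
    obtain ⟨g, rfl⟩ := QuotientGroup.mk_surjective i
    exact ⟨g⁻¹, (congrArg (fun y : SL(2, ℤ) => E.pl (QuotientGroup.mk y)) (inv_inv g)).trans hi⟩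
  · exact (value_eq_of_pl E (hE γ) (funCoeff_mem k) (hFexp k) h).symm
  · exact hasValue_pl E (hE γ) (funCoeff_mem k) (hFexp k) h.symm
  · show E.pl _ = E.pl _
    rw [E.σ_inj ((hE γ).trans (((congrArg (emb (pointPar V τ))
      (inv_mul_cancel_right γ γ').symm).trans (emb_left_grp (pointPar V τ) hγ γ')).trans (hE γ').symm))]

theorem not_both_row (γ : SL(2, ℤ)) :
    ¬ ((p : ℤ) ∣ (rowMul (0, 1) γ).1 ∧ (p : ℤ) ∣ (rowMul (0, 1) γ).2) := by
  rintro ⟨h1, h2⟩
  simp only [rowMul, zero_mul, zero_add, one_mul] at h1 h2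
  have h : (p : ℤ) ∣ 1 :=
    Wp.det_int γ ▸ dvd_sub (Dvd.dvd.mul_left h2 _) (Dvd.dvd.mul_left h1 _)
  exact hp.out.one_lt.ne' (by exact_mod_cast Int.eq_one_of_dvd_one (by positivity) h)

/-- **A place over the invariant takes the values of a point.** -/
theorem exists_point_of_place (hp2 : p ≠ 2) (h0 : W.j ≠ 0) (h1728 : W.j ≠ 1728) {ζ : Qb}
    (hζ : algebraMap Qb ℂ ζ = Wp.eta p 1) (hζp : IsPrimitiveRoot ζ p)
    {F : Polynomial (levelField p Qb)}
    (hF : F.map (algebraMap _ (LaurentSeries Qb)) = serPoly p ζ)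
    {w : Place Qb (levelField p Qb)}
    (hw : HasValue w (upJ (L := Qb) p)⁻¹ (algebraMap ℚ Qb W.j⁻¹)) :
    ∃ P : (W.toAffine⁄Qb).Point, p • P = 0 ∧ P ≠ 0 ∧
      ∀ k, HasValue w (F.coeff k) ((linePoly p W P).coeff k) := by
  obtain ⟨τ, hτ, -, pl, hsurj, hval, -⟩ := exists_fibre h0 h1728 hζ hζp hF
  obtain ⟨γ, rfl⟩ := hsurj w hw
  obtain ⟨P, hP, hP0, hpoly⟩ := exists_point_of_vec hp2 h0 h1728 hτ (not_both_row (p := p) γ)
  refine ⟨P, hP, hP0, fun k => (hval γ k _).2 ?_⟩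
  rw [funPoly_smul, ← hpoly, Polynomial.coeff_map]

/-- **The values determine the place.** -/
theorem place_eq_of_values (h0 : W.j ≠ 0) (h1728 : W.j ≠ 1728) {ζ : Qb}
    (hζ : algebraMap Qb ℂ ζ = Wp.eta p 1) (hζp : IsPrimitiveRoot ζ p)
    {F : Polynomial (levelField p Qb)}
    (hF : F.map (algebraMap _ (LaurentSeries Qb)) = serPoly p ζ)
    {v w : Place Qb (levelField p Qb)}
    (hv : HasValue v (upJ (L := Qb) p)⁻¹ (algebraMap ℚ Qb W.j⁻¹))
    (hw : HasValue w (upJ (L := Qb) p)⁻¹ (algebraMap ℚ Qb W.j⁻¹)) {Q : Polynomial Qb}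
    (hvF : ∀ k, HasValue v (F.coeff k) (Q.coeff k))
    (hwF : ∀ k, HasValue w (F.coeff k) (Q.coeff k)) : v = w := by
  obtain ⟨τ, -, hs, pl, hsurj, hval, hcos⟩ := exists_fibre h0 h1728 hζ hζp hF
  obtain ⟨γ, rfl⟩ := hsurj v hv
  obtain ⟨γ', rfl⟩ := hsurj w hw
  refine hcos γ γ' ?_
  have hpoly : funPoly p (rowMul (0, 1) γ) τ = funPoly p (rowMul (0, 1) γ') τ := by
    rw [← funPoly_smul, ← funPoly_smul]
    exact Polynomial.ext fun k =>
      ((hval γ k _).1 (hvF k)).symm.trans ((hval γ' k _).1 (hwF k))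
  have hdet := det_eq_zero_of_funPoly_eq hs (not_both_row γ) (not_both_row γ') hpoly
  simp only [rowMul, zero_mul, zero_add, one_mul] at hdet
  rw [CongruenceSubgroup.Gamma0_mem]
  have e : (γ * γ'⁻¹) 1 0 = γ 1 0 * γ' 1 1 - γ 1 1 * γ' 1 0 := by
    simp [Matrix.SpecialLinearGroup.coe_inv, Matrix.adjugate_fin_two, Matrix.mul_apply,
      Fin.sum_univ_two]
    ring
  rw [e]
  push_cast
  exact hdet

end FA.Ribet

end
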