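import Fermat.Agent.Ribet.Mazur
import Fermat.Agent.Ribet.MazurFrob
import Fermat.Agent.Ribet.MazurPlace
import Fermat.Agent.Mazur.RationalTorsion
import Fermat.Agent.Root.LoweringSemistable

/-!
# Mazur's theorem for semistable curves without a hypothesis at two

When two is an Eisenstein prime, a stable line with trivial character is excluded by the theorem on
rational points; when the quotient has trivial character, the place of the line lies in the disc at
infinity at `2` and at `3`, so its class vanishes.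
-/

set_option autoImplicit false
set_option linter.style.haveILetI false
set_option linter.unusedSectionVars false
set_option synthInstance.maxHeartbeats 400000
set_option maxHeartbeats 1600000

noncomputable section

open ModularCurve AlgebraicCurve FA.Curve FA.CurveRed FA.ModField FA.Level FA.JTorsion FA.Mazur
  FA.Mazur.Moduli WeierstrassCurve WeierstrassCurve.Affine
open FA.Frob (ratCurve)
open scoped WeierstrassCurve.Affine

namespace FA.Ribet

local notation "Qb" => AlgebraicClosure ℚ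
local notation "GQ" => AlgebraicClosure ℚ ≃ₐ[ℚ] AlgebraicClosure ℚ

/-- The determinant from two independent eigenvectors; otherwise they are proportional. -/
theorem det_eq_mul_or_smul {k : Type} [Field k] {M : Matrix (Fin 2) (Fin 2) k} {v w : Fin 2 → k}
    {a b : k} (hv : v ≠ 0) (h1 : M.mulVec v = a • v) (h2 : M.mulVec w = b • w) :
    M.det = a * b ∨ ∃ d : k, w = d • v := by
  by_cases hD : v 0 * w 1 - v 1 * w 0 = 0
  · right
    rcases ne_or_eq (v 0) 0 with h | h
    · refine ⟨w 0 / v 0, funext fun i => ?_⟩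
      fin_cases i
      · show w 0 = w 0 / v 0 * v 0
        rw [div_mul_cancel₀ _ h]
      · show w 1 = w 0 / v 0 * v 1
        field_simp
        linear_combination hD
    · have h' : v 1 ≠ 0 := fun e => hv (funext fun i => by fin_cases i <;> assumption)
      refine ⟨w 1 / v 1, funext fun i => ?_⟩
      fin_cases i
      · show w 0 = w 1 / v 1 * v 0
        field_simp
        linear_combination -hD
      · show w 1 = w 1 / v 1 * v 1
        rw [div_mul_cancel₀ _ h']
  · left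
    have a0 := congrFun h1 0
    have a1 := congrFun h1 1
    have b0 := congrFun h2 0
    have b1 := congrFun h2 1
    simp [Matrix.mulVec, dotProduct, Fin.sum_univ_two] at a0 a1 b0 b1
    refine mul_right_cancel₀ hD ?_
    have key : M.det * (v 0 * w 1 - v 1 * w 0) =
        (M 0 0 * v 0 + M 0 1 * v 1) * (M 1 0 * w 0 + M 1 1 * w 1) -
          (M 1 0 * v 0 + M 1 1 * v 1) * (M 0 0 * w 0 + M 0 1 * w 1) := by
      rw [Matrix.det_fin_two]; ring
    rw [key, a0, a1, b0, b1]
    ring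

section

variable [Algebra (AlgebraicClosure ℚ) ℂ] {p : ℕ} [hp : Fact p.Prime]

/-- **The place of a line with trivial quotient lies in the disc at infinity.** -/
theorem linePlace_eq_discPlace (hp2 : p ≠ 2) (W : WeierstrassCurve ℚ) [W.IsElliptic]
    (h0 : W.j ≠ 0) (h1728 : W.j ≠ 1728) {ζ : Qb} (hζ : algebraMap Qb ℂ ζ = Wp.eta p 1)
    (hζp : IsPrimitiveRoot ζ p) {F : Polynomial (levelField p Qb)}
    (hF : F.map (algebraMap _ (LaurentSeries Qb)) = serPoly p ζ)
    {P : (W.toAffine⁄Qb).Point} (hP : p • P = 0) {v : Place Qb (levelField p Qb)}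
    (hvj : HasValue v (upJ (L := Qb) p)⁻¹ (algebraMap ℚ Qb W.j⁻¹))
    (hvF : ∀ k, HasValue v (F.coeff k) ((linePoly p W P).coeff k))
    {l : ℕ} [hl : Fact l.Prime] [Algebra Qb (PadicComplex l)] (hlp : l ≠ p)
    (hl2 : ¬ p ∣ l ^ 2 - 1) (t : Param Qb (Cl l)) (ht : t.1 = algebraMap ℚ Qb W.j⁻¹)
    (hline : ∀ R : (W.toAffine⁄Qb).Point, p • R = 0 → R ≠ 0 →
      (∃ m : ℕ, frobEl l • R = m • R) →
        frobEl l • R = R ∨ ∃ d : ℕ, (d : ZMod p) ≠ 0 ∧ R = d • P) :
    v = discPlace p (isEmbAt_placeAt l) t := by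
  haveI : NeZero p := ⟨hp.out.ne_zero⟩
  set w := discPlace p (isEmbAt_placeAt l) t
  have hwj : HasValue w (upJ (L := Qb) p)⁻¹ (algebraMap ℚ Qb W.j⁻¹) :=
    ht ▸ hasValue_jInv p (isEmbAt_placeAt l) t
  obtain ⟨R, hR, hR0, hwF⟩ := exists_point_of_place hp2 h0 h1728 hζ hζp hF hwj
  set σ := frobEl l
  have hσ : σ ∈ decGp l := frobEl_mem l
  have hwfix : galAut p Qb σ • w = w := by
    rw [gal_discPlace p hσ t]
    congr 1
    exact Subtype.ext (show σ t.1 = t.1 by rw [ht, AlgEquiv.commutes])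
  obtain ⟨F', hF', -, hFgal⟩ := exists_fieldPoly hζ hζp
  obtain rfl : F' = F := Polynomial.map_injective _
    (algebraMap (levelField p Qb) (LaurentSeries Qb)).injective (hF'.trans hF.symm)
  have hσR0 : σ • R ≠ 0 := fun e => hR0 ((smul_eq_zero_iff_eq σ).1 e)
  have hpoly : linePoly p W (σ • R) = linePoly p W R := by
    rw [← gal_linePoly σ hR hR0]
    refine Polynomial.ext fun k => ?_
    have h := hasValue_gal p Qb σ (hwF k)
    rw [hwfix, hFgal] at h
    rw [Polynomial.coeff_map]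
    exact h.unique (hwF k)
  have h1 : 1 ∈ half p := mem_half.2 ⟨le_rfl, by have := hp.out.two_le; omega⟩
  have hroot : (linePoly p W R).eval (lineRoot W (σ • R) 1) = 0 := by
    rw [← hpoly, linePoly, Polynomial.eval_prod]
    exact Finset.prod_eq_zero h1 (by simp)
  rw [linePoly, Polynomial.eval_prod, Finset.prod_eq_zero_iff] at hroot
  obtain ⟨m, hm, hm0⟩ := hroot
  simp only [Polynomial.eval_sub, Polynomial.eval_X, Polynomial.eval_C, sub_eq_zero, lineRoot,
    one_nsmul] at hm0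
  have hmR : ∃ n : ℕ, σ • R = n • R := by
    rcases eq_or_eq_neg_of_uVal_eq h0 h1728 hσR0
      (nsmul_ne_zero hR hR0 (half_cast_ne_zero hm)) hm0 with e | e
    · exact ⟨m, e⟩
    · refine ⟨(-(m : ZMod p)).val, e.trans ?_⟩
      rw [neg_eq_iff_add_eq_zero, ← add_nsmul, nsmul_congr hR (b := 0) (by simp), zero_nsmul]
  rcases hline R hR hR0 hmR with h | ⟨d, hd, rfl⟩
  · obtain ⟨τ, hτ⟩ := exists_jfun_eq (algebraMap ℚ ℂ W.j)
    obtain ⟨-, -, -, -, hinj⟩ := exists_vec_linePoly h0 h1728 hτ hR hR0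
    exact absurd rfl (ne_discPlace_of_frobEl W h0 hR hR0 h hinj hζp hwj hF hwF hlp hl2 t)
  · rw [linePoly_smul hP hd] at hwF
    exact place_eq_of_values h0 h1728 hζ hζp hF hvj hwj hvF hwF

variable {W : WeierstrassCurve ℤ}

omit [Algebra (AlgebraicClosure ℚ) ℂ] in
/-- The character of a stable line is trivial, or is the determinant. -/
theorem eigenvalue_cases [(ratCurve W).IsElliptic] (hΔ : W.Δ ≠ 0) (hW : W.IsSemistableModel)
    (hp2 : p ≠ 2) {v : Fin 2 → ZMod p} (hv : v ≠ 0) (a : GQ → ZMod p)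
    (ha : ∀ σ, (FA.RT.curveRep p W σ).mulVec v = a σ • v) :
    (∀ σ, a σ = 1) ∨ ∀ σ, a σ = (FA.RT.curveRep p W σ).det := by
  set r := FA.RT.curveRep p W
  have hor : ∀ σ, a σ = 1 ∨ a σ = (r σ).det := fun σ => by
    have hq := sq_sub_trace_mul_add_det hv (ha σ)
    have hd : (r σ - 1).det = 0 := det_sub_one_eq_zero hΔ hW hp2 hv (fun τ => ⟨a τ, ha τ⟩) σ
    have htr : (r σ).trace = 1 + (r σ).det := by
      simp [Matrix.det_fin_two, Matrix.trace_fin_two] at hd ⊢
      linear_combination -hd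
    have : (a σ - 1) * (a σ - (r σ).det) = 0 := by
      rw [htr] at hq
      linear_combination hq
    rcases mul_eq_zero.1 this with h | h
    · exact Or.inl (sub_eq_zero.1 h)
    · exact Or.inr (sub_eq_zero.1 h)
  have hmul : ∀ σ τ, a (σ * τ) = a σ * a τ := fun σ τ => smul_left_injective (ZMod p) hv (by
    show a (σ * τ) • v = (a σ * a τ) • v
    rw [← ha, map_mul, ← Matrix.mulVec_mulVec, ha, Matrix.mulVec_smul, ha, smul_smul, mul_comm])
  by_contra hcon
  push Not at hcon
  obtain ⟨⟨σ, hσ⟩, ⟨τ, hτ⟩⟩ := hcon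
  have hσd := (hor σ).resolve_left hσ
  have hτ1 := (hor τ).resolve_right hτ
  have hdu : (r σ).det ≠ 0 := fun h0 => by
    have := congrArg Matrix.det ((map_mul r σ σ⁻¹).symm.trans (by rw [mul_inv_cancel, map_one]))
    rw [Matrix.det_mul, Matrix.det_one, h0, zero_mul] at this
    exact zero_ne_one this
  rcases hor (σ * τ) with h | h
  · rw [hmul, hτ1, mul_one] at h
    exact hσ h
  · rw [hmul, map_mul, Matrix.det_mul, hσd, hτ1, mul_one] at h
    exact hτ (hτ1.trans (mul_left_cancel₀ hdu ((mul_one _).trans h)))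

end

/-- **Mazur's theorem for semistable curves**, for `p ≥ 11` other than `13`. -/
theorem modRepIsIrreducible_of_semistable {W : WeierstrassCurve ℤ} (hΔ : W.Δ ≠ 0)
    (hW : W.IsSemistableModel) {p : ℕ} (hp : p.Prime) (h11 : 11 ≤ p) (h13 : p ≠ 13) :
    W.ModRepIsIrreducible p := by
  haveI := Fact.mk hp
  obtain ⟨l, hl, hln, -, hl2p⟩ := exists_prime_dvd_eisensteinNumerator hp h11 h13
  rcases ne_or_eq l 2 with hl2 | rfl
  · exact modRepIsIrreducible_of_odd_dvd hΔ hW hp h11 hl hl2 hln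
  by_contra hirr
  haveI := FA.Frob.ratCurve_isElliptic_of_Δ hΔ
  haveI : Fact (Nat.Prime 2) := ⟨Nat.prime_two⟩
  haveI : Fact (Nat.Prime 3) := ⟨Nat.prime_three⟩
  have hp2 : p ≠ 2 := by omega
  have h2Δ : ((2 : ℕ) : ℤ) ∣ W.Δ :=
    dvd_Δ_of_not_modRepIsIrreducible hΔ hW hp hirr Nat.prime_two (by omega)
  have h3Δ : ((3 : ℕ) : ℤ) ∣ W.Δ :=
    dvd_Δ_of_not_modRepIsIrreducible hΔ hW hp hirr Nat.prime_three (by omega)
  have h2c := hW 2 Nat.prime_two h2Δ
  have h3c := hW 3 Nat.prime_three h3Δ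
  obtain ⟨v, hv, hs⟩ := exists_eigenvector W hirr
  choose a ha using hs
  let b := (FA.RT.torsBasis (p := p) W).equivFun
  obtain ⟨y, rfl⟩ := b.surjective v
  have hy0 : y ≠ 0 := b.map_ne_zero_iff.mp hv
  have hy : ∀ σ : GQ, σ • y = a σ • y := fun σ => b.injective (by
    rw [← FA.RT.toMatrix_mulVec, map_smul, ha σ])
  set P : ((ratCurve W).toAffine⁄Qb).Point := y.1
  have hP0 : P ≠ 0 := fun e => hy0 (Subtype.ext e)
  have hP : p • P = 0 := FA.Frob.nsmul_torsion y
  have hord : addOrderOf P = p := addOrderOf_eq_prime hP hP0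
  have hval : ∀ (c : ZMod p) (x : Submodule.torsionBy ℤ ((ratCurve W)⁄Qb).Point p),
      ((c • x : Submodule.torsionBy ℤ ((ratCurve W)⁄Qb).Point p) :
        ((ratCurve W)⁄Qb).Point) = c.val • (x : ((ratCurve W)⁄Qb).Point) := fun c x => by
    conv_lhs => rw [← ZMod.natCast_zmod_val c, Nat.cast_smul_eq_nsmul, AddSubmonoidClass.coe_nsmul]
  haveI : Algebra.IsAlgebraic ℚ Qb := AlgebraicClosure.isAlgebraic ℚ
  letI : Algebra Qb ℂ := (IsAlgClosed.lift (R := ℚ) (S := Qb) (M := ℂ)).toRingHom.toAlgebra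
  rcases eigenvalue_cases hΔ hW hp2 hv a ha with h1 | hdet
  · refine false_of_rational_point hp ?_ W hΔ P (fun σ => ?_) hord h2Δ h2c h3Δ h3c
    · simp only [Finset.mem_insert, Finset.mem_singleton, not_or]; omega
    · have h := congrArg Subtype.val (hy σ)
      rwa [h1 σ, one_smul] at h
  obtain ⟨i2⟩ := exists_algebra_local 2
  obtain ⟨i3⟩ := exists_algebra_local 3
  letI := i2
  letI := i3
  letI : Algebra Qb (PadicComplex p) :=
    (IsAlgClosed.lift : Qb →ₐ[ℚ] PadicComplex p).toRingHom.toAlgebra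
  set C := AddSubgroup.zmultiples P
  have hcard : Nat.card C = p := by rw [Nat.card_zmultiples, hord]
  have hst : ∀ σ : GQ, ∀ Q ∈ C, σ • Q ∈ C := by
    rintro σ _ ⟨k, rfl⟩
    show σ • (k • P) ∈ C
    rw [Affine.Point.algEquiv_smul_zsmul, show σ • P = (a σ).val • P from
      (congrArg Subtype.val (hy σ)).trans (hval _ y)]
    exact zsmul_mem (nsmul_mem (AddSubgroup.mem_zmultiples P) _) k
  have hj0 : (ratCurve W).j ≠ 0 := by
    rw [ratCurve_j]
    exact div_ne_zero (pow_ne_zero 3 (Int.cast_ne_zero.mpr (c₄_ne_zero hW)))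
      (Int.cast_ne_zero.mpr hΔ)
  have h1728 : (ratCurve W).j ≠ 1728 := fun h => by
    have h' := FA.Mazur.norm_inv_j_lt_one (W := W) 2 h2Δ h2c
    rw [h, Rat.cast_inv, norm_inv, inv_lt_one_iff₀,
      show ((1728 : ℚ) : Cl 2) = ((1728 : ℕ) : Cl 2) by norm_num] at h'
    rcases h' with h1 | h1
    · rw [norm_le_zero_iff, Nat.cast_eq_zero] at h1; norm_num at h1
    · exact absurd h1 (not_lt.2 (norm_natCast_le_one 2 1728))
  obtain ⟨ζ, hζp, hζ⟩ := exists_zeta p
  obtain ⟨v, F, P', hP'C, hP'0, hgal, hvj, hF, hvF, -⟩ :=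
    exists_linePlace (ratCurve W) hj0 h1728 hcard hst hζ hζp
  obtain ⟨k, hk⟩ := hP'C
  let x' : Submodule.torsionBy ℤ ((ratCurve W)⁄Qb).Point p := k • y
  have hx' : (x' : ((ratCurve W)⁄Qb).Point) = P' := hk
  have hx'0 : x' ≠ 0 := fun e => hP'0 (hx' ▸ congrArg Subtype.val e)
  have hP' : p • P' = 0 := hx' ▸ FA.Frob.nsmul_torsion x'
  have hside : ∀ (q : ℕ) [Fact q.Prime] [Algebra Qb (PadicComplex q)], q ≠ p → ¬ p ∣ q ^ 2 - 1 →
      (q : ℤ) ∣ W.Δ → ¬ (q : ℤ) ∣ W.c₄ →
      ∃ t : Param Qb (Cl q), t.1 ≠ 0 ∧ v = discPlace p (isEmbAt_placeAt q) t := by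
    intro q hq _ hqp hq1 hqΔ hqc
    let t : Param Qb (Cl q) := ⟨algebraMap ℚ Qb (ratCurve W).j⁻¹, by
      rw [eq_ratCast, map_ratCast]; exact FA.Mazur.norm_inv_j_lt_one q hqΔ hqc⟩
    refine ⟨t, by simpa [t] using hj0, linePlace_eq_discPlace hp2 (ratCurve W) hj0 h1728 hζ hζp hF
      hP' hvj hvF hqp hq1 t rfl fun R hR hR0 hm => ?_⟩
    obtain ⟨m, hm⟩ := hm
    let x : Submodule.torsionBy ℤ ((ratCurve W)⁄Qb).Point p :=
      ⟨R, (Submodule.mem_torsionBy_iff _ _).mpr ((natCast_zsmul R p).trans hR)⟩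
    have e1 : (FA.RT.curveRep p W (frobEl q)).mulVec (b x) = (m : ZMod p) • b x := by
      rw [FA.RT.toMatrix_mulVec, ← map_smul, Nat.cast_smul_eq_nsmul]
      exact congrArg b (Subtype.ext hm)
    have hd : (FA.RT.curveRep p W (frobEl q)).det = (q : ZMod p) :=
      FA.RT.det_curveRep W _ q fun μ hμ => FA.TW.frobenius_apply_rootOfUnity hp hq.out hqp
        (placeAt_liesOver q) (frobEl_spec q) (m := 1) (by rw [pow_one]; exact hμ)
    have e2 : (FA.RT.curveRep p W (frobEl q)).mulVec (b x') = (q : ZMod p) • b x' := by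
      show Matrix.mulVec _ (b (k • y)) = (q : ZMod p) • b (k • y)
      rw [map_zsmul, Matrix.mulVec_smul, ha, hdet, hd, smul_comm]
    rcases det_eq_mul_or_smul (b.map_ne_zero_iff.2 hx'0) e2 e1 with h | ⟨d, hd'⟩
    · left
      have hq0 : (q : ZMod p) ≠ 0 := fun e => hqp
        ((Nat.prime_dvd_prime_iff_eq hp hq.out).1 ((ZMod.natCast_eq_zero_iff q p).1 e)).symm
      have hm1 : (m : ZMod p) = 1 := mul_left_cancel₀ hq0 ((h.symm.trans hd).trans (mul_one _).symm)
      rw [hm, nsmul_congr hR (b := 1) (by rw [hm1, Nat.cast_one]), one_nsmul]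
    · right
      rw [← map_smul] at hd'
      have hxd := b.injective hd'
      refine ⟨d.val, ?_, ((congrArg Subtype.val hxd).trans (hval d x')).trans (by rw [hx'])⟩
      rw [ZMod.natCast_zmod_val]
      rintro rfl
      exact hR0 ((congrArg Subtype.val hxd).trans (by rw [zero_smul]; rfl))
  obtain ⟨t, ht0, hvt⟩ := hside 2 (by omega)
    (fun h => by have := Nat.le_of_dvd (by norm_num) h; omega) h2Δ h2c
  obtain ⟨t', -, hvt'⟩ := hside 3 (by omega)
    (fun h => by have := Nat.le_of_dvd (by norm_num) h; omega) h3Δ h3c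
  have hp2' : ¬ 2 ∣ p := fun h => by
    have := (Nat.prime_dvd_prime_iff_eq Nat.prime_two hp).1 h; omega
  have hp3 : ¬ 3 ∣ p := fun h => by
    have := (Nat.prime_dvd_prime_iff_eq Nat.prime_three hp).1 h; omega
  refine ht0 (eq_zero_of_two_discs hln hp2' (idemSeq_mem p 2 hln rfl) (placeAt_liesOver p)
    (q := 3) hp3 (by norm_num) t (smul_discClass_eq fun σ => hvt ▸ hgal σ) ?_)
  have heq : (discClass (isEmbAt_placeAt 2) t : JZero p) = discClass (isEmbAt_placeAt 3) t' := by
    rw [discClass, discClass]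
    refine congrArg Pic0.mk (Subtype.ext ?_)
    show Finsupp.single _ (1 : ℤ) - Finsupp.single _ 1 = _
    rw [← hvt, hvt', gal_t0_eq p (q := 3)]
  rw [heq]
  exact discClass_mem_discJ hp3 t'

/-- **No rational point of order `p`** on a semistable curve, for `p ≥ 11` other than `13`. -/
theorem addOrderOf_point_ne_of_semistable {W : WeierstrassCurve ℤ} (hΔ : W.Δ ≠ 0)
    (hW : W.IsSemistableModel) {p : ℕ} (hp : p.Prime) (h11 : 11 ≤ p) (h13 : p ≠ 13) (P : (W.map (Int.castRingHom ℚ)).toAffine.Point) :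
    addOrderOf P ≠ p := fun hP =>
  not_modRepIsIrreducible_of_point hΔ hp P hP
    (modRepIsIrreducible_of_semistable hΔ hW hp h11 h13)

end FA.Ribet

end
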