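import Fermat.Agent.Ribet.Mazur
import Fermat.Agent.Root.LoweringSemistable

/-!
# The equation `a ^ p + 2 ^ α b ^ p + c ^ p = 0`

For a prime `p ≥ 11` other than `13` the equation has no solution in nonzero pairwise coprime
integers with `16 ∣ 2 ^ α b ^ p`: Ribet's theorem, after Mazur, for the curves attached to Serre's
variant of the Fermat equation.
-/

set_option autoImplicit false
set_option linter.unusedSectionVars false

noncomputable section

open WeierstrassCurve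

namespace FA.Ribet

/-- **No semistable curve has a discriminant which is a `p`-th power away from two**, for `p ≥ 11`
other than `13`, unless the exponent of two is `1` or `p`. -/
theorem false_of_eq_pow_of_eleven_le {W : WeierstrassCurve ℤ} {p : ℕ} (hp : p.Prime)
    (h11 : 11 ≤ p) (h13 : p ≠ 13) (hΔ : W.Δ ≠ 0) (hW : W.IsSemistableModel)
    (h2 : (2 : ℤ) ∣ W.Δ → padicValInt 2 W.Δ ≠ 1 ∧ padicValInt 2 W.Δ ≠ p)
    {a b : ℕ} {t : ℤ} (h : (2 : ℤ) ^ a * W.Δ = 2 ^ b * t ^ p) : False :=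
  haveI := Fact.mk hp
  FA.Root.not_modRepIsIrreducible_of_eq_pow (by omega) hΔ hW h
    (modRepIsIrreducible_of_eleven_le hΔ hW hp h11 h13 h2)

/-- The curve `y ^ 2 + x y = x ^ 3 + (B - 1 - A) / 4 x ^ 2 - A B / 16 x`. -/
def curve (A B : ℤ) : WeierstrassCurve ℤ :=
  { a₁ := 1, a₂ := (B - 1 - A) / 4, a₃ := 0, a₄ := -(A * B) / 16, a₆ := 0 }

section

variable {A B : ℤ} (hA : A % 4 = 3) (hB : (16 : ℤ) ∣ B)

include hA hB

lemma four_mul_a₂ : 4 * (curve A B).a₂ = B - 1 - A :=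
  Int.mul_ediv_cancel' (by omega)

lemma sixteen_mul_a₄ : 16 * (curve A B).a₄ = -(A * B) :=
  Int.mul_ediv_cancel' ((Dvd.dvd.mul_left hB A).neg_right)

lemma curve_Δ : 256 * (curve A B).Δ = (A * B * (A + B)) ^ 2 := by
  have h2 := four_mul_a₂ hA hB
  have h4 := sixteen_mul_a₄ hA hB
  have e1 : (curve A B).a₁ = 1 := rfl
  have e3 : (curve A B).a₃ = 0 := rfl
  have e6 : (curve A B).a₆ = 0 := rfl
  have : 256 * (curve A B).Δ = (16 * (curve A B).a₄) ^ 2 * (1 + 4 * (curve A B).a₂) ^ 2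
      - 4 * (16 * (curve A B).a₄) ^ 3 := by
    simp only [WeierstrassCurve.Δ, b₂, b₄, b₆, b₈, e1, e3, e6]; ring
  rw [this, h2, h4]; ring

lemma curve_c₄ : (curve A B).c₄ = A ^ 2 + A * B + B ^ 2 := by
  have h2 := four_mul_a₂ hA hB
  have h4 := sixteen_mul_a₄ hA hB
  have e1 : (curve A B).a₁ = 1 := rfl
  have e3 : (curve A B).a₃ = 0 := rfl
  have : (curve A B).c₄ = (1 + 4 * (curve A B).a₂) ^ 2 - 3 * (16 * (curve A B).a₄) := by
    simp only [c₄, b₂, b₄, e1, e3]; ring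
  rw [this, h2, h4]; ring

lemma curve_semistable (hcop : IsCoprime A B) : (curve A B).IsSemistableModel := by
  intro q hq hΔ hc
  rw [curve_c₄ hA hB] at hc
  have hq' : Prime (q : ℤ) := Nat.prime_iff_prime_int.mp hq
  have key : ¬ ((q : ℤ) ∣ A ∧ (q : ℤ) ∣ B) := fun hh =>
    hq'.not_isUnit (hcop.isUnit_of_dvd' hh.1 hh.2)
  rcases hq'.dvd_or_dvd (hq'.dvd_of_dvd_pow
    (curve_Δ hA hB ▸ dvd_mul_of_dvd_right hΔ 256)) with h | h
  · rcases hq'.dvd_or_dvd h with h1 | h1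
    · refine key ⟨h1, hq'.dvd_of_dvd_pow (n := 2) ?_⟩
      have e := dvd_sub hc (dvd_mul_of_dvd_left h1 (A + B))
      rwa [show A ^ 2 + A * B + B ^ 2 - A * (A + B) = B ^ 2 by ring] at e
    · refine key ⟨hq'.dvd_of_dvd_pow (n := 2) ?_, h1⟩
      have e := dvd_sub hc (dvd_mul_of_dvd_left h1 (A + B))
      rwa [show A ^ 2 + A * B + B ^ 2 - B * (A + B) = A ^ 2 by ring] at e
  · have e := dvd_sub hc (dvd_mul_of_dvd_left h B)
    rw [show A ^ 2 + A * B + B ^ 2 - (A + B) * B = A ^ 2 by ring] at e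
    have ha := hq'.dvd_of_dvd_pow e
    exact key ⟨ha, by simpa using dvd_sub h ha⟩

lemma curve_Δ_ne_zero (h : A * B * (A + B) ≠ 0) : (curve A B).Δ ≠ 0 := fun e =>
  pow_ne_zero 2 h (by rw [← curve_Δ hA hB, e, mul_zero])

lemma even_padicValInt_curve_Δ (h : A * B * (A + B) ≠ 0) :
    Even (padicValInt 2 (curve A B).Δ) := by
  have e := congrArg (padicValInt 2) (curve_Δ hA hB)
  rw [padicValInt.mul (by norm_num) (curve_Δ_ne_zero hA hB h), pow_two,
    padicValInt.mul h h, show (256 : ℤ) = ((2 ^ 8 : ℕ) : ℤ) by norm_num, padicValInt.of_nat,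
    padicValNat.prime_pow] at e
  exact ⟨padicValInt 2 (A * B * (A + B)) - 4, by omega⟩

end

/-- **`a ^ p + 2 ^ α b ^ p + c ^ p ≠ 0`** for a prime `p ≥ 11` other than `13`. -/
theorem pow_add_two_pow_mul_pow_add_pow_ne_zero_of_eleven_le {p : ℕ} (hp : p.Prime)
    (h11 : 11 ≤ p) (h13 : p ≠ 13) {α : ℕ} {a b c : ℤ} (hb : b ≠ 0) (hc : c ≠ 0) (hodd : Odd a)
    (hab : IsCoprime a b)
    (hα : 4 ≤ α + p * padicValInt 2 b) : a ^ p + 2 ^ α * b ^ p + c ^ p ≠ 0 := by
  intro heq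
  have hpodd : Odd p := hp.odd_of_ne_two (by omega)
  wlog h3 : a ^ p % 4 = 3 generalizing a b c
  · have h1 : a ^ p % 4 = 1 := by
      have := hodd.pow (n := p)
      rw [Int.odd_iff] at this
      omega
    refine this (a := -a) (b := -b) (c := -c) (neg_ne_zero.mpr hb) (neg_ne_zero.mpr hc) hodd.neg
      hab.neg_neg (by simpa [padicValInt] using hα) ?_ ?_
    · simp only [hpodd.neg_pow]
      linear_combination -heq
    · rw [hpodd.neg_pow]
      omega
  have h16 : (16 : ℤ) ∣ 2 ^ α * b ^ p := by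
    refine (show (16 : ℤ) ∣ 2 ^ (α + p * padicValInt 2 b) from pow_dvd_pow 2 hα).trans ?_
    rw [pow_add, mul_comm p, pow_mul]
    exact mul_dvd_mul_left _ (pow_dvd_pow_of_dvd (by simpa using padicValInt_dvd (p := 2) b) p)
  have h2a : IsCoprime a 2 := by
    obtain ⟨k, hk⟩ := hodd
    exact ⟨1, -k, by rw [hk]; ring⟩
  have hcop : IsCoprime (a ^ p) (2 ^ α * b ^ p) :=
    IsCoprime.mul_right (h2a.pow (m := p) (n := α)) (hab.pow (m := p) (n := p))
  have ha0 : a ≠ 0 := fun e => by simp [e] at hodd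
  have hsum : a ^ p + 2 ^ α * b ^ p = -(c ^ p) := by linear_combination heq
  have hne : a ^ p * (2 ^ α * b ^ p) * (a ^ p + 2 ^ α * b ^ p) ≠ 0 := by
    rw [hsum]
    exact mul_ne_zero (mul_ne_zero (pow_ne_zero _ ha0) (mul_ne_zero (pow_ne_zero _ two_ne_zero)
      (pow_ne_zero _ hb))) (neg_ne_zero.mpr (pow_ne_zero _ hc))
  refine false_of_eq_pow_of_eleven_le (W := curve (a ^ p) (2 ^ α * b ^ p)) hp h11 h13
    (curve_Δ_ne_zero h3 h16 hne) (curve_semistable h3 h16 hcop) (fun _ => ?_)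
    (a := 8) (b := 2 * α) (t := (a * b * c) ^ 2) ?_
  · obtain ⟨k, hk⟩ := even_padicValInt_curve_Δ h3 h16 hne
    obtain ⟨m, hm⟩ := hpodd
    omega
  · rw [show (2 : ℤ) ^ 8 = 256 by norm_num, curve_Δ h3 h16, hsum, pow_mul' (2 : ℤ) 2 α,
      mul_pow, mul_pow, mul_pow, mul_pow, mul_pow, neg_sq]
    ring

end FA.Ribet

end
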