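import Fermat.Agent.Ribet.SerreMore

/-!
# The equation `a ^ p + b ^ p + q ^ α c ^ p = 0` for `q = 17, 19`

The eigenforms of levels dividing `2 q` come from the curves `17a`, `34a`, `19a`, `38a` and `38b`.
All but `17a` are excluded by their traces at `3`; for `17a` the trace `-1` at `2` is excluded as
the curve of a solution has multiplicative reduction at `2`.
-/

set_option autoImplicit false
set_option maxHeartbeats 800000

noncomputable section

open WeierstrassCurve CongruenceSubgroup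
open FA.Theta (badProd)

namespace FA.Ribet

/-- The curve `17a`. -/
def curve17 : WeierstrassCurve ℤ := ⟨1, -1, 1, -1, 0⟩

/-- The curve `34a`. -/
def curve34 : WeierstrassCurve ℤ := ⟨1, 0, 0, -3, 1⟩

/-- The curve `19a`. -/
def curve19 : WeierstrassCurve ℤ := ⟨0, 1, 1, 1, 0⟩

/-- The curve `38a`. -/
def curve38a : WeierstrassCurve ℤ := ⟨1, 0, 1, 9, 90⟩

/-- The curve `38b`. -/
def curve38b : WeierstrassCurve ℤ := ⟨1, 1, 1, 0, 1⟩

theorem curve17_two : curve17.apOfModel 2 = -1 := by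
  have : Fact (Nat.Prime 2) := ⟨Nat.prime_two⟩
  rw [apOfModel_eq_nsPts (a₁ := 1) (a₂ := 1) (a₃ := 1) (a₄ := 1) (a₆ := 0) (by ext <;> rfl)]
  rfl

theorem curve17_three : curve17.apOfModel 3 = 0 := by
  rw [apOfModel_three_eq (a₁ := 1) (a₂ := -1) (a₃ := 1) (a₄ := -1) (a₆ := 0) (by ext <;> rfl)]
  rfl

theorem curve17_five : curve17.apOfModel 5 = -2 := by
  have : Fact (Nat.Prime 5) := ⟨by norm_num⟩
  rw [apOfModel_eq_nsPts (a₁ := 1) (a₂ := -1) (a₃ := 1) (a₄ := -1) (a₆ := 0) (by ext <;> rfl)]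
  show (5 : ℤ) - ((nsPts (1 : ZMod 5) (-1) 1 (-1) 0).card : ℤ) = -2
  decide +revert

theorem curve34_three : curve34.apOfModel 3 = -2 := by
  rw [apOfModel_three_eq (a₁ := 1) (a₂ := 0) (a₃ := 0) (a₄ := 0) (a₆ := 1) (by ext <;> rfl)]
  rfl

theorem curve34_five : curve34.apOfModel 5 = 0 := by
  have : Fact (Nat.Prime 5) := ⟨by norm_num⟩
  rw [apOfModel_eq_nsPts (a₁ := 1) (a₂ := 0) (a₃ := 0) (a₄ := 2) (a₆ := 1) (by ext <;> rfl)]
  rfl

theorem curve19_three : curve19.apOfModel 3 = -2 := by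
  rw [apOfModel_three_eq (a₁ := 0) (a₂ := 1) (a₃ := 1) (a₄ := 1) (a₆ := 0) (by ext <;> rfl)]
  rfl

theorem curve19_five : curve19.apOfModel 5 = 3 := by
  have : Fact (Nat.Prime 5) := ⟨by norm_num⟩
  rw [apOfModel_eq_nsPts (a₁ := 0) (a₂ := 1) (a₃ := 1) (a₄ := 1) (a₆ := 0) (by ext <;> rfl)]
  rfl

theorem curve19_seven : curve19.apOfModel 7 = -1 := by
  have : Fact (Nat.Prime 7) := ⟨by norm_num⟩
  rw [apOfModel_eq_nsPts (a₁ := 0) (a₂ := 1) (a₃ := 1) (a₄ := 1) (a₆ := 0) (by ext <;> rfl)]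
  rfl

theorem curve38a_three : curve38a.apOfModel 3 = 1 := by
  rw [apOfModel_three_eq (a₁ := 1) (a₂ := 0) (a₃ := 1) (a₄ := 0) (a₆ := 0) (by ext <;> rfl)]
  rfl

theorem curve38a_five : curve38a.apOfModel 5 = 0 := by
  have : Fact (Nat.Prime 5) := ⟨by norm_num⟩
  rw [apOfModel_eq_nsPts (a₁ := 1) (a₂ := 0) (a₃ := 1) (a₄ := 4) (a₆ := 0) (by ext <;> rfl)]
  rfl

theorem curve38a_seven : curve38a.apOfModel 7 = -1 := by
  have : Fact (Nat.Prime 7) := ⟨by norm_num⟩
  rw [apOfModel_eq_nsPts (a₁ := 1) (a₂ := 0) (a₃ := 1) (a₄ := 2) (a₆ := 6) (by ext <;> rfl)]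
  rfl

theorem curve38b_three : curve38b.apOfModel 3 = -1 := by
  rw [apOfModel_three_eq (a₁ := 1) (a₂ := 1) (a₃ := 1) (a₄ := 0) (a₆ := 1) (by ext <;> rfl)]
  rfl

theorem curve38b_five : curve38b.apOfModel 5 = -4 := by
  have : Fact (Nat.Prime 5) := ⟨by norm_num⟩
  rw [apOfModel_eq_nsPts (a₁ := 1) (a₂ := 1) (a₃ := 1) (a₄ := 0) (a₆ := 1) (by ext <;> rfl)]
  rfl

theorem curve38b_seven : curve38b.apOfModel 7 = 3 := by
  have : Fact (Nat.Prime 7) := ⟨by norm_num⟩
  rw [apOfModel_eq_nsPts (a₁ := 1) (a₂ := 1) (a₃ := 1) (a₄ := 0) (a₆ := 1) (by ext <;> rfl)]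
  rfl

theorem genusFormula_17 : ModularCurve.genusFormula 17 = 1 := by
  have s17 : Squarefree 17 := (show Nat.Prime 17 by norm_num).prime.squarefree
  simp only [ModularCurve.genusFormula, ModularCurve.nuTwo, ModularCurve.nuThree,
    ModularCurve.cuspCount, ModularCurve.dedekindPsi, Nat.card_eq_fintype_card]
  rw [show Fintype.card {x : ZMod 17 // x ^ 2 + 1 = 0} = 2 from rfl,
    show Fintype.card {x : ZMod 17 // x ^ 2 + x + 1 = 0} = 0 from rfl,
    show Nat.divisors 17 = {1, 17} by decide]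
  simp [Finset.sum_filter, s17, Nat.totient]; norm_num

theorem genusFormula_19 : ModularCurve.genusFormula 19 = 1 := by
  have s19 : Squarefree 19 := (show Nat.Prime 19 by norm_num).prime.squarefree
  simp only [ModularCurve.genusFormula, ModularCurve.nuTwo, ModularCurve.nuThree,
    ModularCurve.cuspCount, ModularCurve.dedekindPsi, Nat.card_eq_fintype_card]
  rw [show Fintype.card {x : ZMod 19 // x ^ 2 + 1 = 0} = 0 from rfl,
    show Fintype.card {x : ZMod 19 // x ^ 2 + x + 1 = 0} = 2 from rfl,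
    show Nat.divisors 19 = {1, 19} by decide]
  simp [Finset.sum_filter, s19, Nat.totient]; norm_num

theorem squarefree_thirtyfour : Squarefree 34 :=
  (Nat.squarefree_mul (show Nat.Coprime 2 17 by norm_num)).mpr
    ⟨squarefree_two', (show Nat.Prime 17 by norm_num).prime.squarefree⟩

theorem squarefree_thirtyeight : Squarefree 38 :=
  (Nat.squarefree_mul (show Nat.Coprime 2 19 by norm_num)).mpr
    ⟨squarefree_two', (show Nat.Prime 19 by norm_num).prime.squarefree⟩

theorem genusFormula_34 : ModularCurve.genusFormula 34 = 3 := by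
  have s2 := squarefree_two'
  have s17 : Squarefree 17 := (show Nat.Prime 17 by norm_num).prime.squarefree
  have s34 := squarefree_thirtyfour
  simp only [ModularCurve.genusFormula, ModularCurve.nuTwo, ModularCurve.nuThree,
    ModularCurve.cuspCount, ModularCurve.dedekindPsi, Nat.card_eq_fintype_card]
  rw [show Fintype.card {x : ZMod 34 // x ^ 2 + 1 = 0} = 2 from rfl,
    show Fintype.card {x : ZMod 34 // x ^ 2 + x + 1 = 0} = 0 from rfl,
    show Nat.divisors 34 = {1, 2, 17, 34} by decide]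
  simp [Finset.sum_filter, s2, s17, s34, Nat.totient]; norm_num

theorem genusFormula_38 : ModularCurve.genusFormula 38 = 4 := by
  have s2 := squarefree_two'
  have s19 : Squarefree 19 := (show Nat.Prime 19 by norm_num).prime.squarefree
  have s38 := squarefree_thirtyeight
  simp only [ModularCurve.genusFormula, ModularCurve.nuTwo, ModularCurve.nuThree,
    ModularCurve.cuspCount, ModularCurve.dedekindPsi, Nat.card_eq_fintype_card]
  rw [show Fintype.card {x : ZMod 38 // x ^ 2 + 1 = 0} = 0 from rfl,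
    show Fintype.card {x : ZMod 38 // x ^ 2 + x + 1 = 0} = 0 from rfl,
    show Nat.divisors 38 = {1, 2, 19, 38} by decide]
  simp [Finset.sum_filter, s2, s19, s38, Nat.totient]; norm_num

/-- The prime divisors of a discriminant of absolute value `2 ^ i q ^ j`. -/
theorem eq_or_eq_of_dvd_Δ {E : WeierstrassCurve ℤ} {q i j : ℕ} (hq : q.Prime)
    (h : E.Δ.natAbs = 2 ^ i * q ^ j) {l : ℕ} (hl : l.Prime) (hd : (l : ℤ) ∣ E.Δ) :
    (l = 2 ∧ i ≠ 0) ∨ l = q := by
  have hd' := Int.natCast_dvd.mp hd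
  rw [h] at hd'
  rcases hl.dvd_mul.mp hd' with hd' | hd'
  · refine Or.inl ⟨(Nat.prime_dvd_prime_iff_eq hl Nat.prime_two).mp (hl.dvd_of_dvd_pow hd'), ?_⟩
    rintro rfl
    rw [pow_zero] at hd'
    exact hl.not_dvd_one hd'
  · exact Or.inr ((Nat.prime_dvd_prime_iff_eq hl hq).mp (hl.dvd_of_dvd_pow hd'))

/-- The eigenform of a curve with bad primes `2` and `q`, or only `q`. -/
theorem exists_eigenform_of_natAbs {E : WeierstrassCurve ℤ} {q i j N : ℕ} (hq : q.Prime)
    (h : E.Δ.natAbs = 2 ^ i * q ^ j) (h2 : i = 0 ∨ ¬ (2 : ℤ) ∣ E.c₄) (hc : ¬ (q : ℤ) ∣ E.c₄)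
    (hN : (2 ^ i * q ^ j).primeFactors = N.primeFactors) (hsq : Squarefree N) :
    ∃ f : CuspForm (Gamma0 N) 2, f.IsNormalizedEigenform ∧
      ∀ l : ℕ, l.Prime → ¬ l ∣ N → ModularFormClass.qCoeff f l = (E.apOfModel l : ℂ) := by
  refine exists_eigenform (fun h0 => ?_) (fun r hr hd => ?_) (by rw [h, hN]) hsq
  · rw [h0, Int.natAbs_zero] at h
    exact mul_ne_zero (pow_ne_zero i two_ne_zero) (pow_ne_zero j hq.ne_zero) h.symm
  · rcases eq_or_eq_of_dvd_Δ hq h hr hd with ⟨rfl, hi⟩ | rfl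
    · exact_mod_cast h2.resolve_left hi
    · exact hc

theorem isGoodPrimeFor_of_natAbs {E : WeierstrassCurve ℤ} {q i j : ℕ} (hq : q.Prime)
    (h : E.Δ.natAbs = 2 ^ i * q ^ j) {l : ℕ} (hl : l.Prime) (hlq : ¬ l ∣ 2 * q) :
    E.IsGoodPrimeFor l := fun hd => by
  rcases eq_or_eq_of_dvd_Δ hq h hl hd with ⟨rfl, -⟩ | rfl
  · exact hlq (dvd_mul_right 2 q)
  · exact hlq (dvd_mul_left l 2)

/-- The two old forms of level `2 M` from one of level `M`. -/
theorem exists_old_pair {M : ℕ} [NeZero M] [NeZero (M * 2)] (g : CuspForm (Gamma0 M) 2) :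
    ∃ g₁ g₂ : CuspForm (Gamma0 (M * 2)) 2,
      (∀ n, ModularFormClass.qCoeff g₁ n = ModularFormClass.qCoeff g n) ∧
      ∀ n, ModularFormClass.qCoeff g₂ n =
        2 * if 2 ∣ n then ModularFormClass.qCoeff g (n / 2) else 0 := by
  have hm := FA.Period.coe_mem_cuspForms g
  refine ⟨FA.Period.toCuspForm' (⇑g) (FA.LTInt.forms_le_mul M 2 2 hm),
    FA.Period.toCuspForm' (FA.LTInt.dilate 2 2 g) (FA.LTInt.dilate_mem_cuspForms two_ne_zero hm),
    fun n => rfl, fun n => ?_⟩
  show (FA.Period.qExp (FA.LTInt.dilate 2 2 g)).coeff n = _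
  rw [FA.LTInt.qExp_dilate two_ne_zero hm]
  norm_num
  rfl

/-- Independent forms in the number of the dimension give the coefficients of every form. -/
theorem exists_qCoeff_eq_sum {N d : ℕ} [NeZero N]
    (hdim : Module.finrank ℂ (CuspForm (Gamma0 N) 2) = d + 1)
    (g : Fin (d + 1) → CuspForm (Gamma0 N) 2)
    (hind : ∀ c : Fin (d + 1) → ℂ,
      (∀ n, ∑ i, c i * ModularFormClass.qCoeff (g i) n = 0) → ∀ i, c i = 0)
    (f : CuspForm (Gamma0 N) 2) :
    ∃ c : Fin (d + 1) → ℂ, ∀ n,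
      ModularFormClass.qCoeff f n = ∑ i, c i * ModularFormClass.qCoeff (g i) n := by
  have hsum : ∀ (c : Fin (d + 1) → ℂ) (n : ℕ),
      ModularFormClass.qCoeff (∑ i, c i • g i : CuspForm (Gamma0 N) 2) n =
        ∑ i, c i * ModularFormClass.qCoeff (g i) n := fun c n => by
    simp only [← FA.Deform.qLin_apply, map_sum, map_smul, Finset.sum_apply, Pi.smul_apply,
      smul_eq_mul]
  have hli : LinearIndependent ℂ g := Fintype.linearIndependent_iff.mpr fun c hc => hind c fun n => by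
    rw [← hsum, hc, ← FA.Deform.qLin_apply, map_zero, Pi.zero_apply]
  have hspan := hli.span_eq_top_of_card_eq_finrank (by simp [hdim])
  obtain ⟨c, hc⟩ := Submodule.mem_span_range_iff_exists_fun ℂ |>.mp
    (hspan ▸ Submodule.mem_top : f ∈ Submodule.span ℂ (Set.range g))
  exact ⟨c, fun n => by rw [← hc, hsum]⟩

/-- The eigenforms of levels dividing `34` and `38` are those of the five curves. -/
theorem exists_curve_of_eigenform_large_exact {q : ℕ} (hq : q = 17 ∨ q = 19) {N : ℕ}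
    (hN : N ∣ 2 * q) {f : CuspForm (Gamma0 N) 2} (hf : f.IsNormalizedEigenform) :
    ∃ E : WeierstrassCurve ℤ, (∀ l : ℕ, l.Prime → ¬ l ∣ 2 * q → E.IsGoodPrimeFor l) ∧
      E.Δ ≠ 0 ∧ ((E.apOfModel 3 ∈ ({-1, 1} : Finset ℤ) ∨
        E.apOfModel 3 = -2 ∧ E.apOfModel 5 = 3) ∨
        q = 17 ∧ (E.apOfModel 3 = -2 ∨ E.IsGoodPrimeFor 2 ∧ E.apOfModel 2 = -1)) ∧
      ∀ l : ℕ, l.Prime → ¬ l ∣ 2 * q →
        ModularFormClass.qCoeff f l = (E.apOfModel l : ℂ) := by
  have hNeZ : NeZero N := ⟨by rintro rfl; have := Nat.eq_zero_of_zero_dvd hN; omega⟩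
  have hzero : ModularCurve.genusFormula N ≠ 0 := fun h =>
    hf.ne_zero (cuspForm_eq_zero_of_genusFormula h f)
  have hcases : (q = 17 ∧ (N = 17 ∨ N = 34)) ∨ (q = 19 ∧ (N = 19 ∨ N = 38)) := by
    have hle : N ≤ 38 := (Nat.le_of_dvd (by omega) hN).trans (by omega)
    have h1 : N ≠ 1 := fun h => hzero (h ▸ genusFormula_eq_zero (Or.inl rfl) (one_dvd 6))
    have h2 : N ≠ 2 := fun h => hzero (h ▸ genusFormula_eq_zero (Or.inl rfl) ⟨3, rfl⟩)
    rcases hq with rfl | rfl <;> interval_cases N <;> omega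
  have hdim : ∀ M : ℕ, [NeZero M] → ∀ d : ℕ, ModularCurve.genusFormula M = d →
      Module.finrank ℂ (CuspForm (Gamma0 M) 2) = d := fun M _ d h =>
    Nat.cast_inj.mp ((Fermat.Agent.S20.result M).trans h)
  have p17 : Nat.Prime 17 := by norm_num
  have p19 : Nat.Prime 19 := by norm_num
  obtain ⟨h, hh, hhl⟩ := exists_eigenform_of_natAbs (E := curve17) (i := 0) (j := 1) (N := 17)
    p17 (by decide) (Or.inl rfl) (by decide) (by norm_num) p17.prime.squarefree
  obtain ⟨k, hk, hkl⟩ := exists_eigenform_of_natAbs (E := curve19) (i := 0) (j := 1) (N := 19)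
    p19 (by decide) (Or.inl rfl) (by decide) (by norm_num) p19.prime.squarefree
  rcases hcases with ⟨rfl, rfl | rfl⟩ | ⟨rfl, rfl | rfl⟩
  · refine ⟨curve17, fun l hl => isGoodPrimeFor_of_natAbs (i := 0) (j := 1) p17 (by decide) hl,
      by decide, Or.inr ⟨rfl, Or.inr ⟨by unfold IsGoodPrimeFor; decide, curve17_two⟩⟩,
      fun l hl hlq => ?_⟩
    rw [eq_of_finrank_eq_one (hdim 17 1 (by simpa using genusFormula_17)) hh hf]
    exact hhl l hl fun hd => hlq (hd.mul_left 2)
  · obtain ⟨g, hg, hgl⟩ := exists_eigenform_of_natAbs (E := curve34) (i := 6) (j := 1)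
      (N := 17 * 2) p17 (by decide) (Or.inr (by decide)) (by decide)
      (by rw [Nat.primeFactors_mul (by norm_num) (by norm_num), Nat.primeFactors_pow _ (by norm_num),
        pow_one, Nat.primeFactors_mul (by norm_num) (by norm_num), Finset.union_comm])
      squarefree_thirtyfour
    obtain ⟨g₁, g₂, e₁, e₂⟩ := exists_old_pair (M := 17) h
    have a3 : ModularFormClass.qCoeff g 3 = -2 := by
      rw [hgl 3 Nat.prime_three (by norm_num), curve34_three]; norm_num
    have b3 : ModularFormClass.qCoeff h 3 = 0 := by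
      rw [hhl 3 Nat.prime_three (by norm_num), curve17_three]; norm_num
    have a5 : ModularFormClass.qCoeff g 5 = 0 := by
      rw [hgl 5 (by norm_num) (by norm_num), curve34_five]; norm_num
    have b5 : ModularFormClass.qCoeff h 5 = -2 := by
      rw [hhl 5 (by norm_num) (by norm_num), curve17_five]; norm_num
    obtain ⟨c, hc⟩ := exists_qCoeff_eq_sum (d := 2) (hdim (17 * 2) 3 (by simpa using genusFormula_34))
      ![g, g₁, g₂] (fun c hc => by
        have c1 := hc 1
        have c2 := hc 2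
        have c3 := hc 3
        simp [Fin.sum_univ_three, e₁, e₂, hg.qCoeff_one, hh.qCoeff_one, a3, b3] at c1 c2 c3
        have z0 : c 0 = 0 := c3
        have z1 : c 1 = 0 := by linear_combination c1 - z0
        have z2 : c 2 = 0 := by simpa [z0, z1] using c2
        intro i
        fin_cases i <;> assumption) f
    have odd_eq : ∀ n : ℕ, ¬ 2 ∣ n → ModularFormClass.qCoeff f n =
        c 0 * ModularFormClass.qCoeff g n + c 1 * ModularFormClass.qCoeff h n := fun n hn => by
      rw [hc]; simp [Fin.sum_univ_three, e₁, e₂, hn]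
    have h1 := odd_eq 1 (by norm_num)
    rw [hf.qCoeff_one, hg.qCoeff_one, hh.qCoeff_one] at h1
    have h5 := odd_eq 5 (by norm_num)
    have h15 := odd_eq 15 (by norm_num)
    have m15 : ∀ φ : CuspForm (Gamma0 (17 * 2)) 2, φ.IsNormalizedEigenform →
        ModularFormClass.qCoeff φ 15 =
          ModularFormClass.qCoeff φ 3 * ModularFormClass.qCoeff φ 5 :=
      fun φ hφ => hφ.qCoeff_mul_of_coprime 3 5 (by norm_num)
    rw [m15 f hf, m15 g hg, show (15 : ℕ) = 3 * 5 from rfl,
      hh.qCoeff_mul_of_coprime 3 5 (by norm_num), h5, odd_eq 3 (by norm_num), a3, b3, a5, b5] at h15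
    rw [a5, b5] at h5
    have hxy : c 0 * c 1 = 0 := by linear_combination (1 / 4 : ℂ) * h15
    rcases mul_eq_zero.mp hxy with z | z
    · refine ⟨curve17, fun l hl => isGoodPrimeFor_of_natAbs (i := 0) (j := 1) p17 (by decide) hl,
        by decide, Or.inr ⟨rfl, Or.inr ⟨by unfold IsGoodPrimeFor; decide, curve17_two⟩⟩,
        fun l hl hlq => ?_⟩
      rw [odd_eq l fun hd => hlq
        (((Nat.prime_dvd_prime_iff_eq Nat.prime_two hl).mp hd) ▸ dvd_mul_right 2 17),
        hhl l hl fun hd => hlq (hd.mul_left 2), z, show c 1 = 1 by linear_combination -h1 - z]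
      ring
    · refine ⟨curve34, fun l hl => isGoodPrimeFor_of_natAbs (i := 6) (j := 1) p17 (by decide) hl,
        by decide, Or.inr ⟨rfl, Or.inl curve34_three⟩, fun l hl hlq => ?_⟩
      rw [odd_eq l fun hd => hlq
        (((Nat.prime_dvd_prime_iff_eq Nat.prime_two hl).mp hd) ▸ dvd_mul_right 2 17),
        hgl l hl (by rwa [mul_comm]), z, show c 0 = 1 by linear_combination -h1 - z]
      ring
  · refine ⟨curve19, fun l hl => isGoodPrimeFor_of_natAbs (i := 0) (j := 1) p19 (by decide) hl,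
      by decide, Or.inl (Or.inr ⟨curve19_three, curve19_five⟩), fun l hl hlq => ?_⟩
    rw [eq_of_finrank_eq_one (hdim 19 1 (by simpa using genusFormula_19)) hk hf]
    exact hkl l hl fun hd => hlq (hd.mul_left 2)
  · obtain ⟨g, hg, hgl⟩ := exists_eigenform_of_natAbs (E := curve38a) (i := 9) (j := 3)
      (N := 19 * 2) p19 (by decide) (Or.inr (by decide)) (by decide)
      (by rw [Nat.primeFactors_mul (by norm_num) (by norm_num), Nat.primeFactors_pow _ (by norm_num),
        Nat.primeFactors_pow _ (by norm_num), Nat.primeFactors_mul (by norm_num) (by norm_num),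
        Finset.union_comm])
      squarefree_thirtyeight
    obtain ⟨g', hg', hg'l⟩ := exists_eigenform_of_natAbs (E := curve38b) (i := 5) (j := 1)
      (N := 19 * 2) p19 (by decide) (Or.inr (by decide)) (by decide)
      (by rw [Nat.primeFactors_mul (by norm_num) (by norm_num), Nat.primeFactors_pow _ (by norm_num),
        pow_one, Nat.primeFactors_mul (by norm_num) (by norm_num), Finset.union_comm])
      squarefree_thirtyeight
    obtain ⟨g₁, g₂, e₁, e₂⟩ := exists_old_pair (M := 19) k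
    have a3 : ModularFormClass.qCoeff g 3 = 1 := by
      rw [hgl 3 Nat.prime_three (by norm_num), curve38a_three]; norm_num
    have a5 : ModularFormClass.qCoeff g 5 = 0 := by
      rw [hgl 5 (by norm_num) (by norm_num), curve38a_five]; norm_num
    have a7 : ModularFormClass.qCoeff g 7 = -1 := by
      rw [hgl 7 (by norm_num) (by norm_num), curve38a_seven]; norm_num
    have b3 : ModularFormClass.qCoeff g' 3 = -1 := by
      rw [hg'l 3 Nat.prime_three (by norm_num), curve38b_three]; norm_num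
    have b5 : ModularFormClass.qCoeff g' 5 = -4 := by
      rw [hg'l 5 (by norm_num) (by norm_num), curve38b_five]; norm_num
    have b7 : ModularFormClass.qCoeff g' 7 = 3 := by
      rw [hg'l 7 (by norm_num) (by norm_num), curve38b_seven]; norm_num
    have d3 : ModularFormClass.qCoeff k 3 = -2 := by
      rw [hkl 3 Nat.prime_three (by norm_num), curve19_three]; norm_num
    have d5 : ModularFormClass.qCoeff k 5 = 3 := by
      rw [hkl 5 (by norm_num) (by norm_num), curve19_five]; norm_num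
    have d7 : ModularFormClass.qCoeff k 7 = -1 := by
      rw [hkl 7 (by norm_num) (by norm_num), curve19_seven]; norm_num
    obtain ⟨c, hc⟩ := exists_qCoeff_eq_sum (d := 3) (hdim (19 * 2) 4 (by simpa using genusFormula_38))
      ![g, g', g₁, g₂] (fun c hc => by
        have c1 := hc 1
        have c2 := hc 2
        have c3 := hc 3
        have c5 := hc 5
        simp [Fin.sum_univ_four, e₁, e₂, hg.qCoeff_one, hg'.qCoeff_one, hk.qCoeff_one, a3, a5, b3,
          b5, d3, d5] at c1 c2 c3 c5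
        have z1 : c 1 = 0 := by linear_combination (1/6 : ℂ) * c1 + (-1/6 : ℂ) * c3 + (-1/6 : ℂ) * c5
        have z2 : c 2 = 0 := by linear_combination (1 / 3 : ℂ) * c5 + (4 / 3 : ℂ) * z1
        have z0 : c 0 = 0 := by linear_combination c1 - z1 - z2
        have z3 : c 3 = 0 := by simpa [z0, z1, z2] using c2
        intro i
        fin_cases i <;> assumption) f
    have odd_eq : ∀ n : ℕ, ¬ 2 ∣ n → ModularFormClass.qCoeff f n =
        c 0 * ModularFormClass.qCoeff g n + c 1 * ModularFormClass.qCoeff g' n +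
          c 2 * ModularFormClass.qCoeff k n := fun n hn => by
      rw [hc]; simp [Fin.sum_univ_four, e₁, e₂, hn]
    set u := ModularFormClass.qCoeff f 3 with hu
    have h1 := odd_eq 1 (by norm_num)
    rw [hf.qCoeff_one, hg.qCoeff_one, hg'.qCoeff_one, hk.qCoeff_one] at h1
    have h3 := odd_eq 3 (by norm_num)
    rw [← hu, a3, b3, d3] at h3
    have h5 := odd_eq 5 (by norm_num)
    have h7 := odd_eq 7 (by norm_num)
    have h15 := odd_eq 15 (by norm_num)
    have h21 := odd_eq 21 (by norm_num)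
    rw [show (15 : ℕ) = 3 * 5 from rfl, hf.qCoeff_mul_of_coprime 3 5 (by norm_num),
      hg.qCoeff_mul_of_coprime 3 5 (by norm_num), hg'.qCoeff_mul_of_coprime 3 5 (by norm_num),
      hk.qCoeff_mul_of_coprime 3 5 (by norm_num), ← hu, h5, a3, a5, b3, b5, d3, d5] at h15
    rw [show (21 : ℕ) = 3 * 7 from rfl, hf.qCoeff_mul_of_coprime 3 7 (by norm_num),
      hg.qCoeff_mul_of_coprime 3 7 (by norm_num), hg'.qCoeff_mul_of_coprime 3 7 (by norm_num),
      hk.qCoeff_mul_of_coprime 3 7 (by norm_num), ← hu, h7, a3, a7, b3, b7, d3, d7] at h21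
    have x1 : (-1 - u) * c 1 = 0 := by
      linear_combination (-1 / 4 : ℂ) * h21 + (1 / 4 : ℂ) * (-h3 + u * h1)
    have x2 : (-2 - u) * c 2 = 0 := by linear_combination (-1 / 3 : ℂ) * h15 + (4 / 3 : ℂ) * x1
    have x0 : (1 - u) * c 0 = 0 := by linear_combination -h3 + u * h1 - x1 - x2
    by_cases hu1 : u = 1
    · have z1 : c 1 = 0 := (mul_eq_zero.mp x1).resolve_left (by rw [hu1]; norm_num)
      have z2 : c 2 = 0 := (mul_eq_zero.mp x2).resolve_left (by rw [hu1]; norm_num)
      refine ⟨curve38a, fun l hl => isGoodPrimeFor_of_natAbs (i := 9) (j := 3) p19 (by decide) hl,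
        by decide, Or.inl (Or.inl (by simp [curve38a_three])), fun l hl hlq => ?_⟩
      rw [odd_eq l fun hd => hlq
        (((Nat.prime_dvd_prime_iff_eq Nat.prime_two hl).mp hd) ▸ dvd_mul_right 2 19),
        hgl l hl (by rwa [mul_comm]), z1, z2, show c 0 = 1 by linear_combination -h1 - z1 - z2]
      ring
    by_cases hu2 : u = -1
    · have z0 : c 0 = 0 := (mul_eq_zero.mp x0).resolve_left (by rw [hu2]; norm_num)
      have z2 : c 2 = 0 := (mul_eq_zero.mp x2).resolve_left (by rw [hu2]; norm_num)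
      refine ⟨curve38b, fun l hl => isGoodPrimeFor_of_natAbs (i := 5) (j := 1) p19 (by decide) hl,
        by decide, Or.inl (Or.inl (by simp [curve38b_three])), fun l hl hlq => ?_⟩
      rw [odd_eq l fun hd => hlq
        (((Nat.prime_dvd_prime_iff_eq Nat.prime_two hl).mp hd) ▸ dvd_mul_right 2 19),
        hg'l l hl (by rwa [mul_comm]), z0, z2, show c 1 = 1 by linear_combination -h1 - z0 - z2]
      ring
    · have z0 : c 0 = 0 := (mul_eq_zero.mp x0).resolve_left fun e => hu1 (by linear_combination -e)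
      have z1 : c 1 = 0 := (mul_eq_zero.mp x1).resolve_left fun e => hu2 (by linear_combination -e)
      refine ⟨curve19, fun l hl => isGoodPrimeFor_of_natAbs (i := 0) (j := 1) p19 (by decide) hl,
        by decide, Or.inl (Or.inr ⟨curve19_three, curve19_five⟩), fun l hl hlq => ?_⟩
      rw [odd_eq l fun hd => hlq
        (((Nat.prime_dvd_prime_iff_eq Nat.prime_two hl).mp hd) ▸ dvd_mul_right 2 19),
        hkl l hl fun hd => hlq (hd.mul_left 2), z0, z1,
        show c 2 = 1 by linear_combination -h1 - z0 - z1]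
      ring

/-- The curve of an eigenform of level dividing `34` or `38`, with a trace at `3` or `2`. -/
theorem exists_curve_of_eigenform_large {q : ℕ} (hq : q = 17 ∨ q = 19) {N : ℕ} (hN : N ∣ 2 * q)
    {f : CuspForm (Gamma0 N) 2} (hf : f.IsNormalizedEigenform) :
    ∃ E : WeierstrassCurve ℤ, (∀ l : ℕ, l.Prime → ¬ l ∣ 2 * q → E.IsGoodPrimeFor l) ∧
      E.Δ ≠ 0 ∧ (E.apOfModel 3 ∈ ({-3, -2, -1, 1} : Finset ℤ) ∨
        (E.IsGoodPrimeFor 2 ∧ E.apOfModel 2 = -1)) ∧
      ∀ l : ℕ, l.Prime → ¬ l ∣ 2 * q →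
        ModularFormClass.qCoeff f l = (E.apOfModel l : ℂ) := by
  obtain ⟨E, hgood, hΔ, h, hf'⟩ := exists_curve_of_eigenform_large_exact hq hN hf
  refine ⟨E, hgood, hΔ, ?_, hf'⟩
  simp only [Finset.mem_insert, Finset.mem_singleton] at h ⊢
  rcases h with ((h | h) | ⟨h, -⟩) | ⟨-, h | h⟩ <;>
    first | exact Or.inr h | exact Or.inl (by omega)

/-- The curve of a solution has bad reduction at `2`. -/
theorem two_dvd_curve_Δ {A B : ℤ} (hA : A % 4 = 3) (hB : (32 : ℤ) ∣ B) :
    (2 : ℤ) ∣ (curve A B).Δ := by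
  obtain ⟨m, hm⟩ := hB
  have h := curve_Δ hA (hm ▸ (show (16 : ℤ) ∣ 32 by norm_num).mul_right m)
  refine ⟨2 * (A * m * (A + B)) ^ 2, ?_⟩
  refine mul_left_cancel₀ (show (256 : ℤ) ≠ 0 by norm_num) ?_
  rw [h, hm]
  ring

/-- **`a ^ p + b ^ p + q ^ α c ^ p ≠ 0`** for `q = 17, 19`, a prime `p ≥ 11` other than `13`
and `q`, `a` and `b` coprime. -/
theorem pow_add_pow_add_pow_mul_pow_ne_zero_of_seventeen_le {p : ℕ} (hp : p.Prime) (h11 : 11 ≤ p)
    (h13 : p ≠ 13) {q : ℕ} (hq : q = 17 ∨ q = 19) (hpq : q ≠ p) {α : ℕ} {a b c : ℤ} (ha : a ≠ 0)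
    (hb : b ≠ 0)
    (hc : c ≠ 0) (hab : IsCoprime a b) : a ^ p + b ^ p + (q : ℤ) ^ α * c ^ p ≠ 0 := by
  intro heq
  have := Fact.mk hp
  obtain ⟨A, B, hA, h32, hcop, hne, N, hN, f, 𝔪, hf, hm, hpm, hcong⟩ :=
    exists_level hp h11 h13 (by rcases hq with rfl | rfl <;> norm_num) (by omega) hpq ha hb hc hab
      heq
  have hB : (16 : ℤ) ∣ B := (show (16 : ℤ) ∣ 32 by norm_num).trans h32
  obtain ⟨E, hEgood, hEΔ, hE, hEf⟩ := exists_curve_of_eigenform_large hq hN hf
  have hdvd := fun l hl hlq hgood hlp =>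
    dvd_apOfModel_sub (W := curve A B) (E := E) hp hN hm hpm hcong hEf (l := l) hl hlq hgood hlp
  rcases hE with h3 | ⟨hg2, he2⟩
  · exact false_of_congruent_three hp h11 (by omega) hA hB hcop hne hEΔ hEgood
      (by rcases hq with rfl | rfl <;> norm_num) h3 hdvd
  · have h := dvd_apOfModel_sub_or_add (by omega) (curve_Δ_ne_zero hA hB hne)
      (curve_semistable hA hB hcop) hEΔ (2 * q).primeFactors
      (fun l hl hlS hWg _ hlp => dvd_sub_comm.mp (hdvd l hl (fun hd => hlS
        (Nat.mem_primeFactors.mpr ⟨hl, hd, by omega⟩)) hWg hlp))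
      Nat.prime_two (by omega) (by exact_mod_cast two_dvd_curve_Δ hA h32) hg2
    rw [he2] at h
    rcases h with h | h <;>
      have := Nat.le_of_dvd (by norm_num) (Int.natCast_dvd.mp h) <;> simp at this <;> omega

/-- **Serre's equation for `q ≤ 19`**: `a ^ p + b ^ p + q ^ α c ^ p = 0` has no solution for an odd
prime `q ≤ 19`, a prime `p ≥ 11` other than `13` and `q`, nonzero integers with `a` and `b`
coprime. -/
theorem serre_equation_le_nineteen_of_eleven_le {p : ℕ} (hp : p.Prime) (h11 : 11 ≤ p)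
    (h13 : p ≠ 13) {q : ℕ} (hq : q.Prime) (hq2 : q ≠ 2) (hq19 : q ≤ 19) (hpq : q ≠ p) {α : ℕ}
    {a b c : ℤ} (ha : a ≠ 0) (hb : b ≠ 0) (hc : c ≠ 0) (hab : IsCoprime a b) :
    a ^ p + b ^ p + (q : ℤ) ^ α * c ^ p ≠ 0 := by
  have hmem : (q = 3 ∨ q = 5 ∨ q = 7 ∨ q = 11 ∨ q = 13) ∨ (q = 17 ∨ q = 19) := by
    have := hq.two_le
    interval_cases q <;> first | omega | norm_num at hq
  rcases hmem with h | h
  · exact serre_equation_of_eleven_le hp h11 h13 h hpq ha hb hc hab
  · exact pow_add_pow_add_pow_mul_pow_ne_zero_of_seventeen_le hp h11 h13 h hpq ha hb hc hab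

end FA.Ribet

end
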