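import Fermat.Agent.RT.CurveResidual
import Fermat.Agent.Local.Minkowski
import Fermat.Agent.EC.TorsionGalois

/-!
# Stable lines in the `p`-torsion of a semistable curve

A semistable integral equation with reducible `p`-torsion, `p` an odd prime, has the property that
every Galois element fixes a nonzero point of order `p`: by Minkowski one of the two characters of
a stable line is trivial.
-/

set_option autoImplicit false

noncomputable section

open Matrix WeierstrassCurve FA.EC FA.Deform FA.TW FA.LocalDef FA.Local FA.RT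
open FA.Frob (ratCurve)
open scoped WeierstrassCurve.Affine

namespace FA.Ribet

local notation "Qb" => AlgebraicClosure ℚ
local notation "GQ" => AlgebraicClosure ℚ ≃ₐ[ℚ] AlgebraicClosure ℚ
local notation "M2" => Matrix (Fin 2) (Fin 2)

section line

variable {k : Type} [Field k] {l : Fin 2 → k} {M : M2 k} {a : k}

/-- An eigenvalue is a root of the characteristic polynomial. -/
lemma sq_sub_trace_mul_add_det (hl : l ≠ 0) (h : M *ᵥ l = a • l) :
    a * a - M.trace * a + M.det = 0 := by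
  have h0 : (M - a • 1).det = 0 := Matrix.exists_mulVec_eq_zero_iff.mp
    ⟨l, hl, by rw [sub_mulVec, smul_mulVec, one_mulVec, h, sub_self]⟩
  simp [Matrix.det_fin_two, Matrix.trace_fin_two] at h0 ⊢
  linear_combination h0

/-- A unipotent matrix has both eigenvalues `1`. -/
lemma eq_one_of_sq_eq_zero (hl : l ≠ 0) (h : M *ᵥ l = a • l) (hu : (M - 1) * (M - 1) = 0) :
    a = 1 ∧ M.det = 1 := by
  have h1 : (M - 1) *ᵥ l = (a - 1) • l := by rw [sub_mulVec, one_mulVec, h, sub_smul, one_smul]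
  have h2 := congrArg (· *ᵥ l) hu
  simp only [← mulVec_mulVec, h1, mulVec_smul, zero_mulVec, smul_smul] at h2
  have ha : a = 1 := sub_eq_zero.mp (mul_self_eq_zero.mp ((smul_eq_zero.mp h2).resolve_right hl))
  refine ⟨ha, ?_⟩
  subst ha
  have h3 := sq_sub_trace_mul_add_det hl h
  have h4 : (M - 1).det = 0 := by
    have := congrArg Matrix.det hu
    rw [det_mul, det_zero] at this
    exact mul_self_eq_zero.mp this
  have h5 : (M - 1).trace = 0 := by
    have h6 := LocalDef.mul_self_two (M - 1)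
    rw [hu, h4, zero_smul, sub_zero] at h6
    rcases smul_eq_zero.mp h6.symm with h7 | h7
    · exact h7
    · rw [h7, trace_zero]
  simp [Matrix.det_fin_two, Matrix.trace_fin_two] at h3 h5 ⊢
  linear_combination h3 + h5

/-- If `M - 1` maps into a line, either that is the eigenline and `det M = a`, or `a = 1`. -/
lemma eq_one_or_det_eq (hl : l ≠ 0) (h : M *ᵥ l = a • l) {l' : Fin 2 → k}
    (hM : ∀ w : Fin 2 → k, ∃ s : k, M *ᵥ w - w = s • l') (c : k) (hc : l' = c • l) :
    M.det = a := by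
  obtain ⟨s₀, h₀⟩ := hM (Pi.single 0 1)
  obtain ⟨s₁, h₁⟩ := hM (Pi.single 1 1)
  subst hc
  have e00 := congrFun h₀ 0
  have e10 := congrFun h₀ 1
  have e01 := congrFun h₁ 0
  have e11 := congrFun h₁ 1
  have el0 := congrFun h 0
  have el1 := congrFun h 1
  simp [Matrix.mulVec, dotProduct, Fin.sum_univ_two] at e00 e10 e01 e11 el0 el1
  obtain ⟨i, hi⟩ := Function.ne_iff.mp hl
  rw [Matrix.det_fin_two]
  refine mul_right_cancel₀ hi ?_
  rw [sub_eq_iff_eq_add] at e00 e11
  simp only [e00, e10, e01, e11] at el0 el1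
  rw [e00, e10, e01, e11]
  fin_cases i
  · show _ * l 0 = _ * l 0
    linear_combination el0
  · show _ * l 1 = _ * l 1
    linear_combination el1

/-- Off the eigenline the eigenvalue is `1`. -/
lemma eq_one_of_not_smul (hl : l ≠ 0) (h : M *ᵥ l = a • l) {l' : Fin 2 → k}
    (hM : ∀ w : Fin 2 → k, ∃ s : k, M *ᵥ w - w = s • l') (hc : ∀ c : k, l' ≠ c • l) : a = 1 := by
  obtain ⟨s, hs⟩ := hM l
  rw [h] at hs
  by_contra ha
  have hs' : (a - 1) • l = s • l' := by rw [sub_smul, one_smul, hs]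
  have hs0 : s ≠ 0 := fun e => by
    rw [e, zero_smul] at hs'
    exact hl ((smul_eq_zero.mp hs').resolve_left (sub_ne_zero.mpr ha))
  refine hc (s⁻¹ * (a - 1)) ?_
  rw [mul_smul, hs', inv_smul_smul₀ hs0]

end line

variable {p : ℕ} [hp : Fact p.Prime]

/-- No representation of level two at `p` has a stable line. -/
theorem not_isSSType_of_line {A : ValuationSubring Qb} (hA : A.LiesOverPrime p)
    {r : GQ →* M2 (ZMod p)} (hr : IsSSType (p := p) A r) {l : Fin 2 → ZMod p} (hl : l ≠ 0)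
    (hs : ∀ σ, ∃ a : ZMod p, r σ *ᵥ l = a • l) : False := by
  obtain ⟨Λ, -, -, -, g, -, -, hord, t, d, ht, hd, hroot⟩ := hr
  have := res_charP hp.out hA
  obtain ⟨a, ha⟩ := hs g
  have h0 := sq_sub_trace_mul_add_det hl ha
  rw [ht, hd] at h0
  set f : ZMod p →+* Res A := ZMod.castHom (dvd_refl p) (Res A)
  have h1 : f a * f a - (t : Res A) * f a + (d : Res A) = 0 := by
    have := congrArg f h0
    rwa [map_add, map_sub, map_mul, map_mul, map_natCast, map_natCast, map_zero] at this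
  have hmem : ∃ z : ZMod p, Λ.chi0 g = f z := by
    have : (Λ.chi0 g - f a) * (Λ.chi0 g - f ((t : ZMod p) - a)) = 0 := by
      rw [map_sub, map_natCast]
      linear_combination hroot - h1
    rcases mul_eq_zero.mp this with e | e
    exacts [⟨a, sub_eq_zero.mp e⟩, ⟨_, sub_eq_zero.mp e⟩]
  obtain ⟨z, hz⟩ := hmem
  have hpo := hp.out.two_le
  have hlt : p - 1 < p ^ 2 - 1 := by
    have : p < p ^ 2 := by nlinarith
    omega
  rcases eq_or_ne z 0 with rfl | hz0
  · rw [hz, map_zero, orderOf_eq_zero_iff'.mpr] at hord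
    · omega
    · intro n hn; rw [zero_pow hn.ne']; exact zero_ne_one
  · have h2 : Λ.chi0 g ^ (p - 1) = 1 := by
      rw [hz, ← map_pow, ZMod.pow_card_sub_one_eq_one hz0, map_one]
    have := Nat.le_of_dvd (by omega) (orderOf_dvd_of_pow_eq_one h2)
    omega

variable (W : WeierstrassCurve ℤ) [(ratCurve W).IsElliptic]

/-- Reducible `p`-torsion has an eigenvector. -/
theorem exists_eigenvector (h : ¬ W.ModRepIsIrreducible p) :
    ∃ l : Fin 2 → ZMod p, l ≠ 0 ∧ ∀ σ, ∃ a : ZMod p, curveRep p W σ *ᵥ l = a • l := by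
  have hnt : Nontrivial (Submodule.torsionBy ℤ ((ratCurve W)⁄Qb).Point p) :=
    Module.nontrivial_of_finrank_pos (R := ZMod p) (by rw [finrank_torsion (ratCurve W) p]; norm_num)
  obtain ⟨N, hN, hb, ht⟩ : ∃ N : Submodule (ZMod p) (Submodule.torsionBy ℤ ((ratCurve W)⁄Qb).Point p),
      (∀ σ : GQ, ∀ x ∈ N, σ • x ∈ N) ∧ N ≠ ⊥ ∧ N ≠ ⊤ := by
    by_contra hcon
    push Not at hcon
    exact h ⟨hnt, fun N hN => or_iff_not_imp_left.mpr (hcon N hN)⟩
  have h1 : Module.finrank (ZMod p) N = 1 := by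
    have := Submodule.finrank_lt ht
    have := mt Submodule.finrank_eq_zero.mp hb
    have := finrank_torsion (ratCurve W) p
    omega
  obtain ⟨⟨x, hxN⟩, hx0, hx⟩ := finrank_eq_one_iff'.mp h1
  let b := (torsBasis (p := p) W).equivFun
  refine ⟨b x, b.map_ne_zero_iff.mpr fun e => hx0 (Subtype.ext e), fun σ => ?_⟩
  obtain ⟨a, ha⟩ := hx ⟨σ • x, hN σ x hxN⟩
  refine ⟨a, ?_⟩
  rw [toMatrix_mulVec, ← show a • x = σ • x from congrArg Subtype.val ha]
  exact map_smul b a x

variable {W}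

/-- **One character of a stable line is trivial.** -/
theorem det_sub_one_eq_zero (hΔ : W.Δ ≠ 0) (hW : W.IsSemistableModel) (hp2 : p ≠ 2)
    {l : Fin 2 → ZMod p} (hl : l ≠ 0) (hs : ∀ σ, ∃ a : ZMod p, curveRep p W σ *ᵥ l = a • l)
    (σ : GQ) : (curveRep p W σ - 1).det = 0 := by
  set r := curveRep p W
  choose a ha using hs
  let χ₀ : GQ →* ZMod p :=
    { toFun := a
      map_one' := smul_left_injective (ZMod p) hl (by
        show a 1 • l = (1 : ZMod p) • l
        rw [← ha 1, map_one, one_mulVec, one_smul])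
      map_mul' := fun σ τ => smul_left_injective (ZMod p) hl (by
        show a (σ * τ) • l = (a σ * a τ) • l
        rw [← ha (σ * τ), map_mul, ← mulVec_mulVec, ha τ, mulVec_smul, ha σ, smul_smul, mul_comm]) }
  let δ₀ : GQ →* ZMod p :=
    { toFun := fun σ => (r σ).det
      map_one' := by rw [map_one, det_one]
      map_mul' := fun σ τ => by rw [map_mul, det_mul] }
  set χ := χ₀.toHomUnits
  set δ := δ₀.toHomUnits / χ
  have hχ : ∀ τ, τ ∈ χ.ker ↔ a τ = 1 := fun τ => by
    rw [MonoidHom.mem_ker, Units.ext_iff]; rfl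
  have hδ : ∀ τ, τ ∈ δ.ker ↔ (r τ).det = a τ := fun τ => by
    rw [MonoidHom.mem_ker, MonoidHom.div_apply, div_eq_one, Units.ext_iff]; rfl
  obtain ⟨E, hE, hEfix⟩ := FA.EC.galoisFactorsThroughFiniteLevel (ratCurve W) hp.out.ne_zero
  have hker : ∀ τ : GQ, (∀ x ∈ E, τ x = x) → τ ∈ χ.ker ∧ τ ∈ δ.ker := by
    intro τ hτ
    have h1 : r τ = 1 := (curveRep_eq_one_iff W τ).mpr fun x =>
      LinearMap.congr_fun (hEfix τ hτ) x
    have h2 : a τ = 1 := smul_left_injective (ZMod p) hl (by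
      show a τ • l = (1 : ZMod p) • l
      rw [← ha τ, h1, one_mulVec, one_smul])
    exact ⟨(hχ τ).mpr h2, (hδ τ).mpr (by rw [h1, det_one, h2])⟩
  obtain ⟨Ap, hAp⟩ := Deform.exists_liesOverPrime hp.out
  have away : ∀ q : ℕ, q.Prime → q ≠ p → ∀ A : ValuationSubring Qb, A.LiesOverPrime q →
      A.inertiaSubgroupIn ℚ ≤ χ.ker ⊓ δ.ker := by
    intro q hq hqp A hA τ hτ
    have hu : (r τ - 1) * (r τ - 1) = 0 := by
      by_cases hbad : (q : ℤ) ∣ W.Δ
      · exact curveRep_unipotent W hΔ hW hq hqp hbad hA hτ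
      · rw [show r τ = 1 from curveRep_unramified W hq hqp hbad hA hτ, sub_self, zero_mul]
    obtain ⟨h1, h2⟩ := eq_one_of_sq_eq_zero hl (ha τ) hu
    exact ⟨(hχ τ).mpr h1, (hδ τ).mpr (h2.trans h1.symm)⟩
  have atp : Ap.inertiaSubgroupIn ℚ ≤ χ.ker ∨ Ap.inertiaSubgroupIn ℚ ≤ δ.ker := by
    rcases curveRep_localType W hΔ hW hp2 hAp with ⟨l', -, -, hI⟩ | hss
    · by_cases hc : ∃ c : ZMod p, l' = c • l
      · obtain ⟨c, hc⟩ := hc
        exact Or.inr fun τ hτ => (hδ τ).mpr (eq_one_or_det_eq hl (ha τ) (hI τ hτ) c hc)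
      · push Not at hc
        exact Or.inl fun τ hτ => (hχ τ).mpr (eq_one_of_not_smul hl (ha τ) (hI τ hτ) hc)
    · exact (not_isSSType_of_line hAp hss hl fun τ => ⟨a τ, ha τ⟩).elim
  have glue : ∀ H : Subgroup GQ, H.Normal → χ.ker ⊓ δ.ker ≤ H → Ap.inertiaSubgroupIn ℚ ≤ H →
      σ ∈ H := by
    intro H hH h1 h2
    have htop := eq_top_of_inertia_le H E (fun τ hτ => h1 (hker τ hτ)) fun q hq => by
      by_cases hqp : q = p
      · subst hqp; exact ⟨Ap, hAp, h2⟩
      · obtain ⟨A, hA⟩ := Deform.exists_liesOverPrime hq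
        exact ⟨A, hA, (away q hq hqp A hA).trans h1⟩
    exact htop ▸ Subgroup.mem_top σ
  have hq := sq_sub_trace_mul_add_det hl (ha σ)
  have hdet : (r σ - 1).det = 1 - (r σ).trace + (r σ).det := by
    simp [Matrix.det_fin_two, Matrix.trace_fin_two]; ring
  rw [hdet]
  rcases atp with h | h
  · rw [(hχ σ).mp (glue _ inferInstance inf_le_left h)] at hq
    linear_combination hq
  · have h1 := (hδ σ).mp (glue _ inferInstance inf_le_right h)
    have h0 : a σ ≠ 0 := (χ σ).ne_zero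
    rw [h1] at hq ⊢
    exact mul_left_cancel₀ h0 (by linear_combination hq)

/-- Every Galois element fixes a point of order `p`. -/
theorem exists_fixed (hΔ : W.Δ ≠ 0) (hW : W.IsSemistableModel) (hp2 : p ≠ 2)
    (h : ¬ W.ModRepIsIrreducible p) (σ : GQ) :
    ∃ x : Submodule.torsionBy ℤ ((ratCurve W)⁄Qb).Point p, x ≠ 0 ∧ σ • x = x := by
  obtain ⟨l, hl, hs⟩ := exists_eigenvector W h
  obtain ⟨v, hv, hv'⟩ := Matrix.exists_mulVec_eq_zero_iff.mpr
    (det_sub_one_eq_zero hΔ hW hp2 hl hs σ)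
  let b := (torsBasis (p := p) W).equivFun
  obtain ⟨x, rfl⟩ := b.surjective v
  refine ⟨x, b.map_ne_zero_iff.mp hv, b.injective ?_⟩
  rw [← toMatrix_mulVec]
  rwa [sub_mulVec, one_mulVec, sub_eq_zero] at hv'

end FA.Ribet

end
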