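import Fermat.Agent.Ribet.Main
import Fermat.Agent.Density.Traces
import Fermat.Agent.RT.EllipticPoint

/-!
# Congruent traces of two curves at a prime of multiplicative reduction of one of them

If the traces of two integral equations agree modulo `p` at almost all primes, the trace of the
second at a prime `q ≠ p` where the first has multiplicative reduction and the second good
reduction is congruent to `±(q + 1)`. Also the trace at `3` of the curves of the Fermat type
equations.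
-/

set_option autoImplicit false

noncomputable section

open Matrix WeierstrassCurve FA.RT FA.RT.Tate
open FA.Frob (ratCurve)

namespace FA.Ribet

local notation "Qb" => AlgebraicClosure ℚ
local notation "GQ" => AlgebraicClosure ℚ ≃ₐ[ℚ] AlgebraicClosure ℚ

variable {p : ℕ} [hp : Fact p.Prime]

/-- The residual representation is the reduction of the `p`-adic one. -/
theorem curveRep_eq_map {W : WeierstrassCurve ℤ} [(ratCurve W).IsElliptic] (B : TateBasis p W)
    (σ : GQ) : curveRep p W σ =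
      (B.rep σ).map ((ZMod.castHom (dvd_pow_self p one_ne_zero) (ZMod p)).comp
        (PadicInt.toZModPow 1)) := by
  have : NeZero (p ^ 1) := ⟨pow_ne_zero _ hp.out.ne_zero⟩
  ext i j
  rw [B.rep_toZMod, Matrix.map_apply, ZMod.natCast_val]
  rfl

/-- The trace and the determinant of Frobenius at a good prime. -/
theorem curveRep_frobenius {W : WeierstrassCurve ℤ} [(ratCurve W).IsElliptic] {l : ℕ}
    (hl : l.Prime) (hlp : l ≠ p) (hgood : W.IsGoodPrimeFor l) {A : ValuationSubring Qb}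
    (hA : A.LiesOverPrime l) {σ : GQ} (hσ : A.IsFrobeniusAt σ l) :
    (curveRep p W σ).trace = (W.apOfModel l : ZMod p) ∧ (curveRep p W σ).det = (l : ZMod p) := by
  obtain ⟨B⟩ := exists_tateBasis (p := p) (W := W)
  obtain ⟨ht, hd⟩ := B.rep_frobenius hl hA hlp hgood hσ
  refine ⟨trace_curveRep W hl hgood hlp.symm hA hσ, ?_⟩
  rw [curveRep_eq_map B, ← RingHom.mapMatrix_apply, ← RingHom.map_det, hd, map_natCast]

/-- **Congruent curves at a multiplicative prime.** -/
theorem dvd_apOfModel_sub_or_add {W E : WeierstrassCurve ℤ} (hp2 : p ≠ 2) (hWΔ : W.Δ ≠ 0)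
    (hW : W.IsSemistableModel) (hEΔ : E.Δ ≠ 0) (S : Finset ℕ)
    (hcong : ∀ l : ℕ, l.Prime → l ∉ S → W.IsGoodPrimeFor l → E.IsGoodPrimeFor l → l ≠ p →
      (p : ℤ) ∣ W.apOfModel l - E.apOfModel l)
    {q : ℕ} (hq : q.Prime) (hqp : q ≠ p) (hbad : (q : ℤ) ∣ W.Δ) (hgood : E.IsGoodPrimeFor q) :
    (p : ℤ) ∣ E.apOfModel q - (q + 1) ∨ (p : ℤ) ∣ E.apOfModel q + (q + 1) := by
  have := FA.Frob.ratCurve_isElliptic_of_Δ hWΔ
  have := FA.Frob.ratCurve_isElliptic_of_Δ hEΔ
  obtain ⟨A, hA⟩ := FA.Deform.exists_liesOverPrime hq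
  obtain ⟨σ, hσ⟩ := FA.Deform.exists_isFrobeniusAt hq hA
  have h := (FA.Density.trace_det_eq_of_frobenius (curveRep p W) (curveRep p E)
    (isOpen_ker_curveRep W) (isOpen_ker_curveRep E)
    (insert p (S ∪ W.Δ.natAbs.primeFactors ∪ E.Δ.natAbs.primeFactors))
    (fun l hl hlS B hB τ hτ => by
      simp only [Finset.mem_insert, Finset.mem_union, Nat.mem_primeFactors, not_or] at hlS
      obtain ⟨hlp, ⟨hS, hWl⟩, hEl⟩ := hlS
      have hWg : W.IsGoodPrimeFor l := fun h =>
        hWl ⟨hl, Int.natCast_dvd.mp h, Int.natAbs_ne_zero.mpr hWΔ⟩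
      have hEg : E.IsGoodPrimeFor l := fun h =>
        hEl ⟨hl, Int.natCast_dvd.mp h, Int.natAbs_ne_zero.mpr hEΔ⟩
      obtain ⟨t1, d1⟩ := curveRep_frobenius (p := p) hl hlp hWg hB hτ
      obtain ⟨t2, d2⟩ := curveRep_frobenius (p := p) hl hlp hEg hB hτ
      refine ⟨?_, d1.trans d2.symm⟩
      rw [t1, t2, ← sub_eq_zero, ← Int.cast_sub, ZMod.intCast_zmod_eq_zero_iff_dvd]
      exact hcong l hl hS hWg hEg hlp) σ).1
  obtain ⟨B⟩ := exists_tateBasis (p := p) (W := W)
  obtain ⟨s, hs, htr⟩ :=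
    B.trace_frobenius_mult hp2 ⟨hWΔ, hq, hbad, hW q hq hbad, hA⟩ hqp hσ
  rw [(curveRep_frobenius hq hqp hgood hA hσ).1, curveRep_eq_map B, ← AddMonoidHom.map_trace,
    htr, map_mul, map_intCast, map_add, map_natCast, map_one] at h
  have key : (p : ℤ) ∣ E.apOfModel q - s * (q + 1) := by
    rw [← ZMod.intCast_zmod_eq_zero_iff_dvd]
    push_cast
    rw [h, sub_self]
  rcases hs with rfl | rfl
  · left; simpa using key
  · right; rwa [neg_one_mul, sub_neg_eq_add] at key

omit hp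

/-- The nonsingular affine points over `ℤ / n`, as a decidable set. -/
def nsPts {n : ℕ} [NeZero n] (a₁ a₂ a₃ a₄ a₆ : ZMod n) : Finset (ZMod n × ZMod n) :=
  Finset.univ.filter fun P =>
    (P.2 ^ 2 + a₁ * P.1 * P.2 + a₃ * P.2 = P.1 ^ 3 + a₂ * P.1 ^ 2 + a₄ * P.1 + a₆) ∧
      (a₁ * P.2 ≠ 3 * P.1 ^ 2 + 2 * a₂ * P.1 + a₄ ∨ P.2 ≠ -P.2 - a₁ * P.1 - a₃)

theorem apOfModel_eq_nsPts {l : ℕ} [Fact l.Prime] {W : WeierstrassCurve ℤ}
    {a₁ a₂ a₃ a₄ a₆ : ZMod l} (h : W.reductionMod l = ⟨a₁, a₂, a₃, a₄, a₆⟩) :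
    W.apOfModel l = l - ((nsPts a₁ a₂ a₃ a₄ a₆).card : ℤ) := by
  classical
  have hmem : ∀ P : ZMod l × ZMod l, P ∈ nsPts a₁ a₂ a₃ a₄ a₆ ↔
      (W.reductionMod l).toAffine.Nonsingular P.1 P.2 := fun P => by
    rw [h]
    simp only [nsPts, Finset.mem_filter, Finset.mem_univ, true_and, Affine.nonsingular_iff,
      Affine.equation_iff]
  let e : (W.reductionMod l).toAffine.Point ≃ Option {P // P ∈ nsPts a₁ a₂ a₃ a₄ a₆} :=
    { toFun := fun
        | .zero => none
        | .some x y hxy => Option.some ⟨(x, y), (hmem _).mpr hxy⟩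
      invFun := fun
        | none => .zero
        | Option.some P => .some P.1.1 P.1.2 ((hmem _).mp P.2)
      left_inv := fun P => by cases P <;> rfl
      right_inv := fun P => by cases P <;> rfl }
  rw [apOfModel, traceOfFrobenius, WeierstrassCurve.card, Nat.card_congr e,
    Nat.card_eq_fintype_card, Nat.card_eq_fintype_card, Fintype.card_option, Fintype.card_coe,
    ZMod.card]
  push_cast
  ring

theorem apOfModel_three_eq {W : WeierstrassCurve ℤ} {a₁ a₂ a₃ a₄ a₆ : ZMod 3}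
    (h : W.reductionMod 3 = ⟨a₁, a₂, a₃, a₄, a₆⟩) :
    W.apOfModel 3 = 3 - ((nsPts a₁ a₂ a₃ a₄ a₆).card : ℤ) :=
  haveI : Fact (Nat.Prime 3) := ⟨Nat.prime_three⟩
  apOfModel_eq_nsPts h

/-- The trace at `3` of the curve of a Fermat type equation is zero. -/
theorem apOfModel_three_curve {A B : ℤ} (hA : A % 4 = 3) (hB : (16 : ℤ) ∣ B)
    (hgood : (curve A B).IsGoodPrimeFor 3) : (curve A B).apOfModel 3 = 0 := by
  have hne : ((A * B * (A + B) : ℤ) : ZMod 3) ≠ 0 := fun h => by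
    refine hgood ?_
    have e := congrArg (Int.cast : ℤ → ZMod 3) (curve_Δ hA hB)
    rw [Int.cast_mul, Int.cast_pow, h] at e
    rw [← ZMod.intCast_zmod_eq_zero_iff_dvd]
    exact (mul_eq_zero.mp (e.trans (zero_pow two_ne_zero))).resolve_left (by decide)
  have key : ∀ x y : ZMod 3, x * y * (x + y) ≠ 0 → y - 1 - x = -1 ∧ -(x * y) = -1 := by decide
  push_cast at hne
  obtain ⟨k2, k4⟩ := key _ _ hne
  have e2 : ((curve A B).a₂ : ZMod 3) = -1 := by
    have e := congrArg (Int.cast : ℤ → ZMod 3) (four_mul_a₂ hA hB)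
    push_cast at e
    rw [k2, show (4 : ZMod 3) = 1 from rfl, one_mul] at e
    exact e
  have e4 : ((curve A B).a₄ : ZMod 3) = -1 := by
    have e := congrArg (Int.cast : ℤ → ZMod 3) (sixteen_mul_a₄ hA hB)
    push_cast at e
    rw [k4, show (16 : ZMod 3) = 1 from rfl, one_mul] at e
    exact e
  rw [apOfModel_three_eq (a₁ := 1) (a₂ := -1) (a₃ := 0) (a₄ := -1) (a₆ := 0) (by
    ext
    · simp [reductionMod, curve]
    · show ((curve A B).a₂ : ZMod 3) = -1
      exact e2
    · simp [reductionMod, curve]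
    · show ((curve A B).a₄ : ZMod 3) = -1
      exact e4
    · simp [reductionMod, curve])]
  rfl

end FA.Ribet

end
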