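import Fermat.Agent.Ribet.Serre
import Fermat.Agent.Ribet.SerreTrace
import Fermat.Agent.Root.Integral.Raise

/-!
# The equation `a ^ p + b ^ p + q ^ α c ^ p = 0` for `q = 7, 11, 13`

The eigenforms of levels dividing `2 q` come from the curves `14a`, `11a`, `26a` and `26b`, by
modularity and the dimension formula. Their traces at `3` are incompatible with those of the curve
of a solution.
-/

set_option autoImplicit false

noncomputable section

open WeierstrassCurve CongruenceSubgroup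
open FA.Theta (badProd)

namespace FA.Ribet

/-- The curve `14a`. -/
def curve14 : WeierstrassCurve ℤ := ⟨1, 0, 1, 4, -6⟩

/-- The curve `11a`. -/
def curve11 : WeierstrassCurve ℤ := ⟨0, -1, 1, 0, 0⟩

/-- The curve `26a`. -/
def curve26a : WeierstrassCurve ℤ := ⟨1, 0, 1, -5, -8⟩

/-- The curve `26b`. -/
def curve26b : WeierstrassCurve ℤ := ⟨1, -1, 1, -3, 3⟩

theorem curve14_Δ : curve14.Δ = -(2 ^ 6 * 7 ^ 3) := by decide
theorem curve11_Δ : curve11.Δ = -11 := by decide
theorem curve26a_Δ : curve26a.Δ = -(2 ^ 3 * 13 ^ 3) := by decide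
theorem curve14_three : curve14.apOfModel 3 = -2 := by
  rw [apOfModel_three_eq (a₁ := 1) (a₂ := 0) (a₃ := 1) (a₄ := 1) (a₆ := 0) (by ext <;> rfl)]
  rfl

theorem curve11_three : curve11.apOfModel 3 = -1 := by
  rw [apOfModel_three_eq (a₁ := 0) (a₂ := -1) (a₃ := 1) (a₄ := 0) (a₆ := 0) (by ext <;> rfl)]
  rfl

theorem curve26a_three : curve26a.apOfModel 3 = 1 := by
  rw [apOfModel_three_eq (a₁ := 1) (a₂ := 0) (a₃ := 1) (a₄ := 1) (a₆ := 1) (by ext <;> rfl)]
  rfl

theorem curve26b_three : curve26b.apOfModel 3 = -3 := by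
  rw [apOfModel_three_eq (a₁ := 1) (a₂ := -1) (a₃ := 1) (a₄ := 0) (a₆ := 0) (by ext <;> rfl)]
  rfl

/-- Discriminant and `c₄` of a curve with bad primes `2` and `q`, or only `q`. -/
theorem semistable_of_Δ {E : WeierstrassCurve ℤ} {q : ℕ} (hq : q.Prime) {i j : ℕ}
    (h : E.Δ = -(2 ^ i * (q : ℤ) ^ j)) (h2 : i = 0 ∨ ¬ (2 : ℤ) ∣ E.c₄)
    (hc : ¬ (q : ℤ) ∣ E.c₄) : E.IsSemistableModel := by
  intro r hr hd
  rw [h, dvd_neg] at hd
  have hr' : Prime (r : ℤ) := Nat.prime_iff_prime_int.mp hr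
  rcases hr'.dvd_or_dvd hd with hd | hd
  · rcases h2 with rfl | h2
    · exact absurd (isUnit_of_dvd_one (by simpa using hd)) hr'.not_isUnit
    · have : r = 2 := (Nat.prime_dvd_prime_iff_eq hr Nat.prime_two).mp
        (by exact_mod_cast hr'.dvd_of_dvd_pow hd)
      subst this
      exact h2
  · have : r = q := (Nat.prime_dvd_prime_iff_eq hr hq).mp
      (by exact_mod_cast hr'.dvd_of_dvd_pow hd)
    subst this
    exact hc

/-- The eigenform of a semistable equation. -/
theorem exists_eigenform {E : WeierstrassCurve ℤ} (hΔ : E.Δ ≠ 0) (hE : E.IsSemistableModel)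
    {N : ℕ} (hN : E.Δ.natAbs.primeFactors = N.primeFactors) (hsq : Squarefree N) :
    ∃ f : CuspForm (Gamma0 N) 2, f.IsNormalizedEigenform ∧
      ∀ l : ℕ, l.Prime → ¬ l ∣ N → ModularFormClass.qCoeff f l = (E.apOfModel l : ℂ) := by
  have h : badProd E = N := by
    show ∏ q ∈ E.Δ.natAbs.primeFactors, q = N
    rw [hN, Nat.prod_primeFactors_of_squarefree hsq]
  obtain ⟨f, hf, hfl⟩ := h ▸ FA.SS.semistableModular E hΔ hE
  refine ⟨f, hf, fun l hl hlN => hfl l hl (fun hd => hlN ?_) hlN⟩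
  have : l ∈ E.Δ.natAbs.primeFactors :=
    Nat.mem_primeFactors.mpr ⟨hl, Int.natCast_dvd.mp hd, Int.natAbs_ne_zero.mpr hΔ⟩
  rw [hN] at this
  exact Nat.dvd_of_mem_primeFactors this

theorem natAbs_primeFactors {E : WeierstrassCurve ℤ} {q : ℕ} (hq : q.Prime) {i j : ℕ}
    (h : E.Δ = -(2 ^ i * (q : ℤ) ^ j)) (hi : i ≠ 0) (hj : j ≠ 0) :
    E.Δ.natAbs.primeFactors = (2 * q).primeFactors := by
  rw [h, Int.natAbs_neg, Int.natAbs_mul, Int.natAbs_pow, Int.natAbs_pow, Int.natAbs_natCast,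
    show Int.natAbs 2 = 2 from rfl, Nat.primeFactors_mul (pow_ne_zero _ two_ne_zero)
      (pow_ne_zero _ hq.ne_zero), Nat.primeFactors_mul two_ne_zero hq.ne_zero,
    Nat.primeFactors_pow _ hi, Nat.primeFactors_pow _ hj]

/-- In a space of dimension at most two two independent forms span. -/
theorem exists_eq_smul_add {N : ℕ} [NeZero N]
    (hdim : Module.finrank ℂ (CuspForm (Gamma0 N) 2) = 2) (g₁ g₂ : CuspForm (Gamma0 N) 2)
    (hind : ∀ x y : ℂ, x • g₁ + y • g₂ = 0 → x = 0 ∧ y = 0) (f : CuspForm (Gamma0 N) 2) :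
    ∃ x y : ℂ, f = x • g₁ + y • g₂ := by
  have hli : LinearIndependent ℂ ![g₁, g₂] := LinearIndependent.pair_iff.mpr hind
  have hspan := hli.span_eq_top_of_card_eq_finrank (by simp [hdim])
  have hf : f ∈ Submodule.span ℂ ({g₁, g₂} : Set (CuspForm (Gamma0 N) 2)) := by
    have : f ∈ Submodule.span ℂ (Set.range ![g₁, g₂]) := hspan ▸ Submodule.mem_top
    rwa [Matrix.range_cons_cons_empty] at this
  obtain ⟨x, y, h⟩ := Submodule.mem_span_pair.mp hf
  exact ⟨x, y, h.symm⟩

theorem qCoeff_smul_add {N : ℕ} [NeZero N] (x y : ℂ) (g₁ g₂ : CuspForm (Gamma0 N) 2) (n : ℕ) :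
    ModularFormClass.qCoeff (x • g₁ + y • g₂ : CuspForm (Gamma0 N) 2) n =
      x * ModularFormClass.qCoeff g₁ n + y * ModularFormClass.qCoeff g₂ n := by
  simp only [← FA.Deform.qLin_apply, map_add, map_smul, Pi.add_apply, Pi.smul_apply, smul_eq_mul]

theorem squarefree_two' : Squarefree 2 := Nat.prime_two.prime.squarefree
theorem squarefree_seven : Squarefree 7 := (show Nat.Prime 7 by norm_num).prime.squarefree
theorem squarefree_eleven : Squarefree 11 := (show Nat.Prime 11 by norm_num).prime.squarefree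
theorem squarefree_thirteen : Squarefree 13 := (show Nat.Prime 13 by norm_num).prime.squarefree
theorem squarefree_fourteen : Squarefree 14 :=
  (Nat.squarefree_mul (show Nat.Coprime 2 7 by norm_num)).mpr ⟨squarefree_two', squarefree_seven⟩
theorem squarefree_twentytwo : Squarefree 22 :=
  (Nat.squarefree_mul (show Nat.Coprime 2 11 by norm_num)).mpr ⟨squarefree_two', squarefree_eleven⟩
theorem squarefree_twentysix : Squarefree 26 :=
  (Nat.squarefree_mul (show Nat.Coprime 2 13 by norm_num)).mpr ⟨squarefree_two', squarefree_thirteen⟩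

theorem genusFormula_7 : ModularCurve.genusFormula 7 = 0 := by
  have s7 := squarefree_seven
  simp only [ModularCurve.genusFormula, ModularCurve.nuTwo, ModularCurve.nuThree,
    ModularCurve.cuspCount, ModularCurve.dedekindPsi, Nat.card_eq_fintype_card]
  rw [show Fintype.card {x : ZMod 7 // x ^ 2 + 1 = 0} = 0 from rfl,
    show Fintype.card {x : ZMod 7 // x ^ 2 + x + 1 = 0} = 2 from rfl,
    show Nat.divisors 7 = {1, 7} by decide]
  simp [Finset.sum_filter, s7, Nat.totient]; norm_num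

theorem genusFormula_13 : ModularCurve.genusFormula 13 = 0 := by
  have s13 := squarefree_thirteen
  simp only [ModularCurve.genusFormula, ModularCurve.nuTwo, ModularCurve.nuThree,
    ModularCurve.cuspCount, ModularCurve.dedekindPsi, Nat.card_eq_fintype_card]
  rw [show Fintype.card {x : ZMod 13 // x ^ 2 + 1 = 0} = 2 from rfl,
    show Fintype.card {x : ZMod 13 // x ^ 2 + x + 1 = 0} = 2 from rfl,
    show Nat.divisors 13 = {1, 13} by decide]
  simp [Finset.sum_filter, s13, Nat.totient]; norm_num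

theorem genusFormula_11 : ModularCurve.genusFormula 11 = 1 := by
  have s11 := squarefree_eleven
  simp only [ModularCurve.genusFormula, ModularCurve.nuTwo, ModularCurve.nuThree,
    ModularCurve.cuspCount, ModularCurve.dedekindPsi, Nat.card_eq_fintype_card]
  rw [show Fintype.card {x : ZMod 11 // x ^ 2 + 1 = 0} = 0 from rfl,
    show Fintype.card {x : ZMod 11 // x ^ 2 + x + 1 = 0} = 0 from rfl,
    show Nat.divisors 11 = {1, 11} by decide]
  simp [Finset.sum_filter, s11, Nat.totient]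

theorem genusFormula_14 : ModularCurve.genusFormula 14 = 1 := by
  have s2 := squarefree_two'
  have s7 := squarefree_seven
  have s14 := squarefree_fourteen
  simp only [ModularCurve.genusFormula, ModularCurve.nuTwo, ModularCurve.nuThree,
    ModularCurve.cuspCount, ModularCurve.dedekindPsi, Nat.card_eq_fintype_card]
  rw [show Fintype.card {x : ZMod 14 // x ^ 2 + 1 = 0} = 0 from rfl,
    show Fintype.card {x : ZMod 14 // x ^ 2 + x + 1 = 0} = 0 from rfl,
    show Nat.divisors 14 = {1, 2, 7, 14} by decide]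
  simp [Finset.sum_filter, s2, s7, s14, Nat.totient]; norm_num

theorem genusFormula_22 : ModularCurve.genusFormula 22 = 2 := by
  have s2 := squarefree_two'
  have s11 := squarefree_eleven
  have s22 := squarefree_twentytwo
  simp only [ModularCurve.genusFormula, ModularCurve.nuTwo, ModularCurve.nuThree,
    ModularCurve.cuspCount, ModularCurve.dedekindPsi, Nat.card_eq_fintype_card]
  rw [show Fintype.card {x : ZMod 22 // x ^ 2 + 1 = 0} = 0 from rfl,
    show Fintype.card {x : ZMod 22 // x ^ 2 + x + 1 = 0} = 0 from rfl,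
    show Nat.divisors 22 = {1, 2, 11, 22} by decide]
  simp [Finset.sum_filter, s2, s11, s22, Nat.totient]; norm_num

theorem genusFormula_26 : ModularCurve.genusFormula 26 = 2 := by
  have s2 := squarefree_two'
  have s13 := squarefree_thirteen
  have s26 := squarefree_twentysix
  simp only [ModularCurve.genusFormula, ModularCurve.nuTwo, ModularCurve.nuThree,
    ModularCurve.cuspCount, ModularCurve.dedekindPsi, Nat.card_eq_fintype_card]
  rw [show Fintype.card {x : ZMod 26 // x ^ 2 + 1 = 0} = 2 from rfl,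
    show Fintype.card {x : ZMod 26 // x ^ 2 + x + 1 = 0} = 0 from rfl,
    show Nat.divisors 26 = {1, 2, 13, 26} by decide]
  simp [Finset.sum_filter, s2, s13, s26, Nat.totient]; norm_num

/-- When the old forms fill the space of level `2 M`, an eigenform of that level has the odd
coefficients of that of level `M`. -/
theorem qCoeff_eq_of_old {M : ℕ} [NeZero M] [NeZero (M * 2)]
    (hdim : Module.finrank ℂ (CuspForm (Gamma0 (M * 2)) 2) = 2) {g : CuspForm (Gamma0 M) 2}
    (hg : g.IsNormalizedEigenform) {f : CuspForm (Gamma0 (M * 2)) 2}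
    (hf : f.IsNormalizedEigenform) {l : ℕ} (hl : ¬ 2 ∣ l) :
    ModularFormClass.qCoeff f l = ModularFormClass.qCoeff g l := by
  have hm := FA.Period.coe_mem_cuspForms g
  let g₁ : CuspForm (Gamma0 (M * 2)) 2 :=
    FA.Period.toCuspForm' (⇑g) (FA.LTInt.forms_le_mul M 2 2 hm)
  let g₂ : CuspForm (Gamma0 (M * 2)) 2 := FA.Period.toCuspForm' (FA.LTInt.dilate 2 2 g)
    (FA.LTInt.dilate_mem_cuspForms two_ne_zero hm)
  have e1 : ∀ n, ModularFormClass.qCoeff g₁ n = ModularFormClass.qCoeff g n := fun n => rfl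
  have e2 : ∀ n, ModularFormClass.qCoeff g₂ n =
      2 * if 2 ∣ n then ModularFormClass.qCoeff g (n / 2) else 0 := fun n => by
    show (FA.Period.qExp (FA.LTInt.dilate 2 2 g)).coeff n = _
    rw [FA.LTInt.qExp_dilate two_ne_zero hm]
    norm_num
    rfl
  have hind : ∀ x y : ℂ, x • g₁ + y • g₂ = 0 → x = 0 ∧ y = 0 := fun x y h => by
    have c1 := qCoeff_smul_add x y g₁ g₂ 1
    have c2 := qCoeff_smul_add x y g₁ g₂ 2
    rw [h, ← FA.Deform.qLin_apply, map_zero, Pi.zero_apply] at c1 c2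
    rw [e1, e2, hg.qCoeff_one, if_neg (by norm_num)] at c1
    rw [e1, e2, if_pos dvd_rfl, show 2 / 2 = 1 from rfl, hg.qCoeff_one] at c2
    have hx : x = 0 := by linear_combination -c1
    subst hx
    exact ⟨rfl, by linear_combination (-1 / 2 : ℂ) * c2⟩
  obtain ⟨x, y, hxy⟩ := exists_eq_smul_add hdim g₁ g₂ hind f
  have h1 := hf.qCoeff_one
  rw [hxy, qCoeff_smul_add, e1, e2, hg.qCoeff_one, if_neg (by norm_num)] at h1
  rw [hxy, qCoeff_smul_add, e1, e2, if_neg hl, show x = 1 by linear_combination h1]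
  ring

/-- Eigenforms of a one-dimensional space coincide. -/
theorem eq_of_finrank_eq_one {N : ℕ} [NeZero N]
    (hdim : Module.finrank ℂ (CuspForm (Gamma0 N) 2) = 1) {g f : CuspForm (Gamma0 N) 2}
    (hg : g.IsNormalizedEigenform) (hf : f.IsNormalizedEigenform) : f = g := by
  obtain ⟨x, hx⟩ := (finrank_eq_one_iff_of_nonzero' g hg.ne_zero).mp hdim f
  have h1 := hf.qCoeff_one
  rw [← hx, ← FA.Deform.qLin_apply, map_smul, Pi.smul_apply, smul_eq_mul,
    FA.Deform.qLin_apply, hg.qCoeff_one, mul_one] at h1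
  rw [← hx, h1, one_smul]


/-- The eigenforms of levels dividing `14`, `22` and `26` are those of the four curves. -/
theorem exists_curve_of_eigenform_exact {q : ℕ} (hq : q = 7 ∨ q = 11 ∨ q = 13) {N : ℕ}
    (hN : N ∣ 2 * q) {f : CuspForm (Gamma0 N) 2} (hf : f.IsNormalizedEigenform) :
    ∃ E : WeierstrassCurve ℤ, (∀ l : ℕ, l.Prime → ¬ l ∣ 2 * q → E.IsGoodPrimeFor l) ∧
      E.Δ ≠ 0 ∧ (E.apOfModel 3 ∈ ({-3, -1, 1} : Finset ℤ) ∨ q = 7 ∧ E.apOfModel 3 = -2) ∧
      ∀ l : ℕ, l.Prime → ¬ l ∣ 2 * q →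
        ModularFormClass.qCoeff f l = (E.apOfModel l : ℂ) := by
  have hgood : ∀ (E : WeierstrassCurve ℤ) (q' i j : ℕ), q'.Prime →
      E.Δ = -(2 ^ i * (q' : ℤ) ^ j) → ∀ l : ℕ, l.Prime → ¬ l ∣ 2 * q' → E.IsGoodPrimeFor l := by
    intro E q' i j hq' h l hl hlq hd
    rw [h, dvd_neg] at hd
    have hl' : Prime (l : ℤ) := Nat.prime_iff_prime_int.mp hl
    rcases hl'.dvd_or_dvd hd with hd | hd
    · exact hlq (dvd_mul_of_dvd_left (by exact_mod_cast hl'.dvd_of_dvd_pow hd) q')
    · exact hlq (dvd_mul_of_dvd_right (by exact_mod_cast hl'.dvd_of_dvd_pow hd) 2)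
  have hNeZ : NeZero N := ⟨by rintro rfl; have := Nat.eq_zero_of_zero_dvd hN; omega⟩
  have hzero : ModularCurve.genusFormula N ≠ 0 := fun h =>
    hf.ne_zero (cuspForm_eq_zero_of_genusFormula h f)
  have hcases : (q = 7 ∧ N = 14) ∨ (q = 11 ∧ (N = 11 ∨ N = 22)) ∨ (q = 13 ∧ N = 26) := by
    have hle : N ≤ 26 := (Nat.le_of_dvd (by omega) hN).trans (by omega)
    have h1 : N ≠ 1 := fun h => hzero (h ▸ genusFormula_eq_zero (Or.inl rfl) (one_dvd 6))
    have h2 : N ≠ 2 := fun h => hzero (h ▸ genusFormula_eq_zero (Or.inl rfl) ⟨3, rfl⟩)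
    have h7 : N ≠ 7 := fun h => hzero (h ▸ genusFormula_7)
    have h13 : N ≠ 13 := fun h => hzero (h ▸ genusFormula_13)
    rcases hq with rfl | rfl | rfl <;> interval_cases N <;> omega
  have hdim : ∀ M : ℕ, [NeZero M] → ∀ d : ℕ, ModularCurve.genusFormula M = d →
      Module.finrank ℂ (CuspForm (Gamma0 M) 2) = d := fun M _ d h =>
    Nat.cast_inj.mp ((Fermat.Agent.S20.result M).trans h)
  obtain ⟨f11, hf11, hf11'⟩ := exists_eigenform (E := curve11) (by decide)
    (semistable_of_Δ (show Nat.Prime 11 by norm_num) (i := 0) (j := 1) (by decide) (Or.inl rfl)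
      (by decide))
    (N := 11) (by rw [curve11_Δ]; rfl) squarefree_eleven
  rcases hcases with ⟨rfl, rfl⟩ | ⟨rfl, rfl | rfl⟩ | ⟨rfl, rfl⟩
  · obtain ⟨g, hg, hgl⟩ := exists_eigenform (E := curve14) (by decide)
      (semistable_of_Δ (show Nat.Prime 7 by norm_num) (i := 6) (j := 3) curve14_Δ
        (Or.inr (by decide)) (by decide))
      (N := 2 * 7) (natAbs_primeFactors (by norm_num) (i := 6) (j := 3) curve14_Δ (by norm_num)
        (by norm_num)) squarefree_fourteen
    refine ⟨curve14, hgood _ _ _ _ (by norm_num) curve14_Δ, by decide,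
      Or.inr ⟨rfl, curve14_three⟩, fun l hl hlq => ?_⟩
    rw [eq_of_finrank_eq_one (hdim 14 1 (by simpa using genusFormula_14)) hg hf]
    exact hgl l hl hlq
  · refine ⟨curve11, hgood _ 11 0 1 (by norm_num) (by decide), by decide,
      Or.inl (by simp [curve11_three]), fun l hl hlq => ?_⟩
    rw [eq_of_finrank_eq_one (hdim 11 1 (by simpa using genusFormula_11)) hf11 hf]
    exact hf11' l hl fun hd => hlq (hd.mul_left 2)
  · refine ⟨curve11, hgood _ 11 0 1 (by norm_num) (by decide), by decide,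
      Or.inl (by simp [curve11_three]), fun l hl hlq => ?_⟩
    have h2l : ¬ 2 ∣ l := fun hd => hlq (((Nat.prime_dvd_prime_iff_eq Nat.prime_two hl).mp hd) ▸
      dvd_mul_right 2 11)
    rw [← hf11' l hl fun hd => hlq (hd.mul_left 2)]
    exact qCoeff_eq_of_old (M := 11) (hdim (11 * 2) 2 (by simpa using genusFormula_22)) hf11 hf h2l
  · obtain ⟨g₁, hg₁, hg₁l⟩ := exists_eigenform (E := curve26a) (by decide)
      (semistable_of_Δ (show Nat.Prime 13 by norm_num) (i := 3) (j := 3) curve26a_Δ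
        (Or.inr (by decide)) (by decide))
      (N := 2 * 13) (natAbs_primeFactors (by norm_num) (i := 3) (j := 3) curve26a_Δ (by norm_num)
        (by norm_num)) squarefree_twentysix
    obtain ⟨g₂, hg₂, hg₂l⟩ := exists_eigenform (E := curve26b) (by decide)
      (semistable_of_Δ (show Nat.Prime 13 by norm_num) (i := 7) (j := 1) (by decide)
        (Or.inr (by decide)) (by decide))
      (N := 2 * 13) (natAbs_primeFactors (by norm_num) (i := 7) (j := 1) (by decide) (by norm_num)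
        (by norm_num)) squarefree_twentysix
    have a1 : ModularFormClass.qCoeff g₁ 3 = 1 := by
      rw [hg₁l 3 Nat.prime_three (by norm_num), curve26a_three]; norm_num
    have b1 : ModularFormClass.qCoeff g₂ 3 = -3 := by
      rw [hg₂l 3 Nat.prime_three (by norm_num), curve26b_three]; norm_num
    have hind : ∀ x y : ℂ, x • g₁ + y • g₂ = 0 → x = 0 ∧ y = 0 := fun x y h => by
      have c1 := qCoeff_smul_add x y g₁ g₂ 1
      have c3 := qCoeff_smul_add x y g₁ g₂ 3
      rw [h, ← FA.Deform.qLin_apply, map_zero, Pi.zero_apply] at c1 c3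
      rw [hg₁.qCoeff_one, hg₂.qCoeff_one] at c1
      rw [a1, b1] at c3
      exact ⟨by linear_combination (-3 / 4 : ℂ) * c1 + (-1 / 4 : ℂ) * c3,
        by linear_combination (-1 / 4 : ℂ) * c1 + (1 / 4 : ℂ) * c3⟩
    obtain ⟨x, y, hxy⟩ :=
      exists_eq_smul_add (hdim (2 * 13) 2 (by simpa using genusFormula_26)) g₁ g₂ hind f
    have sq : ∀ g : CuspForm (Gamma0 (2 * 13)) 2, g.IsNormalizedEigenform →
        ModularFormClass.qCoeff g 9 = ModularFormClass.qCoeff g 3 ^ 2 - 3 := fun g hg => by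
      have h := hg.qCoeff_prime_pow_of_not_dvd 3 0 Nat.prime_three (by norm_num)
      simp only [zero_add, pow_one, pow_zero, hg.qCoeff_one] at h
      rw [show (9 : ℕ) = 3 ^ 2 by norm_num, h]
      push_cast
      ring
    have h1 := hf.qCoeff_one
    rw [hxy, qCoeff_smul_add, hg₁.qCoeff_one, hg₂.qCoeff_one] at h1
    have h9 := sq f hf
    rw [hxy, qCoeff_smul_add, qCoeff_smul_add, sq g₁ hg₁, sq g₂ hg₂, a1, b1] at h9
    have hy : y * (y - 1) = 0 := by
      rw [show x = 1 - y by linear_combination h1] at h9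
      linear_combination (-1 / 16 : ℂ) * h9
    rcases mul_eq_zero.mp hy with hy | hy
    · refine ⟨curve26a, hgood _ _ _ _ (by norm_num) curve26a_Δ, by decide,
        Or.inl (by simp [curve26a_three]), fun l hl hlq => ?_⟩
      rw [hxy, qCoeff_smul_add, hy, show x = 1 by linear_combination h1 - hy, hg₁l l hl hlq]
      ring
    · refine ⟨curve26b, hgood _ 13 7 1 (by norm_num) (by decide), by decide,
        Or.inl (by simp [curve26b_three]), fun l hl hlq => ?_⟩
      rw [hxy, qCoeff_smul_add, show y = 1 by linear_combination hy,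
        show x = 0 by linear_combination h1 - hy, hg₂l l hl hlq]
      ring

/-- The curve of an eigenform of level dividing `2 q`, with its trace at `3`. -/
theorem exists_curve_of_eigenform {q : ℕ} (hq : q = 7 ∨ q = 11 ∨ q = 13) {N : ℕ}
    (hN : N ∣ 2 * q) {f : CuspForm (Gamma0 N) 2} (hf : f.IsNormalizedEigenform) :
    ∃ E : WeierstrassCurve ℤ, (∀ l : ℕ, l.Prime → ¬ l ∣ 2 * q → E.IsGoodPrimeFor l) ∧
      E.Δ ≠ 0 ∧ E.apOfModel 3 ∈ ({-3, -2, -1, 1} : Finset ℤ) ∧
      ∀ l : ℕ, l.Prime → ¬ l ∣ 2 * q →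
        ModularFormClass.qCoeff f l = (E.apOfModel l : ℂ) := by
  obtain ⟨E, hgood, hΔ, h3, hf'⟩ := exists_curve_of_eigenform_exact hq hN hf
  refine ⟨E, hgood, hΔ, ?_, hf'⟩
  simp only [Finset.mem_insert, Finset.mem_singleton] at h3 ⊢
  omega

/-- An integer of a maximal ideal over `p` is divisible by `p`. -/
theorem dvd_of_intCast_mem {p : ℕ} (hp : p.Prime) {𝔪 : Ideal (integralClosure ℤ ℂ)}
    (hm : 𝔪.IsMaximal) (hpm : (p : integralClosure ℤ ℂ) ∈ 𝔪) {n : ℤ}
    (hn : (n : integralClosure ℤ ℂ) ∈ 𝔪) : (p : ℤ) ∣ n := by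
  by_contra hd
  obtain ⟨u, v, huv⟩ := (Nat.prime_iff_prime_int.mp hp).coprime_iff_not_dvd.mpr hd
  refine hm.ne_top ((Ideal.eq_top_iff_one _).mpr ?_)
  have h := congrArg (Int.cast : ℤ → integralClosure ℤ ℂ) huv
  push_cast at h
  rw [← h]
  exact 𝔪.add_mem (𝔪.mul_mem_left _ hpm) (𝔪.mul_mem_left _ hn)

/-- The congruence between a curve residually attached to an eigenform with the coefficients of
`E` and `E`. -/
theorem dvd_apOfModel_sub {W E : WeierstrassCurve ℤ} {p m N : ℕ} (hp : p.Prime) (hN : N ∣ m)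
    {f : CuspForm (Gamma0 N) 2} {𝔪 : Ideal (integralClosure ℤ ℂ)} (hm : 𝔪.IsMaximal)
    (hpm : (p : integralClosure ℤ ℂ) ∈ 𝔪)
    (hcong : ∀ l : ℕ, l.Prime → W.IsGoodPrimeFor l → ¬ l ∣ N → l ≠ p →
      ∃ a : integralClosure ℤ ℂ, (a : ℂ) = ModularFormClass.qCoeff f l ∧
        a - ((W.apOfModel l : ℤ) : integralClosure ℤ ℂ) ∈ 𝔪)
    (hEf : ∀ l : ℕ, l.Prime → ¬ l ∣ m → ModularFormClass.qCoeff f l = (E.apOfModel l : ℂ))
    {l : ℕ} (hl : l.Prime) (hlm : ¬ l ∣ m) (hgood : W.IsGoodPrimeFor l) (hlp : l ≠ p) :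
    (p : ℤ) ∣ E.apOfModel l - W.apOfModel l := by
  obtain ⟨x, hx, hxm⟩ := hcong l hl hgood (fun hd => hlm (hd.trans hN)) hlp
  have : x = (E.apOfModel l : integralClosure ℤ ℂ) := Subtype.ext (by
    rw [hx, hEf l hl hlm]; simp)
  refine dvd_of_intCast_mem hp hm hpm ?_
  rw [Int.cast_sub]
  rwa [this] at hxm

/-- No curve of a solution is congruent to one with these traces at `3`. -/
theorem false_of_congruent_three {p : ℕ} (hp : p.Prime) (h11 : 11 ≤ p) {q : ℕ} (hq0 : q ≠ 0)
    {A B : ℤ} (hA : A % 4 = 3) (hB : (16 : ℤ) ∣ B) (hcop : IsCoprime A B)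
    (hne : A * B * (A + B) ≠ 0) {E : WeierstrassCurve ℤ} (hEΔ : E.Δ ≠ 0)
    (hEgood : ∀ l : ℕ, l.Prime → ¬ l ∣ 2 * q → E.IsGoodPrimeFor l) (h3 : ¬ 3 ∣ 2 * q)
    (hE3 : E.apOfModel 3 ∈ ({-3, -2, -1, 1} : Finset ℤ))
    (hdvd : ∀ l : ℕ, l.Prime → ¬ l ∣ 2 * q → (curve A B).IsGoodPrimeFor l → l ≠ p →
      (p : ℤ) ∣ E.apOfModel l - (curve A B).apOfModel l) : False := by
  have := Fact.mk hp
  by_cases hgood : (curve A B).IsGoodPrimeFor 3
  · have h := hdvd 3 Nat.prime_three h3 hgood (by omega)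
    rw [apOfModel_three_curve hA hB hgood, sub_zero] at h
    have := Int.natCast_dvd.mp h
    simp only [Finset.mem_insert, Finset.mem_singleton] at hE3
    rcases hE3 with e | e | e | e <;> rw [e] at this <;>
      have := Nat.le_of_dvd (by norm_num) this <;> simp at this <;> omega
  · have h := dvd_apOfModel_sub_or_add (by omega) (curve_Δ_ne_zero hA hB hne)
      (curve_semistable hA hB hcop) hEΔ (2 * q).primeFactors
      (fun l hl hlS hWg _ hlp => dvd_sub_comm.mp (hdvd l hl (fun hd => hlS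
        (Nat.mem_primeFactors.mpr ⟨hl, hd, mul_ne_zero two_ne_zero hq0⟩)) hWg hlp))
      Nat.prime_three (by omega) (not_not.mp hgood) (hEgood 3 Nat.prime_three h3)
    simp only [Finset.mem_insert, Finset.mem_singleton] at hE3
    rcases h with h | h <;> rcases hE3 with e | e | e | e <;> rw [e] at h <;>
      have := Nat.le_of_dvd (by norm_num) (Int.natCast_dvd.mp h) <;> simp at this <;> omega

/-- **`a ^ p + b ^ p + q ^ α c ^ p ≠ 0`** for `q = 7, 11, 13`, a prime `p ≥ 11` other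
than `13` and `q`, `a` and `b` coprime. -/
theorem pow_add_pow_add_pow_mul_pow_ne_zero_of_seven_le {p : ℕ} (hp : p.Prime)
    (h11 : 11 ≤ p) (h13 : p ≠ 13) {q : ℕ} (hq : q = 7 ∨ q = 11 ∨ q = 13) (hpq : q ≠ p) {α : ℕ}
    {a b c : ℤ} (ha : a ≠ 0) (hb : b ≠ 0)
    (hc : c ≠ 0) (hab : IsCoprime a b) : a ^ p + b ^ p + (q : ℤ) ^ α * c ^ p ≠ 0 := by
  intro heq
  have := Fact.mk hp
  obtain ⟨A, B, hA, h32, hcop, hne, N, hN, f, 𝔪, hf, hm, hpm, hcong⟩ :=
    exists_level hp h11 h13 (by rcases hq with rfl | rfl | rfl <;> norm_num) (by omega) hpq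
      ha hb hc hab heq
  have hB : (16 : ℤ) ∣ B := (show (16 : ℤ) ∣ 32 by norm_num).trans h32
  obtain ⟨E, hEgood, hEΔ, hE3, hEf⟩ := exists_curve_of_eigenform hq hN hf
  exact false_of_congruent_three hp h11 (by omega) hA hB hcop hne hEΔ hEgood
    (by rcases hq with rfl | rfl | rfl <;> norm_num) hE3
    fun l hl hlq hgood hlp => dvd_apOfModel_sub hp hN hm hpm hcong hEf hl hlq hgood hlp

/-- **Serre's equation `a ^ p + b ^ p + q ^ α c ^ p = 0`** has no solution for `q = 3, 5, 7, 11, 13`,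
a prime `p ≥ 11` other than `13` and `q`, nonzero integers with `a` and `b` coprime. -/
theorem serre_equation_of_eleven_le {p : ℕ} (hp : p.Prime) (h11 : 11 ≤ p) (h13 : p ≠ 13) {q : ℕ}
    (hq : q = 3 ∨ q = 5 ∨ q = 7 ∨ q = 11 ∨ q = 13) (hpq : q ≠ p) {α : ℕ} {a b c : ℤ} (ha : a ≠ 0)
    (hb : b ≠ 0) (hc : c ≠ 0) (hab : IsCoprime a b) :
    a ^ p + b ^ p + (q : ℤ) ^ α * c ^ p ≠ 0 := by
  rcases hq with h | h | h
  · exact pow_add_pow_add_pow_mul_pow_ne_zero hp h11 h13 (Or.inl h) ha hb hc hab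
  · exact pow_add_pow_add_pow_mul_pow_ne_zero hp h11 h13 (Or.inr h) ha hb hc hab
  · exact pow_add_pow_add_pow_mul_pow_ne_zero_of_seven_le hp h11 h13 h hpq ha hb hc hab

end FA.Ribet

end
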