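import Fermat.Agent.Ribet.SerreImage
import Fermat.Agent.Root.SummaryDiscriminant
import Fermat.Agent.TW.Primes

/-!
# The mod `p` representation of a semistable curve is surjective

For a semistable equation and a prime `p ≥ 11` other than `13` the image is irreducible, contains
an element of order `p` by the level lowering bound on the discriminant, and has every
determinant; hence it is all of `GL₂(𝔽_p)`.
-/

set_option autoImplicit false
set_option linter.unusedSectionVars false
set_option linter.style.haveILetI false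

noncomputable section

open Matrix WeierstrassCurve FA.EC FA.Frob FA.RT
open scoped WeierstrassCurve.Affine

namespace FA.Ribet

local notation "Qb" => AlgebraicClosure ℚ
local notation "GQ" => AlgebraicClosure ℚ ≃ₐ[ℚ] AlgebraicClosure ℚ
local notation "M2" => Matrix (Fin 2) (Fin 2)

section Matrices

variable {k : Type} [Field k]

/-- Elementary matrices generate the matrices of determinant one. -/
theorem mem_of_elementary_field (S : Submonoid (M2 k))
    (hU : ∀ z, (!![1, z; 0, 1] : M2 k) ∈ S) (hL : ∀ z, (!![1, 0; z, 1] : M2 k) ∈ S) {M : M2 k}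
    (h : M.det = 1) : M ∈ S := by
  have key : ∀ M : M2 k, M.det = 1 → M 1 0 ≠ 0 → M ∈ S := fun M h hc => by
    rw [det_fin_two] at h
    have e : M = !![1, (M 0 0 - 1) / M 1 0; 0, 1] * !![1, 0; M 1 0, 1] *
        !![1, (M 1 1 - 1) / M 1 0; 0, 1] := by
      ext i j
      fin_cases i <;> fin_cases j <;> simp [Matrix.mul_apply, Fin.sum_univ_two, hc]
      · field_simp; linear_combination -h
      · field_simp; ring
    rw [e]
    exact S.mul_mem (S.mul_mem (hU _) (hL _)) (hU _)
  by_cases hc : M 1 0 = 0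
  · have h00 : M 0 0 ≠ 0 := fun e => by
      rw [det_fin_two, e, hc] at h; simp at h
    have hd : ((!![1, 0; 1, 1] : M2 k) * M).det = 1 := by
      rw [det_mul, h, mul_one]; simp [det_fin_two]
    have hne : ((!![1, 0; 1, 1] : M2 k) * M) 1 0 ≠ 0 := by
      simpa [Matrix.mul_apply, Fin.sum_univ_two, hc] using h00
    have e : M = !![1, 0; -1, 1] * (!![1, 0; 1, 1] * M) := by
      rw [← mul_assoc, show (!![1, 0; -1, 1] : M2 k) * !![1, 0; 1, 1] = 1 by simp [one_fin_two],
        one_mul]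
    rw [e]
    exact S.mul_mem (hL _) (key _ hd hne)
  · exact key M h hc

/-- A nilpotent matrix of size two squares to zero. -/
theorem sq_eq_zero_of_pow_eq_zero {N : M2 k} {n : ℕ} (h : N ^ (n + 1) = 0) : N * N = 0 := by
  have hd : N.det = 0 := by
    have h1 := congrArg Matrix.det h
    rw [det_pow, det_zero] at h1
    exact (pow_eq_zero_iff n.succ_ne_zero).mp h1
  have hmul : N * N = N.trace • N := by
    rw [FA.LocalDef.mul_self_two N, hd, zero_smul, sub_zero]
  have hpow : ∀ m : ℕ, N ^ (m + 1) = N.trace ^ m • N := fun m => by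
    induction m with
    | zero => rw [pow_one, pow_zero, one_smul]
    | succ m ih => rw [pow_succ, ih, smul_mul_assoc, hmul, smul_smul, ← pow_succ]
  rcases smul_eq_zero.mp ((hpow n).symm.trans h) with ht | hN
  · rw [hmul, eq_zero_of_pow_eq_zero ht, zero_smul]
  · rw [hN, mul_zero]

/-- A unipotent matrix fixing the first coordinate vector is upper triangular. -/
theorem eq_upper_of_fix {N : M2 k} (h : N *ᵥ ![1, 0] = ![1, 0]) (hsq : (N - 1) * (N - 1) = 0) :
    N = !![1, N 0 1; 0, 1] := by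
  have h0 := congrFun h 0
  have h1 := congrFun h 1
  have h2 := congrFun (congrFun hsq 1) 1
  simp [Matrix.mulVec, dotProduct] at h0 h1
  simp [Matrix.mul_apply, Fin.sum_univ_two, h1, sub_eq_zero] at h2
  conv_lhs => rw [eta_fin_two N, h0, h1, h2]

/-- A unipotent matrix fixing the second coordinate vector is lower triangular. -/
theorem eq_lower_of_fix {N : M2 k} (h : N *ᵥ ![0, 1] = ![0, 1]) (hsq : (N - 1) * (N - 1) = 0) :
    N = !![1, 0; N 1 0, 1] := by
  have h0 := congrFun h 0
  have h1 := congrFun h 1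
  have h2 := congrFun (congrFun hsq 0) 0
  simp [Matrix.mulVec, dotProduct] at h0 h1
  simp [Matrix.mul_apply, Fin.sum_univ_two, h0, sub_eq_zero] at h2
  conv_lhs => rw [eta_fin_two N, h0, h1, h2]

end Matrices

variable {p : ℕ} [hp : Fact p.Prime]

/-- **An irreducible image with a transvection and every determinant is all of `GL₂(𝔽_p)`.** -/
theorem exists_eq_of_transvection {G : Type*} [Group G] (r : G →* M2 (ZMod p))
    (hirr : ∀ l : Fin 2 → ZMod p, l ≠ 0 → ∃ g, ∀ a : ZMod p, r g *ᵥ l ≠ a • l)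
    (hdet : ∀ a : ZMod p, a ≠ 0 → ∃ g, (r g).det = a) {σ : G} (hne : r σ ≠ 1)
    (hsq : (r σ - 1) * (r σ - 1) = 0) {M : M2 (ZMod p)} (hM : M.det ≠ 0) : ∃ g, r g = M := by
  -- a fixed line and a conjugate moving it
  obtain ⟨v, hv⟩ : ∃ v, (r σ - 1) *ᵥ v ≠ 0 := by
    by_contra hall
    push Not at hall
    exact hne (sub_eq_zero.mp (Matrix.ext_of_mulVec_single fun i => by rw [hall, zero_mulVec]))
  obtain ⟨g, hg⟩ := hirr _ hv
  have he : r σ *ᵥ ((r σ - 1) *ᵥ v) = (r σ - 1) *ᵥ v := by
    have h := mulVec_mulVec v (r σ - 1) (r σ - 1)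
    rw [hsq, zero_mulVec, sub_mulVec, one_mulVec] at h
    exact sub_eq_zero.mp h
  generalize (r σ - 1) *ᵥ v = e at hv hg he
  obtain ⟨f, hf⟩ : ∃ f, r g *ᵥ e = f := ⟨_, rfl⟩
  have hf2 : r (g * σ * g⁻¹) *ᵥ f = f := by
    have h1 : r g⁻¹ * r g = 1 := by rw [← map_mul, inv_mul_cancel, map_one]
    conv_lhs => rw [← hf, map_mul, map_mul, mulVec_mulVec, mul_assoc, h1, mul_one, ← mulVec_mulVec,
      he, hf]
  let P : M2 (ZMod p) := !![e 0, f 0; e 1, f 1]
  have hP : P.det ≠ 0 := fun h0 => by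
    simp [P, det_fin_two] at h0
    rw [hf] at hg
    by_cases h : e 0 = 0
    · have h1 : e 1 ≠ 0 := fun h1 => hv (funext fun i => by fin_cases i <;> assumption)
      refine hg (f 1 / e 1) (funext fun i => ?_)
      fin_cases i <;> simp
      · field_simp; linear_combination -h0
      · field_simp
    · refine hg (f 0 / e 0) (funext fun i => ?_)
      fin_cases i <;> simp
      · field_simp
      · field_simp; linear_combination h0
  have hU : IsUnit P.det := isUnit_iff_ne_zero.mpr hP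
  have hPQ : P * P⁻¹ = 1 := Matrix.mul_nonsing_inv P hU
  have hQP : P⁻¹ * P = 1 := Matrix.nonsing_inv_mul P hU
  have hPe : P *ᵥ ![1, 0] = e := funext fun i => by
    fin_cases i <;> simp [P, Matrix.mulVec, dotProduct]
  have hPf : P *ᵥ ![0, 1] = f := funext fun i => by
    fin_cases i <;> simp [P, Matrix.mulVec, dotProduct]
  generalize P⁻¹ = Q at hPQ hQP
  clear_value P
  -- the representation in the basis `e, f`
  obtain ⟨ψ, hψ⟩ : ∃ ψ : G →* M2 (ZMod p), ∀ h, ψ h = Q * r h * P :=
    ⟨{ toFun := fun h => Q * r h * P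
       map_one' := by rw [map_one, mul_one, hQP]
       map_mul' := fun a b => by
        rw [map_mul, show Q * r a * P * (Q * r b * P) = Q * r a * (P * Q) * r b * P by
          simp only [mul_assoc], hPQ, mul_one]
        simp only [mul_assoc] }, fun h => rfl⟩
  have hback : ∀ h : G, P * ψ h * Q = r h := fun h => by
    rw [hψ, show P * (Q * r h * P) * Q = P * Q * r h * (P * Q) by simp only [mul_assoc], hPQ,
      one_mul, mul_one]
  have hψsq : ∀ h : G, (r h - 1) * (r h - 1) = 0 → (ψ h - 1) * (ψ h - 1) = 0 := fun h h0 => by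
    have e1 : ψ h - 1 = Q * (r h - 1) * P := by
      rw [hψ, mul_sub, sub_mul, mul_one, hQP]
    rw [e1, show Q * (r h - 1) * P * (Q * (r h - 1) * P) =
      Q * ((r h - 1) * (P * Q) * (r h - 1)) * P by simp only [mul_assoc], hPQ, mul_one, h0,
      mul_zero, zero_mul]
  have hfix : ∀ (h : G) (w : Fin 2 → ZMod p), r h *ᵥ (P *ᵥ w) = P *ᵥ w → ψ h *ᵥ w = w :=
    fun h w hw => by
      rw [hψ, ← mulVec_mulVec, ← mulVec_mulVec, hw, mulVec_mulVec, hQP, one_mulVec]
  have hψne : ψ σ ≠ 1 := fun h => hne <| by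
    rw [← hback, h, mul_one, hPQ]
  have hsq2 : (r (g * σ * g⁻¹) - 1) * (r (g * σ * g⁻¹) - 1) = 0 := by
    have h1 : r g * r g⁻¹ = 1 := by rw [← map_mul, mul_inv_cancel, map_one]
    have h2 : r g⁻¹ * r g = 1 := by rw [← map_mul, inv_mul_cancel, map_one]
    have e1 : r (g * σ * g⁻¹) - 1 = r g * (r σ - 1) * r g⁻¹ := by
      rw [map_mul, map_mul, mul_sub, sub_mul, mul_one, h1]
    rw [e1, show r g * (r σ - 1) * r g⁻¹ * (r g * (r σ - 1) * r g⁻¹) =
      r g * ((r σ - 1) * (r g⁻¹ * r g) * (r σ - 1)) * r g⁻¹ by simp only [mul_assoc],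
      h2, mul_one, hsq, mul_zero, zero_mul]
  obtain ⟨b, hb⟩ : ∃ b, ψ σ = !![1, b; 0, 1] :=
    ⟨_, eq_upper_of_fix (hfix σ _ (by rw [hPe, he])) (hψsq σ hsq)⟩
  obtain ⟨c, hc⟩ : ∃ c, ψ (g * σ * g⁻¹) = !![1, 0; c, 1] :=
    ⟨_, eq_lower_of_fix (hfix _ _ (by rw [hPf, hf2])) (hψsq _ hsq2)⟩
  have hb0 : b ≠ 0 := fun e => hψne (by rw [hb, e, one_fin_two])
  have hc0 : c ≠ 0 := fun e => hψne (by
    have h1 : ψ g⁻¹ * ψ (g * σ * g⁻¹) * ψ g = ψ σ := by
      rw [← map_mul, ← map_mul]; congr 1; group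
    rw [← h1, hc, e, ← one_fin_two, mul_one, ← map_mul, inv_mul_cancel, map_one])
  have hup : ∀ n : ℕ, (!![1, b; 0, 1] : M2 (ZMod p)) ^ n = !![1, n * b; 0, 1] := fun n => by
    induction n with
    | zero => simp [one_fin_two]
    | succ n ih =>
      rw [pow_succ, ih]
      ext i j
      fin_cases i <;> fin_cases j <;> simp [Matrix.mul_apply, Fin.sum_univ_two]
      ring
  have hlow : ∀ n : ℕ, (!![1, 0; c, 1] : M2 (ZMod p)) ^ n = !![1, 0; n * c, 1] := fun n => by
    induction n with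
    | zero => simp [one_fin_two]
    | succ n ih =>
      rw [pow_succ, ih]
      ext i j
      fin_cases i <;> fin_cases j <;> simp [Matrix.mul_apply, Fin.sum_univ_two]
      ring
  have hSU : ∀ z, (!![1, z; 0, 1] : M2 (ZMod p)) ∈ MonoidHom.mrange ψ := fun z =>
    ⟨σ ^ (z / b).val, by rw [map_pow, hb, hup, ZMod.natCast_zmod_val, div_mul_cancel₀ z hb0]⟩
  have hSL : ∀ z, (!![1, 0; z, 1] : M2 (ZMod p)) ∈ MonoidHom.mrange ψ := fun z =>
    ⟨(g * σ * g⁻¹) ^ (z / c).val,
      by rw [map_pow, hc, hlow, ZMod.natCast_zmod_val, div_mul_cancel₀ z hc0]⟩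
  obtain ⟨h, hh⟩ := hdet M.det hM
  have hconj : ∀ X : M2 (ZMod p), (Q * X * P).det = X.det := fun X => by
    rw [det_mul, det_mul, mul_comm, ← mul_assoc, ← det_mul, hPQ, det_one, one_mul]
  have hd : (ψ h⁻¹ * (Q * M * P)).det = 1 := by
    rw [det_mul, hconj, ← hh, ← hconj (r h), ← hψ, ← det_mul, ← map_mul, inv_mul_cancel, map_one,
      det_one]
  obtain ⟨t, ht⟩ := mem_of_elementary_field _ hSU hSL hd
  refine ⟨h * t, ?_⟩
  rw [← hback, map_mul, ht, ← mul_assoc (ψ h), ← map_mul, mul_inv_cancel, map_one, one_mul,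
    show P * (Q * M * P) * Q = P * Q * M * (P * Q) by simp only [mul_assoc], hPQ, one_mul, mul_one]

variable {W : WeierstrassCurve ℤ} [(ratCurve W).IsElliptic]

/-- An irreducible representation moves every line. -/
theorem exists_moves_line (hirr : W.ModRepIsIrreducible p) {l : Fin 2 → ZMod p} (hl : l ≠ 0) :
    ∃ g, ∀ a : ZMod p, curveRep p W g *ᵥ l ≠ a • l := by
  by_contra hcon
  push Not at hcon
  let b := (torsBasis (p := p) W).equivFun
  obtain ⟨x, rfl⟩ := b.surjective l
  have hx : x ≠ 0 := b.map_ne_zero_iff.mp hl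
  rcases hirr.2 (Submodule.span (ZMod p) {x}) (fun σ y hy => by
    obtain ⟨c, rfl⟩ := Submodule.mem_span_singleton.mp hy
    obtain ⟨a, ha⟩ := hcon σ
    rw [toMatrix_mulVec, ← map_smul] at ha
    have := b.injective ha
    refine Submodule.mem_span_singleton.mpr ⟨c * a, ?_⟩
    rw [smul_comm σ c x, this, smul_smul]) with h | h
  · exact hx (Submodule.span_singleton_eq_bot.mp h)
  · have h1 := finrank_span_singleton (K := ZMod p) hx
    rw [h, finrank_top, finrank_torsion (ratCurve W) p] at h1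
    omega

/-- **An irreducible image contains a transvection**, `p` odd: inertia at a bad prime whose
exponent in the discriminant is prime to `p`. -/
theorem exists_transvection_of_irreducible (hΔ : W.Δ ≠ 0) (hW : W.IsSemistableModel)
    (hp2 : p ≠ 2) (hirr : W.ModRepIsIrreducible p) :
    ∃ σ : GQ, curveRep p W σ ≠ 1 ∧ (curveRep p W σ - 1) * (curveRep p W σ - 1) = 0 := by
  obtain ⟨q, hqp, hbad, hv⟩ := FA.Root.exists_exponent_not_dvd hΔ hW hp2 hirr
  obtain ⟨A, hA⟩ := FA.Deform.exists_liesOverPrime hqp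
  have hcard : p ∣ Nat.card ((A.inertiaSubgroupIn ℚ).map (curveRep p W).toHomUnits) := by
    by_contra h
    exact hv (dvd_padicValInt_of_not_dvd_card ⟨hΔ, hqp, hbad, hW q hqp hbad, hA⟩ hp2 h)
  obtain ⟨u, hu⟩ := exists_prime_orderOf_dvd_card' p hcard
  obtain ⟨σ, -, hσ⟩ := Subgroup.mem_map.mp u.2
  have ho : orderOf ((curveRep p W).toHomUnits σ) = p := by rw [hσ, Subgroup.orderOf_coe, hu]
  refine ⟨σ, fun h => hp.out.ne_one ?_, ?_⟩
  · rw [← ho, orderOf_eq_one_iff]
    exact Units.ext (by rw [MonoidHom.coe_toHomUnits, h, Units.val_one])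
  · have hpow : curveRep p W σ ^ p = 1 := by
      rw [← MonoidHom.coe_toHomUnits, ← Units.val_pow_eq_pow_val,
        (orderOf_dvd_iff_pow_eq_one (x := (curveRep p W).toHomUnits σ)).mp (dvd_of_eq ho),
        Units.val_one]
    refine sq_eq_zero_of_pow_eq_zero (n := p - 1) ?_
    rw [show p - 1 + 1 = p by have := hp.out.two_le; omega,
      sub_pow_char_of_commute p (Commute.one_right _), one_pow, hpow, sub_self]

/-- For odd `p` an irreducible image is everything. -/
theorem exists_curveRep_eq_of_irreducible_odd (hΔ : W.Δ ≠ 0) (hW : W.IsSemistableModel)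
    (hp2 : p ≠ 2) (hirr : W.ModRepIsIrreducible p) {M : M2 (ZMod p)} (hM : M.det ≠ 0) :
    ∃ σ : GQ, curveRep p W σ = M := by
  obtain ⟨σ, hne, hsq⟩ := exists_transvection_of_irreducible hΔ hW hp2 hirr
  refine exists_eq_of_transvection (curveRep p W) (fun l hl => exists_moves_line hirr hl)
    (fun a ha => ?_) hne hsq hM
  obtain ⟨g, hg⟩ := FA.TW.exists_cyclotomic_action hp.out (a := a.val) fun hd => ha <| by
    rw [← ZMod.natCast_zmod_val a, (ZMod.natCast_eq_zero_iff _ _).mpr hd]
  exact ⟨g, by rw [det_curveRep W g a.val hg, ZMod.natCast_zmod_val]⟩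

/-- **Serre surjectivity**: for a semistable equation and a prime `p ≥ 11` other than `13` every
invertible matrix is the image of an automorphism of `ℚ̄`. -/
theorem exists_curveRep_eq (hΔ : W.Δ ≠ 0) (hW : W.IsSemistableModel) (h11 : 11 ≤ p)
    (h13 : p ≠ 13) {M : M2 (ZMod p)} (hM : M.det ≠ 0) : ∃ σ : GQ, curveRep p W σ = M :=
  exists_curveRep_eq_of_irreducible_odd hΔ hW (by omega)
    (modRepIsIrreducible_of_semistable hΔ hW hp.out h11 h13) hM

/-- If every invertible matrix is in the image, every automorphism of the `p`-torsion comes from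
Galois. -/
theorem exists_smul_eq_of_curveRep
    (h : ∀ M : M2 (ZMod p), M.det ≠ 0 → ∃ σ : GQ, curveRep p W σ = M)
    (φ : Submodule.torsionBy ℤ ((ratCurve W)⁄Qb).Point (p : ℤ) ≃+
      Submodule.torsionBy ℤ ((ratCurve W)⁄Qb).Point (p : ℤ)) :
    ∃ σ : GQ, ∀ x, σ • x.1 = (φ x).1 := by
  set b := torsBasis (p := p) W
  let L : Submodule.torsionBy ℤ ((ratCurve W)⁄Qb).Point (p : ℤ) →ₗ[ZMod p]
      Submodule.torsionBy ℤ ((ratCurve W)⁄Qb).Point (p : ℤ) :=
    φ.toAddMonoidHom.toZModLinearMap p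
  have hdet : (LinearMap.toMatrix b b L).det ≠ 0 := by
    rw [LinearMap.det_toMatrix]
    exact (LinearEquiv.isUnit_det' (LinearEquiv.ofBijective L φ.bijective)).ne_zero
  obtain ⟨σ, hσ⟩ := h _ hdet
  rw [curveRep_apply] at hσ
  exact ⟨σ, fun x =>
    congrArg Subtype.val (LinearMap.congr_fun ((LinearMap.toMatrix b b).injective hσ) x)⟩

end FA.Ribet

end
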