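import Fermat.Agent.Ribet.Asymptotic
import Fermat.Agent.Period.Integral

/-!
# The conjugates of a Hecke eigenvalue

The minimal polynomial of `T_l` on `S₂(Γ₀(N))` is invariant under the automorphisms of `ℂ`, as
`T_l` preserves the integral lattice, so it is rational. Hence all the conjugates of an eigenvalue
are eigenvalues; they are bounded by `l + 1`, and their number by the dimension.
-/

set_option autoImplicit false
set_option linter.unusedSectionVars false

noncomputable section

open UpperHalfPlane CongruenceSubgroup Polynomial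
open scoped MatrixGroups

namespace FA.Ribet

local notation "ZB" => integralClosure ℤ ℂ

variable {N : ℕ} [NeZero N] {l : ℕ} (hl : l.Prime) (hlN : ¬ l ∣ N)

/-- `S₂(Γ₀(N))` is finite dimensional. -/
instance finiteDimensional_cuspTwo : FiniteDimensional ℂ (CuspForm (Gamma0 N) 2) :=
  FA.ModularForms.finiteDimensional_S2 N

/-- The coefficients of the images of a lattice vector under powers of `T_l` are integers. -/
theorem exists_int_qCoeff_pow {g : CuspForm (Gamma0 N) 2} (hg : g ∈ CuspForm.intLattice N 2)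
    (i n : ℕ) :
    ∃ m : ℤ, ModularFormClass.qCoeff ((CuspForm.heckeTLin 2 hl hlN ^ i) g) n = (m : ℂ) := by
  have h : (CuspForm.heckeTLin 2 hl hlN ^ i) g ∈ CuspForm.intLattice N 2 :=
    CuspForm.mem_intLattice_of_mem_heckeAlgebra (S := (∅ : Set ℕ)) (by norm_num)
      (pow_mem (CuspForm.heckeAlgebra.T (k := 2) hl hlN (Set.notMem_empty _)).2 i) hg
  refine Submodule.span_induction (fun x hx => hx n) ⟨0, ?_⟩ (fun x y _ _ ⟨a, ha⟩ ⟨b, hb⟩ =>
    ⟨a + b, ?_⟩) (fun c x _ ⟨a, ha⟩ => ⟨c * a, ?_⟩) h
  · simp only [← FA.Deform.qLin_apply, map_zero, Pi.zero_apply, Int.cast_zero]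
  · simp only [← FA.Deform.qLin_apply, map_add, Pi.add_apply] at ha hb ⊢
    rw [ha, hb, Int.cast_add]
  · simp only [← FA.Deform.qLin_apply, map_zsmul, Pi.smul_apply] at ha ⊢
    rw [ha, Int.cast_mul, zsmul_eq_mul]

/-- The minimal polynomial of `T_l` is fixed by the automorphisms of `ℂ`. -/
theorem minpoly_heckeT_map (σ : ℂ ≃+* ℂ) :
    (minpoly ℂ (CuspForm.heckeTLin 2 hl hlN : Module.End ℂ (CuspForm (Gamma0 N) 2))).map
      σ.toRingHom = minpoly ℂ (CuspForm.heckeTLin 2 hl hlN) := by
  set T : Module.End ℂ (CuspForm (Gamma0 N) 2) := CuspForm.heckeTLin 2 hl hlN with hT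
  set P := minpoly ℂ T with hP
  have hint : IsIntegral ℂ T := Algebra.IsIntegral.isIntegral T
  have key : ∀ (Q : ℂ[X]) (g : CuspForm (Gamma0 N) 2) (n : ℕ),
      ModularFormClass.qCoeff (aeval T Q g) n =
        Q.sum fun i c => c * ModularFormClass.qCoeff ((T ^ i) g) n := fun Q g n => by
    induction Q using Polynomial.induction_on' with
    | add P Q hP hQ =>
      simp only [← FA.Deform.qLin_apply, map_add, LinearMap.add_apply, Pi.add_apply] at hP hQ ⊢
      rw [hP, hQ, Polynomial.sum_add_index] <;> intros <;> simp [add_mul]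
    | monomial i c =>
      rw [aeval_monomial, ← Algebra.smul_def, LinearMap.smul_apply]
      rw [Polynomial.sum_monomial_index c _ (zero_mul _)]
      simp only [← FA.Deform.qLin_apply, map_smul, Pi.smul_apply, smul_eq_mul]
  have h0 : aeval T (P.map σ.toRingHom) = 0 := by
    refine LinearMap.ext_on (s := (CuspForm.intLattice N 2 : Set (CuspForm (Gamma0 N) 2))) ?_
      fun g hg => ?_
    · exact FA.Period.hasIntegralStructure N 2
    · rw [LinearMap.zero_apply]
      refine FA.Deform.qLin_injective (N := N) ?_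
      funext n
      rw [map_zero, Pi.zero_apply, FA.Deform.qLin_apply, key,
        Polynomial.sum_over_range' _ (fun i => zero_mul _) (P.natDegree + 1)
          (by rw [natDegree_map]; exact Nat.lt_succ_self _)]
      have h := key P g n
      rw [minpoly.aeval, LinearMap.zero_apply, ← FA.Deform.qLin_apply, map_zero, Pi.zero_apply,
        Polynomial.sum_over_range' (f := fun i c => c * ModularFormClass.qCoeff ((T ^ i) g) n)
          P (fun i => zero_mul _) (P.natDegree + 1) (Nat.lt_succ_self _)] at h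
      rw [← map_zero σ.toRingHom, h, map_sum]
      refine Finset.sum_congr rfl fun i _ => ?_
      obtain ⟨m, hm⟩ := exists_int_qCoeff_pow hl hlN hg i n
      rw [coeff_map, map_mul, show ModularFormClass.qCoeff ((T ^ i) g) n = (m : ℂ) from hm,
        map_intCast]
  exact minpoly.unique' ℂ T ((minpoly.monic hint).map _) h0 (fun Q hQ => by
    rw [degree_map] at hQ
    rcases eq_or_ne Q 0 with rfl | hQ0
    · exact Or.inl rfl
    · exact Or.inr fun hQT => not_lt.mpr (minpoly.degree_le_of_ne_zero ℂ T hQ0 hQT) hQ)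

/-- The minimal polynomial of `T_l` is rational. -/
theorem exists_rat_minpoly_heckeT : ∃ P : ℚ[X], P.Monic ∧ P.map (algebraMap ℚ ℂ) =
    minpoly ℂ (CuspForm.heckeTLin 2 hl hlN : Module.End ℂ (CuspForm (Gamma0 N) 2)) := by
  set P := minpoly ℂ (CuspForm.heckeTLin 2 hl hlN : Module.End ℂ (CuspForm (Gamma0 N) 2))
  have hP : P ∈ Polynomial.lifts (algebraMap ℚ ℂ) := (lifts_iff_coeff_lifts P).mpr fun i => by
    obtain ⟨r, hr⟩ := FA.Period.exists_rat_of_forall_ringEquiv_fixed (P.coeff i) fun σ => by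
      have h := congrArg (fun Q : ℂ[X] => Q.coeff i) (minpoly_heckeT_map hl hlN σ)
      rw [coeff_map] at h
      exact h
    exact ⟨r, by rw [hr]; rfl⟩
  obtain ⟨Q, hQ, -, hQm⟩ := lifts_and_degree_eq_and_monic hP (minpoly.monic
    (Algebra.IsIntegral.isIntegral _))
  exact ⟨Q, hQm, hQ⟩

include hl hlN in
/-- An eigenvalue of `T_l` has absolute value at most `l + 1`. -/
theorem norm_eigenvalue_le {μ : ℂ} {f : CuspForm (Gamma0 N) 2}
    (hf : CuspForm.heckeTLin 2 hl hlN f = μ • f) (hf0 : f ≠ 0) : ‖μ‖ ≤ (l : ℝ) + 1 := by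
  have hl0 := hl.ne_zero
  have hl' : (0 : ℝ) < l := Nat.cast_pos.2 hl.pos
  obtain ⟨z₀, hmax⟩ := FA.Petersson.exists_isMax_absForm f
  have hpos : 0 < FA.Petersson.absForm f z₀ := by
    refine lt_of_le_of_ne (FA.Petersson.absForm_nonneg f z₀) fun h0 => hf0 ?_
    ext z
    have h := hmax z
    rw [← h0] at h
    rcases mul_eq_zero.1 (le_antisymm h (FA.Petersson.absForm_nonneg f z)) with h | h
    · simpa using h
    · exact absurd h z.im_ne_zero
  refine le_of_mul_le_mul_right ?_ hpos
  have h1 : μ * f z₀ = (l : ℂ)⁻¹ *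
      ∑ j ∈ Finset.range l, f (ModularForm.heckeMatrix l j • z₀) +
      (l : ℂ) * f (ModularForm.heckeDiagMatrix l • z₀) := by
    have h := congrArg (fun g : CuspForm (Gamma0 N) 2 => g z₀) hf
    simp only [CuspForm.coe_heckeTLin_apply, ModularForm.heckeT_apply 2 hl0] at h
    simpa using h.symm
  calc ‖μ‖ * FA.Petersson.absForm f z₀ = ‖μ * f z₀‖ * z₀.im := by
        rw [norm_mul, FA.Petersson.absForm, mul_assoc]
    _ ≤ ((l : ℝ)⁻¹ * ∑ j ∈ Finset.range l, ‖f (ModularForm.heckeMatrix l j • z₀)‖ +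
        (l : ℝ) * ‖f (ModularForm.heckeDiagMatrix l • z₀)‖) * z₀.im := by
      refine mul_le_mul_of_nonneg_right ?_ z₀.im_pos.le
      rw [h1]
      refine (norm_add_le _ _).trans (add_le_add ?_ ?_)
      · rw [norm_mul, norm_inv, Complex.norm_natCast]
        exact mul_le_mul_of_nonneg_left (norm_sum_le _ _) (inv_nonneg.2 hl'.le)
      · rw [norm_mul, Complex.norm_natCast]
    _ = (∑ j ∈ Finset.range l, FA.Petersson.absForm f (ModularForm.heckeMatrix l j • z₀)) +
        FA.Petersson.absForm f (ModularForm.heckeDiagMatrix l • z₀) := by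
      simp only [FA.Petersson.absForm, FA.Petersson.im_heckeMatrix_smul hl0,
        FA.Petersson.im_heckeDiagMatrix_smul hl0, ← Finset.sum_mul]
      field_simp
    _ ≤ ((l : ℝ) + 1) * FA.Petersson.absForm f z₀ := by
      refine (add_le_add (Finset.sum_le_sum fun j _ => hmax _) (hmax _)).trans_eq ?_
      rw [Finset.sum_const, Finset.card_range, nsmul_eq_mul]
      ring

include hl hlN in
/-- **The conjugates of the eigenvalue at `l` are eigenvalues**: at most `dim` of them, all of
absolute value below `l + 1`. -/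
theorem conjugates_eigenvalue {f : CuspForm (Gamma0 N) 2} (hf : f.IsNormalizedEigenform) :
    (minpoly ℚ (ModularFormClass.qCoeff f l)).natDegree ≤
        Module.finrank ℂ (CuspForm (Gamma0 N) 2) ∧
      ∀ z : ℂ, aeval z (minpoly ℚ (ModularFormClass.qCoeff f l)) = 0 →
        Module.End.HasEigenvalue
          (CuspForm.heckeTLin 2 hl hlN : Module.End ℂ (CuspForm (Gamma0 N) 2)) z ∧
          ‖z‖ < (l : ℝ) + 1 := by
  set T : Module.End ℂ (CuspForm (Gamma0 N) 2) := CuspForm.heckeTLin 2 hl hlN
  set a := ModularFormClass.qCoeff f l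
  obtain ⟨P, hPm, hP⟩ := exists_rat_minpoly_heckeT hl hlN
  have hfe : T f = a • f := FA.JTorsion.heckeT_eigen hf hl hlN
  have heig : T.HasEigenvalue a :=
    Module.End.hasEigenvalue_of_hasEigenvector ⟨Module.End.mem_eigenspace_iff.mpr hfe, hf.ne_zero⟩
  have hPa : aeval a P = 0 := by
    rw [← Polynomial.aeval_map_algebraMap ℂ, hP, coe_aeval_eq_eval]
    exact Module.End.isRoot_of_hasEigenvalue heig
  have hdvd := minpoly.dvd ℚ a hPa
  refine ⟨(natDegree_le_of_dvd hdvd hPm.ne_zero).trans ?_, fun z hz => ?_⟩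
  · have h1 : P.natDegree = (minpoly ℂ T).natDegree := by
      rw [← hP, natDegree_map]
    rw [h1, ← LinearMap.charpoly_natDegree T]
    exact natDegree_le_of_dvd (LinearMap.minpoly_dvd_charpoly T)
      (LinearMap.charpoly_monic T).ne_zero
  · have hPz : (minpoly ℂ T).IsRoot z := by
      rw [IsRoot, ← hP, eval_map_algebraMap]
      exact aeval_eq_zero_of_dvd_aeval_eq_zero hdvd hz
    have hev := Module.End.hasEigenvalue_of_isRoot hPz
    obtain ⟨g, hg, hg0⟩ := hev.exists_hasEigenvector
    have hge : T g = z • g := Module.End.mem_eigenspace_iff.mp hg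
    exact ⟨hev, lt_of_le_of_ne (norm_eigenvalue_le hl hlN hge hg0) fun h =>
      hg0 (FA.Petersson.eq_zero_of_norm_eigen g hl hlN hge h)⟩

end FA.Ribet

end
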