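import Fermat.Agent.Ribet.Main
import Fermat.Agent.S20
import Fermat.Agent.S21

/-!
# The equation `a ^ p + b ^ p + q ^ α c ^ p = 0` for `q = 3, 5`

Serre's variant of the Fermat equation. The curve attached to a solution is semistable, its
`p`-torsion is irreducible by Mazur, and modularity with level lowering leaves a level dividing
`2 q`, where there are no cusp forms of weight two.
-/

set_option autoImplicit false

noncomputable section

open WeierstrassCurve
open FA.Theta (badProd)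

namespace FA.Ribet

/-- There is no cusp form of weight two on `Γ₀(N)` when the genus formula vanishes. -/
theorem cuspForm_eq_zero_of_genusFormula {N : ℕ} [NeZero N]
    (h : ModularCurve.genusFormula N = 0) (f : CuspForm (CongruenceSubgroup.Gamma0 N) 2) :
    f = 0 := by
  have h0 : Module.finrank ℂ (CuspForm (CongruenceSubgroup.Gamma0 N) 2) = 0 :=
    Nat.cast_eq_zero.mp ((Fermat.Agent.S20.result N).trans h)
  have : Module.Finite ℂ (CuspForm (CongruenceSubgroup.Gamma0 N) 2) := by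
    have := FA.Dim.parabolicHoms_finite N
    exact Module.Finite.of_injective
      (((ModularCurve.periodHomPair N).codRestrict
        (ModularCurve.Period.parabolicHoms ℂ (CongruenceSubgroup.Gamma0 N) ℂ) fun p =>
        (Fermat.Agent.S21.result N).2 ▸ LinearMap.mem_range_self _ _).comp (LinearMap.inl ℂ _ _))
      (fun _ _ h => LinearMap.inl_injective
        ((Fermat.Agent.S21.result N).1 (congrArg Subtype.val h)))
  have := Module.finrank_zero_iff.mp h0
  exact Subsingleton.elim _ _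

/-- The divisors of `6` and of `10` have genus zero. -/
theorem genusFormula_eq_zero {m N : ℕ} (hm : m = 6 ∨ m = 10) (hN : N ∣ m) :
    ModularCurve.genusFormula N = 0 := by
  have hN' : N = 1 ∨ N = 2 ∨ N = 3 ∨ N = 5 ∨ N = 6 ∨ N = 10 := by
    have hle : N ≤ 10 := (Nat.le_of_dvd (by omega) hN).trans (by omega)
    rcases hm with rfl | rfl <;> interval_cases N <;> omega
  have h2 : Squarefree 2 := Nat.prime_two.prime.squarefree
  have h3 : Squarefree 3 := Nat.prime_three.prime.squarefree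
  have h5 : Squarefree 5 := (Nat.prime_five).prime.squarefree
  have h6 : Squarefree 6 := (Nat.squarefree_mul (show Nat.Coprime 2 3 by norm_num)).mpr ⟨h2, h3⟩
  have h10 : Squarefree 10 := (Nat.squarefree_mul (show Nat.Coprime 2 5 by norm_num)).mpr ⟨h2, h5⟩
  rcases hN' with rfl | rfl | rfl | rfl | rfl | rfl <;>
    simp only [ModularCurve.genusFormula, ModularCurve.nuTwo, ModularCurve.nuThree,
      ModularCurve.cuspCount, ModularCurve.dedekindPsi, Nat.card_eq_fintype_card]
  · rw [show Fintype.card {x : ZMod 1 // x ^ 2 + 1 = 0} = 1 from rfl,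
      show Fintype.card {x : ZMod 1 // x ^ 2 + x + 1 = 0} = 1 from rfl,
      show Nat.divisors 1 = {1} by decide]
    simp [Finset.sum_filter, Nat.totient]; norm_num
  · rw [show Fintype.card {x : ZMod 2 // x ^ 2 + 1 = 0} = 1 from rfl,
      show Fintype.card {x : ZMod 2 // x ^ 2 + x + 1 = 0} = 0 from rfl,
      show Nat.divisors 2 = {1, 2} by decide]
    simp [Finset.sum_filter, h2, Nat.totient]; norm_num
  · rw [show Fintype.card {x : ZMod 3 // x ^ 2 + 1 = 0} = 0 from rfl,
      show Fintype.card {x : ZMod 3 // x ^ 2 + x + 1 = 0} = 1 from rfl,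
      show Nat.divisors 3 = {1, 3} by decide]
    simp [Finset.sum_filter, h3, Nat.totient]; norm_num
  · rw [show Fintype.card {x : ZMod 5 // x ^ 2 + 1 = 0} = 2 from rfl,
      show Fintype.card {x : ZMod 5 // x ^ 2 + x + 1 = 0} = 0 from rfl,
      show Nat.divisors 5 = {1, 5} by decide]
    simp [Finset.sum_filter, h5, Nat.totient]; norm_num
  · rw [show Fintype.card {x : ZMod 6 // x ^ 2 + 1 = 0} = 0 from rfl,
      show Fintype.card {x : ZMod 6 // x ^ 2 + x + 1 = 0} = 0 from rfl,
      show Nat.divisors 6 = {1, 2, 3, 6} by decide]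
    simp [Finset.sum_filter, h2, h3, h6, Nat.totient]; norm_num
  · rw [show Fintype.card {x : ZMod 10 // x ^ 2 + 1 = 0} = 2 from rfl,
      show Fintype.card {x : ZMod 10 // x ^ 2 + x + 1 = 0} = 0 from rfl,
      show Nat.divisors 10 = {1, 2, 5, 10} by decide]
    simp [Finset.sum_filter, h2, h5, h10, Nat.totient]; norm_num

/-- Removing all primes outside `m` leaves a residual level dividing `m`. -/
theorem exists_dvd_isResiduallyModular {W : WeierstrassCurve ℤ} {p : ℕ} [Fact p.Prime] {m : ℕ}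
    (hpm : ¬ p ∣ m) (hp2 : p ≠ 2) (hΔ : W.Δ ≠ 0) (hW : W.IsSemistableModel)
    (hirr : W.ModRepIsIrreducible p)
    (hv : ∀ r : ℕ, r.Prime → ¬ r ∣ m → (r : ℤ) ∣ W.Δ → p ∣ padicValInt r W.Δ)
    {M : ℕ} (hM : Squarefree M) (h : W.IsResiduallyModularOfLevel p M) :
    ∃ N : ℕ, N ∣ m ∧ W.IsResiduallyModularOfLevel p N := by
  induction M using Nat.strong_induction_on with
  | _ M ih =>
    by_cases hout : ∃ r : ℕ, r.Prime ∧ ¬ r ∣ m ∧ r ∣ M
    · obtain ⟨r, hr, hrm, hrM⟩ := hout
      exact ih (M / r) (Nat.div_lt_self (Nat.pos_of_ne_zero hM.ne_zero) hr.one_lt)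
        (hM.squarefree_of_dvd (Nat.div_dvd_of_dvd hrM))
        (FA.Root.isResiduallyModularOfLevel_div_of_dvd hp2 hΔ hW hirr (hv p Fact.out hpm) hr hrM
          hM (hv r hr hrm) h)
    · push Not at hout
      refine ⟨M, ?_, h⟩
      rw [← Nat.prod_primeFactors_of_squarefree hM]
      refine Finset.prod_primes_dvd m (fun r hr => (Nat.prime_of_mem_primeFactors hr).prime)
        fun r hr => ?_
      obtain ⟨hrp, hrM, -⟩ := Nat.mem_primeFactors.mp hr
      by_contra hne
      exact hout r hrp hne hrM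

variable {p : ℕ}

/-- An `A + B + C = 0` in coprime integers, `A` odd, `32 ∣ B`, whose product is a `p`-th power
away from the odd prime `q`, gives a curve residually modular of a level dividing `2 q`. -/
theorem exists_level_of_add_eq_zero (hp : p.Prime) (h11 : 11 ≤ p) (h13 : p ≠ 13) {q : ℕ}
    (hqp : q.Prime)
    (hq : q ≠ p) {A B C : ℤ} {k : ℕ} {t : ℤ} (hsum : A + B + C = 0) (hcop : IsCoprime A B)
    (hA : Odd A) (hB : (32 : ℤ) ∣ B) (ht : t ≠ 0)
    (hprod : A * B * C = (q : ℤ) ^ k * t ^ p) :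
    ∃ A' B' : ℤ, A' % 4 = 3 ∧ (32 : ℤ) ∣ B' ∧ IsCoprime A' B' ∧ A' * B' * (A' + B') ≠ 0 ∧
      ∃ N : ℕ, N ∣ 2 * q ∧ (curve A' B').IsResiduallyModularOfLevel p N := by
  have hpodd : Odd p := hp.odd_of_ne_two (by omega)
  wlog h3 : A % 4 = 3 generalizing A B C t
  · refine this (A := -A) (B := -B) (C := -C) (t := -t) (by linarith) hcop.neg_neg hA.neg
      hB.neg_right (neg_ne_zero.mpr ht) ?_ ?_
    · rw [hpodd.neg_pow]; linear_combination -hprod
    · rw [Int.odd_iff] at hA; omega
  refine ⟨A, B, h3, hB, hcop, ?_⟩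
  have := Fact.mk hp
  have hC : A * B * (A + B) = -((q : ℤ) ^ k * t ^ p) := by
    rw [← hprod, show C = -(A + B) by linarith]; ring
  have hne : A * B * (A + B) ≠ 0 := by
    rw [hC]
    exact neg_ne_zero.mpr (mul_ne_zero (pow_ne_zero _ (by exact_mod_cast hqp.ne_zero))
      (pow_ne_zero _ ht))
  have hB : (16 : ℤ) ∣ B := (show (16 : ℤ) ∣ 32 by norm_num).trans hB
  have hΔ := curve_Δ_ne_zero h3 hB hne
  have hW := curve_semistable h3 hB hcop
  have heven := even_padicValInt_curve_Δ h3 hB hne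
  refine ⟨hne, ?_⟩
  have hpm : ¬ p ∣ 2 * q := fun h => by
    rcases hp.dvd_mul.mp h with h | h
    · have := Nat.le_of_dvd (by norm_num) h; omega
    · exact hq ((Nat.prime_dvd_prime_iff_eq hp hqp).mp h).symm
  refine exists_dvd_isResiduallyModular hpm (by omega) hΔ hW
    (modRepIsIrreducible_of_eleven_le hΔ hW hp h11 h13 fun _ => by
      obtain ⟨j, hj⟩ := heven
      obtain ⟨m, hm⟩ := hpodd
      omega) (fun r hr hrm _ => ?_) (FA.Root.squarefree_badProd _)
    (FA.Root.isResiduallyModularOfLevel_of_modular hp (FA.SS.semistableModular _ hΔ hW))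
  have : Fact r.Prime := ⟨hr⟩
  have e := congrArg (fun z : ℤ => padicValNat r z.natAbs) (curve_Δ h3 hB)
  simp only [hC, Int.natAbs_mul, Int.natAbs_pow, Int.natAbs_neg, Int.natAbs_natCast,
    show Int.natAbs 256 = 2 ^ 8 from rfl] at e
  have h2 : padicValNat r 2 = 0 :=
    padicValNat.eq_zero_of_not_dvd fun hd => hrm (dvd_mul_of_dvd_left hd q)
  have h1 : padicValNat r q = 0 :=
    padicValNat.eq_zero_of_not_dvd fun hd => hrm (dvd_mul_of_dvd_right hd 2)
  rw [padicValNat.mul (by positivity) (Int.natAbs_ne_zero.mpr hΔ), padicValNat.pow _ _,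
    padicValNat.pow _ _, padicValNat.mul (pow_ne_zero _ hqp.ne_zero)
      (pow_ne_zero _ (Int.natAbs_ne_zero.mpr ht)),
    padicValNat.pow _ _, padicValNat.pow _ _, h2, h1] at e
  exact ⟨2 * padicValNat r t.natAbs, by rw [padicValInt, mul_left_comm]; simpa using e⟩

/-- A solution of `a ^ p + b ^ p + q ^ α c ^ p = 0` gives a curve residually modular of a level
dividing `2 q`. -/
theorem exists_level (hp : p.Prime) (h11 : 11 ≤ p) (h13 : p ≠ 13) {q : ℕ}
    (hqp : q.Prime) (hq2 : q ≠ 2)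
    (hq : q ≠ p) {α : ℕ} {a b c : ℤ} (ha : a ≠ 0) (hb : b ≠ 0) (hc : c ≠ 0) (hab : IsCoprime a b)
    (heq : a ^ p + b ^ p + (q : ℤ) ^ α * c ^ p = 0) :
    ∃ A B : ℤ, A % 4 = 3 ∧ (32 : ℤ) ∣ B ∧ IsCoprime A B ∧ A * B * (A + B) ≠ 0 ∧
      ∃ N : ℕ, N ∣ 2 * q ∧ (curve A B).IsResiduallyModularOfLevel p N := by
  have hsix : ∀ x : ℤ, Even x → (32 : ℤ) ∣ x ^ p := fun x hx =>
    (show (32 : ℤ) ∣ 2 ^ p from pow_dvd_pow 2 (show 5 ≤ p by omega)).trans
      (pow_dvd_pow_of_dvd hx.two_dvd p)
  have hcop : IsCoprime (a ^ p) (b ^ p) := hab.pow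
  have ht : a * b * c ≠ 0 := mul_ne_zero (mul_ne_zero ha hb) hc
  rcases Int.even_or_odd b with hbe | hbo
  · have hao : Odd a := by
      refine Int.not_even_iff_odd.mp fun hae => ?_
      have := Int.isUnit_iff.mp (hab.isUnit_of_dvd' hae.two_dvd hbe.two_dvd)
      omega
    exact exists_level_of_add_eq_zero hp h11 h13 hqp hq heq hcop hao.pow (hsix b hbe) ht (k := α)
      (by rw [mul_pow, mul_pow]; ring)
  rcases Int.even_or_odd a with hae | hao
  · exact exists_level_of_add_eq_zero hp h11 h13 hqp hq (B := a ^ p) (by linear_combination heq)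
      hcop.symm hbo.pow (hsix a hae) ht (k := α) (C := (q : ℤ) ^ α * c ^ p)
      (by rw [mul_pow, mul_pow]; ring)
  · have hce : Even c := by
      have h := congrArg (Int.cast : ℤ → ZMod 2) heq
      have h1 : ∀ x : ℤ, Odd x → (x : ZMod 2) = 1 := fun x hx => by
        obtain ⟨j, rfl⟩ := hx
        push_cast
        rw [show (2 : ZMod 2) = 0 from rfl, zero_mul, zero_add]
      push_cast at h
      rw [h1 a hao, h1 b hbo, one_pow, show (1 : ZMod 2) + 1 = 0 from rfl, zero_add,
        (ZMod.natCast_eq_one_iff_odd).mpr (hqp.odd_of_ne_two hq2), one_pow, one_mul] at h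
      rw [even_iff_two_dvd]
      exact (ZMod.intCast_zmod_eq_zero_iff_dvd c 2).mp (eq_zero_of_pow_eq_zero h)
    refine exists_level_of_add_eq_zero hp h11 h13 hqp hq (A := a ^ p) (B := (q : ℤ) ^ α * c ^ p)
      (C := b ^ p)
      (by linear_combination heq) ?_ hao.pow
      ((hsix c hce).mul_left _) ht (k := α) (by rw [mul_pow, mul_pow]; ring)
    rw [show (q : ℤ) ^ α * c ^ p = -(b ^ p) + a ^ p * (-1) by linear_combination heq]
    exact hcop.neg_right.add_mul_left_right (-1)

/-- **`a ^ p + b ^ p + q ^ α c ^ p ≠ 0`** for `q = 3, 5`, a prime `p ≥ 11` other than `13`,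
`a` and `b` coprime. -/
theorem pow_add_pow_add_pow_mul_pow_ne_zero (hp : p.Prime) (h11 : 11 ≤ p) (h13 : p ≠ 13) {q : ℕ}
    (hq : q = 3 ∨ q = 5) {α : ℕ} {a b c : ℤ} (ha : a ≠ 0) (hb : b ≠ 0) (hc : c ≠ 0)
    (hab : IsCoprime a b) : a ^ p + b ^ p + (q : ℤ) ^ α * c ^ p ≠ 0 := by
  intro heq
  obtain ⟨A, B, -, -, -, -, N, hN, f, -, hf, -⟩ :=
    exists_level hp h11 h13 (by rcases hq with rfl | rfl <;> norm_num) (by omega) (by omega) ha hb hc
      hab heq
  have : NeZero N := ⟨by rintro rfl; have := Nat.eq_zero_of_zero_dvd hN; omega⟩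
  exact hf.ne_zero
    (cuspForm_eq_zero_of_genusFormula (genusFormula_eq_zero (m := 2 * q) (by omega) hN) f)

end FA.Ribet

end
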