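import Fermat.Agent.Ribet.SerreLarge

/-!
# The eigenforms of the levels dividing `33`

The space of level `33` has the basis given by the two old forms of `11a` and by the form of
`33a`; multiplicativity at `10 = 2 * 5` leaves the eigenvalues `-2` and `1` at two.
-/

set_option autoImplicit false
set_option linter.unusedSectionVars false

noncomputable section

open WeierstrassCurve CongruenceSubgroup

namespace FA.Ribet

/-- The curve `33a`. -/
def curve33 : WeierstrassCurve ℤ := ⟨1, 1, 0, -11, 0⟩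

theorem curve33_Δ : curve33.Δ = 3 ^ 6 * 11 ^ 2 := by decide

theorem curve33_two : curve33.apOfModel 2 = 1 := by
  have : Fact (Nat.Prime 2) := ⟨Nat.prime_two⟩
  rw [apOfModel_eq_nsPts (a₁ := 1) (a₂ := 1) (a₃ := 0) (a₄ := 1) (a₆ := 0) (by ext <;> rfl)]
  rfl

theorem curve33_five : curve33.apOfModel 5 = -2 := by
  have : Fact (Nat.Prime 5) := ⟨by norm_num⟩
  rw [apOfModel_eq_nsPts (a₁ := 1) (a₂ := 1) (a₃ := 0) (a₄ := 4) (a₆ := 0) (by ext <;> rfl)]
  rfl

theorem curve11_two : curve11.apOfModel 2 = -2 := by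
  have : Fact (Nat.Prime 2) := ⟨Nat.prime_two⟩
  rw [apOfModel_eq_nsPts (a₁ := 0) (a₂ := 1) (a₃ := 1) (a₄ := 0) (a₆ := 0) (by ext <;> rfl)]
  rfl

theorem curve11_five : curve11.apOfModel 5 = 1 := by
  have : Fact (Nat.Prime 5) := ⟨by norm_num⟩
  rw [apOfModel_eq_nsPts (a₁ := 0) (a₂ := 4) (a₃ := 1) (a₄ := 0) (a₆ := 0) (by ext <;> rfl)]
  rfl

theorem squarefree_thirtythree : Squarefree 33 :=
  (Nat.squarefree_mul (show Nat.Coprime 3 11 by norm_num)).mpr
    ⟨Nat.prime_three.prime.squarefree, squarefree_eleven⟩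

theorem genusFormula_33 : ModularCurve.genusFormula 33 = 3 := by
  have s3 : Squarefree 3 := Nat.prime_three.prime.squarefree
  have s11 := squarefree_eleven
  have s33 := squarefree_thirtythree
  simp only [ModularCurve.genusFormula, ModularCurve.nuTwo, ModularCurve.nuThree,
    ModularCurve.cuspCount, ModularCurve.dedekindPsi, Nat.card_eq_fintype_card]
  rw [show Fintype.card {x : ZMod 33 // x ^ 2 + 1 = 0} = 0 from rfl,
    show Fintype.card {x : ZMod 33 // x ^ 2 + x + 1 = 0} = 0 from rfl,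
    show Nat.divisors 33 = {1, 3, 11, 33} by decide]
  simp [Finset.sum_filter, s3, s11, s33, Nat.totient]; norm_num

/-- The two old forms of level `3 M` from one of level `M`. -/
theorem exists_old_pair_three {M : ℕ} [NeZero M] [NeZero (M * 3)] (g : CuspForm (Gamma0 M) 2) :
    ∃ g₁ g₂ : CuspForm (Gamma0 (M * 3)) 2,
      (∀ n, ModularFormClass.qCoeff g₁ n = ModularFormClass.qCoeff g n) ∧
      ∀ n, ModularFormClass.qCoeff g₂ n =
        3 * if 3 ∣ n then ModularFormClass.qCoeff g (n / 3) else 0 := by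
  have hm := FA.Period.coe_mem_cuspForms g
  refine ⟨FA.Period.toCuspForm' (⇑g) (FA.LTInt.forms_le_mul M 3 2 hm),
    FA.Period.toCuspForm' (FA.LTInt.dilate 3 2 g)
      (FA.LTInt.dilate_mem_cuspForms three_ne_zero hm),
    fun n => rfl, fun n => ?_⟩
  show (FA.Period.qExp (FA.LTInt.dilate 3 2 g)).coeff n = _
  rw [FA.LTInt.qExp_dilate three_ne_zero hm]
  norm_num
  rfl

/-- **The eigenvalue at two** of an eigenform of level dividing `33` is `-2` or `1`. -/
theorem qCoeff_two_thirtyThree {N : ℕ} (hN : N ∣ 33) {f : CuspForm (Gamma0 N) 2}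
    (hf : f.IsNormalizedEigenform) :
    ModularFormClass.qCoeff f 2 = -2 ∨ ModularFormClass.qCoeff f 2 = 1 := by
  have hNeZ : NeZero N := ⟨by rintro rfl; simp at hN⟩
  have hzero : ModularCurve.genusFormula N ≠ 0 := fun h =>
    hf.ne_zero (cuspForm_eq_zero_of_genusFormula h f)
  have hdim : ∀ M : ℕ, [NeZero M] → ∀ d : ℕ, ModularCurve.genusFormula M = d →
      Module.finrank ℂ (CuspForm (Gamma0 M) 2) = d := fun M _ d h =>
    Nat.cast_inj.mp ((Fermat.Agent.S20.result M).trans h)
  obtain ⟨k, hk, hkl⟩ := exists_eigenform (E := curve11) (N := 11) (by decide)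
    (fun r hr hd hc => by
      rw [curve11_Δ, dvd_neg] at hd
      rw [show curve11.c₄ = 16 from by decide] at hc
      exact hr.ne_one (Nat.dvd_one.mp ((Nat.dvd_gcd (Int.natCast_dvd_natCast.mp hd)
        (Int.natCast_dvd_natCast.mp hc) :))))
    (by rw [curve11_Δ]; rfl) squarefree_eleven
  have k2 : ModularFormClass.qCoeff k 2 = -2 := by
    rw [hkl 2 Nat.prime_two (by norm_num), curve11_two]; norm_num
  have k5 : ModularFormClass.qCoeff k 5 = 1 := by
    rw [hkl 5 (by norm_num) (by norm_num), curve11_five]; norm_num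
  obtain rfl | rfl : N = 11 ∨ N = 11 * 3 := by
    have h1 : N ≠ 1 := fun h => hzero (h ▸ genusFormula_eq_zero (Or.inl rfl) (one_dvd 6))
    have h3 : N ≠ 3 := fun h => hzero (h ▸ genusFormula_eq_zero (Or.inl rfl) ⟨2, rfl⟩)
    have hle : N ≤ 33 := Nat.le_of_dvd (by norm_num) hN
    interval_cases N <;> omega
  · left
    rw [eq_of_finrank_eq_one (hdim 11 1 (by simpa using genusFormula_11)) hk hf, k2]
  obtain ⟨g, hg, hgl⟩ := exists_eigenform (E := curve33) (N := 11 * 3) (by decide)
    (fun r hr hd hc => by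
      rw [curve33_Δ] at hd
      rw [show curve33.c₄ = 553 from by decide] at hc
      exact hr.ne_one (Nat.dvd_one.mp ((Nat.dvd_gcd (Int.natCast_dvd_natCast.mp hd)
        (Int.natCast_dvd_natCast.mp hc) :))))
    (by rw [curve33_Δ, show Int.natAbs ((3 : ℤ) ^ 6 * 11 ^ 2) = 11 ^ 2 * 3 ^ 6 from by norm_num,
      Nat.primeFactors_mul (by norm_num) (by norm_num), Nat.primeFactors_pow _ (by norm_num),
      Nat.primeFactors_pow _ (by norm_num), Nat.primeFactors_mul (by norm_num) (by norm_num)])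
    (by simpa using squarefree_thirtythree)
  have g2 : ModularFormClass.qCoeff g 2 = 1 := by
    rw [hgl 2 Nat.prime_two (by norm_num), curve33_two]; norm_num
  have g5 : ModularFormClass.qCoeff g 5 = -2 := by
    rw [hgl 5 (by norm_num) (by norm_num), curve33_five]; norm_num
  obtain ⟨g₁, g₂, e₁, e₂⟩ := exists_old_pair_three (M := 11) k
  obtain ⟨c, hc⟩ := exists_qCoeff_eq_sum (d := 2) (hdim (11 * 3) 3 (by simpa using genusFormula_33))
    ![g, g₁, g₂] (fun c hc => by
      have c1 := hc 1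
      have c2 := hc 2
      have c3 := hc 3
      simp [Fin.sum_univ_three, e₁, e₂, hg.qCoeff_one, hk.qCoeff_one, g2, k2] at c1 c2 c3
      have z1 : c 1 = 0 := by linear_combination (1 / 3 : ℂ) * c1 + (-1 / 3 : ℂ) * c2
      have z0 : c 0 = 0 := by linear_combination c1 - z1
      have z2 : c 2 = 0 := by simpa [z0, z1] using c3
      intro i
      fin_cases i <;> assumption) f
  have coeff_eq : ∀ n : ℕ, ¬ 3 ∣ n → ModularFormClass.qCoeff f n =
      c 0 * ModularFormClass.qCoeff g n + c 1 * ModularFormClass.qCoeff k n := fun n hn => by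
    rw [hc]; simp [Fin.sum_univ_three, e₁, e₂, hn]
  have h1 := coeff_eq 1 (by norm_num)
  rw [hf.qCoeff_one, hg.qCoeff_one, hk.qCoeff_one] at h1
  have h2 := coeff_eq 2 (by norm_num)
  rw [g2, k2] at h2
  have h5 := coeff_eq 5 (by norm_num)
  rw [g5, k5] at h5
  have h10 := coeff_eq 10 (by norm_num)
  rw [show (10 : ℕ) = 2 * 5 from rfl, hf.qCoeff_mul_of_coprime 2 5 (by norm_num),
    hg.qCoeff_mul_of_coprime 2 5 (by norm_num), hk.qCoeff_mul_of_coprime 2 5 (by norm_num),
    g2, g5, k2, k5, h5] at h10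
  set u := ModularFormClass.qCoeff f 2 with hu
  have hprod : (u + 2) * (u - 1) = 0 := by
    linear_combination -h10 + (u - 2) * h1 + u * h2
  rcases mul_eq_zero.mp hprod with h | h
  · left; linear_combination h
  · right; linear_combination h

end FA.Ribet

end
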