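import Fermat.Agent.EC.IsogenySeven
import Fermat.Agent.EC.SevenFibre
import Fermat.Agent.Switch.SquareDisc
import Fermat.Agent.Ribet.Main
import Fermat.Agent.Thirteen.Summary

/-!
# Ribet's equation at the exponents `5` and `7`

A square discriminant excludes a rational `5`-isogeny, and full rational `2`-torsion excludes a
rational `7`-isogeny; so the lowering applies to Serre's variant of the Fermat equation from
`p = 5` on.
-/

set_option autoImplicit false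

noncomputable section

open WeierstrassCurve

namespace FA.Ribet.FiveSeven

open FA.EC.SevenFibre (sq_ne_natCast exists_num_den exists_int_of_sq)

/-- `r⁴ + 22 r² + 125` is a square for `r = 0` at most. -/
theorem no_five_quartic {r y : ℚ} (hr : r ≠ 0) : y ^ 2 ≠ r ^ 4 + 22 * r ^ 2 + 125 := by
  intro h
  obtain ⟨m, n, hn, hco, hmn⟩ := exists_num_den r
  have hm : m ≠ 0 := fun e => by
    rw [e, Int.cast_zero] at hmn
    exact mul_ne_zero hr (Int.cast_ne_zero.mpr hn.ne') hmn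
  obtain ⟨s, hs⟩ : ∃ s : ℤ, s ^ 2 = m ^ 4 + 22 * m ^ 2 * n ^ 2 + 125 * n ^ 4 := by
    refine exists_int_of_sq (z := y * (n : ℚ) ^ 2) ?_
    push_cast
    rw [← hmn]
    linear_combination (n : ℚ) ^ 4 * h
  rcases Int.even_or_odd (m + n) with he | ho
  swap
  · exact FA.Switch.no_quartic_point _ m n s rfl hm hn.ne' hco ho hs
  have hmo : Odd m := by
    refine Int.not_even_iff_odd.mp fun hme => ?_
    exact Int.prime_two.not_isUnit
      (hco.isUnit_of_dvd' hme.two_dvd ((Int.even_add.mp he).mp hme).two_dvd)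
  have hno : Odd n := Int.not_even_iff_odd.mp fun hne =>
    (Int.not_even_iff_odd.mpr hmo) ((Int.even_add.mp he).mpr hne)
  obtain ⟨m', rfl⟩ := hmo
  obtain ⟨n', rfl⟩ := hno
  obtain ⟨a, ha⟩ := Int.two_dvd_mul_add_one m'
  obtain ⟨b, hb⟩ := Int.two_dvd_mul_add_one n'
  have hA : (2 * m' + 1) ^ 2 = 8 * a + 1 := by linear_combination 4 * ha
  have hB : (2 * n' + 1) ^ 2 = 8 * b + 1 := by linear_combination 4 * hb
  rw [show (2 * m' + 1) ^ 4 = ((2 * m' + 1) ^ 2) ^ 2 by ring,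
    show (2 * n' + 1) ^ 4 = ((2 * n' + 1) ^ 2) ^ 2 by ring, hA, hB,
    show (8 * a + 1) ^ 2 + 22 * (8 * a + 1) * (8 * b + 1) + 125 * (8 * b + 1) ^ 2 =
      20 + 32 * (4 + 6 * a + 68 * b + 2 * a ^ 2 + 44 * a * b + 250 * b ^ 2) by ring] at hs
  have h32 := congrArg (fun x : ℤ => (x : ZMod 32)) hs
  have key : ∀ z : ZMod 32, z ^ 2 ≠ 20 := by decide
  push_cast at h32
  rw [show (32 : ZMod 32) = 0 from rfl, zero_mul, add_zero] at h32
  exact key _ h32

/-- `y² = t (t² + 22 t + 125)` has `t = 0` as its only affine rational solution. -/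
theorem five_curve {t y : ℚ} (h : y ^ 2 = t * (t ^ 2 + 22 * t + 125)) : t = 0 := by
  by_contra ht
  obtain ⟨u, v, hv, hco, huv⟩ := exists_num_den t
  have hv' : (v : ℚ) ≠ 0 := Int.cast_ne_zero.mpr hv.ne'
  have hu : u ≠ 0 := fun e => by
    rw [e, Int.cast_zero] at huv
    exact mul_ne_zero ht hv' huv
  set Q := u ^ 2 + 22 * u * v + 125 * v ^ 2 with hQ
  obtain ⟨W, hW⟩ : ∃ W : ℤ, W ^ 2 = u * v * Q := by
    refine exists_int_of_sq (z := y * (v : ℚ) ^ 2) ?_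
    push_cast [hQ]
    rw [← huv]
    linear_combination (v : ℚ) ^ 4 * h
  have hQ0 : 0 < Q := by rw [hQ]; nlinarith [sq_nonneg (u + 11 * v), mul_pos hv hv]
  have huv0 : 0 < u * v := by
    rcases lt_trichotomy (u * v) 0 with h' | h' | h'
    · nlinarith [sq_nonneg W, mul_neg_of_neg_of_pos h' hQ0]
    · exact absurd h' (mul_ne_zero hu hv.ne')
    · exact h'
  obtain ⟨a, b, hab, hsf⟩ := Nat.sq_mul_squarefree (u * v).natAbs
  have huv' : (b : ℤ) ^ 2 * (a : ℤ) = u * v := by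
    rw [← Int.natAbs_of_nonneg huv0.le, ← hab]; push_cast; rfl
  have hb : (b : ℤ) ≠ 0 := fun e => huv0.ne' (by rw [← huv', e]; ring)
  obtain ⟨z, rfl⟩ : (b : ℤ) ∣ W :=
    (Int.pow_dvd_pow_iff two_ne_zero).mp ⟨a * Q, by rw [hW, ← huv']; ring⟩
  have hz : z ^ 2 = (a : ℤ) * Q :=
    mul_left_cancel₀ (pow_ne_zero 2 hb) (by rw [← huv'] at hW; linear_combination hW)
  have haQ : (a : ℤ) ∣ Q := by
    obtain ⟨w, rfl⟩ : (a : ℤ) ∣ z :=
      ((Int.squarefree_natCast.mpr hsf).dvd_pow_iff_dvd two_ne_zero).mp ⟨Q, hz⟩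
    refine ⟨w ^ 2, mul_left_cancel₀ (Int.natCast_ne_zero.mpr hsf.ne_zero) ?_⟩
    linear_combination -hz
  have hav : IsCoprime (a : ℤ) v := by
    refine IsCoprime.of_isCoprime_of_dvd_left ?_ haQ
    rw [hQ, show u ^ 2 + 22 * u * v + 125 * v ^ 2 = u ^ 2 + v * (22 * u + 125 * v) by ring]
    exact hco.pow_left.add_mul_left_left _
  have hau : (a : ℤ) ∣ u := hav.dvd_of_dvd_mul_right (Dvd.intro_left _ huv')
  have h125 : (a : ℤ) ∣ 5 ^ 3 := by
    refine (hav.pow_right (n := 2)).dvd_of_dvd_mul_right ?_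
    rw [show (5 : ℤ) ^ 3 * v ^ 2 = Q - u * (u + 22 * v) by rw [hQ]; ring]
    exact dvd_sub haQ (hau.mul_right _)
  have h5 : a ∣ 5 := (hsf.dvd_pow_iff_dvd three_ne_zero).mp (by exact_mod_cast h125)
  set r : ℚ := (b : ℚ) / v with hr
  have hr0 : r ≠ 0 := div_ne_zero (by exact_mod_cast hb) hv'
  have htr : t = (a : ℚ) * r ^ 2 := by
    have : ((b : ℤ) : ℚ) ^ 2 * ((a : ℤ) : ℚ) = (u : ℚ) * v := by exact_mod_cast huv'
    push_cast at this
    rw [hr, eq_comm]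
    field_simp
    linear_combination this - (v : ℚ) * huv
  rcases (Nat.dvd_prime Nat.prime_five).mp h5 with rfl | rfl
  · rw [Nat.cast_one, one_mul] at htr
    refine no_five_quartic hr0 (y := y / r) ?_
    rw [div_pow, h, htr]
    field_simp
  · refine no_five_quartic (r := 5 / r) (y := y / r ^ 3)
      (div_ne_zero (by norm_num) hr0) ?_
    rw [div_pow (5 : ℚ) r, div_pow, h, htr]
    push_cast
    field_simp
    ring

end FA.Ribet.FiveSeven

namespace FA.Ribet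

/-- **A square discriminant excludes a stable line in the `5`-torsion.** -/
theorem modRepIsIrreducible_five_of_isSquare_Δ {W : WeierstrassCurve ℤ} (hΔ : W.Δ ≠ 0)
    (hsq : IsSquare W.Δ) : W.ModRepIsIrreducible 5 := by
  by_contra hcon
  obtain ⟨δ, hδ⟩ := hsq
  have := FA.Frob.ratCurve_isElliptic_of_Δ hΔ
  obtain ⟨t, ht0, ht⟩ := FA.EC.exists_param_five (E := W.map (Int.castRingHom ℚ)) hcon
  rw [map_c₄, map_Δ, eq_intCast, eq_intCast] at ht
  have hrel : (W.c₄ : ℚ) ^ 3 - (W.c₆ : ℚ) ^ 2 = 1728 * (W.Δ : ℚ) := by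
    exact_mod_cast W.c_relation.symm
  have hd : (W.Δ : ℚ) = (δ : ℚ) ^ 2 := by rw [hδ]; push_cast; ring
  have hδ0 : (δ : ℚ) ≠ 0 := fun e => hΔ (by
    have : (W.Δ : ℚ) = 0 := by rw [hd, e]; ring
    exact_mod_cast this)
  have hE : t ^ 2 + 4 * t - 1 ≠ 0 := fun e =>
    FA.EC.SevenFibre.sq_ne_natCast (n := 5) (by norm_num) (t + 2)
      (by push_cast; linear_combination e)
  refine ht0 (FiveSeven.five_curve (y := (W.c₆ : ℚ) * t / (δ * (t ^ 2 + 4 * t - 1))) ?_)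
  rw [hd] at hrel ht
  rw [div_pow, div_eq_iff (pow_ne_zero 2 (mul_ne_zero hδ0 hE))]
  linear_combination t * ht - t ^ 2 * hrel

/-- **Full rational `2`-torsion excludes a stable line in the `7`-torsion.** -/
theorem modRepIsIrreducible_seven_of_roots {W : WeierstrassCurve ℤ} (hΔ : W.Δ ≠ 0)
    {e₁ e₂ e₃ : ℚ} (h₂ : (W.b₂ : ℚ) = -4 * (e₁ + e₂ + e₃))
    (h₄ : (W.b₄ : ℚ) = 2 * (e₁ * e₂ + e₁ * e₃ + e₂ * e₃))
    (h₆ : (W.b₆ : ℚ) = -4 * (e₁ * e₂ * e₃)) : W.ModRepIsIrreducible 7 := by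
  by_contra hcon
  have := FA.Frob.ratCurve_isElliptic_of_Δ hΔ
  obtain ⟨t, ht0, ht⟩ := FA.EC.exists_param_seven (E := W.map (Int.castRingHom ℚ)) hcon
  rw [map_c₄, map_Δ, eq_intCast, eq_intCast] at ht
  have hrel : (W.c₄ : ℚ) ^ 3 - (W.c₆ : ℚ) ^ 2 = 1728 * (W.Δ : ℚ) := by
    exact_mod_cast W.c_relation.symm
  have hx : (2 * e₁ - e₂ - e₃) ^ 3 - 3 * (W.c₄ : ℚ) / 16 * (2 * e₁ - e₂ - e₃) -
      (W.c₆ : ℚ) / 32 = 0 := by
    simp only [c₄, c₆]; push_cast; rw [h₂, h₄, h₆]; ring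
  have hd : (W.Δ : ℚ) = (4 * ((e₁ - e₂) * (e₂ - e₃) * (e₃ - e₁))) ^ 2 := by
    have e : (W.c₄ : ℚ) ^ 3 - (W.c₆ : ℚ) ^ 2 =
        1728 * (4 * ((e₁ - e₂) * (e₂ - e₃) * (e₃ - e₁))) ^ 2 := by
      simp only [c₄, c₆]; push_cast; rw [h₂, h₄, h₆]; ring
    linarith
  have hk : (W.c₆ : ℚ) ^ 2 * t =
      (t ^ 4 + 14 * t ^ 3 + 63 * t ^ 2 + 70 * t - 7) ^ 2 * (W.Δ : ℚ) := by
    linear_combination ht - t * hrel
  have hC := FA.EC.SevenFibre.seven_quartic_ne_zero t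
  -- the parameter is a square
  obtain ⟨r, hr⟩ : ∃ r, r ^ 2 = t := by
    refine ⟨(t ^ 4 + 14 * t ^ 3 + 63 * t ^ 2 + 70 * t - 7) *
      (4 * ((e₁ - e₂) * (e₂ - e₃) * (e₃ - e₁))) / (W.c₆ : ℚ), ?_⟩
    have hc6 : (W.c₆ : ℚ) ≠ 0 := fun e => by
      rw [e] at hk
      exact mul_ne_zero (pow_ne_zero 2 hC) (Int.cast_ne_zero.mpr hΔ) (by linear_combination -hk)
    rw [div_pow, mul_pow, ← hd, eq_comm, eq_div_iff (pow_ne_zero 2 hc6)]
    linear_combination hk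
  rcases FA.EC.SevenFibre.param_of_root hx hrel (Int.cast_ne_zero.mpr hΔ) ht0 ht with e | e
  · exact FA.EC.SevenFibre.sq_ne_natCast (n := 7) (by norm_num) r (by rw [hr, e]; norm_num)
  · nlinarith [sq_nonneg r]

/-- **The mod `p` representation of `curve A B` is irreducible for every prime `p ≥ 5`.** -/
theorem modRepIsIrreducible_curve {A B : ℤ} (hA : A % 4 = 3) (hB : (16 : ℤ) ∣ B)
    (hne : A * B * (A + B) ≠ 0) (hcop : IsCoprime A B) {p : ℕ} (hp : p.Prime) (h5 : 5 ≤ p) :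
    (curve A B).ModRepIsIrreducible p := by
  have hΔ := curve_Δ_ne_zero hA hB hne
  rcases le_or_gt 11 p with h11 | h11
  · exact FA.Thirteen.modRepIsIrreducible_all hΔ (curve_semistable hA hB hcop) hp h11
  have h2 := four_mul_a₂ hA hB
  have h4 := sixteen_mul_a₄ hA hB
  interval_cases p
  all_goals first
    | (exfalso; revert hp; decide)
    | skip
  · refine modRepIsIrreducible_five_of_isSquare_Δ hΔ ?_
    obtain ⟨k, hk⟩ : (16 : ℤ) ∣ A * B * (A + B) := (hB.mul_left A).mul_right _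
    exact ⟨k, mul_left_cancel₀ (show (256 : ℤ) ≠ 0 by norm_num)
      (by rw [curve_Δ hA hB, hk]; ring)⟩
  · have h2' : 4 * ((curve A B).a₂ : ℚ) = (B : ℚ) - 1 - A := by exact_mod_cast h2
    have h4' : 16 * ((curve A B).a₄ : ℚ) = -((A : ℚ) * B) := by exact_mod_cast h4
    have e1 : (curve A B).a₁ = 1 := rfl
    have e3 : (curve A B).a₃ = 0 := rfl
    have e6 : (curve A B).a₆ = 0 := rfl
    refine modRepIsIrreducible_seven_of_roots hΔ (e₁ := 0) (e₂ := (A : ℚ) / 4)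
      (e₃ := -(B : ℚ) / 4) ?_ ?_ ?_
    · simp only [b₂, e1]; push_cast; linear_combination h2'
    · simp only [b₄, e1, e3]; push_cast; linear_combination h4' / 8
    · simp only [b₆, e3, e6]; push_cast; ring

end FA.Ribet

end
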