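import Fermat.Agent.Ribet.SerreMore
import Fermat.Agent.Ribet.FiveSeven
import Fermat.Agent.Root.SummaryCubeEquation
import Fermat.Agent.Root.SummaryModularForms
import Fermat.Agent.Petersson.HeckeBound
import Fermat.Agent.HasseBound.Summary

/-!
# The modular method for every modulus

A semistable curve whose discriminant is a `p`-th power away from `M` is congruent to an eigenform
of a level dividing `M`. The Hecke algebras of these levels have finitely many characters, and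
`p` divides the difference of an eigenvalue and the trace, or `±(l + 1)` at a multiplicative prime.
These differences are not zero for an eigenvalue outside the possible traces, as the trivial
bound is not attained: so for large `p` every eigenvalue is one of the possible traces.
-/

set_option autoImplicit false
set_option linter.style.haveILetI false
set_option linter.unusedSectionVars false

noncomputable section

open WeierstrassCurve CongruenceSubgroup FA.RT FA.RT.Tate FA.Frob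

namespace FA.Ribet

local notation "Qb" => AlgebraicClosure ℚ
local notation "GQ" => AlgebraicClosure ℚ ≃ₐ[ℚ] AlgebraicClosure ℚ
local notation "ZB" => integralClosure ℤ ℂ

/-- Hasse's bound at a good prime of a model. -/
theorem apOfModel_sq_le {W : WeierstrassCurve ℤ} {l : ℕ} (hl : l.Prime)
    (hgood : W.IsGoodPrimeFor l) : W.apOfModel l ^ 2 ≤ 4 * (l : ℤ) := by
  haveI := Fact.mk hl
  haveI : (W.reductionMod l).IsElliptic := by
    refine ⟨isUnit_iff_ne_zero.mpr ?_⟩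
    rw [reductionMod, WeierstrassCurve.map_Δ]
    exact fun h => hgood ((ZMod.intCast_zmod_eq_zero_iff_dvd _ l).mp h)
  exact FA.HasseBound.traceOfFrobenius_sq_le (W.reductionMod l)

/-- A module-finite ring has finitely many maps to the complex numbers. -/
theorem finite_ringHom_complex (R : Type) [CommRing R] [Module.Finite ℤ R] :
    Finite (R →+* ℂ) := by
  obtain ⟨S, hS⟩ := Module.Finite.fg_top (R := ℤ) (M := R)
  have hint : ∀ s : R, IsIntegral ℤ s := Algebra.IsIntegral.isIntegral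
  let T : S → Set ℂ := fun s => {z | ((minpoly ℤ (s : R)).map (algebraMap ℤ ℂ)).IsRoot z}
  haveI : ∀ s, Finite (T s) := fun s =>
    (Polynomial.finite_setOfPred_isRoot ((minpoly.monic (hint s)).map _).ne_zero).to_subtype
  refine Finite.of_injective (fun (χ : R →+* ℂ) (s : S) => (⟨χ s, ?_⟩ : T s)) fun χ χ' h => ?_
  · show Polynomial.IsRoot _ _
    rw [Polynomial.IsRoot, Polynomial.eval_map_algebraMap]
    exact (Polynomial.aeval_algHom_apply χ.toIntAlgHom (s : R) _).trans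
      (by rw [minpoly.aeval, map_zero])
  · have e : χ.toAddMonoidHom.toIntLinearMap = χ'.toAddMonoidHom.toIntLinearMap :=
      LinearMap.ext_on hS fun s hs => congrArg Subtype.val (congrFun h ⟨s, hs⟩)
    exact RingHom.ext fun r => LinearMap.congr_fun e r

/-- A nonzero algebraic integer lies in maximal ideals over boundedly many primes. -/
theorem exists_bound_of_ne_zero {x : ZB} (hx : x ≠ 0) :
    ∃ B : ℕ, ∀ (p : ℕ) (𝔪 : Ideal ZB), p.Prime → 𝔪.IsMaximal → (p : ZB) ∈ 𝔪 → x ∈ 𝔪 → p ≤ B := by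
  have hint : IsIntegral ℤ x := Algebra.IsIntegral.isIntegral x
  have hc : (minpoly ℤ x).coeff 0 ≠ 0 := fun h0 => by
    obtain ⟨g, hg⟩ := Polynomial.X_dvd_iff.mpr h0
    have hirr := minpoly.irreducible hint
    rcases (hg ▸ hirr).isUnit_or_isUnit rfl with hu | hu
    · exact Polynomial.not_isUnit_X hu
    · have h := minpoly.aeval ℤ x
      rw [hg, map_mul, Polynomial.aeval_X] at h
      exact hx ((mul_eq_zero.mp h).resolve_right (hu.map (Polynomial.aeval x)).ne_zero)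
  refine ⟨((minpoly ℤ x).coeff 0).natAbs, fun p 𝔪 hp hm hpm hxm => ?_⟩
  refine Nat.le_of_dvd (Int.natAbs_pos.mpr hc) (Int.natCast_dvd.mp ?_)
  refine dvd_of_intCast_mem hp hm hpm ?_
  have h := congrArg (Polynomial.aeval x) (Polynomial.X_mul_divX_add (minpoly ℤ x))
  rw [minpoly.aeval, map_add, map_mul, Polynomial.aeval_X, Polynomial.aeval_C,
    eq_intCast, add_eq_zero_iff_neg_eq] at h
  rw [← h]
  exact 𝔪.neg_mem (𝔪.mul_mem_right _ hxm)

/-- The eigenvalue at a good prime is not `± (l + 1)`. -/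
theorem qCoeff_ne_succ {N : ℕ} [NeZero N] {f : CuspForm (Gamma0 N) 2}
    (hf : f.IsNormalizedEigenform) {l : ℕ} (hl : l.Prime) (hlN : ¬ l ∣ N) {s : ℤ}
    (hs : s = 1 ∨ s = -1) : ModularFormClass.qCoeff f l ≠ (s : ℂ) * ((l : ℂ) + 1) := fun h => by
  refine hf.ne_zero (FA.Petersson.eq_zero_of_norm_eigen f hl hlN (μ := FA.Deform.qLin N f l)
    (FA.JTorsion.heckeT_eigen hf hl hlN) ?_)
  rw [show FA.Deform.qLin N f l = ModularFormClass.qCoeff f l from rfl, h, norm_mul,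
    show ((l : ℂ) + 1) = ((l + 1 : ℕ) : ℂ) by push_cast; rfl, Complex.norm_natCast]
  rcases hs with rfl | rfl <;> simp

/-- **The congruence at a multiplicative prime**: the eigenvalue is `± (l + 1)` modulo `𝔪`. -/
theorem eigen_congr_mult {W : WeierstrassCurve ℤ} (hΔ : W.Δ ≠ 0) (hW : W.IsSemistableModel)
    {p : ℕ} [hp : Fact p.Prime] (hp2 : p ≠ 2) {N : ℕ} [NeZero N] {f : CuspForm (Gamma0 N) 2}
    (hf : f.IsNormalizedEigenform) {𝔪 : Ideal ZB} (hm : 𝔪.IsMaximal) (hpm : (p : ZB) ∈ 𝔪)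
    (hcong : ∀ l : ℕ, l.Prime → W.IsGoodPrimeFor l → ¬ l ∣ N → l ≠ p →
      ∃ a : ZB, (a : ℂ) = ModularFormClass.qCoeff f l ∧ a - ((W.apOfModel l : ℤ) : ZB) ∈ 𝔪)
    {q : ℕ} (hq : q.Prime) (hqN : ¬ q ∣ N) (hqp : q ≠ p) (hbad : (q : ℤ) ∣ W.Δ)
    {a : ZB} (ha : (a : ℂ) = ModularFormClass.qCoeff f q) :
    ∃ s : ℤ, (s = 1 ∨ s = -1) ∧ a - ((s * ((q : ℤ) + 1) : ℤ) : ZB) ∈ 𝔪 := by
  have := FA.Frob.ratCurve_isElliptic_of_Δ hΔ
  letI : Field (ZB ⧸ 𝔪) := Ideal.Quotient.field 𝔪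
  haveI : CharP (ZB ⧸ 𝔪) p := by
    refine (CharP.charP_iff_prime_eq_zero hp.out).mpr ?_
    rw [← map_natCast (Ideal.Quotient.mk 𝔪)]
    exact Ideal.Quotient.eq_zero_iff_mem.mpr hpm
  obtain ⟨ρ, hρo, hρ⟩ := FA.Summary.eigenform_residual_representation f hf.qCoeff_one
    hf.qCoeff_mul_of_coprime hf.qCoeff_prime_pow_of_not_dvd hf.qCoeff_prime_pow_of_dvd hp.out
    (Ideal.Quotient.mk 𝔪)
  let ι : ZMod p →+* ZB ⧸ 𝔪 := ZMod.castHom dvd_rfl _
  let r₁ : GQ →* Matrix (Fin 2) (Fin 2) (ZB ⧸ 𝔪) :=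
    (ι.mapMatrix : _ →+* _).toMonoidHom.comp (curveRep p W)
  let r₂ : GQ →* Matrix (Fin 2) (Fin 2) (ZB ⧸ 𝔪) := (Units.coeHom _).comp ρ
  have h₁ : IsOpen (r₁.ker : Set GQ) :=
    Subgroup.isOpen_mono (H₁ := (curveRep p W).ker) (fun σ hσ => by
      rw [MonoidHom.mem_ker] at hσ ⊢
      simp [r₁, hσ]) (isOpen_ker_curveRep W)
  have h₂ : IsOpen (r₂.ker : Set GQ) :=
    Subgroup.isOpen_mono (H₁ := ρ.ker) (fun σ hσ => by
      rw [MonoidHom.mem_ker] at hσ ⊢
      simp [r₂, hσ]) hρo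
  have frob : ∀ {l : ℕ}, l.Prime → ¬ l ∣ N → l ≠ p → ∀ {A : ValuationSubring Qb},
      A.LiesOverPrime l → ∀ {σ : GQ}, A.IsFrobeniusAt σ l →
      ∃ b : ZB, (b : ℂ) = ModularFormClass.qCoeff f l ∧
        (r₂ σ).trace = Ideal.Quotient.mk 𝔪 b ∧ (r₂ σ).det = (l : ZB ⧸ 𝔪) := by
    intro l hl hlN hlp A hA σ hσ
    obtain ⟨hmem, hx⟩ := hσ
    refine (hρ l hl (fun hd => ?_) A hA).2 ⟨σ, hmem⟩ hx
    rcases hl.dvd_mul.mp hd with h | h
    · exact hlN h
    · exact hlp ((Nat.prime_dvd_prime_iff_eq hl hp.out).mp h)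
  obtain ⟨A, hA⟩ := FA.Deform.exists_liesOverPrime hq
  obtain ⟨σ, hσ⟩ := FA.Deform.exists_isFrobeniusAt hq hA
  have h := (FA.Density.trace_det_eq_of_frobenius r₁ r₂ h₁ h₂
    (insert p (N.primeFactors ∪ W.Δ.natAbs.primeFactors)) (fun l hl hlS B hB τ hτ => by
      simp only [Finset.mem_insert, Finset.mem_union, Nat.mem_primeFactors, not_or] at hlS
      obtain ⟨hlp, hlN, hWl⟩ := hlS
      have hWg : W.IsGoodPrimeFor l := fun h =>
        hWl ⟨hl, Int.natCast_dvd.mp h, Int.natAbs_ne_zero.mpr hΔ⟩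
      have hlN' : ¬ l ∣ N := fun h => hlN ⟨hl, h, NeZero.ne N⟩
      obtain ⟨t1, d1⟩ := curveRep_frobenius (p := p) hl hlp hWg hB hτ
      obtain ⟨b, hb, t2, d2⟩ := frob hl hlN' hlp hB hτ
      obtain ⟨c, hc, hcm⟩ := hcong l hl hWg hlN' hlp
      obtain rfl : b = c := Subtype.ext (hb.trans hc.symm)
      refine ⟨?_, ?_⟩
      · rw [show r₁ τ = ι.mapMatrix (curveRep p W τ) from rfl, RingHom.mapMatrix_apply,
          ← AddMonoidHom.map_trace, t1, map_intCast, t2, eq_comm,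
          ← map_intCast (Ideal.Quotient.mk 𝔪),
          Ideal.Quotient.mk_eq_mk_iff_sub_mem]
        exact hcm
      · rw [show r₁ τ = ι.mapMatrix (curveRep p W τ) from rfl, ← RingHom.map_det, d1, map_natCast,
          d2]) σ).1
  obtain ⟨B⟩ := exists_tateBasis (p := p) (W := W)
  obtain ⟨s, hs, htr⟩ := B.trace_frobenius_mult hp2 ⟨hΔ, hq, hbad, hW q hq hbad, hA⟩ hqp hσ
  obtain ⟨b, hb, t2, -⟩ := frob hq hqN hqp hA hσ
  obtain rfl : a = b := Subtype.ext (ha.trans hb.symm)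
  refine ⟨s, hs, ?_⟩
  rw [show r₁ σ = ι.mapMatrix (curveRep p W σ) from rfl, RingHom.mapMatrix_apply,
    ← AddMonoidHom.map_trace, curveRep_eq_map B, ← AddMonoidHom.map_trace, htr, t2] at h
  rw [← Ideal.Quotient.mk_eq_mk_iff_sub_mem, ← h]
  simp

open scoped Classical in
/-- **The modular method for every modulus, with the congruence.** For `p` beyond a bound depending
on `M` and the possible traces, a semistable curve whose discriminant is a `p`-th power away from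
`M` gives an eigenform of a level dividing `M` all of whose eigenvalues away from `M` are possible
traces, congruent modulo `p` to the traces of the curve, or to `± (l + 1)` at its bad primes. -/
theorem exists_bound_lowering_congr {M : ℕ} (hM : M ≠ 0) (T : ℕ → Set ℤ) :
    ∃ C : ℕ, ∀ p : ℕ, p.Prime → C < p → ∀ W : WeierstrassCurve ℤ, W.Δ ≠ 0 → W.IsSemistableModel →
      (∀ r : ℕ, r.Prime → (r : ℤ) ∣ W.Δ → ¬ r ∣ M → p ∣ padicValInt r W.Δ) →
      (∀ l : ℕ, l.Prime → ¬ l ∣ M → W.IsGoodPrimeFor l → W.apOfModel l ∈ T l) →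
      ∃ N : ℕ, N ∣ M ∧ ∃ f : CuspForm (Gamma0 N) 2, f.IsNormalizedEigenform ∧
        ∀ l : ℕ, l.Prime → ¬ l ∣ M →
          ∃ t : ℤ, t ∈ T l ∧ t ^ 2 ≤ 4 * (l : ℤ) ∧ ModularFormClass.qCoeff f l = (t : ℂ) ∧
            (l ≠ p → (W.IsGoodPrimeFor l → (p : ℤ) ∣ t - W.apOfModel l) ∧
              (¬ W.IsGoodPrimeFor l →
                (p : ℤ) ∣ t - ((l : ℤ) + 1) ∨ (p : ℤ) ∣ t + ((l : ℤ) + 1))) := by
  -- the bound of one level
  have key : ∀ N : ℕ, N ∣ M → ∃ C : ℕ, ∀ p : ℕ, p.Prime → C < p → p ≠ 2 →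
      ∀ W : WeierstrassCurve ℤ, W.Δ ≠ 0 → W.IsSemistableModel →
      (∀ l : ℕ, l.Prime → ¬ l ∣ M → W.IsGoodPrimeFor l → W.apOfModel l ∈ T l) →
      W.IsResiduallyModularOfLevel p N →
      ∃ f : CuspForm (Gamma0 N) 2, f.IsNormalizedEigenform ∧
        ∀ l : ℕ, l.Prime → ¬ l ∣ M →
          ∃ t : ℤ, t ∈ T l ∧ t ^ 2 ≤ 4 * (l : ℤ) ∧ ModularFormClass.qCoeff f l = (t : ℂ) ∧
            (l ≠ p → (W.IsGoodPrimeFor l → (p : ℤ) ∣ t - W.apOfModel l) ∧
              (¬ W.IsGoodPrimeFor l →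
                (p : ℤ) ∣ t - ((l : ℤ) + 1) ∨ (p : ℤ) ∣ t + ((l : ℤ) + 1))) := by
    intro N hN
    haveI : NeZero N := ⟨fun h => hM (Nat.eq_zero_of_zero_dvd (h ▸ hN))⟩
    haveI : Module.Finite ℤ (FA.ModField.HFull N) := FA.Period.moduleFinite_heckeAlgebra N 2 _
    haveI := finite_ringHom_complex (FA.ModField.HFull N)
    haveI : Finite (FA.ModField.HFull N →+* ZB) :=
      Finite.of_injective (fun ψ => (algebraMap ZB ℂ).comp ψ) fun ψ ψ' h =>
        RingHom.ext fun x => Subtype.ext (RingHom.congr_fun h x)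
    let val : ∀ (l : ℕ), l.Prime → ¬ l ∣ M → (FA.ModField.HFull N →+* ZB) → ZB :=
      fun l hl hlM ψ => ψ (CuspForm.heckeAlgebra.T (k := 2) hl (fun h => hlM (h.trans hN))
        (Set.notMem_empty _))
    have hbound : ∀ ψ : FA.ModField.HFull N →+* ZB, ∃ C : ℕ,
        (∃ (l : ℕ) (hl : l.Prime) (hlM : ¬ l ∣ M),
          ∀ t : ℤ, t ∈ T l → t ^ 2 ≤ 4 * (l : ℤ) → val l hl hlM ψ ≠ (t : ZB)) →
        ∃ (l : ℕ) (hl : l.Prime) (hlM : ¬ l ∣ M), l ≤ C ∧
          (∀ t : ℤ, t ∈ T l → t ^ 2 ≤ 4 * (l : ℤ) → val l hl hlM ψ ≠ (t : ZB)) ∧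
          ∀ (p : ℕ) (𝔪 : Ideal ZB), p.Prime → C < p → 𝔪.IsMaximal → (p : ZB) ∈ 𝔪 → ∀ t : ℤ,
            (t ∈ T l ∧ t ^ 2 ≤ 4 * (l : ℤ) ∨ t = (l : ℤ) + 1 ∨ t = -((l : ℤ) + 1)) →
            val l hl hlM ψ ≠ (t : ZB) → val l hl hlM ψ - (t : ZB) ∉ 𝔪 := by
      intro ψ
      by_cases hbad : ∃ (l : ℕ) (hl : l.Prime) (hlM : ¬ l ∣ M),
          ∀ t : ℤ, t ∈ T l → t ^ 2 ≤ 4 * (l : ℤ) → val l hl hlM ψ ≠ (t : ZB)
      swap
      · exact ⟨0, fun h => absurd h hbad⟩
      obtain ⟨l, hl, hlM, hall⟩ := hbad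
      let F : Finset ℤ := Finset.Icc (-((l : ℤ) + 1)) ((l : ℤ) + 1)
      have hB : ∀ t : ℤ, ∃ B : ℕ, val l hl hlM ψ ≠ (t : ZB) → ∀ (p : ℕ) (𝔪 : Ideal ZB),
          p.Prime → 𝔪.IsMaximal → (p : ZB) ∈ 𝔪 → val l hl hlM ψ - (t : ZB) ∈ 𝔪 → p ≤ B := by
        intro t
        by_cases h : val l hl hlM ψ = (t : ZB)
        · exact ⟨0, fun h' => absurd h h'⟩
        · obtain ⟨B, hB⟩ := exists_bound_of_ne_zero (sub_ne_zero.mpr h)
          exact ⟨B, fun _ => hB⟩
      choose B hB using hB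
      refine ⟨max l (F.sup B), fun _ => ⟨l, hl, hlM, le_max_left _ _, hall,
        fun p 𝔪 hp hC hm hpm t ht hne hmem => ?_⟩⟩
      have htF : t ∈ F := by
        rw [Finset.mem_Icc]
        rcases ht with ⟨-, ht⟩ | rfl | rfl
        · have h2 : (2 : ℤ) ≤ l := by exact_mod_cast hl.two_le
          constructor <;> nlinarith
        all_goals omega
      have := (hB t hne p 𝔪 hp hm hpm hmem).trans ((Finset.le_sup htF).trans (le_max_right l _))
      omega
    choose C hC using hbound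
    obtain ⟨C', hC'⟩ := (Set.finite_range C).bddAbove
    refine ⟨C', fun p hp hpC hp2 W hΔ hW hT hres => ?_⟩
    haveI := Fact.mk hp
    obtain ⟨f, 𝔪, hf, hm, hpm, hcong⟩ := hres
    obtain ⟨ψ, hψ, -⟩ := FA.Root.exists_eigenChar_full hf
    suffices hint : ∀ l : ℕ, l.Prime → ¬ l ∣ M →
        ∃ t : ℤ, t ∈ T l ∧ t ^ 2 ≤ 4 * (l : ℤ) ∧ ModularFormClass.qCoeff f l = (t : ℂ) by
      refine ⟨f, hf, fun l hl hlM => ?_⟩
      obtain ⟨t, ht, htsq, htf⟩ := hint l hl hlM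
      refine ⟨t, ht, htsq, htf, fun hlp => ⟨fun hgood => ?_, fun hbadl => ?_⟩⟩
      · obtain ⟨a, ha, ham⟩ := hcong l hl hgood (fun h => hlM (h.trans hN)) hlp
        obtain rfl : a = (t : ZB) := Subtype.ext (by rw [ha, htf]; simp)
        exact dvd_of_intCast_mem hp hm hpm (by rwa [Int.cast_sub])
      · obtain ⟨e, he, hem⟩ := eigen_congr_mult hΔ hW hp2 hf hm hpm hcong hl
          (fun h => hlM (h.trans hN)) hlp (not_not.mp hbadl) (a := (t : ZB)) (by rw [htf]; simp)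
        have h := dvd_of_intCast_mem hp hm hpm (n := t - e * ((l : ℤ) + 1))
          (by rwa [Int.cast_sub])
        rcases he with rfl | rfl
        · left; simpa using h
        · right; rwa [neg_one_mul, sub_neg_eq_add] at h
    by_contra hfail
    push Not at hfail
    obtain ⟨l₀, hl₀, hl₀M, hno⟩ := hfail
    have hval : ∀ (l : ℕ) (hl : l.Prime) (hlM : ¬ l ∣ M),
        (val l hl hlM ψ : ℂ) = ModularFormClass.qCoeff f l := fun l hl _ => hψ l hl _
    obtain ⟨l, hl, hlM, hlC, hall, hsep⟩ := hC ψ ⟨l₀, hl₀, hl₀M, fun t ht hsq he =>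
      hno t ht hsq (by rw [← hval l₀ hl₀ hl₀M, he]; simp)⟩
    have hle : C ψ ≤ C' := hC' ⟨ψ, rfl⟩
    have hlN : ¬ l ∣ N := fun h => hlM (h.trans hN)
    have hsep' := hsep p 𝔪 hp (by omega) hm hpm
    by_cases hgood : W.IsGoodPrimeFor l
    · obtain ⟨a, ha, ham⟩ := hcong l hl hgood hlN (by omega)
      obtain rfl : a = val l hl hlM ψ := Subtype.ext (ha.trans (hval l hl hlM).symm)
      exact hsep' _ (Or.inl ⟨hT l hl hlM hgood, apOfModel_sq_le hl hgood⟩)
        (hall _ (hT l hl hlM hgood) (apOfModel_sq_le hl hgood)) ham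
    · obtain ⟨s, hs, hsm⟩ := eigen_congr_mult hΔ hW hp2 hf hm hpm hcong hl hlN (by omega)
        (not_not.mp hgood) (hval l hl hlM)
      refine hsep' _ ?_ (fun he => ?_) hsm
      · rcases hs with rfl | rfl <;> [right; right] <;> simp
      · refine qCoeff_ne_succ hf hl hlN hs ?_
        rw [← hval l hl hlM, he]
        simp
  choose C hC using key
  let C' : ℕ → ℕ := fun N => if h : N ∣ M then C N h else 0
  refine ⟨max 11 (M.divisors.sup C'), fun p hp hpC W hΔ hW hdiv hT => ?_⟩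
  haveI := Fact.mk hp
  have h11 : 11 ≤ p := ((le_max_left _ _).trans hpC.le)
  set S := W.Δ.natAbs.primeFactors.filter (fun q => ¬ p ∣ padicValInt q W.Δ) with hS
  have hprime : ∀ q ∈ S, q.Prime := fun q hq =>
    Nat.prime_of_mem_primeFactors (Finset.mem_filter.mp hq).1
  obtain ⟨N, hN, hres⟩ := FA.Root.exists_level_recipe (by omega) hΔ hW
    (FA.Thirteen.modRepIsIrreducible_all hΔ hW hp h11) (FA.Root.squarefree_badProd W)
    (FA.Root.isResiduallyModularOfLevel_of_modular hp (FA.SS.semistableModular W hΔ hW))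
  have hSM : (∏ q ∈ S, q) ∣ M := by
    refine Finset.prod_primes_dvd M (fun q hq => (hprime q hq).prime) fun q hq => ?_
    by_contra hqM
    obtain ⟨hq1, hq2⟩ := Finset.mem_filter.mp hq
    exact hq2 (hdiv q (hprime q hq)
      (Int.natCast_dvd.mpr (Nat.dvd_of_mem_primeFactors hq1)) hqM)
  have hNM : N ∣ M := (hS ▸ hN).trans hSM
  have hCle : C N hNM ≤ M.divisors.sup C' := by
    have h := Finset.le_sup (f := C') (Nat.mem_divisors.mpr ⟨hNM, hM⟩)
    simpa [C', hNM] using h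
  exact ⟨N, hNM, hC N hNM p hp (hCle.trans_lt ((le_max_right _ _).trans_lt hpC)) (by omega) W hΔ
    hW hT hres⟩

/-- **The modular method for every modulus.** For `p` beyond a bound depending on `M` and the
possible traces, a semistable curve whose discriminant is a `p`-th power away from `M` gives an
eigenform of a level dividing `M` all of whose eigenvalues away from `M` are possible traces. -/
theorem exists_bound_lowering {M : ℕ} (hM : M ≠ 0) (T : ℕ → Set ℤ) :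
    ∃ C : ℕ, ∀ p : ℕ, p.Prime → C < p → ∀ W : WeierstrassCurve ℤ, W.Δ ≠ 0 → W.IsSemistableModel →
      (∀ r : ℕ, r.Prime → (r : ℤ) ∣ W.Δ → ¬ r ∣ M → p ∣ padicValInt r W.Δ) →
      (∀ l : ℕ, l.Prime → ¬ l ∣ M → W.IsGoodPrimeFor l → W.apOfModel l ∈ T l) →
      ∃ N : ℕ, N ∣ M ∧ ∃ f : CuspForm (Gamma0 N) 2, f.IsNormalizedEigenform ∧
        ∀ l : ℕ, l.Prime → ¬ l ∣ M →
          ∃ t : ℤ, t ∈ T l ∧ t ^ 2 ≤ 4 * (l : ℤ) ∧ ModularFormClass.qCoeff f l = (t : ℂ) := by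
  obtain ⟨C, hC⟩ := exists_bound_lowering_congr hM T
  refine ⟨C, fun p hp hpC W hΔ hW hdiv hT => ?_⟩
  obtain ⟨N, hN, f, hf, h⟩ := hC p hp hpC W hΔ hW hdiv hT
  exact ⟨N, hN, f, hf, fun l hl hlM =>
    (h l hl hlM).imp fun t ⟨ht, hsq, hf, _⟩ => ⟨ht, hsq, hf⟩⟩

end FA.Ribet

end
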