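import Fermat.Agent.Ribet.Asymptotic

/-!
# Traces of the curves of the three signatures, and the exponent of their discriminants

The reduced curves of `A + B + C = 0`, of the square and of the cube equation have full `2`-torsion,
a point of order `2` and one of order `3`: so `l + 1 - a_l` is divisible by `4`, `2` and `3`.
-/

set_option autoImplicit false
set_option linter.style.haveILetI false

noncomputable section

open WeierstrassCurve

namespace FA.Ribet

/-- Two points of order two make the order of a group divisible by four. -/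
theorem four_dvd_natCard_of_two {G : Type} [AddCommGroup G] {P Q : G} (hP : P ≠ 0) (hQ : Q ≠ 0)
    (hPQ : P ≠ Q) (hP2 : P + P = 0) (hQ2 : Q + Q = 0) : 4 ∣ Nat.card G := by
  let e : ∀ R : G, R + R = 0 → ZMod 2 →+ G := fun R hR =>
    ZMod.lift 2 ⟨zmultiplesHom G R, by
      show ((2 : ℕ) : ℤ) • R = 0
      rw [natCast_zsmul, two_nsmul, hR]⟩
  have e1 : ∀ R hR, e R hR 1 = R := fun R hR => by
    show ZMod.lift 2 _ ((1 : ℤ) : ZMod 2) = R
    rw [ZMod.lift_coe]
    simp
  let φ : ZMod 2 × ZMod 2 →+ G := (e P hP2).coprod (e Q hQ2)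
  have hinj : Function.Injective φ := by
    rw [injective_iff_map_eq_zero]
    rintro ⟨a, b⟩ h
    have h01 : ∀ c : ZMod 2, c = 0 ∨ c = 1 := by decide
    rcases h01 a with rfl | rfl <;> rcases h01 b with rfl | rfl
    · rfl
    · exact absurd (by simpa [φ, e1] using h) hQ
    · exact absurd (by simpa [φ, e1] using h) hP
    · have h' : P + Q = 0 := by simpa [φ, e1] using h
      exact absurd (add_left_cancel (hP2.trans h'.symm) : P = Q) hPQ
  have := AddSubgroup.card_addSubgroup_dvd_card φ.range
  rwa [Nat.card_congr (AddMonoidHom.ofInjective hinj).toEquiv.symm, Nat.card_prod,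
    Nat.card_zmod] at this

variable {W : WeierstrassCurve ℤ} {l : ℕ}

/-- The order of the group of the reduced curve. -/
theorem natCard_reduction [Fact l.Prime] :
    (Nat.card (W.reductionMod l).toAffine.Point : ℤ) = (l : ℤ) + 1 - W.apOfModel l := by
  rw [apOfModel, traceOfFrobenius, WeierstrassCurve.card, Nat.card_zmod]
  ring

/-- The reduced curve at a good prime is elliptic. -/
theorem isElliptic_reduction [Fact l.Prime] (hgood : W.IsGoodPrimeFor l) :
    (W.reductionMod l).IsElliptic := by
  refine ⟨isUnit_iff_ne_zero.mpr ?_⟩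
  rw [reductionMod, WeierstrassCurve.map_Δ]
  exact fun h => hgood ((ZMod.intCast_zmod_eq_zero_iff_dvd _ l).mp h)

/-- `4` divides the orders of the reductions of the curve of `A + B + C = 0`. -/
theorem four_dvd_apOfModel_curve {A B : ℤ} (hA : A % 4 = 3) (hB : (16 : ℤ) ∣ B) (hl : l.Prime)
    (h2 : l ≠ 2) (hgood : (curve A B).IsGoodPrimeFor l) :
    (4 : ℤ) ∣ (l : ℤ) + 1 - (curve A B).apOfModel l := by
  haveI := Fact.mk hl
  haveI := isElliptic_reduction hgood
  set V := ((curve A B).reductionMod l).toAffine with hV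
  have h20 : (2 : ZMod l) ≠ 0 := fun h => h2 ((Nat.prime_dvd_prime_iff_eq hl Nat.prime_two).mp
    ((ZMod.natCast_eq_zero_iff 2 l).mp (by exact_mod_cast h)))
  have h40 : (4 : ZMod l) ≠ 0 := by
    rw [show (4 : ZMod l) = 2 * 2 by norm_num]
    exact mul_ne_zero h20 h20
  have e1 : V.a₁ = 1 := by simp [hV, reductionMod, curve]
  have e3 : V.a₃ = 0 := by simp [hV, reductionMod, curve]
  have e6 : V.a₆ = 0 := by simp [hV, reductionMod, curve]
  have e2 : 4 * V.a₂ = (B : ZMod l) - 1 - A := by
    have h := congrArg (Int.cast : ℤ → ZMod l) (four_mul_a₂ hA hB)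
    push_cast at h
    simpa [hV, reductionMod] using h
  have e4 : 16 * V.a₄ = -((A : ZMod l) * B) := by
    have h := congrArg (Int.cast : ℤ → ZMod l) (sixteen_mul_a₄ hA hB)
    push_cast at h
    simpa [hV, reductionMod] using h
  have hA0 : (A : ZMod l) ≠ 0 := fun h0 => by
    have h := congrArg (Int.cast : ℤ → ZMod l) (curve_Δ hA hB)
    push_cast at h
    rw [h0, zero_mul, zero_mul, zero_pow two_ne_zero] at h
    have h256 : (256 : ZMod l) ≠ 0 := by
      rw [show (256 : ZMod l) = 2 ^ 8 by norm_num]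
      exact pow_ne_zero _ h20
    exact hgood ((ZMod.intCast_zmod_eq_zero_iff_dvd _ l).mp
      ((mul_eq_zero.mp h).resolve_left h256))
  obtain ⟨i, hi⟩ : ∃ i : ZMod l, 4 * i = 1 := ⟨4⁻¹, mul_inv_cancel₀ h40⟩
  obtain ⟨j, hj⟩ : ∃ j : ZMod l, 2 * j = 1 := ⟨2⁻¹, mul_inv_cancel₀ h20⟩
  have hP : V.Nonsingular 0 0 := Affine.equation_iff_nonsingular.mp (by
    rw [Affine.equation_iff]
    simp [e3, e6])
  have hQ : V.Nonsingular ((A : ZMod l) * i) (-((A : ZMod l) * i * j)) :=
    Affine.equation_iff_nonsingular.mp (by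
      rw [Affine.equation_iff, e1, e3, e6]
      refine mul_left_cancel₀ (mul_ne_zero h40 (mul_ne_zero h40 h40)) ?_
      set u := (A : ZMod l) * i with hu
      have hu' : 4 * u = A := by rw [hu, ← mul_assoc, mul_comm 4, mul_assoc, hi, mul_one]
      linear_combination 16 * u ^ 2 * (2 * j - 1) * hj - 16 * u ^ 2 * e2 - 4 * u * e4
        + (-16 * u ^ 2 - 4 * u * (B : ZMod l)) * hu')
  have hPn : (Affine.Point.some _ _ hP) + Affine.Point.some _ _ hP = 0 :=
    Affine.Point.add_self_of_Y_eq (by simp [Affine.negY, e3])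
  have hQn : (Affine.Point.some _ _ hQ) + Affine.Point.some _ _ hQ = 0 :=
    Affine.Point.add_self_of_Y_eq (by
      rw [Affine.negY, e1, e3]
      linear_combination -(A : ZMod l) * i * hj)
  have h := four_dvd_natCard_of_two (Affine.Point.some_ne_zero hP) (Affine.Point.some_ne_zero hQ)
    (fun h => by
      injection h with h1 _
      rcases mul_eq_zero.mp h1.symm with h | h
      · exact hA0 h
      · simp [h] at hi) hPn hQn
  rw [← natCard_reduction]
  exact_mod_cast h

/-- `2` divides the orders of the reductions of the curve of the square equation. -/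
theorem two_dvd_apOfModel_squareCurve {x T : ℤ} (hl : l.Prime)
    (hgood : (FA.SquareEquation.squareCurve x T).IsGoodPrimeFor l) :
    (2 : ℤ) ∣ (l : ℤ) + 1 - (FA.SquareEquation.squareCurve x T).apOfModel l := by
  haveI := Fact.mk hl
  haveI := isElliptic_reduction hgood
  set V := ((FA.SquareEquation.squareCurve x T).reductionMod l).toAffine with hV
  have e3 : V.a₃ = 0 := by simp [hV, reductionMod, FA.SquareEquation.squareCurve]
  have e6 : V.a₆ = 0 := by simp [hV, reductionMod, FA.SquareEquation.squareCurve]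
  have hP : V.Nonsingular 0 0 := Affine.equation_iff_nonsingular.mp (by
    rw [Affine.equation_iff]
    simp [e3, e6])
  have hPn : (Affine.Point.some _ _ hP) + Affine.Point.some _ _ hP = 0 :=
    Affine.Point.add_self_of_Y_eq (by simp [Affine.negY, e3])
  have h := addOrderOf_dvd_natCard (Affine.Point.some _ _ hP)
  rw [addOrderOf_eq_prime (p := 2) (by rw [two_nsmul, hPn]) (Affine.Point.some_ne_zero hP)] at h
  rw [← natCard_reduction]
  exact_mod_cast h

/-- `3` divides the orders of the reductions of the curve of the cube equation. -/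
theorem three_dvd_apOfModel_cubeCurve {x T : ℤ} (hT : (27 : ℤ) ∣ T) (hl : l.Prime)
    (hgood : (FA.PowerEquations.cubeCurve x T).IsGoodPrimeFor l) :
    (3 : ℤ) ∣ (l : ℤ) + 1 - (FA.PowerEquations.cubeCurve x T).apOfModel l := by
  haveI := Fact.mk hl
  haveI := Fact.mk Nat.prime_three
  haveI := isElliptic_reduction hgood
  set V := ((FA.PowerEquations.cubeCurve x T).reductionMod l).toAffine with hV
  have e2 : V.a₂ = 0 := by simp [hV, reductionMod, FA.PowerEquations.cubeCurve]
  have e4 : V.a₄ = 0 := by simp [hV, reductionMod, FA.PowerEquations.cubeCurve]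
  have e6 : V.a₆ = 0 := by simp [hV, reductionMod, FA.PowerEquations.cubeCurve]
  have e3 : V.a₃ ≠ 0 := fun h0 => hgood (by
    rw [← ZMod.intCast_zmod_eq_zero_iff_dvd, FA.PowerEquations.cube_Δ_eq hT, Int.cast_mul,
      Int.cast_pow, show ((T / 27 : ℤ) : ZMod l) = 0 from h0]
    simp)
  have hP : V.Nonsingular 0 0 := Affine.equation_iff_nonsingular.mp (by
    rw [Affine.equation_iff]
    simp [e6])
  have hy : (0 : ZMod l) ≠ V.negY 0 0 := by simpa [Affine.negY] using e3
  have hPn : (3 : ℕ) • Affine.Point.some _ _ hP = 0 := by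
    rw [succ_nsmul, two_nsmul, Affine.Point.add_self_of_Y_ne' hy]
    have hs : V.slope 0 0 0 0 = 0 := by
      rw [Affine.slope_of_Y_ne rfl hy]
      simp [e4]
    rw [neg_add_eq_zero]
    simp [Affine.negAddY, Affine.addX, hs, e2]
  have h := addOrderOf_dvd_natCard (Affine.Point.some _ _ hP)
  rw [addOrderOf_eq_prime hPn (Affine.Point.some_ne_zero hP)] at h
  rw [← natCard_reduction]
  exact_mod_cast h

/-- Away from the primes of `a` and `b` the exponents of `D` are multiples of `p`. -/
theorem dvd_padicValInt_of_eq {p r : ℕ} (hp : p ≠ 0) (hr : r.Prime) {a b D t : ℤ} (ha : a ≠ 0)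
    (hD : D ≠ 0) (hra : ¬ (r : ℤ) ∣ a) (hrb : ¬ (r : ℤ) ∣ b) (h : a * D = b * t ^ p) :
    p ∣ padicValInt r D := by
  haveI := Fact.mk hr
  have hbt : b ≠ 0 ∧ t ≠ 0 := by
    constructor <;> rintro rfl <;> simp [zero_pow hp, ha, hD] at h
  refine ⟨padicValInt r t, ?_⟩
  have e := congrArg (padicValInt r) h
  rw [padicValInt.mul ha hD, padicValInt.mul hbt.1 (pow_ne_zero _ hbt.2),
    padicValInt.eq_zero_of_not_dvd hra, padicValInt.eq_zero_of_not_dvd hrb, zero_add, zero_add] at e
  rw [e, padicValInt, Int.natAbs_pow, padicValNat.pow _ _]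
  rfl

end FA.Ribet

end
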