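import Fermat.Agent.Ribet.FiveSeven
import Fermat.Agent.Root.SummaryEquationsSeven
import Fermat.Agent.Thirteen.SummarySerre

/-!
# Fermat's equation with coefficients supported on two primes

A coprime solution of `A x ^ p + B y ^ p + C z ^ p = 0`, the primes of `A B C` among `2` and `q` and
`16 ∣ C z ^ p`, gives a semistable Frey curve with discriminant a `p`-th power away from `2 q`. So
for a small `q` level lowering leaves no form or finitely many curves, whose traces at `3` or `2`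
rule it out.
-/

set_option autoImplicit false
set_option linter.style.haveILetI false
set_option linter.unusedSectionVars false

noncomputable section

open WeierstrassCurve

namespace FA.Ribet

/-- The Frey curve parameters of a coprime relation with a term divisible by `16`. -/
theorem exists_frey {a b c : ℤ} (hsum : a + b + c = 0) (hcop : IsCoprime a b)
    (h16 : (16 : ℤ) ∣ c) (hne : a * b * c ≠ 0) :
    ∃ A B : ℤ, A % 4 = 3 ∧ (16 : ℤ) ∣ B ∧ ((32 : ℤ) ∣ c → (32 : ℤ) ∣ B) ∧ IsCoprime A B ∧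
      A * B * (A + B) ≠ 0 ∧ (A * B * (A + B)) ^ 2 = (a * b * c) ^ 2 := by
  have hac : IsCoprime a c := by
    rw [show c = -b + a * (-1) by linear_combination hsum]
    exact hcop.neg_right.add_mul_left_right (-1)
  have ha : Odd a := by
    rw [← Int.not_even_iff_odd]
    intro he
    have := hac.isUnit_of_dvd' he.two_dvd ((show (2 : ℤ) ∣ 16 by norm_num).trans h16)
    exact Int.prime_two.not_isUnit this
  have hs : a + c = -b := by linear_combination hsum
  have hne' : a * c * (a + c) ≠ 0 := by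
    rw [hs, mul_neg, neg_ne_zero, mul_right_comm]
    exact hne
  by_cases h3 : a % 4 = 3
  · exact ⟨a, c, h3, h16, id, hac, hne', by rw [hs]; ring⟩
  · refine ⟨-a, -c, ?_, h16.neg_right, fun h => h.neg_right, hac.neg_neg, ?_, ?_⟩
    · rw [Int.odd_iff] at ha
      omega
    · rw [show -a * -c * (-a + -c) = -(a * c * (a + c)) by ring]
      exact neg_ne_zero.mpr hne'
    · rw [show -a * -c * (-a + -c) = -(a * c * (a + c)) by ring, hs]
      ring

/-- No such curve for `q = 3, 5` and `p ≥ 5`: the level has no form. -/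
theorem false_of_twoPrimes_three_five {p : ℕ} (hp : p.Prime) (h5 : 5 ≤ p) {q : ℕ}
    (hq : q = 3 ∨ q = 5) {A B s u : ℤ} (hA : A % 4 = 3) (hB : (16 : ℤ) ∣ B) (hcop : IsCoprime A B)
    (hne : A * B * (A + B) ≠ 0) (hs : ∀ r : ℕ, r.Prime → (r : ℤ) ∣ s → r = 2 ∨ r = q)
    (h : (A * B * (A + B)) ^ 2 = s * u ^ p) : False := by
  haveI := Fact.mk hp
  refine FA.PowerEquations.false_of_discriminant_eq_of_irreducible (W := curve A B) (M := 2 * q)
      (a := 256) (b := s)
    (t := u) (curve_Δ_ne_zero hA hB hne) (curve_semistable hA hB hcop) (by omega)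
    (modRepIsIrreducible_curve hA hB hne hcop hp h5) (by omega) (by omega) (by norm_num)
    (fun r hr hd => ?_) (fun r hr hd => ?_) (by rw [curve_Δ hA hB, h])
  · have hd' : r ∣ 2 ^ 8 := by exact_mod_cast hd
    rw [(Nat.prime_dvd_prime_iff_eq hr Nat.prime_two).mp (hr.dvd_of_dvd_pow hd')]
    exact dvd_mul_right 2 q
  · rcases hs r hr hd with rfl | rfl
    exacts [dvd_mul_right 2 q, dvd_mul_left _ 2]

/-- For other `q` the curve is residually modular of a level dividing `2 q`. -/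
theorem exists_level_of_twoPrimes {p : ℕ} (hp : p.Prime) (h11 : 11 ≤ p) {q : ℕ} (hqp : q.Prime)
    (hpq : q ≠ p) {A B s u : ℤ} (hA : A % 4 = 3) (hB : (16 : ℤ) ∣ B) (hcop : IsCoprime A B)
    (hne : A * B * (A + B) ≠ 0) (hs : ∀ r : ℕ, r.Prime → (r : ℤ) ∣ s → r = 2 ∨ r = q)
    (h : (A * B * (A + B)) ^ 2 = s * u ^ p) :
    ∃ N : ℕ, N ∣ 2 * q ∧ (curve A B).IsResiduallyModularOfLevel p N := by
  haveI := Fact.mk hp
  have hΔ := curve_Δ_ne_zero hA hB hne
  have hW := curve_semistable hA hB hcop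
  have hpm : ¬ p ∣ 2 * q := fun hd => by
    rcases hp.dvd_mul.mp hd with hd | hd
    · have := Nat.le_of_dvd (by norm_num) hd
      omega
    · exact hpq ((Nat.prime_dvd_prime_iff_eq hp hqp).mp hd).symm
  refine exists_dvd_isResiduallyModular hpm (by omega) hΔ hW
    (modRepIsIrreducible_curve hA hB hne hcop hp (by omega)) (fun r hr hrm _ => ?_)
    (FA.Root.squarefree_badProd _)
    (FA.Root.isResiduallyModularOfLevel_of_modular hp (FA.SS.semistableModular _ hΔ hW))
  haveI := Fact.mk hr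
  have hsu : s ≠ 0 ∧ u ≠ 0 := by
    constructor <;> rintro rfl <;> simp [zero_pow hp.ne_zero, hne] at h
  have e := congrArg (padicValInt r) ((curve_Δ hA hB).trans h)
  have h256 : padicValInt r 256 = 0 := padicValInt.eq_zero_of_not_dvd fun hd => hrm <| by
    have hd' : r ∣ 2 ^ 8 := by exact_mod_cast hd
    rw [(Nat.prime_dvd_prime_iff_eq hr Nat.prime_two).mp (hr.dvd_of_dvd_pow hd')]
    exact dvd_mul_right 2 q
  have hs0 : padicValInt r s = 0 := padicValInt.eq_zero_of_not_dvd fun hd => hrm <| by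
    rcases hs r hr hd with rfl | rfl
    exacts [dvd_mul_right 2 q, dvd_mul_left _ 2]
  rw [padicValInt.mul (by norm_num) hΔ, padicValInt.mul hsu.1 (pow_ne_zero _ hsu.2), h256, hs0,
    zero_add, zero_add] at e
  refine ⟨padicValNat r u.natAbs, e.trans ?_⟩
  rw [padicValInt, Int.natAbs_pow, padicValNat.pow _ _]

/-- No such curve for `q = 7, 11, 13` and `p ≥ 11`: the trace at `3`. -/
theorem false_of_twoPrimes_seven {p : ℕ} (hp : p.Prime) (h11 : 11 ≤ p) {q : ℕ}
    (hq : q = 7 ∨ q = 11 ∨ q = 13) (hpq : q ≠ p) {A B s u : ℤ} (hA : A % 4 = 3)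
    (hB : (16 : ℤ) ∣ B) (hcop : IsCoprime A B) (hne : A * B * (A + B) ≠ 0)
    (hs : ∀ r : ℕ, r.Prime → (r : ℤ) ∣ s → r = 2 ∨ r = q)
    (h : (A * B * (A + B)) ^ 2 = s * u ^ p) : False := by
  haveI := Fact.mk hp
  obtain ⟨N, hN, f, 𝔪, hf, hm, hpm, hcong⟩ := exists_level_of_twoPrimes hp h11
    (by rcases hq with rfl | rfl | rfl <;> norm_num) hpq hA hB hcop hne hs h
  obtain ⟨E, hEgood, hEΔ, hE3, hEf⟩ := exists_curve_of_eigenform hq hN hf
  exact false_of_congruent_three hp h11 (by omega) hA hB hcop hne hEΔ hEgood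
    (by rcases hq with rfl | rfl | rfl <;> norm_num) hE3
    fun l hl hlq hgood hlp => dvd_apOfModel_sub hp hN hm hpm hcong hEf hl hlq hgood hlp

/-- No such curve for `q = 17, 19` and `p ≥ 11` when `32 ∣ B`: the traces at `3` and `2`. -/
theorem false_of_twoPrimes_seventeen {p : ℕ} (hp : p.Prime) (h11 : 11 ≤ p) {q : ℕ}
    (hq : q = 17 ∨ q = 19) (hpq : q ≠ p) {A B s u : ℤ} (hA : A % 4 = 3) (h32 : (32 : ℤ) ∣ B)
    (hcop : IsCoprime A B) (hne : A * B * (A + B) ≠ 0)
    (hs : ∀ r : ℕ, r.Prime → (r : ℤ) ∣ s → r = 2 ∨ r = q)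
    (h : (A * B * (A + B)) ^ 2 = s * u ^ p) : False := by
  haveI := Fact.mk hp
  have hB : (16 : ℤ) ∣ B := (show (16 : ℤ) ∣ 32 by norm_num).trans h32
  obtain ⟨N, hN, f, 𝔪, hf, hm, hpm, hcong⟩ := exists_level_of_twoPrimes hp h11
    (by rcases hq with rfl | rfl <;> norm_num) hpq hA hB hcop hne hs h
  obtain ⟨E, hEgood, hEΔ, hE, hEf⟩ := exists_curve_of_eigenform_large hq hN hf
  have hdvd := fun l hl hlq hgood hlp =>
    dvd_apOfModel_sub (W := curve A B) (E := E) hp hN hm hpm hcong hEf (l := l) hl hlq hgood hlp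
  rcases hE with h3 | ⟨hg2, he2⟩
  · exact false_of_congruent_three hp h11 (by omega) hA hB hcop hne hEΔ hEgood
      (by rcases hq with rfl | rfl <;> norm_num) h3 hdvd
  · have h' := dvd_apOfModel_sub_or_add (by omega) (curve_Δ_ne_zero hA hB hne)
      (curve_semistable hA hB hcop) hEΔ (2 * q).primeFactors
      (fun l hl hlS hWg _ hlp => dvd_sub_comm.mp (hdvd l hl (fun hd => hlS
        (Nat.mem_primeFactors.mpr ⟨hl, hd, by omega⟩)) hWg hlp))
      Nat.prime_two (by omega) (by exact_mod_cast two_dvd_curve_Δ hA h32) hg2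
    rw [he2] at h'
    rcases h' with h' | h' <;>
      have := Nat.le_of_dvd (by norm_num) (Int.natCast_dvd.mp h') <;> simp at this <;> omega

/-- The discriminant of a solution is an `{2, q}`-unit times a `p`-th power. -/
theorem exists_frey_of_solution {p n : ℕ} (hpn : p ∣ n) {q : ℕ} {A B C x y z : ℤ}
    (hne : A * B * C ≠ 0) (hxyz : x * y * z ≠ 0)
    (hs : ∀ r : ℕ, r.Prime → (r : ℤ) ∣ A * B * C → r = 2 ∨ r = q)
    (hcop : IsCoprime (A * x ^ n) (B * y ^ n)) (h16 : (16 : ℤ) ∣ C * z ^ n)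
    (heq : A * x ^ n + B * y ^ n + C * z ^ n = 0) :
    ∃ A' B' s u : ℤ, A' % 4 = 3 ∧ (16 : ℤ) ∣ B' ∧ ((32 : ℤ) ∣ C * z ^ n → (32 : ℤ) ∣ B') ∧
      IsCoprime A' B' ∧ A' * B' * (A' + B') ≠ 0 ∧
      (∀ r : ℕ, r.Prime → (r : ℤ) ∣ s → r = 2 ∨ r = q) ∧
      (A' * B' * (A' + B')) ^ 2 = s * u ^ p := by
  obtain ⟨k, rfl⟩ := hpn
  have hprod : A * x ^ (p * k) * (B * y ^ (p * k)) * (C * z ^ (p * k)) =
      A * B * C * (x * y * z) ^ (p * k) := by ring
  obtain ⟨A', B', h1, h2, h3, h4, h5, h6⟩ := exists_frey heq hcop h16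
    (by rw [hprod]; exact mul_ne_zero hne (pow_ne_zero _ hxyz))
  refine ⟨A', B', (A * B * C) ^ 2, (x * y * z) ^ (2 * k), h1, h2, h3, h4, h5,
    fun r hr hd => hs r hr ((Nat.prime_iff_prime_int.mp hr).dvd_of_dvd_pow hd), ?_⟩
  rw [h6, hprod, mul_pow (A * B * C), ← pow_mul, ← pow_mul]
  ring_nf

end FA.Ribet

end
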