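import Fermat.Agent.Ribet.AsymptoticTraces
import Fermat.Agent.Ribet.TwoPrimes

/-!
# The curves of the three signatures with coefficients supported on the primes of `M`

A solution of `A x ^ n + B y ^ n + C z ^ n = 0`, `x² = A y ^ n + B z ^ n` or
`x³ = A y ^ n + B z ^ n` gives a semistable curve whose discriminant is a `p`-th power away from
`M` and whose orders of reductions are divisible by `4`, `2` or `3`.
-/

set_option autoImplicit false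
set_option linter.unusedSectionVars false

noncomputable section

open WeierstrassCurve

namespace FA.Ribet

/-- A prime outside `M` does not divide a product of powers of primes of `M`. -/
theorem not_dvd_prime_pow_of_dvd {M r s k : ℕ} (hs : s.Prime) (hsM : s ∣ M) (hr : r.Prime)
    (hrM : ¬ r ∣ M) : ¬ (r : ℤ) ∣ (s : ℤ) ^ k := fun h => by
  have h' : r ∣ s ^ k := by exact_mod_cast h
  exact hrM ((Nat.prime_dvd_prime_iff_eq hr hs).mp (hr.dvd_of_dvd_pow h') ▸ hsM)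

/-- The curve of a solution of Fermat's equation. -/
theorem exists_fermatCurve {M : ℕ} (h2 : 2 ∣ M) {n p : ℕ} (hp : p.Prime) (hpn : p ∣ n)
    {A B C x y z : ℤ} (hne : A * B * C ≠ 0) (hxyz : x * y * z ≠ 0)
    (hs : ∀ r : ℕ, r.Prime → (r : ℤ) ∣ A * B * C → r ∣ M)
    (hcop : IsCoprime (A * x ^ n) (B * y ^ n)) (h16 : (16 : ℤ) ∣ C * z ^ n)
    (heq : A * x ^ n + B * y ^ n + C * z ^ n = 0) :
    ∃ W : WeierstrassCurve ℤ, W.Δ ≠ 0 ∧ W.IsSemistableModel ∧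
      (∀ r : ℕ, r.Prime → (r : ℤ) ∣ W.Δ → ¬ r ∣ M → p ∣ padicValInt r W.Δ) ∧
      ∀ l : ℕ, l.Prime → ¬ l ∣ M → W.IsGoodPrimeFor l → (4 : ℤ) ∣ (l : ℤ) + 1 - W.apOfModel l := by
  obtain ⟨k, rfl⟩ := hpn
  have hprod : A * x ^ (p * k) * (B * y ^ (p * k)) * (C * z ^ (p * k)) =
      A * B * C * (x * y * z) ^ (p * k) := by ring
  obtain ⟨A', B', h1, h2', -, hcop', hne', h6⟩ := exists_frey heq hcop h16
    (by rw [hprod]; exact mul_ne_zero hne (pow_ne_zero _ hxyz))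
  have hΔ := FA.Ribet.curve_Δ_ne_zero h1 h2' hne'
  have hd : 256 * (FA.Ribet.curve A' B').Δ = (A * B * C) ^ 2 * ((x * y * z) ^ (2 * k)) ^ p := by
    rw [FA.Ribet.curve_Δ h1 h2', h6, hprod]
    ring
  exact ⟨_, hΔ, FA.Ribet.curve_semistable h1 h2' hcop',
    fun r hr _ hrM => dvd_padicValInt_of_eq hp.ne_zero hr (by norm_num) hΔ
      (by simpa using not_dvd_prime_pow_of_dvd (k := 8) Nat.prime_two h2 hr hrM)
      (fun h => hrM (hs r hr ((Nat.prime_iff_prime_int.mp hr).dvd_of_dvd_pow h))) hd,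
    fun l hl hlM hgood => four_dvd_apOfModel_curve h1 h2' hl (fun h => hlM (h ▸ h2)) hgood⟩

/-- The curve of a solution of the square equation. -/
theorem exists_squareCurve {M : ℕ} (h2 : 2 ∣ M) {n p : ℕ} (hp : p.Prime) (hpn : p ∣ n)
    {A B x y z : ℤ} (hA : A ≠ 0) (hB : B ≠ 0) (hy : y ≠ 0) (hz : z ≠ 0)
    (hs : ∀ r : ℕ, r.Prime → (r : ℤ) ∣ A * B → r ∣ M) (hx : Odd x)
    (hcop : IsCoprime x (B * z ^ n)) (h64 : (64 : ℤ) ∣ B * z ^ n)
    (heq : x ^ 2 = A * y ^ n + B * z ^ n) :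
    ∃ W : WeierstrassCurve ℤ, W.Δ ≠ 0 ∧ W.IsSemistableModel ∧
      (∀ r : ℕ, r.Prime → (r : ℤ) ∣ W.Δ → ¬ r ∣ M → p ∣ padicValInt r W.Δ) ∧
      ∀ l : ℕ, l.Prime → ¬ l ∣ M → W.IsGoodPrimeFor l → (2 : ℤ) ∣ (l : ℤ) + 1 - W.apOfModel l := by
  wlog h1 : x % 4 = 1 generalizing x
  · refine this (x := -x) hx.neg hcop.neg_left (by rwa [neg_sq]) ?_
    rw [Int.odd_iff] at hx
    omega
  obtain ⟨m, rfl⟩ := hpn
  rw [mul_comm p m, pow_mul, pow_mul] at *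
  have h4 := Int.mul_ediv_cancel' h64
  have hΔ := FA.SquareEquation.Δ_eq h1 h64
  rw [heq, add_sub_cancel_right] at hΔ
  have hT : B * (z ^ m) ^ p ≠ 0 := mul_ne_zero hB (pow_ne_zero _ (pow_ne_zero _ hz))
  have hΔ0 : (FA.SquareEquation.squareCurve x (B * (z ^ m) ^ p)).Δ ≠ 0 := by
    rw [hΔ]
    exact mul_ne_zero (pow_ne_zero _ fun h => hT (by rw [← h4, h, mul_zero]))
      (mul_ne_zero hA (pow_ne_zero _ (pow_ne_zero _ hy)))
  have hd : 2 ^ 12 * (FA.SquareEquation.squareCurve x (B * (z ^ m) ^ p)).Δ =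
      B ^ 2 * A * ((z ^ m) ^ 2 * y ^ m) ^ p := by
    rw [hΔ, show ∀ t : ℤ, 2 ^ 12 * (t ^ 2 * (A * (y ^ m) ^ p)) = (64 * t) ^ 2 * (A * (y ^ m) ^ p)
      from fun t => by ring, h4]
    ring
  have hsb : ∀ r : ℕ, r.Prime → (r : ℤ) ∣ B ^ 2 * A → r ∣ M := fun r hr h => by
    rcases (Nat.prime_iff_prime_int.1 hr).dvd_or_dvd h with h | h
    · exact hs r hr (((Nat.prime_iff_prime_int.1 hr).dvd_of_dvd_pow h).mul_left A)
    · exact hs r hr (h.mul_right B)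
  exact ⟨_, hΔ0, FA.SquareEquation.isSemistableModel h1 h64 hcop,
    fun r hr _ hrM => dvd_padicValInt_of_eq hp.ne_zero hr (by norm_num) hΔ0
      (by simpa using not_dvd_prime_pow_of_dvd (k := 12) Nat.prime_two h2 hr hrM)
      (fun h => hrM (hsb r hr h)) hd,
    fun l hl _ hgood => two_dvd_apOfModel_squareCurve hl hgood⟩

/-- The curve of a solution of the cube equation. -/
theorem exists_cubeCurve {M : ℕ} (h3 : 3 ∣ M) {n p : ℕ} (hp : p.Prime) (hpn : p ∣ n)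
    {A B x y z : ℤ} (hA : A ≠ 0) (hB : B ≠ 0) (hy : y ≠ 0) (hz : z ≠ 0)
    (hs : ∀ r : ℕ, r.Prime → (r : ℤ) ∣ A * B → r ∣ M)
    (hcop : IsCoprime x (B * z ^ n)) (h27 : (27 : ℤ) ∣ B * z ^ n)
    (heq : x ^ 3 = A * y ^ n + B * z ^ n) :
    ∃ T : ℤ, (27 : ℤ) ∣ T ∧ (FA.PowerEquations.cubeCurve x T).Δ ≠ 0 ∧
      (FA.PowerEquations.cubeCurve x T).IsSemistableModel ∧
      (∀ r : ℕ, r.Prime → (r : ℤ) ∣ (FA.PowerEquations.cubeCurve x T).Δ → ¬ r ∣ M →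
        p ∣ padicValInt r (FA.PowerEquations.cubeCurve x T).Δ) ∧
      ∀ l : ℕ, l.Prime → ¬ l ∣ M → (FA.PowerEquations.cubeCurve x T).IsGoodPrimeFor l →
        (3 : ℤ) ∣ (l : ℤ) + 1 - (FA.PowerEquations.cubeCurve x T).apOfModel l := by
  obtain ⟨m, rfl⟩ := hpn
  rw [mul_comm p m, pow_mul, pow_mul] at *
  have h4 := Int.mul_ediv_cancel' h27
  have hΔ := FA.PowerEquations.cube_Δ_eq (x := x) h27
  rw [heq, add_sub_cancel_right] at hΔ
  have hT : B * (z ^ m) ^ p ≠ 0 := mul_ne_zero hB (pow_ne_zero _ (pow_ne_zero _ hz))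
  have hΔ0 : (FA.PowerEquations.cubeCurve x (B * (z ^ m) ^ p)).Δ ≠ 0 := by
    rw [hΔ]
    exact mul_ne_zero (pow_ne_zero _ fun h => hT (by rw [← h4, h, mul_zero]))
      (mul_ne_zero hA (pow_ne_zero _ (pow_ne_zero _ hy)))
  have hd : 3 ^ 9 * (FA.PowerEquations.cubeCurve x (B * (z ^ m) ^ p)).Δ =
      B ^ 3 * A * ((z ^ m) ^ 3 * y ^ m) ^ p := by
    rw [hΔ, show ∀ t : ℤ, 3 ^ 9 * (t ^ 3 * (A * (y ^ m) ^ p)) = (27 * t) ^ 3 * (A * (y ^ m) ^ p)
      from fun t => by ring, h4]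
    ring
  have hsb : ∀ r : ℕ, r.Prime → (r : ℤ) ∣ B ^ 3 * A → r ∣ M := fun r hr h => by
    rcases (Nat.prime_iff_prime_int.1 hr).dvd_or_dvd h with h | h
    · exact hs r hr (((Nat.prime_iff_prime_int.1 hr).dvd_of_dvd_pow h).mul_left A)
    · exact hs r hr (h.mul_right B)
  exact ⟨_, h27, hΔ0, FA.PowerEquations.cube_isSemistableModel h27 hcop,
    fun r hr _ hrM => dvd_padicValInt_of_eq hp.ne_zero hr (by norm_num) hΔ0
      (by simpa using not_dvd_prime_pow_of_dvd (k := 9) Nat.prime_three h3 hr hrM)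
      (fun h => hrM (hsb r hr h)) hd,
    fun l hl _ hgood => three_dvd_apOfModel_cubeCurve h27 hl hgood⟩

end FA.Ribet

end
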