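import Fermat.Agent.Ribet.EigenvalueBound

/-!
# Kraus's bound

If the eigenvalue `a` at `l` of an eigenform is not the trace `t` of a curve congruent to it
modulo a prime over `p`, then `p` divides the value at `t` of the minimal polynomial of `a`, a
nonzero integer of absolute value below `(2 l + 2) ^ d` with `d` the dimension of the space.
-/

set_option autoImplicit false
set_option linter.unusedSectionVars false
set_option linter.style.haveILetI false

noncomputable section

open WeierstrassCurve CongruenceSubgroup Polynomial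

namespace FA.Ribet

local notation "ZB" => integralClosure ℤ ℂ

/-- **The congruence bound for one eigenvalue**. -/
theorem le_of_eigen_congr {N : ℕ} [NeZero N] {f : CuspForm (Gamma0 N) 2}
    (hf : f.IsNormalizedEigenform) {l : ℕ} (hl : l.Prime) (hlN : ¬ l ∣ N) {t : ℤ}
    (ht : |t| ≤ (l : ℤ) + 1) (hne : ModularFormClass.qCoeff f l ≠ (t : ℂ)) {p : ℕ} (hp : p.Prime)
    {𝔪 : Ideal ZB} (hm : 𝔪.IsMaximal) (hpm : (p : ZB) ∈ 𝔪) {a : ZB}
    (ha : (a : ℂ) = ModularFormClass.qCoeff f l) (hat : a - (t : ZB) ∈ 𝔪) :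
    p ≤ (2 * l + 2) ^ Module.finrank ℂ (CuspForm (Gamma0 N) 2) := by
  obtain ⟨hdeg, hconj⟩ := conjugates_eigenvalue hl hlN hf
  rw [← ha] at hne hdeg hconj
  set α : ℂ := (a : ℂ)
  have hint : IsIntegral ℤ α := (Algebra.IsIntegral.isIntegral (R := ℤ) a).map
    (integralClosure ℤ ℂ).val
  set q := minpoly ℤ α with hq
  have hmon : q.Monic := minpoly.monic hint
  have hQ : minpoly ℚ α = q.map (algebraMap ℤ ℚ) :=
    minpoly.isIntegrallyClosed_eq_field_fractions' ℚ hint
  have hd : q.natDegree ≤ Module.finrank ℂ (CuspForm (Gamma0 N) 2) := by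
    rwa [hQ, natDegree_map_eq_of_injective (algebraMap ℤ ℚ).injective_int] at hdeg
  -- the integer `q (t)` is nonzero
  have h0 : q.eval t ≠ 0 := by
    intro h
    obtain ⟨g, hg⟩ := dvd_iff_isRoot.mpr h
    have hirr : Irreducible q := minpoly.irreducible hint
    rcases hirr.isUnit_or_isUnit hg with hu | hu
    · exact not_isUnit_X_sub_C t hu
    · refine hne ?_
      have h' := minpoly.aeval ℤ α
      rw [← hq, hg, map_mul, map_sub, aeval_X, aeval_C, eq_intCast] at h'
      exact sub_eq_zero.mp ((mul_eq_zero.mp h').resolve_right (hu.map (aeval α)).ne_zero)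
  -- divisible by `p`
  have hdvd : (p : ℤ) ∣ q.eval t := by
    refine dvd_of_intCast_mem hp hm hpm ?_
    have hqa : aeval a q = 0 := Subtype.ext (by
      have h := aeval_algHom_apply (integralClosure ℤ ℂ).val a q
      rw [show (integralClosure ℤ ℂ).val a = α from rfl, hq, minpoly.aeval] at h
      simpa using h.symm)
    obtain ⟨c, hc⟩ := sub_dvd_eval_sub a ((t : ℤ) : ZB) (q.map (algebraMap ℤ ZB))
    rw [eval_map_algebraMap, eval_map_algebraMap, hqa, zero_sub,
      show ((t : ℤ) : ZB) = algebraMap ℤ ZB t from rfl, aeval_algebraMap_apply,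
      coe_aeval_eq_eval, eq_intCast] at hc
    rw [← neg_mem_iff, hc]
    exact 𝔪.mul_mem_right _ hat
  -- bounded
  have hle : ‖((q.eval t : ℤ) : ℂ)‖ ≤ (2 * (l : ℝ) + 2) ^ q.natDegree := by
    set Q := q.map (algebraMap ℤ ℂ) with hQc
    have hs : Q.Splits := IsAlgClosed.splits Q
    have hev : ((q.eval t : ℤ) : ℂ) = Q.eval (t : ℂ) := by
      rw [hQc, eval_intCast_map]
      simp
    rw [hev, hs.eval_eq_prod_roots_of_monic (hmon.map _), ← hmon.natDegree_map (algebraMap ℤ ℂ),
      ← hQc, hs.natDegree_eq_card_roots, ← Multiset.card_map (fun z => (t : ℂ) - z) Q.roots]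
    have hb : ∀ y ∈ Q.roots.map (fun z => (t : ℂ) - z), ‖y‖ ≤ 2 * (l : ℝ) + 2 := by
      intro y hy
      obtain ⟨z, hz, rfl⟩ := Multiset.mem_map.mp hy
      have hz' : aeval z (minpoly ℚ α) = 0 := by
        rw [hQ, aeval_map_algebraMap, aeval_def, ← eval_map]
        exact (mem_roots (hmon.map _).ne_zero).mp hz
      have h1 := (hconj z hz').2
      have h2 : ‖(t : ℂ)‖ ≤ (l : ℝ) + 1 := by
        rw [Complex.norm_intCast]
        exact_mod_cast ht
      exact (norm_sub_le _ _).trans (by linarith)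
    have hkey : ∀ S : Multiset ℂ, (∀ y ∈ S, ‖y‖ ≤ 2 * (l : ℝ) + 2) →
        ‖S.prod‖ ≤ (2 * (l : ℝ) + 2) ^ Multiset.card S := fun S => by
      induction S using Multiset.induction_on with
      | empty => simp
      | cons y S ih =>
        intro h
        rw [Multiset.prod_cons, Multiset.card_cons, pow_succ', norm_mul]
        exact mul_le_mul (h y (Multiset.mem_cons_self _ _))
          (ih fun z hz => h z (Multiset.mem_cons_of_mem hz)) (norm_nonneg _) (by positivity)
    exact hkey _ hb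
  have h1 : ((q.eval t).natAbs : ℝ) ≤ (((2 * l + 2) ^ q.natDegree : ℕ) : ℝ) := by
    rw [Complex.norm_intCast] at hle
    push_cast
    rwa [Nat.cast_natAbs, Int.cast_abs]
  exact ((Nat.le_of_dvd (Int.natAbs_pos.mpr h0) (Int.natCast_dvd.mp hdvd)).trans
    (Nat.cast_le.mp h1)).trans (Nat.pow_le_pow_right (by omega) hd)

/-- **Kraus's bound**: separation of every eigenform of every level dividing `M` from the possible
traces at some prime up to `L` excludes semistable curves whose discriminant is a `p`-th power away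
from `M` for every prime `p ≥ 11` above `(2 L + 2) ^ d`, `d` bounding the dimensions. -/
theorem false_of_kraus {M : ℕ} (hM : M ≠ 0) (T : ℕ → Set ℤ) {L d : ℕ}
    (hd : ∀ N : ℕ, N ∣ M → Module.finrank ℂ (CuspForm (Gamma0 N) 2) ≤ d)
    (hno : ∀ N : ℕ, N ∣ M → ∀ f : CuspForm (Gamma0 N) 2, f.IsNormalizedEigenform →
      ∃ l : ℕ, l.Prime ∧ l ≤ L ∧ ¬ l ∣ M ∧
        ∀ t ∈ T l, t ^ 2 ≤ 4 * (l : ℤ) → ModularFormClass.qCoeff f l ≠ (t : ℂ))
    {p : ℕ} (hp : p.Prime) (h11 : 11 ≤ p) (hpL : (2 * L + 2) ^ d < p) {W : WeierstrassCurve ℤ}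
    (hΔ : W.Δ ≠ 0) (hW : W.IsSemistableModel)
    (hdiv : ∀ r : ℕ, r.Prime → (r : ℤ) ∣ W.Δ → ¬ r ∣ M → p ∣ padicValInt r W.Δ)
    (hT : ∀ l : ℕ, l.Prime → ¬ l ∣ M → W.IsGoodPrimeFor l → W.apOfModel l ∈ T l) : False := by
  haveI := Fact.mk hp
  set S := W.Δ.natAbs.primeFactors.filter (fun q => ¬ p ∣ padicValInt q W.Δ) with hS
  have hprime : ∀ q ∈ S, q.Prime := fun q hq =>
    Nat.prime_of_mem_primeFactors (Finset.mem_filter.mp hq).1
  obtain ⟨N, hN, f, 𝔪, hf, hm, hpm, hcong⟩ := FA.Root.exists_level_recipe (by omega) hΔ hW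
    (FA.Thirteen.modRepIsIrreducible_all hΔ hW hp h11) (FA.Root.squarefree_badProd W)
    (FA.Root.isResiduallyModularOfLevel_of_modular hp (FA.SS.semistableModular W hΔ hW))
  have hNM : N ∣ M := by
    refine (hS ▸ hN).trans ?_
    refine Finset.prod_primes_dvd M (fun q hq => (hprime q hq).prime) fun q hq => ?_
    by_contra hqM
    obtain ⟨hq1, hq2⟩ := Finset.mem_filter.mp hq
    exact hq2 (hdiv q (hprime q hq)
      (Int.natCast_dvd.mpr (Nat.dvd_of_mem_primeFactors hq1)) hqM)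
  haveI : NeZero N := ⟨fun h => hM (Nat.eq_zero_of_zero_dvd (h ▸ hNM))⟩
  obtain ⟨l, hl, hlL, hlM, hall⟩ := hno N hNM f hf
  have hlN : ¬ l ∣ N := fun h => hlM (h.trans hNM)
  have hd1 : 1 ≤ Module.finrank ℂ (CuspForm (Gamma0 N) 2) :=
    Module.finrank_pos_iff_exists_ne_zero.mpr ⟨f, hf.ne_zero⟩
  have hpow : (2 * l + 2) ^ Module.finrank ℂ (CuspForm (Gamma0 N) 2) ≤ (2 * L + 2) ^ d :=
    (Nat.pow_le_pow_left (by omega) _).trans (Nat.pow_le_pow_right (by omega) (hd N hNM))
  have hlp : l ≠ p := by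
    have : 2 * l + 2 ≤ (2 * l + 2) ^ Module.finrank ℂ (CuspForm (Gamma0 N) 2) :=
      Nat.le_self_pow (by omega) _
    omega
  have hl2 : (2 : ℤ) ≤ l := by exact_mod_cast hl.two_le
  by_cases hgood : W.IsGoodPrimeFor l
  · obtain ⟨a, ha, ham⟩ := hcong l hl hgood hlN hlp
    have hsq := apOfModel_sq_le hl hgood
    have hab : |W.apOfModel l| ≤ (l : ℤ) + 1 :=
      abs_le.mpr ⟨by nlinarith, by nlinarith⟩
    have := le_of_eigen_congr hf hl hlN hab (hall _ (hT l hl hlM hgood) hsq) hp hm hpm ha ham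
    omega
  · obtain ⟨ψ, hψ, -⟩ := FA.Root.exists_eigenChar_full hf
    obtain ⟨s, hs, hsm⟩ := eigen_congr_mult hΔ hW (by omega) hf hm hpm hcong hl hlN hlp
      (not_not.mp hgood) (hψ l hl hlN)
    have := le_of_eigen_congr hf hl hlN (t := s * ((l : ℤ) + 1))
      (by rcases hs with rfl | rfl <;> rw [abs_le] <;> constructor <;> linarith)
      (by simpa using qCoeff_ne_succ hf hl hlN hs) hp hm hpm (hψ l hl hlN) hsm
    omega

end FA.Ribet

end
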