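import Fermat.Agent.Root.SummaryDiagonalHypersurface
import Mathlib.NumberTheory.Padics.Hensel
import Mathlib.NumberTheory.Padics.RingHoms
import Mathlib.FieldTheory.Finite.Basic

/-!
# Diagonal curves of prime degree over the `q`-adic integers

A point modulo `q` with a coordinate prime to `q` and unit partial derivative lifts; such a point
exists when `q` is not `1` modulo the degree `n`, and by Weil's bound when `q` is large.
-/

set_option autoImplicit false
set_option linter.style.haveILetI false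

noncomputable section

open Polynomial

namespace FA.Ribet.LocalDiagonal

variable {q n : ℕ} [hq : Fact q.Prime]

/-- `A x ^ n + B y ^ n + C z ^ n = 0` has a nonzero solution in `ℤ_q`. -/
def HasPoint (q n : ℕ) [Fact q.Prime] (A B C : ℤ) : Prop :=
  ∃ x y z : ℤ_[q], (x ≠ 0 ∨ y ≠ 0 ∨ z ≠ 0) ∧
    (A : ℤ_[q]) * x ^ n + B * y ^ n + C * z ^ n = 0

/-- An element of `ℤ_q` is small exactly when it vanishes modulo `q`. -/
theorem norm_lt_one_iff_toZMod {w : ℤ_[q]} : ‖w‖ < 1 ↔ PadicInt.toZMod w = 0 := by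
  rw [← RingHom.mem_ker, PadicInt.ker_toZMod, IsLocalRing.mem_maximalIdeal, mem_nonunits_iff,
    PadicInt.isUnit_iff]
  exact ⟨fun h => h.ne, fun h => lt_of_le_of_ne (PadicInt.norm_le_one w) h⟩

/-- **Lifting one coordinate.** -/
theorem exists_lift_coordinate (hn : (n : ZMod q) ≠ 0) {A : ℤ} (hA : (A : ZMod q) ≠ 0) {t : ZMod q}
    (ht : t ≠ 0) {R : ℤ_[q]} (h : (A : ZMod q) * t ^ n + PadicInt.toZMod R = 0) :
    ∃ T : ℤ_[q], T ≠ 0 ∧ (A : ℤ_[q]) * T ^ n + R = 0 := by
  set F : ℤ_[q][X] := C (A : ℤ_[q]) * X ^ n + C R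
  have ht' : PadicInt.toZMod (t.val : ℤ_[q]) = t := by rw [map_natCast, ZMod.natCast_zmod_val]
  have hd : ‖aeval (t.val : ℤ_[q]) (derivative F)‖ = 1 := by
    refine le_antisymm (PadicInt.norm_le_one _) (not_lt.mp fun hlt => ?_)
    rw [norm_lt_one_iff_toZMod] at hlt
    simp only [F, derivative_add, derivative_C, add_zero, derivative_C_mul_X_pow,
      map_mul, aeval_C, Algebra.algebraMap_self, RingHom.id_apply, map_pow, aeval_X] at hlt
    simp only [map_intCast, map_natCast, ht', mul_eq_zero, or_assoc] at hlt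
    rcases hlt with e | e | e
    · exact hA e
    · exact hn e
    · exact ht (eq_zero_of_pow_eq_zero e)
  obtain ⟨T, hT, hclose, -, -⟩ := hensels_lemma (F := F) (a := (t.val : ℤ_[q])) (by
    rw [hd, one_pow, norm_lt_one_iff_toZMod]
    simp only [F, map_add, map_mul, aeval_C, Algebra.algebraMap_self, RingHom.id_apply, map_pow,
      aeval_X]
    simpa only [map_intCast, ht'] using h)
  refine ⟨T, fun e => ?_, by
    simpa only [F, map_add, map_mul, aeval_C, Algebra.algebraMap_self, RingHom.id_apply, map_pow,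
      aeval_X] using hT⟩
  rw [hd, norm_lt_one_iff_toZMod, map_sub, e, map_zero, ht', zero_sub, neg_eq_zero] at hclose
  exact ht hclose

/-- **A point modulo `q` lifts** when some monomial is nonzero there. -/
theorem hasPoint_of_zmod (hn : (n : ZMod q) ≠ 0) {A B C : ℤ} {a b c : ZMod q}
    (hne : (A : ZMod q) * a ≠ 0 ∨ (B : ZMod q) * b ≠ 0 ∨ (C : ZMod q) * c ≠ 0)
    (h : (A : ZMod q) * a ^ n + B * b ^ n + C * c ^ n = 0) : HasPoint q n A B C := by
  have hv : ∀ t : ZMod q, PadicInt.toZMod (t.val : ℤ_[q]) = t := fun t => by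
    rw [map_natCast, ZMod.natCast_zmod_val]
  rcases hne with e | e | e
  · obtain ⟨T, hT, e'⟩ := exists_lift_coordinate hn (left_ne_zero_of_mul e)
      (right_ne_zero_of_mul e) (R := (B : ℤ_[q]) * (b.val : ℤ_[q]) ^ n + C * (c.val : ℤ_[q]) ^ n)
      (by simp only [map_add, map_mul, map_pow, map_intCast, hv]; linear_combination h)
    exact ⟨T, (b.val : ℤ_[q]), (c.val : ℤ_[q]), Or.inl hT, by linear_combination e'⟩
  · obtain ⟨T, hT, e'⟩ := exists_lift_coordinate hn (left_ne_zero_of_mul e)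
      (right_ne_zero_of_mul e) (R := (A : ℤ_[q]) * (a.val : ℤ_[q]) ^ n + C * (c.val : ℤ_[q]) ^ n)
      (by simp only [map_add, map_mul, map_pow, map_intCast, hv]; linear_combination h)
    exact ⟨(a.val : ℤ_[q]), T, (c.val : ℤ_[q]), Or.inr (Or.inl hT), by linear_combination e'⟩
  · obtain ⟨T, hT, e'⟩ := exists_lift_coordinate hn (left_ne_zero_of_mul e)
      (right_ne_zero_of_mul e) (R := (A : ℤ_[q]) * (a.val : ℤ_[q]) ^ n + B * (b.val : ℤ_[q]) ^ n)
      (by simp only [map_add, map_mul, map_pow, map_intCast, hv]; linear_combination h)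
    exact ⟨(a.val : ℤ_[q]), (b.val : ℤ_[q]), T, Or.inr (Or.inr hT), by linear_combination e'⟩

/-- **At the prime `n` itself**: a point modulo `n ^ 3` lifts. -/
theorem hasPoint_of_cube_dvd {A B C x y : ℤ} (hC : ¬ (q : ℤ) ∣ C)
    (h : (q : ℤ) ^ 3 ∣ A * x ^ q + B * y ^ q + C) : HasPoint q q A B C := by
  set F : ℤ_[q][X] := Polynomial.C (C : ℤ_[q]) * X ^ q +
    Polynomial.C ((A : ℤ_[q]) * (x : ℤ_[q]) ^ q + B * (y : ℤ_[q]) ^ q)
  have hC1 : ‖(C : ℤ_[q])‖ = 1 := le_antisymm (PadicInt.norm_le_one _) (not_lt.mp fun e => hC (by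
    rw [norm_lt_one_iff_toZMod, map_intCast] at e
    exact (ZMod.intCast_zmod_eq_zero_iff_dvd C q).mp e))
  have hd : ‖aeval (1 : ℤ_[q]) (derivative F)‖ = (q : ℝ) ^ (-1 : ℤ) := by
    simp only [F, derivative_add, derivative_C, add_zero, derivative_C_mul, derivative_X_pow,
      map_mul, aeval_C, Algebra.algebraMap_self, RingHom.id_apply, map_pow, aeval_X,
      one_pow, mul_one, map_natCast, norm_mul, hC1, one_mul]
    simp
  obtain ⟨T, hT, hclose, -, -⟩ := hensels_lemma (F := F) (a := (1 : ℤ_[q])) (by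
    rw [hd]
    refine lt_of_le_of_lt (b := (q : ℝ) ^ (-3 : ℤ)) ?_ ?_
    · simp only [F, map_add, map_mul, aeval_C, Algebra.algebraMap_self, RingHom.id_apply, map_pow,
        aeval_X, one_pow, mul_one]
      refine le_of_eq_of_le ?_ ((PadicInt.norm_int_le_pow_iff_dvd
        (k := A * x ^ q + B * y ^ q + C) (n := 3)).mpr h)
      congr 1
      push_cast
      ring
    · rw [← zpow_natCast ((q : ℝ) ^ (-1 : ℤ)), ← zpow_mul]
      exact zpow_lt_zpow_right₀ (by exact_mod_cast hq.out.one_lt) (by norm_num))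
  refine ⟨(x : ℤ_[q]), (y : ℤ_[q]), T, Or.inr (Or.inr fun e => ?_), ?_⟩
  · rw [e, zero_sub, norm_neg, norm_one, hd] at hclose
    exact absurd hclose (not_lt.mpr
      (zpow_le_one_of_nonpos₀ (by exact_mod_cast hq.out.one_le) (by norm_num)))
  · simp only [F, map_add, map_mul, aeval_C, Algebra.algebraMap_self, RingHom.id_apply, map_pow,
      aeval_X] at hT
    linear_combination hT

/-- When `n` is prime to `q - 1` every element is an `n`-th power. -/
theorem exists_pow_eq (hn : n ≠ 0) (h : (q - 1).Coprime n) (r : ZMod q) :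
    ∃ t : ZMod q, t ^ n = r := by
  rcases eq_or_ne r 0 with rfl | hr
  · exact ⟨0, zero_pow hn⟩
  have h' : (Nat.card (ZMod q)ˣ).Coprime n := by
    rwa [Nat.card_eq_fintype_card, ZMod.card_units]
  refine ⟨((powCoprime h').symm (Units.mk0 r hr) : (ZMod q)ˣ), ?_⟩
  rw [← Units.val_pow_eq_pow_val]
  exact congrArg Units.val ((powCoprime h').apply_symm_apply (Units.mk0 r hr))

/-- **Primes `q` for which the powers are everything.** -/
theorem hasPoint_of_coprime (hn0 : n ≠ 0) (hn : (n : ZMod q) ≠ 0) (h : (q - 1).Coprime n)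
    {A B C : ℤ} (hA : (A : ZMod q) ≠ 0) (hB : (B : ZMod q) ≠ 0) : HasPoint q n A B C := by
  obtain ⟨t, ht⟩ := exists_pow_eq hn0 h (-(B : ZMod q) / A)
  refine hasPoint_of_zmod hn (a := t) (b := 1) (c := 0)
    (Or.inr (Or.inl (by rwa [mul_one]))) ?_
  rw [ht, one_pow, zero_pow hn0, mul_zero, add_zero, mul_one, mul_div_cancel₀ _ hA,
    neg_add_cancel]

/-- **Large primes**: Weil's bound gives a point. -/
theorem hasPoint_of_large (hn2 : 2 ≤ n) (hdvd : n ∣ q - 1)
    (hbig : ((n - 1) * (n - 2)) ^ 2 ≤ q) {A B C : ℤ} (hA : (A : ZMod q) ≠ 0)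
    (hB : (B : ZMod q) ≠ 0) (hC : (C : ZMod q) ≠ 0) : HasPoint q n A B C := by
  classical
  have hn : (n : ZMod q) ≠ 0 := by
    rw [ne_eq, ZMod.natCast_eq_zero_iff]
    intro e
    have h1 := Nat.le_of_dvd (Nat.sub_pos_of_lt hq.out.one_lt) hdvd
    have h2 := Nat.le_of_dvd (by omega) e
    omega
  set a : Fin 3 → ZMod q := ![(A : ZMod q), B, C]
  have ha : ∀ i, a i ≠ 0 := fun i => by fin_cases i <;> assumption
  have hdvd' : n ∣ Fintype.card (ZMod q) - 1 := by rwa [ZMod.card]
  have hb := FA.Summary.diagonalHypersurface_bound (a := a) (n := n) (by omega) hdvd' (by omega) ha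
  have hψ := AddChar.FiniteField.primitiveChar_to_Complex_isPrimitive (ZMod q)
  have hc := (FA.Summary.diagonalHypersurface_omega (a := a) (n := n) (by omega) hdvd'
    (by omega) ha hψ).1
  rw [ZMod.card] at hb
  set k := (FA.DiagonalHypersurface.charTuples (ZMod q) n 3).card
  have hk : k = (n - 1) * (n - 2) := by
    have e : (n : ℤ) * k = (n : ℤ) * (((n - 1) * (n - 2) : ℕ) : ℤ) := by
      rw [hc]
      push_cast [Nat.cast_sub (show 1 ≤ n by omega), Nat.cast_sub hn2]
      ring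
    exact_mod_cast mul_left_cancel₀ (by omega : (n : ℤ) ≠ 0) e
  rcases isEmpty_or_nonempty {P : Projectivization (ZMod q) (Fin 3 → ZMod q) //
      ∑ i, a i * P.rep i ^ n = 0} with hempty | ⟨P, hP⟩
  · rw [Nat.card_of_isEmpty, Nat.cast_zero, zero_sub, abs_neg] at hb
    have hsum : ∑ j ∈ Finset.range (3 - 1), (q : ℝ) ^ j = q + 1 := by
      rw [show (3 : ℕ) - 1 = 2 from rfl, Finset.sum_range_succ, Finset.sum_range_one]
      ring
    rw [hsum, show (3 : ℕ) - 2 = 1 from rfl, pow_one, abs_of_nonneg (by positivity)] at hb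
    have hkq : (k : ℝ) ≤ Real.sqrt q := by
      refine Real.le_sqrt_of_sq_le ?_
      rw [hk]
      exact_mod_cast hbig
    have := mul_le_mul_of_nonneg_right hkq (Real.sqrt_nonneg (q : ℝ))
    rw [Real.mul_self_sqrt (Nat.cast_nonneg q)] at this
    linarith
  · obtain ⟨i, hi⟩ := Function.ne_iff.mp P.rep_nonzero
    rw [Fin.sum_univ_three] at hP
    refine hasPoint_of_zmod hn (a := P.rep 0) (b := P.rep 1) (c := P.rep 2) ?_ hP
    fin_cases i
    · exact Or.inl (mul_ne_zero hA hi)
    · exact Or.inr (Or.inl (mul_ne_zero hB hi))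
    · exact Or.inr (Or.inr (mul_ne_zero hC hi))

end FA.Ribet.LocalDiagonal

end
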