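import Fermat.Agent.Ribet.Line
import Fermat.Agent.Mazur.FreyLine
import Fermat.Agent.Mazur.Moduli.StableLine

/-!
# Mazur's theorem on the isogenies of semistable curves

For a prime `p ≥ 11` other than `13` a semistable integral equation has irreducible `p`-torsion,
provided that, where `2` divides the discriminant, it does so to an exponent different from `1`
and from `p`.
-/

set_option autoImplicit false
set_option linter.style.haveILetI false

noncomputable section

open WeierstrassCurve WeierstrassCurve.Affine ModularCurve FA.Local FA.LocalDef FA.Mazur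
open FA.Frob (ratCurve)
open scoped WeierstrassCurve.Affine

namespace FA.Ribet

local notation "Qb" => AlgebraicClosure ℚ
local notation "GQ" => AlgebraicClosure ℚ ≃ₐ[ℚ] AlgebraicClosure ℚ

variable {W : WeierstrassCurve ℤ}

theorem c₄_ne_zero (hW : W.IsSemistableModel) : W.c₄ ≠ 0 := by
  intro h4
  have h := W.c_relation
  rw [h4] at h
  rcases eq_or_ne W.Δ.natAbs 1 with h1 | h1
  · have h5 := congrArg (Int.cast : ℤ → ZMod 5) h
    rcases Int.natAbs_eq_iff.mp h1 with e | e <;> rw [e] at h5 <;> push_cast at h5 <;>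
      revert h5 <;> generalize (W.c₆ : ZMod 5) = z <;> revert z <;> decide
  · obtain ⟨q, hq, hqd⟩ := Nat.exists_prime_and_dvd h1
    exact hW q hq (Int.natCast_dvd.mpr hqd) (h4 ▸ dvd_zero _)

theorem ratCurve_j [(ratCurve W).IsElliptic] :
    (ratCurve W).j = (W.c₄ : ℚ) ^ 3 / (W.Δ : ℚ) := by
  rw [WeierstrassCurve.j, Units.val_inv_eq_inv_val, coe_Δ', ← div_eq_inv_mul]
  show (W.map (Int.castRingHom ℚ)).c₄ ^ 3 / (W.map (Int.castRingHom ℚ)).Δ = _
  rw [map_c₄, map_Δ]
  simp

/-- A prime `l` with `2 l + 1 < p` divides the discriminant where the `p`-torsion is reducible: the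
reduction would have a rational point of order `p`. -/
theorem dvd_Δ_of_not_modRepIsIrreducible (hΔ : W.Δ ≠ 0) (hW : W.IsSemistableModel) {p : ℕ}
    (hp : p.Prime) (hirr : ¬ W.ModRepIsIrreducible p) {l : ℕ} (hl : l.Prime)
    (hl2p : 2 * l + 1 < p) : (l : ℤ) ∣ W.Δ := by
  haveI := Fact.mk hp
  haveI := Fact.mk hl
  haveI := FA.Frob.ratCurve_isElliptic_of_Δ hΔ
  have := hl.two_le
  have hp2 : p ≠ 2 := by omega
  have hlp : l ≠ p := by omega
  obtain ⟨inst⟩ := exists_algebra_local l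
  letI := inst
  by_contra hd
  obtain ⟨F, -, hFrob⟩ := exists_frobenius hl (placeAt_liesOver l)
  obtain ⟨x, hx0, hxF⟩ := exists_fixed hΔ hW hp2 hirr F
  have hX : (x.1 : ((ratCurve W)⁄Qb).toAffine.Point) ≠ 0 := fun h => hx0 (Subtype.ext h)
  have hXF : F • (x.1 : ((ratCurve W)⁄Qb).toAffine.Point) = x.1 := congrArg Subtype.val hxF
  haveI := res_charP hl (placeAt_liesOver l)
  have hdeg : ((Polynomial.X : Polynomial (Res (placeAt l))) ^ l - Polynomial.X).natDegree = l := by
    rw [Polynomial.natDegree_sub_eq_left_of_natDegree_lt] <;>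
      simp [hl.one_lt]
  have hpv : (placeAt l).valuation (p : Qb) = 1 := by
    have := FA.Frob.valuation_intCast_of_liesOverPrime hl (placeAt_liesOver l) (n := (p : ℤ))
      fun hd' => hlp ((Nat.prime_dvd_prime_iff_eq hl hp).mp (Int.natCast_dvd_natCast.mp hd'))
    rwa [Int.cast_natCast] at this
  have := le_of_residue_roots (FA.Frob.intCoeff_ratCurve W (placeAt l))
    (FA.Frob.valuation_Δ_ratCurve W hl (placeAt_liesOver l) hd) hp (hp.odd_of_ne_two hp2)
    hpv hX (FA.Frob.nsmul_torsion x)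
    (f := Polynomial.X ^ l - Polynomial.X)
    (fun h => by rw [h, Polynomial.natDegree_zero] at hdeg; exact hl.ne_zero hdeg.symm)
    fun m a c hac hm ha => by
      have hn : F • (m • (x.1 : ((ratCurve W)⁄Qb).toAffine.Point)) =
          m • (x.1 : ((ratCurve W)⁄Qb).toAffine.Point) := by
            rw [← Nat.cast_smul_eq_nsmul ℤ, Affine.Point.algEquiv_smul_zsmul, hXF]
      have hn : F • (Affine.Point.some a c hac : ((ratCurve W)⁄Qb).toAffine.Point) =
          Affine.Point.some a c hac := ((congrArg (F • ·) hm).symm.trans hn).trans hm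
      rw [Polynomial.IsRoot.def, Polynomial.eval_sub, Polynomial.eval_pow, Polynomial.eval_X,
        ← hFrob a ha, (fixed_coords hn).1, sub_self]
  rw [hdeg] at this
  omega

/-- **Mazur's theorem for semistable curves**, at a prime `l` dividing the Eisenstein numerator:
only `l = 2` needs a hypothesis at `2`. -/
theorem modRepIsIrreducible_of_dvd_eisensteinNumerator (hΔ : W.Δ ≠ 0) (hW : W.IsSemistableModel)
    {p : ℕ} (hp : p.Prime) (h11 : 11 ≤ p) {l : ℕ} (hl : l.Prime) (hln : l ∣ eisensteinNumerator p)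
    (hl2p : 2 * l + 1 ≤ p)
    (h2 : l = 2 → (2 : ℤ) ∣ W.Δ → padicValInt 2 W.Δ ≠ 1 ∧ padicValInt 2 W.Δ ≠ p) :
    W.ModRepIsIrreducible p := by
  by_contra hirr
  haveI := Fact.mk hp
  haveI := FA.Frob.ratCurve_isElliptic_of_Δ hΔ
  have hp2 : p ≠ 2 := by omega
  haveI : Algebra.IsAlgebraic ℚ Qb := AlgebraicClosure.isAlgebraic ℚ
  letI : Algebra Qb ℂ := (IsAlgClosed.lift (R := ℚ) (S := Qb) (M := ℂ)).toRingHom.toAlgebra
  obtain ⟨v, hv, hstv⟩ := exists_eigenvector W hirr
  let b := (FA.RT.torsBasis (p := p) W).equivFun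
  obtain ⟨y, rfl⟩ := b.surjective v
  have hy0 : y ≠ 0 := b.map_ne_zero_iff.mp hv
  set N := Submodule.span (ZMod p) {y}
  set C : AddSubgroup ((ratCurve W).toAffine⁄Qb).Point :=
    N.toAddSubgroup.map (Submodule.torsionBy ℤ _ (p : ℤ)).subtype.toAddMonoidHom with hC
  have hcard : Nat.card C = p := by
    have hN : Nat.card N = p := by
      rw [Module.natCard_eq_pow_finrank (K := ZMod p), finrank_span_singleton hy0, Nat.card_zmod,
        pow_one]
    exact (Nat.card_congr ((AddSubgroup.equivMapOfInjective _ _ Subtype.val_injective).toEquiv).symm).trans hN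
  have hstC : ∀ σ : GQ, ∀ x ∈ C, σ • x ∈ C := by
    rintro σ _ ⟨x, hx, rfl⟩
    refine ⟨σ • x, ?_, rfl⟩
    obtain ⟨c, rfl⟩ := Submodule.mem_span_singleton.mp hx
    obtain ⟨a, ha⟩ := hstv σ
    rw [FA.RT.toMatrix_mulVec, ← map_smul] at ha
    refine Submodule.mem_span_singleton.mpr ⟨c * a, ?_⟩
    rw [smul_comm σ c y, b.injective ha, smul_smul]
  have hlp : l ≠ p := by omega
  haveI := Fact.mk hl
  obtain ⟨inst⟩ := exists_algebra_local l
  letI := inst
  have hj0 : (ratCurve W).j ≠ 0 := by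
    rw [ratCurve_j]
    exact div_ne_zero (pow_ne_zero 3 (Int.cast_ne_zero.mpr (c₄_ne_zero hW)))
      (Int.cast_ne_zero.mpr hΔ)
  have hnorm : (l : ℤ) ∣ W.Δ →
      ‖(((ratCurve W).j⁻¹ : ℚ) : Cl l)‖ = ‖((W.Δ : ℤ) : Cl l)‖ := by
    intro h
    rw [ratCurve_j, inv_div, Rat.cast_div, Rat.cast_intCast, Rat.cast_pow, Rat.cast_intCast,
      norm_div, norm_pow, norm_intCast_eq_one_local l (hW l hl h), one_pow, div_one]
  have hbad : l < 5 → (l : ℤ) ∣ W.Δ := fun h5 =>
    dvd_Δ_of_not_modRepIsIrreducible hΔ hW hp hirr hl (by omega)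
  have hjlt : ‖(((ratCurve W).j⁻¹ : ℚ) : Cl l)‖ < 1 := by
    rcases lt_or_ge l 5 with h5 | h5
    · rw [hnorm (hbad h5), norm_intCast_local]
      exact Padic.norm_intCast_lt_one_iff.2 (hbad h5)
    · obtain ⟨F, hF, hFrob⟩ := exists_frobenius hl (placeAt_liesOver l)
      obtain ⟨x, hx0, hxF⟩ := exists_fixed hΔ hW hp2 hirr F
      exact one_lt_norm_of_not_mem (one_lt_valuation_j (ratCurve W) hl h5 hp hlp hl2p
        (placeAt_liesOver l) hF hFrob (fun h => hx0 (Subtype.ext h)) (FA.Frob.nsmul_torsion x)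
        (congrArg Subtype.val hxF))
  refine false_of_stable_line (hp := ⟨hp⟩) FA.Mazur.stableLinePlace (ratCurve W) C hcard hstC hlp
    hln hj0 hjlt fun hl2 => ?_
  subst hl2
  have hd : ((2 : ℕ) : ℤ) ∣ W.Δ := hbad (by norm_num)
  have hv1 : 1 ≤ padicValInt 2 W.Δ := by
    rcases (padicValInt_dvd_iff (p := 2) 1 W.Δ).mp (by simpa using hd) with h | h
    exacts [absurd h hΔ, h]
  obtain ⟨h21, h2p⟩ := h2 rfl (by exact_mod_cast hd)
  refine ⟨padicValInt 2 W.Δ, by omega, h2p, ?_⟩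
  rw [hnorm hd]
  obtain ⟨m, hm⟩ := padicValInt_dvd (p := 2) W.Δ
  have hndvd : ¬ ((2 : ℕ) : ℤ) ∣ m := by
    rintro ⟨c, hc⟩
    have : ((2 : ℕ) : ℤ) ^ (padicValInt 2 W.Δ + 1) ∣ W.Δ :=
      ⟨c, by rw [pow_succ, mul_assoc, ← hc]; exact hm⟩
    rcases (padicValInt_dvd_iff _ _).mp this with h | h
    · exact hΔ h
    · omega
  conv_lhs => rw [hm]
  rw [Int.cast_mul, Int.cast_pow, Int.cast_natCast, norm_mul, norm_pow,
    norm_intCast_eq_one_local 2 hndvd, mul_one]

/-- **Mazur's theorem for semistable curves**, for `p ≥ 11` other than `13`. -/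
theorem modRepIsIrreducible_of_eleven_le (hΔ : W.Δ ≠ 0) (hW : W.IsSemistableModel) {p : ℕ}
    (hp : p.Prime) (h11 : 11 ≤ p) (h13 : p ≠ 13)
    (h2 : (2 : ℤ) ∣ W.Δ → padicValInt 2 W.Δ ≠ 1 ∧ padicValInt 2 W.Δ ≠ p) :
    W.ModRepIsIrreducible p := by
  obtain ⟨l, hl, hln, -, hl2p⟩ := exists_prime_dvd_eisensteinNumerator hp h11 h13
  exact modRepIsIrreducible_of_dvd_eisensteinNumerator hΔ hW hp h11 hl hln hl2p fun _ => h2

/-- **Mazur's theorem for semistable curves** without a hypothesis at `2`, where the Eisenstein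
numerator has an odd prime divisor. -/
theorem modRepIsIrreducible_of_odd_dvd (hΔ : W.Δ ≠ 0) (hW : W.IsSemistableModel) {p : ℕ}
    (hp : p.Prime) (h11 : 11 ≤ p) {l : ℕ} (hl : l.Prime) (hodd : l ≠ 2)
    (hln : l ∣ eisensteinNumerator p) : W.ModRepIsIrreducible p := by
  refine modRepIsIrreducible_of_dvd_eisensteinNumerator hΔ hW hp h11 hl hln ?_ fun e =>
    absurd e hodd
  have h2p : 2 ∣ p - 1 := by
    obtain ⟨k, hk⟩ := hp.odd_of_ne_two (by omega)
    exact ⟨k, by omega⟩
  have hlp : l ∣ p - 1 := hln.trans (eisensteinNumerator_dvd p)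
  have h : 2 * l ∣ p - 1 :=
    Nat.Coprime.mul_dvd_of_dvd_of_dvd ((Nat.coprime_primes Nat.prime_two hl).mpr hodd.symm) h2p hlp
  have := Nat.le_of_dvd (by omega) h
  omega

/-- A rational point of order `p` makes the `p`-torsion reducible. -/
theorem not_modRepIsIrreducible_of_point (hΔ : W.Δ ≠ 0) {p : ℕ} (hp : p.Prime)
    (P : (W.map (Int.castRingHom ℚ)).toAffine.Point) (hP : addOrderOf P = p) :
    ¬ W.ModRepIsIrreducible p := by
  rintro ⟨-, hirr⟩
  haveI := Fact.mk hp
  haveI := FA.Frob.ratCurve_isElliptic_of_Δ hΔ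
  let ι : ((ratCurve W)⁄ℚ).toAffine.Point →+ ((ratCurve W)⁄Qb).toAffine.Point :=
    Point.map (Algebra.ofId ℚ Qb)
  let P' : ((ratCurve W)⁄ℚ).toAffine.Point := P
  have hP' : addOrderOf P' = p := hP
  set X := ι P' with hX
  have hXord : addOrderOf X = p := by
    rw [hX, addOrderOf_injective ι (Point.map_injective _), hP']
  have hXp : p • X = 0 := hXord ▸ addOrderOf_nsmul_eq_zero X
  let x : Submodule.torsionBy ℤ ((ratCurve W)⁄Qb).Point (p : ℤ) :=
    ⟨X, (Submodule.mem_torsionBy_iff _ _).mpr ((natCast_zsmul X p).trans hXp)⟩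
  have hx0 : x ≠ 0 := fun e => hp.one_lt.ne (by
    rw [← hXord, show X = 0 from congrArg Subtype.val e, addOrderOf_zero])
  have hfix : ∀ σ : GQ, σ • x = x := fun σ => Subtype.ext <| by
    show Point.map σ.toAlgHom (ι P') = ι P'
    rw [Point.map_map]
    congr 2
    exact AlgHom.ext fun z => σ.commutes z
  rcases hirr (Submodule.span (ZMod p) {x}) (fun σ y hy => by
    obtain ⟨c, rfl⟩ := Submodule.mem_span_singleton.mp hy
    rw [smul_comm σ c x, hfix σ]
    exact hy) with h | h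
  · exact hx0 (Submodule.span_singleton_eq_bot.mp h)
  · have h1 := finrank_span_singleton (K := ZMod p) hx0
    rw [h, finrank_top, FA.EC.finrank_torsion (ratCurve W) p] at h1
    omega

end FA.Ribet

end
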