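import Fermat.Agent.Mazur.BadPrime
import Fermat.Agent.Mazur.FreyLine
import Mathlib.AlgebraicGeometry.EllipticCurve.IsomOfJ

/-!
# A Frobenius fixed point of order `p > 2 l + 1` makes `j` non-integral at `l = 2, 3`

With an integral invariant there is a model with good reduction over the algebraic numbers; the
abscissae of the multiples of the point reduce to roots of a polynomial `X ^ l - b X - c`.
-/

set_option autoImplicit false
set_option linter.unusedSectionVars false
set_option maxHeartbeats 1000000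
set_option linter.style.haveILetI false

noncomputable section

open WeierstrassCurve FA.Local FA.LocalDef FA.Mazur

namespace FA.Ribet

local notation "Qb" => AlgebraicClosure ℚ
local notation "GQ" => AlgebraicClosure ℚ ≃ₐ[ℚ] AlgebraicClosure ℚ

/-- **No fixed point of large order over a model with good reduction.** -/
theorem false_of_good_model (W : WeierstrassCurve ℚ) [W.IsElliptic] (V : WeierstrassCurve Qb)
    [V.IsElliptic] (hjV : V.j = algebraMap ℚ Qb W.j) {l p : ℕ} (hl : l.Prime) (hp : p.Prime)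
    (hlp : 2 * l + 1 < p) {A : ValuationSubring Qb} (hA : A.LiesOverPrime l)
    (hI : IntCoeff A.valuation V.toAffine) (hΔ : A.valuation V.Δ = 1) {F : GQ}
    (hF : F ∈ A.decompositionSubgroup ℚ)
    (hFrob : ∀ x : Qb, A.valuation x ≤ 1 → res A (F x) = res A x ^ l)
    {P : (W⁄Qb).toAffine.Point} (hP : P ≠ 0) (hpP : p • P = 0) (hfix : F • P = P) : False := by
  haveI := res_charP hl hA
  haveI : (W⁄Qb).IsElliptic := inferInstanceAs (W.map (algebraMap ℚ Qb)).IsElliptic
  have hlp' : l ≠ p := by omega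
  have hl2 := hl.two_le
  have hpv : A.valuation (p : Qb) = 1 :=
    valuation_natCast_eq_one hl hA fun h => hlp' ((Nat.prime_dvd_prime_iff_eq hl hp).1 h)
  obtain ⟨C, hC⟩ := WeierstrassCurve.exists_variableChange_of_j_eq (W⁄Qb) V (by
    rw [hjV]; exact WeierstrassCurve.map_j W (algebraMap ℚ Qb))
  obtain ⟨P', hP'⟩ := (FA.Frob.vcEquiv C hC).surjective P
  replace hP : FA.Frob.vcEquiv C hC P' ≠ 0 := fun h => hP (hP'.symm.trans h)
  replace hpP : p • FA.Frob.vcEquiv C hC P' = 0 := (congrArg (p • ·) hP').trans hpP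
  replace hfix : F • FA.Frob.vcEquiv C hC P' = FA.Frob.vcEquiv C hC P' :=
    ((congrArg (F • ·) hP').trans hfix).trans hP'.symm
  set u : Qb := ((C.u : Qbˣ) : Qb) with hu
  have hu0 : u ≠ 0 := C.u.ne_zero
  have hFu : F u ≠ 0 := by simpa using hu0
  set b : Qb := (u / F u) ^ 2 with hb
  set c : Qb := (C.r - F C.r) / F u ^ 2 with hc
  have hb1 : A.valuation b = 1 := by
    rw [hb, map_pow, map_div₀, decomp_map_eq hF, div_self (A.valuation.ne_zero_iff.2 hu0), one_pow]
  set f : Polynomial (Res A) := Polynomial.X ^ l -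
    (Polynomial.C (res A b) * Polynomial.X + Polynomial.C (res A c)) with hf
  have hlow : (Polynomial.C (res A b) * Polynomial.X + Polynomial.C (res A c)).natDegree < l :=
    lt_of_le_of_lt Polynomial.natDegree_linear_le (by omega)
  have hfdeg : f.natDegree = l := by
    rw [hf, Polynomial.natDegree_sub_eq_left_of_natDegree_lt, Polynomial.natDegree_X_pow]
    rwa [Polynomial.natDegree_X_pow]
  have hle := le_of_residue_roots hI hΔ hp (hp.odd_of_ne_two (by omega)) hpv
    (P := P') (fun h => hP (by rw [h, map_zero]))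
    ((FA.Frob.vcEquiv C hC).injective (by rw [map_nsmul, hpP, map_zero]))
    (f := f) (fun h => by rw [h, Polynomial.natDegree_zero] at hfdeg; omega)
    fun m x y h hm hx => by
      have hn : F • (m • FA.Frob.vcEquiv C hC P') = m • FA.Frob.vcEquiv C hC P' := by
        rw [← Nat.cast_smul_eq_nsmul ℤ, Affine.Point.algEquiv_smul_zsmul, hfix]
      rw [← map_nsmul, hm, FA.Frob.vcEquiv_some] at hn
      obtain ⟨hX, -⟩ := fixed_coords hn
      simp only [FA.Frob.vcX, map_add, map_mul, map_pow, ← hu] at hX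
      have hFx : F x = b * x + c := by
        rw [hb, hc]
        field_simp
        linear_combination hX
      have hbx : A.valuation (b * x) ≤ 1 := by rw [map_mul, hb1, one_mul]; exact hx
      have hcv : A.valuation c ≤ 1 := by
        rw [show c = F x - b * x by rw [hFx]; ring]
        exact A.valuation.map_sub_le ((decomp_map_eq hF x).trans_le hx) hbx
      rw [hf, Polynomial.IsRoot.def, Polynomial.eval_sub, Polynomial.eval_pow, Polynomial.eval_X,
        Polynomial.eval_add, Polynomial.eval_mul, Polynomial.eval_C, Polynomial.eval_X,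
        Polynomial.eval_C, ← hFrob x hx, hFx, res_add hbx hcv, res_mul hb1.le hx, sub_self]
  rw [hfdeg] at hle
  omega

variable {A : ValuationSubring Qb}

theorem valuation_natCast_le (A : ValuationSubring Qb) (n : ℕ) : A.valuation (n : Qb) ≤ 1 :=
  natCast_le_one n

/-- A parameter `a` with `a³ (a³ - 24)³ = j (a³ - 27)` at a place over `2` is integral and makes
`a³ - 27` a unit, for an integral `j`. -/
theorem exists_param_two (hA : A.LiesOverPrime 2) {j : Qb} (hj : A.valuation j ≤ 1) :
    ∃ a : Qb, A.valuation a ≤ 1 ∧ A.valuation (a ^ 3 - 27) = 1 ∧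
      a ^ 3 * (a ^ 3 - 24) ^ 3 = j * (a ^ 3 - 27) := by
  set Q : Polynomial Qb := Polynomial.X ^ 3 * (Polynomial.X ^ 3 - Polynomial.C 24) ^ 3 -
    Polynomial.C j * (Polynomial.X ^ 3 - Polynomial.C 27) with hQ
  have hdeg : Q.natDegree = 12 := by rw [hQ]; compute_degree!
  obtain ⟨a, ha⟩ := IsAlgClosed.exists_root Q (by
    intro h0
    have := Polynomial.natDegree_eq_zero_iff_degree_le_zero.2 h0.le
    omega)
  have heq : a ^ 3 * (a ^ 3 - 24) ^ 3 = j * (a ^ 3 - 27) := by
    simp only [hQ, Polynomial.IsRoot.def, Polynomial.eval_sub, Polynomial.eval_mul,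
      Polynomial.eval_pow, Polynomial.eval_X, Polynomial.eval_C] at ha
    exact sub_eq_zero.1 ha
  have h24 : A.valuation (24 : Qb) ≤ 1 := by exact_mod_cast valuation_natCast_le A 24
  have h27 : A.valuation (27 : Qb) ≤ 1 := by exact_mod_cast valuation_natCast_le A 27
  have h3 : A.valuation (3 : Qb) = 1 := by
    exact_mod_cast valuation_natCast_eq_one Nat.prime_two hA (n := 3) (by norm_num)
  have ha1 : A.valuation a ≤ 1 := by
    by_contra hcon
    push Not at hcon
    have h1 : 1 < A.valuation (a ^ 3) := by rw [map_pow]; exact one_lt_pow₀ hcon (by norm_num)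
    have e := congrArg A.valuation heq
    rw [map_mul, map_mul, map_pow _ (a ^ 3 - 24) 3,
      A.valuation.map_sub_eq_of_lt_left (h24.trans_lt h1),
      A.valuation.map_sub_eq_of_lt_left (h27.trans_lt h1)] at e
    have hle : A.valuation j * A.valuation (a ^ 3) ≤ A.valuation (a ^ 3) :=
      mul_le_of_le_one_left zero_le hj
    rw [← e] at hle
    exact absurd hle (not_le.2 (lt_mul_of_one_lt_right (zero_lt_one.trans h1)
      (one_lt_pow₀ h1 (by norm_num))))
  refine ⟨a, ha1, le_antisymm (A.valuation.map_sub_le ?_ h27) (not_lt.1 fun hlt => ?_), heq⟩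
  · rw [map_pow]; exact pow_le_one₀ zero_le ha1
  · have h241 : A.valuation (a ^ 3 - 24) = 1 := by
      rw [show a ^ 3 - 24 = 3 + (a ^ 3 - 27) by ring,
        A.valuation.map_add_eq_of_lt_left (h3.symm ▸ hlt), h3]
    have ha3 : A.valuation (a ^ 3) = 1 := by
      have h271 : A.valuation (27 : Qb) = 1 := by
        exact_mod_cast valuation_natCast_eq_one Nat.prime_two hA (n := 27) (by norm_num)
      rw [show a ^ 3 = 27 + (a ^ 3 - 27) by ring,
        A.valuation.map_add_eq_of_lt_left (h271.symm ▸ hlt), h271]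
    have e := congrArg A.valuation heq
    rw [map_mul, map_mul, ha3, map_pow, h241, one_pow, one_mul] at e
    exact absurd e.le (not_le.2 ((mul_le_of_le_one_left zero_le hj).trans_lt hlt))

/-- A parameter `a` with `256 (a² - a + 1)³ = j (a (a - 1))²` at a place over `3` is integral and
makes `a (a - 1)` a unit, for an integral `j`. -/
theorem exists_param_three (hA : A.LiesOverPrime 3) {j : Qb} (hj : A.valuation j ≤ 1) :
    ∃ a : Qb, A.valuation a ≤ 1 ∧ A.valuation (a * (a - 1)) = 1 ∧
      256 * (a ^ 2 - a + 1) ^ 3 = j * (a * (a - 1)) ^ 2 := by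
  set Q : Polynomial Qb :=
    Polynomial.C 256 * (Polynomial.X ^ 2 - Polynomial.X + Polynomial.C 1) ^ 3 -
      Polynomial.C j * (Polynomial.X * (Polynomial.X - Polynomial.C 1)) ^ 2 with hQ
  have hdeg : Q.natDegree = 6 := by rw [hQ]; compute_degree!
  obtain ⟨a, ha⟩ := IsAlgClosed.exists_root Q (by
    intro h0
    have := Polynomial.natDegree_eq_zero_iff_degree_le_zero.2 h0.le
    omega)
  have heq : 256 * (a ^ 2 - a + 1) ^ 3 = j * (a * (a - 1)) ^ 2 := by
    simp only [hQ, Polynomial.IsRoot.def, Polynomial.eval_sub, Polynomial.eval_mul,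
      Polynomial.eval_add, Polynomial.eval_pow, Polynomial.eval_X, Polynomial.eval_C] at ha
    exact sub_eq_zero.1 ha
  have h256 : A.valuation (256 : Qb) = 1 := by
    exact_mod_cast valuation_natCast_eq_one Nat.prime_three hA (n := 256) (by norm_num)
  have e := congrArg A.valuation heq
  rw [map_mul, h256, one_mul, map_mul, map_pow _ (a * (a - 1)) 2, map_pow,
    show a ^ 2 - a + 1 = a * (a - 1) + 1 by ring] at e
  have ha1 : A.valuation a ≤ 1 := by
    by_contra hcon
    push Not at hcon
    have h1 : 1 < A.valuation (a * (a - 1)) := by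
      rw [map_mul, A.valuation.map_sub_eq_of_lt_left (by rwa [map_one])]
      exact hcon.trans_le (le_mul_of_one_le_left zero_le hcon.le)
    rw [A.valuation.map_add_eq_of_lt_left (by rwa [map_one])] at e
    have hle : A.valuation j * A.valuation (a * (a - 1)) ^ 2 ≤ A.valuation (a * (a - 1)) ^ 2 :=
      mul_le_of_le_one_left zero_le hj
    rw [← e] at hle
    exact absurd hle (not_le.2 (pow_lt_pow_right₀ h1 (by norm_num)))
  have hle1 : A.valuation (a * (a - 1)) ≤ 1 :=
    map_mul_le_one ha1 (A.valuation.map_sub_le ha1 (map_one _).le)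
  refine ⟨a, ha1, le_antisymm hle1 (not_lt.1 fun hlt => ?_), heq⟩
  rw [A.valuation.map_add_eq_of_lt_right (by rwa [map_one]), map_one, one_pow] at e
  exact absurd e.le (not_le.2 ((mul_le_of_le_one_left zero_le hj).trans_lt
    (pow_lt_one₀ zero_le hlt two_ne_zero)))

/-- **A Frobenius fixed point of order `p ≥ 11` gives a pole of `j` at `2` and `3`.** -/
theorem one_lt_valuation_j_two_three (W : WeierstrassCurve ℚ) [W.IsElliptic] {l p : ℕ}
    (hl : l = 2 ∨ l = 3) (hp : p.Prime) (hlp : 2 * l + 1 < p) {A : ValuationSubring Qb}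
    (hA : A.LiesOverPrime l) {F : GQ} (hF : F ∈ A.decompositionSubgroup ℚ)
    (hFrob : ∀ x : Qb, A.valuation x ≤ 1 → res A (F x) = res A x ^ l)
    {P : (W⁄Qb).toAffine.Point} (hP : P ≠ 0) (hpP : p • P = 0) (hfix : F • P = P) :
    1 < A.valuation (algebraMap ℚ Qb W.j) := by
  by_contra hj
  push Not at hj
  rcases hl with rfl | rfl
  · obtain ⟨a, ha, hD, heq⟩ := exists_param_two hA hj
    let V : WeierstrassCurve Qb := ⟨a, 0, 1, 0, 0⟩
    have hΔ : V.Δ = a ^ 3 - 27 := by
      simp only [V, WeierstrassCurve.Δ, b₂, b₄, b₆, b₈]; ring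
    have hD0 : a ^ 3 - 27 ≠ 0 := A.valuation.ne_zero_iff.1 (hD ▸ one_ne_zero)
    haveI : V.IsElliptic := ⟨by rw [hΔ]; exact hD0.isUnit⟩
    have hI : IntCoeff A.valuation V.toAffine := ⟨ha, by simp [V], by simp [V], by simp [V],
      by simp [V]⟩
    refine false_of_good_model W V ?_ Nat.prime_two hp hlp hA hI (hΔ ▸ hD) hF hFrob hP hpP hfix
    rw [WeierstrassCurve.j, Units.val_inv_eq_inv_val, coe_Δ', hΔ, inv_mul_eq_div,
      div_eq_iff hD0, show V.c₄ = a * (a ^ 3 - 24) by simp only [V, c₄, b₂, b₄]; ring,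
      mul_pow, heq]
  · obtain ⟨a, ha, hD, heq⟩ := exists_param_three hA hj
    let V : WeierstrassCurve Qb := ⟨0, -(1 + a), 0, a, 0⟩
    have hΔ : V.Δ = 16 * (a * (a - 1)) ^ 2 := by
      simp only [V, WeierstrassCurve.Δ, b₂, b₄, b₆, b₈]; ring
    have h16 : A.valuation (16 : Qb) = 1 := by
      exact_mod_cast valuation_natCast_eq_one Nat.prime_three hA (n := 16) (by norm_num)
    have hDv : A.valuation V.Δ = 1 := by rw [hΔ, map_mul, h16, map_pow, hD, one_pow, one_mul]
    have hD0 : V.Δ ≠ 0 := A.valuation.ne_zero_iff.1 (hDv ▸ one_ne_zero)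
    haveI : V.IsElliptic := ⟨hD0.isUnit⟩
    have hI : IntCoeff A.valuation V.toAffine := ⟨by simp [V], by
      show A.valuation (-(1 + a)) ≤ 1
      rw [Valuation.map_neg]; exact A.valuation.map_add_le (map_one _).le ha, by simp [V], ha,
      by simp [V]⟩
    refine false_of_good_model W V ?_ Nat.prime_three hp hlp hA hI hDv hF hFrob hP hpP hfix
    rw [WeierstrassCurve.j, Units.val_inv_eq_inv_val, coe_Δ', inv_mul_eq_div, div_eq_iff hD0,
      show V.c₄ = 16 * (a ^ 2 - a + 1) by simp only [V, c₄, b₂, b₄]; ring, hΔ]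
    linear_combination 16 * heq

end FA.Ribet

end
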