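import Fermat.Agent.Ribet.MazurGoodModel
import Fermat.Agent.Mazur.RationalTorsion

/-!
# No rational point of order `p ≥ 11`, `p ≠ 13`, on any elliptic curve over `ℚ`

A rational point of order `p` gives a pole of `j` at `2` and at `3`, so the place of its line is in
the two discs.
-/

set_option autoImplicit false
set_option linter.style.haveILetI false
set_option linter.unusedSectionVars false

noncomputable section

namespace FA.Ribet

open ModularCurve AlgebraicCurve FA.Curve FA.CurveRed FA.ModField FA.Level FA.JTorsion FA.Mazur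
  FA.Local FA.LocalDef WeierstrassCurve WeierstrassCurve.Affine
open scoped WeierstrassCurve.Affine

set_option synthInstance.maxHeartbeats 400000
set_option maxHeartbeats 1000000

local notation "Qb" => AlgebraicClosure ℚ
local notation "GQ" => AlgebraicClosure ℚ ≃ₐ[ℚ] AlgebraicClosure ℚ

set_option maxHeartbeats 2000000 in
/-- **No rational point of order `p`** where `j` has poles at `2` and `3`. -/
theorem false_of_rational_point_of_norm {p : ℕ} (hp : p.Prime) (hp' : p ∉ ({2, 3, 5, 7, 13} : Finset ℕ))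
    (W : WeierstrassCurve ℚ) [W.IsElliptic] (Q : (W⁄Qb).toAffine.Point)
    (hQfix : ∀ σ : GQ, σ • Q = Q) (hQord : addOrderOf Q = p) (hj0 : W.j ≠ 0)
    (hn : ∀ (q : ℕ) [Fact q.Prime], q = 2 ∨ q = 3 → ‖((W.j⁻¹ : ℚ) : Cl q)‖ < 1) : False := by
  haveI := Fact.mk hp
  simp only [Finset.mem_insert, Finset.mem_singleton, not_or] at hp'
  obtain ⟨hn2, hn3, hn5, hn7, hn13⟩ := hp'
  have hp11 : 11 ≤ p := by
    by_contra h
    interval_cases p <;> first | omega | norm_num at hp
  haveI : Fact (Nat.Prime 2) := ⟨Nat.prime_two⟩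
  haveI : Fact (Nat.Prime 3) := ⟨Nat.prime_three⟩
  haveI : Algebra.IsAlgebraic ℚ Qb := AlgebraicClosure.isAlgebraic ℚ
  letI : Algebra Qb ℂ := (IsAlgClosed.lift (R := ℚ) (S := Qb) (M := ℂ)).toRingHom.toAlgebra
  set C := AddSubgroup.zmultiples Q
  have hcard : Nat.card C = p := by rw [Nat.card_zmultiples, hQord]
  have hpt : ∀ σ : GQ, ∀ P ∈ C, σ • P = P := by
    rintro σ _ ⟨m, rfl⟩
    show σ • (m • Q) = m • Q
    rw [Affine.Point.algEquiv_smul_zsmul, hQfix]
  have hst : ∀ σ : GQ, ∀ P ∈ C, σ • P ∈ C := fun σ P hP => (hpt σ P hP).symm ▸ hP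
  have hQ0 : Q ≠ 0 := fun h => by rw [h, addOrderOf_zero] at hQord; omega
  by_cases h2 : 2 ∣ eisensteinNumerator p
  · -- the two discs
    obtain ⟨i2⟩ := exists_algebra_local 2
    obtain ⟨i3⟩ := exists_algebra_local 3
    letI := i2
    letI := i3
    letI : Algebra Qb (PadicComplex p) :=
      (IsAlgClosed.lift : Qb →ₐ[ℚ] PadicComplex p).toRingHom.toAlgebra
    have hp2 : ¬ 2 ∣ p := fun h => by
      have := (Nat.prime_dvd_prime_iff_eq Nat.prime_two hp).1 h; omega
    have hp3 : ¬ 3 ∣ p := fun h => by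
      have := (Nat.prime_dvd_prime_iff_eq Nat.prime_three hp).1 h; omega
    have h1728 : W.j ≠ 1728 := fun h => by
      have h' := hn 2 (Or.inl rfl)
      rw [h, Rat.cast_inv, norm_inv, inv_lt_one_iff₀,
        show ((1728 : ℚ) : Cl 2) = ((1728 : ℕ) : Cl 2) by norm_num] at h'
      rcases h' with h1 | h1
      · rw [norm_le_zero_iff, Nat.cast_eq_zero] at h1; norm_num at h1
      · exact absurd h1 (not_lt.2 (norm_natCast_le_one 2 1728))
    obtain ⟨v, hfix, hv, hC⟩ := stableLinePlace (p := p) _ hj0 h1728 C hcard hst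
    have hside : ∀ (q : ℕ) [Fact q.Prime] [Algebra Qb (PadicComplex q)], q ≠ p →
        ¬ p ∣ q ^ 2 - 1 → (q = 2 ∨ q = 3) →
        ∃ τ : Param Qb (Cl q), τ.1 ≠ 0 ∧
          swapPlace p (one_mul p).symm v = discPlace p (isEmbAt_placeAt q) τ ∧
          ∀ σ : GQ, galAut p Qb σ • discPlace p (isEmbAt_placeAt q) τ =
            discPlace p (isEmbAt_placeAt q) τ := by
      intro q _ _ hqp hq1 hq
      set t : Param Qb (Cl q) := ⟨algebraMap ℚ Qb W.j⁻¹, by
        rw [eq_ratCast, map_ratCast]; exact hn q hq⟩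
      have ht : t.1 ≠ 0 := by simpa [t] using hj0
      rcases rational_place_cases_level ht hfix hv with h | ⟨τ, -, hτ0, -, hsw, hτfix⟩
      · exact absurd h (hC hpt q hqp hq1 t)
      · exact ⟨τ, hτ0, hsw, hτfix⟩
    obtain ⟨τ, hτ0, hsw, hτfix⟩ := hside 2 (by omega)
      (fun h => by have := Nat.le_of_dvd (by norm_num) h; omega) (Or.inl rfl)
    obtain ⟨τ', -, hsw', -⟩ := hside 3 (by omega)
      (fun h => by have := Nat.le_of_dvd (by norm_num) h; omega) (Or.inr rfl)
    refine hτ0 (eq_zero_of_two_discs h2 hp2 (idemSeq_mem p 2 h2 rfl) (placeAt_liesOver p)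
      (q := 3) hp3 (by norm_num) τ (smul_discClass_eq hτfix) ?_)
    have heq : (discClass (isEmbAt_placeAt 2) τ : JZero p) = discClass (isEmbAt_placeAt 3) τ' := by
      rw [discClass, discClass]
      refine congrArg Pic0.mk (Subtype.ext ?_)
      show Finsupp.single _ (1 : ℤ) - Finsupp.single _ 1 = _
      rw [← hsw, hsw', gal_t0_eq p (q := 3)]
    rw [heq]
    exact discClass_mem_discJ hp3 τ'
  · -- an odd Eisenstein prime
    obtain ⟨l, hl, hln', hlp, hl2p⟩ := exists_prime_dvd_eisensteinNumerator hp hp11 hn13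
    haveI := Fact.mk hl
    obtain ⟨il⟩ := exists_algebra_local l
    letI := il
    have hl2 : l ≠ 2 := fun h => h2 (h ▸ hln')
    refine false_of_stable_line stableLinePlace W C hcard hst hlp hln' hj0
      ?_ fun h => absurd h hl2
    rcases lt_or_ge l 5 with h5 | h5
    · have hl3 : l = 3 := by interval_cases l <;> first | omega | norm_num at hl
      subst hl3
      exact hn 3 (Or.inr rfl)
    · obtain ⟨F, hF, hFrob⟩ := FA.LocalDef.exists_frobenius hl (placeAt_liesOver l)
      have h := one_lt_valuation_j W hl h5 hp hlp hl2p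
        (placeAt_liesOver l) hF hFrob hQ0 (hQord ▸ addOrderOf_nsmul_eq_zero Q) (hQfix F)
      rw [← not_le, ValuationSubring.valuation_le_one_iff, mem_placeAt, not_le, eq_ratCast,
        map_ratCast] at h
      rw [Rat.cast_inv, norm_inv]
      exact inv_lt_one_of_one_lt₀ h

/-- **Mazur's theorem on points of order `p`**: no elliptic curve over `ℚ` has a rational point of
order `p`, for a prime `p ≥ 11` other than `13`. -/
theorem addOrderOf_point_ne_of_rat (E : WeierstrassCurve ℚ) [E.IsElliptic] {p : ℕ} (hp : p.Prime)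
    (h11 : 11 ≤ p) (h13 : p ≠ 13) (P : E.toAffine.Point) : addOrderOf P ≠ p := by
  intro hP
  let ι : (E⁄ℚ).toAffine.Point →+ (E⁄Qb).toAffine.Point := Point.map (Algebra.ofId ℚ Qb)
  let P' : (E⁄ℚ).toAffine.Point := P
  set Q := ι P' with hQ
  have hQord : addOrderOf Q = p :=
    (addOrderOf_injective ι (Point.map_injective _) P').trans hP
  have hQ0 : Q ≠ 0 := fun e => by rw [e, addOrderOf_zero] at hQord; omega
  have hQfix : ∀ σ : GQ, σ • Q = Q := fun σ => by
    show Point.map σ.toAlgHom (ι P') = ι P'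
    rw [Point.map_map]
    congr 2
    exact AlgHom.ext fun z => σ.commutes z
  have hpole : ∀ (q : ℕ) (hq : q.Prime), q = 2 ∨ q = 3 →
      1 < (haveI := Fact.mk hq; letI := (exists_algebra_local q).some; placeAt q).valuation
        (algebraMap ℚ Qb E.j) := by
    intro q hq hq23
    haveI := Fact.mk hq
    letI := (exists_algebra_local q).some
    obtain ⟨F, hF, hFrob⟩ := FA.LocalDef.exists_frobenius hq (placeAt_liesOver q)
    exact one_lt_valuation_j_two_three E hq23 hp (by rcases hq23 with rfl | rfl <;> omega)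
      (placeAt_liesOver q) hF hFrob hQ0 (hQord ▸ addOrderOf_nsmul_eq_zero Q) (hQfix F)
  have hj0 : E.j ≠ 0 := fun e => by
    have h := hpole 2 Nat.prime_two (Or.inl rfl)
    rw [e, map_zero, map_zero] at h
    exact absurd h (not_lt.2 zero_le)
  refine false_of_rational_point_of_norm hp
    (by simp only [Finset.mem_insert, Finset.mem_singleton, not_or]; omega) E Q hQfix hQord hj0
    fun q hq hq23 => ?_
  letI := (exists_algebra_local q).some
  exact one_lt_norm_of_not_mem (hpole q hq.out hq23)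

end FA.Ribet

end
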