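import Fermat.Agent.Root.SummaryTwoPrimeFermat
import Fermat.Agent.Root.SummarySignatureTwoPrimes

/-!
# Progressions of two, three and four terms

For a difference `d` prime to `x` whose primes are `2` and `q` the products give
`X² = A y ^ n + B z ^ n` for two and four terms, and for three terms, with middle term `v ^ p` and
`x (x + 2 d) = w ^ p`, an equation `A u ^ p + B v ^ p + C w ^ p = 0` with two-prime coefficients.
-/

set_option autoImplicit false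
set_option linter.unusedSectionVars false

noncomputable section

namespace FA.Progressions

/-- The square equation for `q = 3, 5, 11, 13, 19`. -/
theorem squareEquation_mixed {p : ℕ} (hp : p.Prime) (h11 : 11 ≤ p) {q : ℕ}
    (hq : q = 3 ∨ q = 5 ∨ q = 11 ∨ q = 13 ∨ q = 19) {A B x y z : ℤ} (hA : A ≠ 0) (hB : B ≠ 0)
    (hy : y ≠ 0) (hz : z ≠ 0) (hsA : ∀ r : ℕ, r.Prime → (r : ℤ) ∣ A → r ∣ 2 * q)
    (hsB : ∀ r : ℕ, r.Prime → (r : ℤ) ∣ B → r ∣ 2 * q)
    (hx : Odd x) (hcop : IsCoprime x (B * z ^ p)) (h64 : (64 : ℤ) ∣ B * z ^ p) :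
    x ^ 2 ≠ A * y ^ p + B * z ^ p := by
  rcases show (q = 3 ∨ q = 5) ∨ (q = 11 ∨ q = 13 ∨ q = 19) by omega with h | h
  · exact FA.Summary.squareEquation_general hp h11 dvd_rfl (M := 2 * q) (by omega) hA hB hy hz
      hsA hsB hx hcop h64
  · exact FA.Summary.squareEquation_twoPrimes hp h11 dvd_rfl h hA hB hy hz hsA hsB hx hcop h64

theorem dvd_of_dvd_one {M : ℕ} : ∀ r : ℕ, r.Prime → (r : ℤ) ∣ 1 → r ∣ M := fun _ hr h =>
  absurd (isUnit_of_dvd_one h) (Nat.prime_iff_prime_int.1 hr).not_isUnit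

theorem dvd_of_dvd_two_pow {q : ℕ} {k : ℕ} : ∀ r : ℕ, r.Prime → (r : ℤ) ∣ 2 ^ k → r ∣ 2 * q :=
  fun r hr h => by
    have h' : r ∣ 2 ^ k := by exact_mod_cast h
    rw [(Nat.prime_dvd_prime_iff_eq hr Nat.prime_two).1 (hr.dvd_of_dvd_pow h')]
    exact dvd_mul_right 2 q

/-- An even integer to the power `p ≥ 6` is divisible by `64`. -/
theorem sixtyFour_dvd_pow {p : ℕ} (h6 : 6 ≤ p) {y : ℤ} (hy : Even y) : (64 : ℤ) ∣ y ^ p :=
  (show (64 : ℤ) ∣ 2 ^ p from (show (2 : ℤ) ^ 6 = 64 by norm_num) ▸ pow_dvd_pow 2 h6).trans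
    (pow_dvd_pow_of_dvd hy.two_dvd p)

section

variable {p : ℕ} {x d y : ℤ}

/-- One of `x`, `x + d` is even for odd `d`. -/
theorem even_mul_add (hd : Odd d) (x : ℤ) : Even (x * (x + d)) := by
  rcases Int.even_or_odd x with h | h
  · exact h.mul_right _
  · exact (h.add_odd hd).mul_left _

/-- Two terms. -/
theorem mul_ne_pow_two (hp : p.Prime) (h11 : 11 ≤ p) {q : ℕ}
    (hq : q = 3 ∨ q = 5 ∨ q = 11 ∨ q = 13 ∨ q = 19) (hd0 : d ≠ 0)
    (hs : ∀ r : ℕ, r.Prime → (r : ℤ) ∣ d → r ∣ 2 * q) (hd : Odd d ∨ (16 : ℤ) ∣ d)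
    (hcop : IsCoprime x d) (hy : y ≠ 0) : x * (x + d) ≠ y ^ p := fun h => by
  rcases hd with hd | hd
  · have hye : Even y := (Int.even_pow' hp.ne_zero).1 (h ▸ even_mul_add hd x)
    have hX : Odd (2 * x + d) := (even_two_mul x).add_odd hd
    have hc : IsCoprime (2 * x + d) (4 * y ^ p) := by
      rw [← h, show (4 : ℤ) = 2 ^ 2 by norm_num]
      obtain ⟨j, hj⟩ := hX
      refine ((show IsCoprime (2 * x + d) 2 from ⟨1, -j, by rw [hj]; ring⟩).pow_right).mul_right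
        ((?_ : IsCoprime (2 * x + d) x).mul_right ?_)
      · rw [show 2 * x + d = d + x * 2 by ring]
        exact hcop.symm.add_mul_left_left 2
      · have hxd : IsCoprime (x + d) d := by
          rw [show x + d = x + d * 1 by ring]
          exact hcop.add_mul_left_left 1
        rw [show 2 * x + d = -d + (x + d) * 2 by ring]
        exact hxd.symm.neg_left.add_mul_left_left 2
    refine squareEquation_mixed hp h11 hq (A := d ^ 2) (B := 4) (y := 1) (z := y)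
      (pow_ne_zero _ hd0) (by norm_num) one_ne_zero hy
      (fun r hr h => hs r hr ((Nat.prime_iff_prime_int.1 hr).dvd_of_dvd_pow h))
      (fun r hr h => dvd_of_dvd_two_pow (k := 2) r hr (by simpa using h)) hX hc
      ((sixtyFour_dvd_pow (by omega) hye).mul_left 4) ?_
    rw [one_pow]
    linear_combination 4 * h
  · obtain ⟨e, rfl⟩ : (2 : ℤ) ∣ d := (show (2 : ℤ) ∣ 16 by norm_num).trans hd
    have hxo : Odd x := Int.not_even_iff_odd.1 fun he => Int.prime_two.not_isUnit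
      (hcop.isUnit_of_dvd' he.two_dvd (dvd_mul_right 2 e))
    obtain ⟨c, rfl⟩ : (8 : ℤ) ∣ e := by
      obtain ⟨c, hc⟩ := hd
      exact ⟨c, by linarith⟩
    have hX : Odd (x + 8 * c) := hxo.add_even ⟨4 * c, by ring⟩
    have hc' : IsCoprime (x + 8 * c) (8 * c) := by
      rw [show x + 8 * c = x + 8 * c * 1 by ring]
      exact hcop.of_mul_right_right.add_mul_left_left 1
    refine squareEquation_mixed hp h11 hq (A := 1) (B := (8 * c) ^ 2) (y := y) (z := 1)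
      one_ne_zero (pow_ne_zero _ (right_ne_zero_of_mul hd0)) hy one_ne_zero dvd_of_dvd_one
      (fun r hr h => hs r hr (((Nat.prime_iff_prime_int.1 hr).dvd_of_dvd_pow h).mul_left 2)) hX
      (by simpa using hc'.pow_right) ⟨c ^ 2, by rw [one_pow]; ring⟩ ?_
    rw [one_pow]
    linear_combination h

/-- Four terms. -/
theorem mul_ne_pow_four (hp : p.Prime) (h11 : 11 ≤ p) {q : ℕ}
    (hq : q = 3 ∨ q = 5 ∨ q = 11 ∨ q = 13 ∨ q = 19) (hd0 : d ≠ 0)
    (hs : ∀ r : ℕ, r.Prime → (r : ℤ) ∣ d → r ∣ 2 * q) (hd : Odd d ∨ (4 : ℤ) ∣ d)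
    (hcop : IsCoprime x d) (hy : y ≠ 0) :
    x * (x + d) * (x + 2 * d) * (x + 3 * d) ≠ y ^ p := fun h => by
  set X := x ^ 2 + 3 * d * x + d ^ 2 with hX
  have hXd : IsCoprime X d := by
    rw [hX, show x ^ 2 + 3 * d * x + d ^ 2 = x ^ 2 + d * (3 * x + d) by ring]
    exact hcop.pow_left.add_mul_left_left _
  have hs4 : ∀ r : ℕ, r.Prime → (r : ℤ) ∣ d ^ 4 → r ∣ 2 * q := fun r hr h =>
    hs r hr ((Nat.prime_iff_prime_int.1 hr).dvd_of_dvd_pow h)
  have key : y ^ p = X ^ 2 - d ^ 4 := by rw [← h, hX]; ring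
  rcases hd with hd | hd
  · have hye : Even y := (Int.even_pow' hp.ne_zero).1 (by
      rw [← h]; exact (((even_mul_add hd x).mul_right _).mul_right _))
    have hXo : Odd X := by
      rw [hX, show x ^ 2 + 3 * d * x + d ^ 2 = x * (x + 3 * d) + d ^ 2 by ring]
      exact (even_mul_add ((by decide : Odd (3 : ℤ)).mul hd) x).add_odd hd.pow
    refine squareEquation_mixed hp h11 hq (A := d ^ 4) (B := 1) (y := 1) (z := y) (x := X)
      (pow_ne_zero _ hd0) one_ne_zero one_ne_zero hy hs4 dvd_of_dvd_one hXo ?_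
      ((sixtyFour_dvd_pow (by omega) hye).mul_left 1) (by rw [one_pow]; linear_combination -key)
    rw [one_mul, key, show X ^ 2 - d ^ 4 = -(d ^ 4) + X * X by ring]
    exact hXd.pow_right.neg_right.add_mul_left_right X
  · have hxo : Odd x := Int.not_even_iff_odd.1 fun he => Int.prime_two.not_isUnit
      (hcop.isUnit_of_dvd' he.two_dvd ((show (2 : ℤ) ∣ 4 by norm_num).trans hd))
    have hde : Even d := even_iff_two_dvd.2 ((show (2 : ℤ) ∣ 4 by norm_num).trans hd)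
    have hXo : Odd X := by
      rw [hX, add_assoc]
      exact hxo.pow.add_even (((hde.mul_left 3).mul_right x).add (hde.pow_of_ne_zero two_ne_zero))
    refine squareEquation_mixed hp h11 hq (A := 1) (B := d ^ 4) (y := y) (z := 1) (x := X)
      one_ne_zero (pow_ne_zero _ hd0) hy one_ne_zero dvd_of_dvd_one hs4 hXo
      (by simpa using hXd.pow_right) ?_ (by rw [one_pow]; linear_combination -key)
    rw [one_pow, mul_one]
    exact (show (64 : ℤ) ∣ 4 ^ 4 by norm_num).trans (pow_dvd_pow_of_dvd hd 4)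

/-- **Three terms give a Fermat equation with two-prime coefficients.** -/
theorem exists_fermat_of_three (hp : Odd p) (h5 : 5 ≤ p) {q : ℕ} (hd0 : d ≠ 0)
    (hs : ∀ r : ℕ, r.Prime → (r : ℤ) ∣ d → r = 2 ∨ r = q) (hd : Odd d ∨ (4 : ℤ) ∣ d)
    (hcop : IsCoprime x d) (hy : y ≠ 0) (h : x * (x + d) * (x + 2 * d) = y ^ p) :
    ∃ A B C a b c : ℤ, A * B * C ≠ 0 ∧ a * b * c ≠ 0 ∧
      (∀ r : ℕ, r.Prime → (r : ℤ) ∣ A * B * C → r = 2 ∨ r = q) ∧
      IsCoprime (A * a ^ p) (B * b ^ p) ∧ (16 : ℤ) ∣ C * c ^ p ∧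
      ((Odd d ∨ (8 : ℤ) ∣ d) → (32 : ℤ) ∣ C * c ^ p) ∧
      A * a ^ p + B * b ^ p + C * c ^ p = 0 := by
  obtain ⟨m, hm⟩ : ∃ m, m = x + d := ⟨_, rfl⟩
  have hmd : IsCoprime m d := by
    rw [hm, show x + d = x + d * 1 by ring]
    exact hcop.add_mul_left_left 1
  have hmw : IsCoprime m (m ^ 2 - d ^ 2) := by
    rw [show m ^ 2 - d ^ 2 = -(d ^ 2) + m * m by ring]
    exact hmd.pow_right.neg_right.add_mul_left_right m
  obtain ⟨⟨v, hv⟩, ⟨w, hw⟩⟩ := Int.eq_pow_of_mul_eq_pow_odd hmw hp (c := y)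
    (by rw [← h, hm]; ring)
  have hyp : y ^ p ≠ 0 := pow_ne_zero _ hy
  have hv0 : v ≠ 0 := fun h0 => hyp (by
    rw [← h, show x + d = 0 by rw [← hm, hv, h0, zero_pow (by omega)]]; ring)
  have hw0 : w ≠ 0 := fun h0 => hyp (by
    rw [← h]
    have e : m ^ 2 - d ^ 2 = 0 := by rw [hw, h0, zero_pow (by omega)]
    rw [hm] at e
    linear_combination (x + d) * e)
  have hrel : (v ^ 2) ^ p - w ^ p - d ^ 2 = 0 := by
    rw [← pow_mul, mul_comm 2 p, pow_mul, ← hv, ← hw]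
    ring
  have hs2 : ∀ r : ℕ, r.Prime → (r : ℤ) ∣ d ^ 2 → r = 2 ∨ r = q := fun r hr hr' =>
    hs r hr ((Nat.prime_iff_prime_int.1 hr).dvd_of_dvd_pow hr')
  have hwd : IsCoprime (m ^ 2 - d ^ 2) (d ^ 2) := by
    rw [show m ^ 2 - d ^ 2 = m ^ 2 + d ^ 2 * (-1) by ring]
    exact hmd.pow.add_mul_left_left _
  have hmm : IsCoprime ((v ^ 2) ^ p) (w ^ p) := by
    rw [← pow_mul, mul_comm 2 p, pow_mul, ← hv, ← hw]
    exact hmw.pow_left
  have h32 : ∀ u : ℤ, Even u → (32 : ℤ) ∣ u ^ p := fun u hu =>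
    ((show (32 : ℤ) = 2 ^ 5 by norm_num) ▸ pow_dvd_pow 2 h5).trans
      (pow_dvd_pow_of_dvd hu.two_dvd p)
  rcases hd with hd | hd
  · rcases Int.even_or_odd m with hme | hmo
    · have hve : Even v := (Int.even_pow' (by omega)).1 (hv ▸ hme)
      have h2 : (32 : ℤ) ∣ 1 * (v ^ 2) ^ p := (h32 _ (hve.pow_of_ne_zero two_ne_zero)).mul_left 1
      refine ⟨-(d ^ 2), -1, 1, 1, w, v ^ 2, ?_, ?_, ?_, ?_,
        (show (16 : ℤ) ∣ 32 by norm_num).trans h2, fun _ => h2, ?_⟩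
      · simpa using pow_ne_zero 2 hd0
      · simpa using mul_ne_zero hw0 (pow_ne_zero 2 hv0)
      · intro r hr hr'; exact hs2 r hr (by simpa using hr')
      · rw [one_pow, mul_one, neg_one_mul, ← hw]
        exact hwd.symm.neg_neg
      · linear_combination hrel
    · have hwe : Even w := (Int.even_pow' (by omega)).1 (hw ▸ hmo.pow.sub_odd hd.pow)
      have h2 : (32 : ℤ) ∣ -1 * w ^ p := (h32 _ hwe).mul_left _
      refine ⟨1, -(d ^ 2), -1, v ^ 2, 1, w, ?_, ?_, ?_, ?_,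
        (show (16 : ℤ) ∣ 32 by norm_num).trans h2, fun _ => h2, ?_⟩
      · simpa using pow_ne_zero 2 hd0
      · simpa using mul_ne_zero (pow_ne_zero 2 hv0) hw0
      · intro r hr hr'; exact hs2 r hr (by simpa using hr')
      · rw [one_mul, one_pow, mul_one, ← pow_mul, mul_comm 2 p, pow_mul, ← hv]
        exact hmd.pow.neg_right
      · linear_combination hrel
  · refine ⟨1, -1, -(d ^ 2), v ^ 2, w, 1, ?_, ?_, ?_, ?_, ?_, fun h8 => ?_, ?_⟩
    · simpa using pow_ne_zero 2 hd0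
    · simpa using mul_ne_zero (pow_ne_zero 2 hv0) hw0
    · intro r hr hr'; exact hs2 r hr (by simpa using hr')
    · rw [one_mul, neg_one_mul]
      exact hmm.neg_right
    · rw [one_pow, mul_one, dvd_neg]
      exact (show (16 : ℤ) ∣ 4 ^ 2 by norm_num).trans (pow_dvd_pow_of_dvd hd 2)
    · rw [one_pow, mul_one, dvd_neg]
      rcases h8 with ho | h8
      · exact absurd ho (Int.not_odd_iff_even.2 (even_iff_two_dvd.2
          ((show (2 : ℤ) ∣ 4 by norm_num).trans hd)))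
      · exact (show (32 : ℤ) ∣ 8 ^ 2 by norm_num).trans (pow_dvd_pow_of_dvd h8 2)
    · linear_combination hrel

end

/-- A factor whose common primes with its cofactor are `2` or `3`, in a `p`-th power, is a
`{2, 3}`-unit times a `p`-th power. -/
theorem exists_unit_mul_pow {p : ℕ} (hp : Odd p) {a b c : ℤ} (ha : a ≠ 0) (h : a * b = c ^ p)
    (hcom : ∀ r : ℕ, r.Prime → (r : ℤ) ∣ a → (r : ℤ) ∣ b → r = 2 ∨ r = 3) :
    ∃ i j : ℕ, ∃ r : ℤ, r ≠ 0 ∧ a = 2 ^ i * 3 ^ j * r ^ p := by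
  obtain ⟨a₁, e1, h2⟩ :=
    (Int.finiteMultiplicity_iff.2 ⟨by norm_num, ha⟩ :
      FiniteMultiplicity (2 : ℤ) a).exists_eq_pow_mul_and_not_dvd
  generalize multiplicity (2 : ℤ) a = i at e1
  subst e1
  obtain ⟨a₂, e2, h3⟩ :=
    (Int.finiteMultiplicity_iff.2 ⟨by norm_num, right_ne_zero_of_mul ha⟩ :
      FiniteMultiplicity (3 : ℤ) a₁).exists_eq_pow_mul_and_not_dvd
  generalize multiplicity (3 : ℤ) a₁ = j at e2
  subst e2
  have h2' : ¬ (2 : ℤ) ∣ a₂ := fun h' => h2 (h'.mul_left _)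
  have hcop : IsCoprime a₂ (2 ^ i * 3 ^ j * b) := by
    refine (((Int.prime_two.coprime_iff_not_dvd.2 h2').symm.pow_right).mul_right
      ((Int.prime_three.coprime_iff_not_dvd.2 h3).symm.pow_right)).mul_right ?_
    rw [Int.isCoprime_iff_nat_coprime]
    refine Nat.coprime_of_dvd fun r hr hra hrb => ?_
    have hra' : (r : ℤ) ∣ a₂ := Int.natCast_dvd.2 hra
    rcases hcom r hr ((hra'.mul_left _).mul_left _) (Int.natCast_dvd.2 hrb) with rfl | rfl
    exacts [h2' (by exact_mod_cast hra'), h3 (by exact_mod_cast hra')]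
  obtain ⟨r, hr⟩ := Int.eq_pow_of_mul_eq_pow_odd_left hcop hp (c := c) (by rw [← h]; ring)
  refine ⟨i, j, r, fun h0 => ?_, by rw [← hr]; ring⟩
  rw [h0, zero_pow hp.pos.ne'] at hr
  exact h3 (hr ▸ dvd_zero 3)

/-- The primes of `2 ^ i * 3 ^ j`. -/
theorem prime_of_dvd_unit {i j : ℕ} {r : ℕ} (hr : r.Prime) (h : (r : ℤ) ∣ 2 ^ i * 3 ^ j) :
    r = 2 ∨ r = 3 := by
  have h' : r ∣ 2 ^ i * 3 ^ j := by exact_mod_cast h
  rcases (Nat.Prime.dvd_mul hr).1 h' with h' | h'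
  · exact Or.inl ((Nat.prime_dvd_prime_iff_eq hr Nat.prime_two).1 (hr.dvd_of_dvd_pow h'))
  · exact Or.inr ((Nat.prime_dvd_prime_iff_eq hr Nat.prime_three).1 (hr.dvd_of_dvd_pow h'))

/-- `u² - v = d²` with `u`, `v` units times `p`-th powers, all primes `2` or `3`, one of the three
terms divisible by `16`: none. -/
theorem no_sq_sub {p : ℕ} (hp : p.Prime) (h5 : 5 ≤ p) {u v d : ℤ} (hd0 : d ≠ 0)
    (hs : ∀ r : ℕ, r.Prime → (r : ℤ) ∣ d → r = 2 ∨ r = 3)
    (hu : ∃ i j : ℕ, ∃ r : ℤ, r ≠ 0 ∧ u = 2 ^ i * 3 ^ j * r ^ p)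
    (hv : ∃ i j : ℕ, ∃ r : ℤ, r ≠ 0 ∧ v = 2 ^ i * 3 ^ j * r ^ p)
    (hcop : IsCoprime u d) (h16 : (16 : ℤ) ∣ u ^ 2 ∨ (16 : ℤ) ∣ v ∨ (16 : ℤ) ∣ d ^ 2) :
    u ^ 2 - v ≠ d ^ 2 := by
  obtain ⟨i, j, r, hr, hu⟩ := hu
  obtain ⟨k, l, w, hw, hv⟩ := hv
  intro h
  set A : ℤ := (2 ^ i * 3 ^ j) ^ 2
  set B : ℤ := -(2 ^ k * 3 ^ l)
  set C : ℤ := -(d ^ 2)
  have eu : A * (r ^ 2) ^ p = u ^ 2 := by rw [hu]; ring
  have ev : B * w ^ p = -v := by rw [hv]; ring
  have hA : A ≠ 0 := by positivity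
  have hB : B ≠ 0 := neg_ne_zero.2 (by positivity)
  have hC : C ≠ 0 := neg_ne_zero.2 (pow_ne_zero _ hd0)
  have hne : A * B * C ≠ 0 := mul_ne_zero (mul_ne_zero hA hB) hC
  have hsAB : ∀ t : ℕ, t.Prime → (t : ℤ) ∣ A * B * C → t = 2 ∨ t = 3 := by
    intro t ht hd
    have hp' := Nat.prime_iff_prime_int.1 ht
    rcases hp'.dvd_or_dvd hd with hd | hd
    · rcases hp'.dvd_or_dvd hd with hd | hd
      · exact prime_of_dvd_unit ht (hp'.dvd_of_dvd_pow hd)
      · exact prime_of_dvd_unit ht (dvd_neg.1 hd)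
    · exact hs t ht (hp'.dvd_of_dvd_pow (dvd_neg.1 hd))
  have hcd : IsCoprime (A * (r ^ 2) ^ p) (C * 1 ^ p) := by
    rw [eu, one_pow, mul_one]
    exact hcop.pow.neg_right
  have hdv : IsCoprime (B * w ^ p) (C * 1 ^ p) := by
    rw [ev, one_pow, mul_one, show v = u ^ 2 + d ^ 2 * (-1) by linear_combination -h]
    exact ((hcop.pow (m := 2) (n := 2)).add_mul_left_left _).neg_neg
  have huv : IsCoprime (A * (r ^ 2) ^ p) (B * w ^ p) := by
    rw [eu, ev, show -v = d ^ 2 + u ^ 2 * (-1) by linear_combination h]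
    exact (hcop.pow (m := 2) (n := 2)).add_mul_left_right _
  have hr2 : r ^ 2 ≠ 0 := pow_ne_zero _ hr
  rcases h16 with h16 | h16 | h16
  · refine FA.Summary.twoPrimeFermat_three_five hp h5 dvd_rfl (Or.inl rfl) (A := B) (B := C)
      (C := A) (x := w) (y := 1) (z := r ^ 2)
      (mul_ne_zero (mul_ne_zero hB hC) hA) (mul_ne_zero (mul_ne_zero hw one_ne_zero) hr2)
      (fun t ht hd => hsAB t ht (by rwa [show A * B * C = B * C * A by ring])) hdv
      (by rwa [eu]) ?_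
    rw [eu, ev, one_pow]
    linear_combination h
  · refine FA.Summary.twoPrimeFermat_three_five hp h5 dvd_rfl (Or.inl rfl) (A := A) (B := C)
      (C := B) (x := r ^ 2) (y := 1) (z := w)
      (mul_ne_zero (mul_ne_zero hA hC) hB) (mul_ne_zero (mul_ne_zero hr2 one_ne_zero) hw)
      (fun t ht hd => hsAB t ht (by rwa [show A * B * C = A * C * B by ring])) hcd
      (by rw [ev]; exact h16.neg_right) ?_
    rw [eu, ev, one_pow]
    linear_combination h
  · refine FA.Summary.twoPrimeFermat_three_five hp h5 dvd_rfl (Or.inl rfl) (A := A) (B := B)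
      (C := C) (x := r ^ 2) (y := w) (z := 1)
      hne (mul_ne_zero (mul_ne_zero hr2 hw) one_ne_zero) hsAB huv
      (by rw [one_pow, mul_one]; exact h16.neg_right) ?_
    rw [eu, ev, one_pow]
    linear_combination h

/-- Five terms about the middle one, primes of the difference `2` and `3`, from the exponent `5`. -/
theorem mul_ne_pow_five {p : ℕ} (hp : p.Prime) (h5 : 5 ≤ p) {x d y : ℤ} (hd0 : d ≠ 0)
    (hs : ∀ r : ℕ, r.Prime → (r : ℤ) ∣ d → r = 2 ∨ r = 3) (hd : Odd d ∨ (4 : ℤ) ∣ d)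
    (hcop : IsCoprime x d) (hy : y ≠ 0) :
    x * (x ^ 2 - d ^ 2) * (x ^ 2 - 4 * d ^ 2) ≠ y ^ p := fun h => by
  have hpo : Odd p := hp.odd_of_ne_two (by omega)
  have hyp : x * (x ^ 2 - d ^ 2) * (x ^ 2 - 4 * d ^ 2) ≠ 0 := h ▸ pow_ne_zero p hy
  have hA1 : x ^ 2 - d ^ 2 ≠ 0 := right_ne_zero_of_mul (left_ne_zero_of_mul hyp)
  have hA2 : x ^ 2 - 4 * d ^ 2 ≠ 0 := right_ne_zero_of_mul hyp
  have hx0 : x ≠ 0 := left_ne_zero_of_mul (left_ne_zero_of_mul hyp)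
  have hrxd : ∀ r : ℕ, r.Prime → (r : ℤ) ∣ x → ¬ (r : ℤ) ∣ d := fun r hr h1 h2 =>
    (Nat.prime_iff_prime_int.1 hr).not_isUnit (hcop.isUnit_of_dvd' h1 h2)
  -- the common primes of the three factors are `2` or `3`
  have hx1 : ∀ r : ℕ, r.Prime → (r : ℤ) ∣ x → ¬ (r : ℤ) ∣ x ^ 2 - d ^ 2 := fun r hr h1 h2 =>
    hrxd r hr h1 ((Nat.prime_iff_prime_int.1 hr).dvd_of_dvd_pow
      ((dvd_sub_right (dvd_pow h1 two_ne_zero)).1 h2))
  have hx2 : ∀ r : ℕ, r.Prime → (r : ℤ) ∣ x → (r : ℤ) ∣ x ^ 2 - 4 * d ^ 2 → r = 2 := by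
    intro r hr h1 h2
    have hp' := Nat.prime_iff_prime_int.1 hr
    rcases hp'.dvd_or_dvd ((dvd_sub_right (dvd_pow h1 two_ne_zero)).1 h2) with h4 | h4
    · exact (prime_of_dvd_unit (i := 2) (j := 0) hr (by simpa using h4)).resolve_right fun e => by
        subst e; norm_num at h4
    · exact absurd (hp'.dvd_of_dvd_pow h4) (hrxd r hr h1)
  have h12 : ∀ r : ℕ, r.Prime → (r : ℤ) ∣ x ^ 2 - d ^ 2 → (r : ℤ) ∣ x ^ 2 - 4 * d ^ 2 →
      r = 2 ∨ r = 3 := by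
    intro r hr h1 h2
    have hp' := Nat.prime_iff_prime_int.1 hr
    have h3 : (r : ℤ) ∣ 3 * d ^ 2 := by
      rw [show 3 * d ^ 2 = (x ^ 2 - d ^ 2) - (x ^ 2 - 4 * d ^ 2) by ring]
      exact dvd_sub h1 h2
    rcases hp'.dvd_or_dvd h3 with h3 | h3
    · exact prime_of_dvd_unit (i := 0) (j := 1) hr (by simpa using h3)
    · exact hs r hr (hp'.dvd_of_dvd_pow h3)
  have split : ∀ r : ℕ, r.Prime → ∀ {a b : ℤ}, (r : ℤ) ∣ a * b → (r : ℤ) ∣ a ∨ (r : ℤ) ∣ b :=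
    fun r hr _ _ => (Nat.prime_iff_prime_int.1 hr).dvd_or_dvd
  have hX : ∃ i j : ℕ, ∃ r : ℤ, r ≠ 0 ∧ x = 2 ^ i * 3 ^ j * r ^ p := by
    refine exists_unit_mul_pow hpo hx0
      (b := (x ^ 2 - d ^ 2) * (x ^ 2 - 4 * d ^ 2)) (c := y) (by rw [← h]; ring)
      fun r hr h1 h2 => ?_
    rcases split r hr h2 with h2 | h2
    exacts [absurd h2 (hx1 r hr h1), Or.inl (hx2 r hr h1 h2)]
  have hV : ∃ i j : ℕ, ∃ r : ℤ, r ≠ 0 ∧ x ^ 2 - d ^ 2 = 2 ^ i * 3 ^ j * r ^ p := by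
    refine exists_unit_mul_pow hpo hA1
      (b := x * (x ^ 2 - 4 * d ^ 2)) (c := y) (by rw [← h]; ring) fun r hr h1 h2 => ?_
    rcases split r hr h2 with h2 | h2
    exacts [absurd h1 (hx1 r hr h2), h12 r hr h1 h2]
  have := Fact.mk Nat.prime_two
  have hval : padicValInt 2 x + padicValInt 2 (x ^ 2 - d ^ 2) +
      padicValInt 2 (x ^ 2 - 4 * d ^ 2) = p * padicValInt 2 y := by
    have e := congrArg (padicValInt 2) h
    rw [padicValInt.mul (mul_ne_zero hx0 hA1) hA2, padicValInt.mul hx0 hA1] at e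
    rw [e, padicValInt, Int.natAbs_pow, padicValNat.pow _ _]
    rfl
  have v0 : ∀ {a : ℤ}, Odd a → padicValInt 2 a = 0 := fun ha =>
    padicValInt.eq_zero_of_not_dvd fun h2 => (Int.not_even_iff_odd.2 ha)
      (even_iff_two_dvd.2 (by exact_mod_cast h2))
  have d16 : ∀ {a : ℤ}, a ≠ 0 → 4 ≤ padicValInt 2 a → (16 : ℤ) ∣ a := fun {a} ha h4 => by
    have := (padicValInt_dvd_iff (p := 2) 4 a).2 (Or.inr h4)
    simpa using this
  rcases hd with hd | hd
  swap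
  · exact no_sq_sub hp h5 hd0 hs hX hV hcop (Or.inr (Or.inr
      ((show (16 : ℤ) ∣ 4 ^ 2 by norm_num).trans (pow_dvd_pow_of_dvd hd 2)))) (by ring)
  rcases Int.even_or_odd x with hxe | hxo
  · obtain ⟨x₁, rfl⟩ := hxe.two_dvd
    rcases Int.even_or_odd x₁ with h1e | h1o
    · exact no_sq_sub hp h5 hd0 hs hX hV hcop (Or.inl (by
        obtain ⟨c, rfl⟩ := h1e.two_dvd
        exact ⟨c ^ 2, by ring⟩)) (by ring)
    · have hA3 : x₁ ^ 2 - d ^ 2 ≠ 0 := fun e => hA2 (by linear_combination 4 * e)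
      have hX1 : ∃ i j : ℕ, ∃ r : ℤ, r ≠ 0 ∧ x₁ = 2 ^ i * 3 ^ j * r ^ p := by
        refine exists_unit_mul_pow hpo (right_ne_zero_of_mul hx0)
          (b := 2 * (((2 * x₁) ^ 2 - d ^ 2) * ((2 * x₁) ^ 2 - 4 * d ^ 2))) (c := y)
          (by rw [← h]; ring) fun r hr h1 h2 => ?_
        rcases split r hr h2 with h2 | h2
        · exact prime_of_dvd_unit (i := 1) (j := 0) hr (by simpa using h2)
        · rcases split r hr h2 with h2 | h2
          exacts [absurd h2 (hx1 r hr (h1.mul_left 2)), Or.inl (hx2 r hr (h1.mul_left 2) h2)]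
      have hV3 : ∃ i j : ℕ, ∃ r : ℤ, r ≠ 0 ∧ x₁ ^ 2 - d ^ 2 = 2 ^ i * 3 ^ j * r ^ p := by
        refine exists_unit_mul_pow hpo hA3 (b := 4 * (2 * x₁ * ((2 * x₁) ^ 2 - d ^ 2))) (c := y)
          (by rw [← h]; ring) fun r hr h1 h2 => ?_
        have h1' : (r : ℤ) ∣ (2 * x₁) ^ 2 - 4 * d ^ 2 := by
          rw [show (2 * x₁) ^ 2 - 4 * d ^ 2 = 4 * (x₁ ^ 2 - d ^ 2) by ring]
          exact h1.mul_left 4
        rcases split r hr h2 with h2 | h2
        · exact prime_of_dvd_unit (i := 2) (j := 0) hr (by simpa using h2)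
        · rcases split r hr h2 with h2 | h2
          exacts [Or.inl (hx2 r hr h2 h1'), h12 r hr h2 h1']
      refine no_sq_sub hp h5 hd0 hs hX1 hV3 hcop.of_mul_left_right (Or.inr (Or.inl ?_)) (by ring)
      refine d16 hA3 ?_
      have e4 : padicValInt 2 ((2 * x₁) ^ 2 - 4 * d ^ 2) = 2 + padicValInt 2 (x₁ ^ 2 - d ^ 2) := by
        rw [show (2 * x₁) ^ 2 - 4 * d ^ 2 = ((2 ^ 2 : ℕ) : ℤ) * (x₁ ^ 2 - d ^ 2) by push_cast; ring,
          padicValInt.mul (by norm_num) hA3, padicValInt.of_nat, padicValNat.prime_pow]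
      have e1 : padicValInt 2 (2 * x₁) = 1 := by
        rw [padicValInt.mul two_ne_zero (right_ne_zero_of_mul hx0), v0 h1o]
        norm_num [padicValInt]
      have e8 : 3 ≤ padicValInt 2 (x₁ ^ 2 - d ^ 2) := by
        have h8 : (8 : ℤ) ∣ x₁ ^ 2 - d ^ 2 := by
          rw [show x₁ ^ 2 - d ^ 2 = (x₁ ^ 2 - 1) - (d ^ 2 - 1) by ring]
          exact dvd_sub (Int.eight_dvd_sq_sub_one_of_odd h1o)
            (Int.eight_dvd_sq_sub_one_of_odd hd)
        exact ((padicValInt_dvd_iff (p := 2) 3 _).1 (by simpa using h8)).resolve_left hA3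
      rw [e1, e4, v0 ((hxe.pow_of_ne_zero two_ne_zero).sub_odd hd.pow)] at hval
      rcases Nat.lt_or_ge (padicValInt 2 y) 2 with hk | hk
      · have := Nat.odd_iff.1 hpo
        interval_cases hk' : padicValInt 2 y <;> omega
      · have := Nat.mul_le_mul h5 hk
        omega
  · refine no_sq_sub hp h5 hd0 hs hX hV hcop (Or.inr (Or.inl (d16 hA1 ?_))) (by ring)
    have hA2o : Odd (x ^ 2 - 4 * d ^ 2) := hxo.pow.sub_even ⟨2 * d ^ 2, by ring⟩
    rw [v0 hxo, v0 hA2o] at hval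
    have h1 : 1 ≤ padicValInt 2 (x ^ 2 - d ^ 2) :=
      ((padicValInt_dvd_iff (p := 2) 1 _).1
        (by simpa using (hxo.pow.sub_odd hd.pow).two_dvd)).resolve_left hA1
    rcases Nat.eq_zero_or_pos (padicValInt 2 y) with hk | hk
    · rw [hk] at hval; omega
    · have := Nat.mul_le_mul h5 hk
      omega

end FA.Progressions

end
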