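import Fermat.Agent.RT.CurveResidual
import Fermat.Agent.RT.Tate.MultNode

/-!
# The order of the image of inertia at a multiplicative prime

If the image of inertia in `GL(E[p])` at a multiplicative prime `q` (`q = p` allowed) has order
prime to `p`, then `p` divides the exponent of `q` in the discriminant: the derivative at a
torsion point outside the component of the identity has value `g` with `g ^ p` a power of the
value of `q` and is fixed by the kernel of the action.
-/

set_option autoImplicit false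
set_option linter.unusedSectionVars false

noncomputable section

open Matrix WeierstrassCurve FA.EC FA.Frob FA.Local FA.LocalDef FA.RT
open scoped WeierstrassCurve.Affine

namespace FA.Ribet

local notation "Qb" => AlgebraicClosure ℚ
local notation "GQ" => AlgebraicClosure ℚ ≃ₐ[ℚ] AlgebraicClosure ℚ

/-- The value of an element fixed by the inertial part of the kernel of a representation has a
power of order the image of inertia equal to a power of the value of `q`. -/
theorem exists_zpow_of_ker_fixed {M : Type*} [Group M] [Finite M] (f : GQ →* M) {q : ℕ}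
    (hq : q.Prime) {A : ValuationSubring Qb} (hA : A.LiesOverPrime q) {x : Qb} (hx0 : x ≠ 0)
    (hx : ∀ σ ∈ A.inertiaSubgroupIn ℚ, f σ = 1 → σ x = x) :
    ∃ k : ℤ, A.valuation x ^ Nat.card ((A.inertiaSubgroupIn ℚ).map f) =
      A.valuation (q : Qb) ^ k := by
  set I := A.inertiaSubgroupIn ℚ
  let _ : Fintype (I.map f) := Fintype.ofFinite _
  have hs : ∀ h : I.map f, ∃ σ ∈ I, f σ = h.1 := fun h => Subgroup.mem_map.mp h.2
  choose s hsI hsf using hs
  have hwd : ∀ σ ∈ I, ∀ h : I.map f, f σ = h.1 → σ x = s h x := fun σ hσ h e => by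
    have h1 := hx ((s h)⁻¹ * σ) (I.mul_mem (I.inv_mem (hsI h)) hσ)
      (by rw [map_mul, map_inv, hsf, e, inv_mul_cancel])
    conv_rhs => rw [← h1]
    rw [← AlgEquiv.mul_apply, mul_inv_cancel_left]
  set z := ∏ h : I.map f, s h x with hz
  have hz0 : z ≠ 0 := Finset.prod_ne_zero_iff.mpr fun h _ => (map_ne_zero _).mpr hx0
  have hzk : z ∈ kur A := mem_kur.mpr fun τ hτ => by
    rw [hz, map_prod]
    refine Fintype.prod_equiv (Equiv.mulLeft (⟨f τ, τ, hτ, rfl⟩ : I.map f)) _ _ fun h => ?_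
    rw [← AlgEquiv.mul_apply]
    refine hwd _ (I.mul_mem hτ (hsI h)) _ ?_
    rw [map_mul, hsf]
    rfl
  obtain ⟨k, hk⟩ := exists_zpow_of_mem_kur hq hA hzk hz0
  refine ⟨k, ?_⟩
  rw [← hk, hz, map_prod, Finset.prod_congr rfl
    (fun h _ => (inert_of_mem_inertiaSubgroupIn A (hsI h)).map_eq x), Finset.prod_const,
    Finset.card_univ, Nat.card_eq_fintype_card]

variable {p : ℕ} [hp : Fact p.Prime] {W : WeierstrassCurve ℤ} [(ratCurve W).IsElliptic]
  {q : ℕ} {A : ValuationSubring Qb}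

/-- Some point killed by `p` lies outside nonsingular reduction. -/
theorem exists_torsion_not_mem_e0 {r : Qb} (N : FA.RT.Tate.NodeData W q A r) (hp2 : p ≠ 2) :
    ∃ P : FA.RT.Tate.Pts W, p • P = 0 ∧ P ∉ N.e0Sub := by
  by_contra hall
  push Not at hall
  have hle := N.card_e0_torsion_le (p := p) hp2
  have := finite_torsion (ratCurve W) hp.out.ne_zero
  let incl : {x : FA.RT.Tate.Pts W // p • x = 0 ∧ x ∈ N.e0Sub} →
      Submodule.torsionBy ℤ ((ratCurve W)⁄Qb).Point (p : ℤ) :=
    fun x => ⟨x.1, (FA.RT.Tate.mem_torsion_iff W).mpr x.2.1⟩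
  have : Finite {x : FA.RT.Tate.Pts W // p • x = 0 ∧ x ∈ N.e0Sub} :=
    Finite.of_injective incl fun a b e => Subtype.ext (congrArg Subtype.val e :)
  let fro : Submodule.torsionBy ℤ ((ratCurve W)⁄Qb).Point (p : ℤ) →
      {x : FA.RT.Tate.Pts W // p • x = 0 ∧ x ∈ N.e0Sub} :=
    fun x => ⟨x.1, nsmul_torsion x, hall x.1 (nsmul_torsion x)⟩
  have h2 := (Nat.card_le_card_of_injective fro
    fun a b e => Subtype.ext (congrArg Subtype.val e :)).trans hle
  rw [natCard_torsion (ratCurve W) hp.out.ne_zero] at h2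
  nlinarith [hp.out.two_le]

/-- An automorphism fixing an affine point fixes the derivative there. -/
theorem smul_fy_of_smul_eq {X Y : Qb} {hXY : ((ratCurve W)⁄Qb).toAffine.Nonsingular X Y} {σ : GQ}
    (h : σ • (Affine.Point.some X Y hXY : ((ratCurve W)⁄Qb).toAffine.Point) = .some X Y hXY) :
    σ (fy ((ratCurve W)⁄Qb).toAffine X Y) = fy ((ratCurve W)⁄Qb).toAffine X Y := by
  obtain ⟨hns, e⟩ := smul_some (σ := σ) (ratCurve W) hXY
  rw [e, Affine.Point.some.injEq] at h
  have c1 : σ ((ratCurve W)⁄Qb).a₁ = ((ratCurve W)⁄Qb).a₁ := σ.commutes _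
  have c3 : σ ((ratCurve W)⁄Qb).a₃ = ((ratCurve W)⁄Qb).a₃ := σ.commutes _
  simp only [fy, map_add, map_mul, map_ofNat, c1, c3, h.1, h.2]

/-- **The image of inertia at a multiplicative prime has order divisible by `p`** when the exponent
of that prime in the discriminant is prime to `p`. -/
theorem dvd_padicValInt_of_not_dvd_card (h : MultAt W q A) (hp2 : p ≠ 2)
    (hm : ¬ p ∣ Nat.card ((A.inertiaSubgroupIn ℚ).map (curveRep p W).toHomUnits)) :
    p ∣ padicValInt q W.Δ := by
  classical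
  have hp' := hp.out
  obtain ⟨r, N⟩ := FA.RT.Tate.exists_nodeData h
  -- a torsion point outside nonsingular reduction
  obtain ⟨P, hP, hPE⟩ := exists_torsion_not_mem_e0 (p := p) N hp2
  obtain ⟨Q, rfl⟩ := (originEquiv ((ratCurve W)⁄Qb) r).surjective P
  rw [N.mem_e0Sub] at hPE
  have hQp : p • Q = 0 :=
    (originEquiv ((ratCurve W)⁄Qb) r).injective (by rw [map_nsmul, hP, map_zero])
  rcases N.node.e0_or_br (hp'.odd_of_ne_two hp2) hQp with h0 | ⟨g, s, hbr⟩
  · exact absurd h0 hPE
  obtain ⟨i, hi⟩ := N.node.pow_eq_of_torsion_even hp' hbr hQp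
  obtain ⟨x, y, hxy, rfl⟩ := hbr.exists_eq
  obtain ⟨hXY, hPe⟩ := originEquiv_some hxy
  rw [br_some] at hbr
  obtain ⟨rfl, hlo, hhi, -, -⟩ := hbr
  -- the derivative at the point
  have hx : x ≠ 0 := A.valuation.pos_iff.mp (lt_of_le_of_lt zero_le hlo)
  obtain ⟨z, hz⟩ : ∃ z, fy ((ratCurve W)⁄Qb).toAffine (x + r)
    (y + halfY ((ratCurve W)⁄Qb) r) = z := ⟨_, rfl⟩
  have hb := N.node.br_self hxy hlo hhi
  rw [br_some] at hb
  have hvz : A.valuation z = A.valuation x := by
    rw [← hz, fy_origin two_ne_zero, fy, N.node.h₃, add_zero,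
      show 2 * y + (toOrigin ((ratCurve W)⁄Qb) r).toAffine.a₁ * x =
        (2 * (y / x) + (toOrigin ((ratCurve W)⁄Qb) r).toAffine.a₁) * x by field_simp, map_mul,
      N.node.unit_root hb.2.2.2.2, one_mul]
  have hz0 : z ≠ 0 := A.valuation.pos_iff.mp (hvz ▸ A.valuation.pos_iff.mpr hx)
  have hzfix : ∀ σ ∈ A.inertiaSubgroupIn ℚ, (curveRep p W).toHomUnits σ = 1 → σ z = z := by
    intro σ _ hσ
    have h1 : curveRep p W σ = 1 := by
      rw [← MonoidHom.coe_toHomUnits, hσ, Units.val_one]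
    rw [← hz]
    exact smul_fy_of_smul_eq (hXY := hXY) (hPe ▸ congrArg Subtype.val ((curveRep_eq_one_iff W σ).mp h1
      ⟨_, (FA.RT.Tate.mem_torsion_iff W).mpr hP⟩))
  obtain ⟨k, hk⟩ := exists_zpow_of_ker_fixed _ h.prime h.lies hz0 hzfix
  set m := Nat.card ((A.inertiaSubgroupIn ℚ).map (curveRep p W).toHomUnits)
  -- the value of `a₄`
  have ha : A.valuation (toOrigin ((ratCurve W)⁄Qb) r).toAffine.a₄ ^ 2 = A.valuation (q : Qb) ^ padicValInt q W.Δ := by
    have hu : A.valuation (discB ((ratCurve W)⁄Qb) r ^ 2 - 64 * (toOrigin ((ratCurve W)⁄Qb) r).toAffine.a₄) = 1 := by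
      have hB : A.valuation (discB ((ratCurve W)⁄Qb) r ^ 2) = 1 := by
        rw [map_pow, ← toOrigin_disc,
          show A.valuation ((toOrigin ((ratCurve W)⁄Qb) r).toAffine.a₁ ^ 2 + 4 * (toOrigin ((ratCurve W)⁄Qb) r).toAffine.a₂) = 1 from N.node.hdisc, one_pow]
      refine eq_one_of_sub_lt hB ?_
      rw [sub_sub_cancel_left, A.valuation.map_neg]
      exact map_mul_lt_one (natCast_le_one 64) N.node.hb
    have hΔ := congrArg A.valuation (toOrigin_Δ_eq (V := ((ratCurve W)⁄Qb)) two_ne_zero N.root)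
    rw [map_Δ_ratCurve, map_mul, map_pow, hu, mul_one,
      exists_valuation_eq_pow h.prime h.lies h.ne_zero] at hΔ
    exact hΔ.symm
  -- the bounds on `i`
  have hi0 : i ≠ 0 := by
    rintro rfl
    rw [mul_zero, pow_zero] at hi
    exact (pow_lt_one₀ zero_le hhi hp'.ne_zero).ne hi
  have hip : i < p := by
    by_contra hc
    have h1 := pow_lt_pow_left₀ hlo zero_le hp'.ne_zero
    rw [hi] at h1
    exact absurd h1 (not_lt.mpr (pow_le_pow_right_of_le_one' N.node.hb.le (by omega)))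
  -- comparing exponents
  have h0 : (0 : _) < A.valuation (q : Qb) :=
    A.valuation.pos_iff.mpr (Nat.cast_ne_zero.mpr h.prime.ne_zero)
  have hkey : A.valuation (q : Qb) ^ ((padicValInt q W.Δ * i * m : ℕ) : ℤ) =
      A.valuation (q : Qb) ^ (k * (p : ℤ)) := by
    rw [zpow_natCast, pow_mul, pow_mul, ← ha, ← pow_mul (A.valuation (toOrigin ((ratCurve W)⁄Qb) r).toAffine.a₄), ← hi, _root_.zpow_mul, ← hk, hvz,
      zpow_natCast, ← pow_mul, ← pow_mul, mul_comm]
  have hd : p ∣ padicValInt q W.Δ * i * m := Int.natCast_dvd_natCast.mp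
    ⟨k, by rw [zpow_right_injective₀ h0 h.map_lt_one.ne hkey, mul_comm]⟩
  rcases hp'.dvd_mul.mp hd with hd | hd
  · rcases hp'.dvd_mul.mp hd with hd | hd
    · exact hd
    · exact absurd (Nat.le_of_dvd (Nat.pos_of_ne_zero hi0) hd) (not_le.mpr hip)
  · exact absurd hd hm

end FA.Ribet

end
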