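import Fermat.Agent.Ribet.SerreLarge
import Fermat.Agent.Root.SummaryCubeEquationFive
import Fermat.Agent.Root.SummaryLevels

/-!
# Signatures `(p, p, 2)` and `(p, p, 3)` with coefficients supported on two primes

The curve of `x³ = A y ^ p + B z ^ p` has a point of order `3`, so trace `0` at a good `2`, against
`-1` for the curves of levels `15` and `21`. The curve of `x² = A y ^ p + B z ^ p` has a point of
order `2`, so even traces, against an odd one at `3` or `5` for those of levels `22`, `26`, `38`.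
-/

set_option autoImplicit false
set_option linter.style.haveILetI false
set_option linter.unusedSectionVars false

noncomputable section

open WeierstrassCurve
open FA.PowerEquations

namespace FA.Ribet

/-- The trace at a good `2` of the curve of the cube equation is zero. -/
theorem apOfModel_two_cubeCurve {x T : ℤ} (hT : (27 : ℤ) ∣ T)
    (hgood : (cubeCurve x T).IsGoodPrimeFor 2) : (cubeCurve x T).apOfModel 2 = 0 := by
  have key : ∀ a c : ZMod 2, c ^ 3 * (a ^ 3 - 27 * c) ≠ 0 → a = 0 ∧ c = 1 := by decide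
  haveI : Fact (Nat.Prime 2) := ⟨Nat.prime_two⟩
  have hne : ((x : ZMod 2)) = 0 ∧ ((T / 27 : ℤ) : ZMod 2) = 1 := by
    refine key _ _ fun h0 => hgood ?_
    rw [← ZMod.intCast_zmod_eq_zero_iff_dvd, cube_Δ_eq hT]
    conv_lhs => rw [show x ^ 3 - T = x ^ 3 - 27 * (T / 27) by rw [Int.mul_ediv_cancel' hT]]
    push_cast
    exact h0
  rw [apOfModel_eq_nsPts (a₁ := 0) (a₂ := 0) (a₃ := 1) (a₄ := 0) (a₆ := 0) (by
    ext
    · exact hne.1
    · simp [reductionMod, cubeCurve]
    · exact hne.2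
    · simp [reductionMod, cubeCurve]
    · simp [reductionMod, cubeCurve])]
  rfl

/-- The curve of the cube equation is irreducible mod `p` for every `p ≥ 5`. -/
theorem modRepIsIrreducible_cubeCurve {x T : ℤ} (hΔ : (cubeCurve x T).Δ ≠ 0)
    (hW : (cubeCurve x T).IsSemistableModel) {p : ℕ} (hp : p.Prime) (h5 : 5 ≤ p) :
    (cubeCurve x T).ModRepIsIrreducible p := by
  rcases le_or_gt 11 p with h11 | h11
  · exact FA.Thirteen.modRepIsIrreducible_all hΔ hW hp h11
  interval_cases p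
  all_goals first
    | (exfalso; revert hp; decide)
    | skip
  · exact FA.EC.modRepIsIrreducible_five_of_root_three hΔ hW (e := 0)
      (by simp [cubeCurve, Ψ₃, b₈])
  · exact FA.EC.modRepIsIrreducible_seven_of_root_three hΔ hW (e := 0)
      (by simp [cubeCurve, Ψ₃, b₈])

/-- The one curve of the levels `15` and `21`, with trace `-1` at `2`. -/
theorem exists_curve_fifteen_twentyone {q : ℕ} (hq : q = 5 ∨ q = 7) {N : ℕ} (hN : N ∣ 3 * q)
    {f : CuspForm (CongruenceSubgroup.Gamma0 N) 2} (hf : f.IsNormalizedEigenform) :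
    ∃ E : WeierstrassCurve ℤ, E.IsGoodPrimeFor 2 ∧ (∀ l : ℕ, l.Prime → ¬ l ∣ 3 * q →
      E.IsGoodPrimeFor l) ∧ E.Δ ≠ 0 ∧ E.apOfModel 2 = -1 ∧
      ∀ l : ℕ, l.Prime → ¬ l ∣ 3 * q →
        ModularFormClass.qCoeff f l = (E.apOfModel l : ℂ) := by
  have hNeZ : NeZero N := ⟨by rintro rfl; have := Nat.eq_zero_of_zero_dvd hN; omega⟩
  have hzero : ModularCurve.genusFormula N ≠ 0 := fun h =>
    hf.ne_zero (cuspForm_eq_zero_of_genusFormula h f)
  have hN' : N = 3 * q := by
    have h3 : N ≠ 3 := fun h => hzero (h ▸ genusFormula_eq_zero (Or.inl rfl) ⟨2, rfl⟩)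
    have h1 : N ≠ 1 := fun h => hzero (h ▸ genusFormula_eq_zero (Or.inl rfl) (one_dvd 6))
    have h5 : N ≠ 5 := fun h => hzero (h ▸ genusFormula_eq_zero (Or.inr rfl) ⟨2, rfl⟩)
    have h7 : N ≠ 7 := fun h => hzero (h ▸ genusFormula_7)
    have hle : N ≤ 21 := (Nat.le_of_dvd (by omega) hN).trans (by omega)
    rcases hq with rfl | rfl <;> interval_cases N <;> omega
  subst hN'
  haveI : Fact (Nat.Prime 2) := ⟨Nat.prime_two⟩
  have key : ∀ E : WeierstrassCurve ℤ, E.IsSemistableModel →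
      E.Δ.natAbs.primeFactors = (3 * q).primeFactors → E.Δ ≠ 0 → E.IsGoodPrimeFor 2 →
      E.apOfModel 2 = -1 → ModularCurve.genusFormula (3 * q) = 1 →
      Squarefree (3 * q) → ∃ E : WeierstrassCurve ℤ, E.IsGoodPrimeFor 2 ∧
        (∀ l : ℕ, l.Prime → ¬ l ∣ 3 * q → E.IsGoodPrimeFor l) ∧ E.Δ ≠ 0 ∧ E.apOfModel 2 = -1 ∧
        ∀ l : ℕ, l.Prime → ¬ l ∣ 3 * q →
          ModularFormClass.qCoeff f l = (E.apOfModel l : ℂ) := by
    intro E hE hpf hΔ h2 ha hg hsq
    obtain ⟨g, hgn, hgl⟩ := exists_eigenform hΔ hE hpf hsq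
    refine ⟨E, h2, fun l hl hlq hd => hlq ?_, hΔ, ha, fun l hl hlq => ?_⟩
    · have := Nat.mem_primeFactors.mpr ⟨hl, Int.natCast_dvd.mp hd, Int.natAbs_ne_zero.mpr hΔ⟩
      rw [hpf] at this
      exact (Nat.mem_primeFactors.mp this).2.1
    · rw [eq_of_finrank_eq_one
        (Nat.cast_inj.mp ((Fermat.Agent.S20.result _).trans (by simpa using hg))) hgn hf]
      exact hgl l hl hlq
  rcases hq with rfl | rfl
  · refine key FA.Root.curve15 (fun r hr _ hc => hr.ne_one (Nat.dvd_one.mp (by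
      rw [show FA.Root.curve15.c₄ = 1 from by decide] at hc; exact_mod_cast hc)))
      (by rw [show FA.Root.curve15.Δ = -15 from by decide]; rfl) (by decide)
      (by unfold IsGoodPrimeFor; decide) ?_ FA.Root.genusFormula_15
      ((Nat.squarefree_mul (by norm_num)).mpr
        ⟨Nat.prime_three.prime.squarefree, Nat.prime_five.prime.squarefree⟩)
    rw [apOfModel_eq_nsPts (a₁ := 1) (a₂ := 1) (a₃ := 1) (a₄ := 0) (a₆ := 0) (by ext <;> rfl)]
    rfl
  · refine key FA.Root.curve21 (fun r hr hd hc => ?_)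
      (by rw [show FA.Root.curve21.Δ = -63 from by decide]
          rw [show Int.natAbs (-63) = 3 ^ 2 * 7 from rfl, Nat.primeFactors_mul (by norm_num)
            (by norm_num), Nat.primeFactors_pow _ two_ne_zero,
            Nat.primeFactors_mul (by norm_num) (by norm_num)])
      (by decide) (by unfold IsGoodPrimeFor; decide) ?_ FA.Root.genusFormula_21
      ((Nat.squarefree_mul (by norm_num)).mpr
        ⟨Nat.prime_three.prime.squarefree, squarefree_seven⟩)
    · rw [show FA.Root.curve21.c₄ = -47 from by decide, dvd_neg] at hc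
      rw [show FA.Root.curve21.Δ = -63 from by decide, dvd_neg] at hd
      exact hr.ne_one (Nat.dvd_one.mp ((Nat.dvd_gcd (Int.natCast_dvd_natCast.mp hd)
        (Int.natCast_dvd_natCast.mp hc) :)))
    rw [apOfModel_eq_nsPts (a₁ := 1) (a₂ := 0) (a₃ := 0) (a₄ := 1) (a₆ := 0) (by ext <;> rfl)]
    rfl

/-- No solution of the cube equation at the levels `15` and `21`. -/
theorem false_of_cube_twoPrimes {p : ℕ} (hp : p.Prime) (h5 : 5 ≤ p) {q : ℕ} (hq : q = 5 ∨ q = 7)
    {x T b t : ℤ} (h27 : (27 : ℤ) ∣ T) (hcop : IsCoprime x T) (hΔ : (cubeCurve x T).Δ ≠ 0)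
    (hb : ∀ r : ℕ, r.Prime → (r : ℤ) ∣ b → r ∣ 3 * q)
    (h : 3 ^ 9 * (cubeCurve x T).Δ = b * t ^ p) : False := by
  haveI := Fact.mk hp
  have hW := cube_isSemistableModel h27 hcop
  obtain ⟨N, hN, -, f, 𝔪, hf, hm, hpm, hcong⟩ := exists_level_of_discriminant hΔ hW
    (by omega) (modRepIsIrreducible_cubeCurve hΔ hW hp h5) (M := 3 * q) (by norm_num)
    (fun r hr hd => by
      have hd' : r ∣ 3 ^ 9 := by exact_mod_cast hd
      rw [(Nat.prime_dvd_prime_iff_eq hr Nat.prime_three).mp (hr.dvd_of_dvd_pow hd')]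
      exact dvd_mul_right 3 q) hb h
  obtain ⟨E, hE2, hEgood, hEΔ, ha, hEf⟩ := exists_curve_fifteen_twentyone hq hN hf
  have h2q : ¬ 2 ∣ 3 * q := by rcases hq with rfl | rfl <;> norm_num
  have hdvd := fun l hl hlq hgood hlp =>
    dvd_apOfModel_sub (W := cubeCurve x T) (E := E) hp hN hm hpm hcong hEf (l := l) hl hlq hgood hlp
  by_cases hgood : (cubeCurve x T).IsGoodPrimeFor 2
  · have h' := hdvd 2 Nat.prime_two h2q hgood (by omega)
    rw [apOfModel_two_cubeCurve h27 hgood, ha] at h'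
    have := Nat.le_of_dvd (by norm_num) (Int.natCast_dvd.mp h')
    norm_num at this
    omega
  · have h' := dvd_apOfModel_sub_or_add (by omega) hΔ hW hEΔ (3 * q).primeFactors
      (fun l hl hlS hWg _ hlp => dvd_sub_comm.mp (hdvd l hl (fun hd => hlS
        (Nat.mem_primeFactors.mpr ⟨hl, hd, by omega⟩)) hWg hlp))
      Nat.prime_two (by omega) (not_not.mp hgood) hE2
    rw [ha] at h'
    rcases h' with h' | h' <;>
      have := Nat.le_of_dvd (by norm_num) (Int.natCast_dvd.mp h') <;> simp at this <;> omega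

private theorem nsPts_squareCurve_three : ∀ a b : ZMod 3,
    (⟨1, a, 0, b, 0⟩ : WeierstrassCurve (ZMod 3)).Δ ≠ 0 →
    (3 : ℤ) - ((nsPts 1 a 0 b 0).card : ℤ) ∈ ({-4, -2, 0, 2, 4} : Finset ℤ) := by
  decide +kernel

private theorem nsPts_squareCurve_five : ∀ a b : ZMod 5,
    (⟨1, a, 0, b, 0⟩ : WeierstrassCurve (ZMod 5)).Δ ≠ 0 →
    (5 : ℤ) - ((nsPts 1 a 0 b 0).card : ℤ) ∈ ({-4, -2, 0, 2, 4} : Finset ℤ) := by
  decide +kernel

/-- The traces at `3` and `5` of the curve of the square equation are even and at most `4`. -/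
theorem apOfModel_squareCurve {x T : ℤ} {l : ℕ} (hl : l = 3 ∨ l = 5)
    (hgood : (FA.SquareEquation.squareCurve x T).IsGoodPrimeFor l) :
    (FA.SquareEquation.squareCurve x T).apOfModel l ∈ ({-4, -2, 0, 2, 4} : Finset ℤ) := by
  set W := FA.SquareEquation.squareCurve x T
  have hred : W.reductionMod l = ⟨1, (W.a₂ : ZMod l), 0, (W.a₄ : ZMod l), 0⟩ := by
    ext <;> simp [reductionMod, W, FA.SquareEquation.squareCurve]
  have hne : (⟨1, (W.a₂ : ZMod l), 0, (W.a₄ : ZMod l), 0⟩ : WeierstrassCurve (ZMod l)).Δ ≠ 0 := by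
    rw [← hred, reductionMod, map_Δ, eq_intCast, ne_eq, ZMod.intCast_zmod_eq_zero_iff_dvd]
    exact hgood
  rcases hl with rfl | rfl
  · haveI : Fact (Nat.Prime 3) := ⟨Nat.prime_three⟩
    rw [apOfModel_eq_nsPts hred]
    exact nsPts_squareCurve_three _ _ hne
  · haveI : Fact (Nat.Prime 5) := ⟨Nat.prime_five⟩
    rw [apOfModel_eq_nsPts hred]
    exact nsPts_squareCurve_five _ _ hne

/-- No solution of the square equation at the levels `22`, `26` and `38`. -/
theorem false_of_square_twoPrimes {p : ℕ} (hp : p.Prime) (h11 : 11 ≤ p) {q : ℕ}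
    (hq : q = 11 ∨ q = 13 ∨ q = 19) {x T b t : ℤ} (hx : x % 4 = 1) (h64 : (64 : ℤ) ∣ T)
    (hcop : IsCoprime x T) (hΔ : (FA.SquareEquation.squareCurve x T).Δ ≠ 0)
    (hb : ∀ r : ℕ, r.Prime → (r : ℤ) ∣ b → r ∣ 2 * q)
    (h : 2 ^ 12 * (FA.SquareEquation.squareCurve x T).Δ = b * t ^ p) : False := by
  haveI := Fact.mk hp
  have hW := FA.SquareEquation.isSemistableModel hx h64 hcop
  obtain ⟨N, hN, -, f, 𝔪, hf, hm, hpm, hcong⟩ := exists_level_of_discriminant hΔ hW
    (by omega) (FA.Thirteen.modRepIsIrreducible_all hΔ hW hp h11) (M := 2 * q) (by norm_num)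
    (fun r hr hd => by
      have hd' : r ∣ 2 ^ 12 := by exact_mod_cast hd
      rw [(Nat.prime_dvd_prime_iff_eq hr Nat.prime_two).mp (hr.dvd_of_dvd_pow hd')]
      exact dvd_mul_right 2 q) hb h
  obtain ⟨E, hEgood, hEΔ, ha, hEf⟩ : ∃ E : WeierstrassCurve ℤ,
      (∀ l : ℕ, l.Prime → ¬ l ∣ 2 * q → E.IsGoodPrimeFor l) ∧ E.Δ ≠ 0 ∧
      (∃ l, (l = 3 ∨ l = 5) ∧ E.apOfModel l ∈ ({-3, -1, 1, 3} : Finset ℤ)) ∧
      ∀ l : ℕ, l.Prime → ¬ l ∣ 2 * q →
        ModularFormClass.qCoeff f l = (E.apOfModel l : ℂ) := by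
    rcases show (q = 11 ∨ q = 13) ∨ q = 19 by omega with hq' | hq'
    · obtain ⟨E, h1, h2, h3, h4⟩ := exists_curve_of_eigenform_exact (q := q) (by omega) hN hf
      refine ⟨E, h1, h2, ⟨3, Or.inl rfl, ?_⟩, h4⟩
      simp only [Finset.mem_insert, Finset.mem_singleton] at h3 ⊢
      omega
    · obtain ⟨E, h1, h2, h3, h4⟩ := exists_curve_of_eigenform_large_exact (q := q) (by omega) hN hf
      refine ⟨E, h1, h2, ?_, h4⟩
      rcases h3 with (h3 | ⟨-, h5⟩) | ⟨h17, -⟩
      · refine ⟨3, Or.inl rfl, ?_⟩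
        simp only [Finset.mem_insert, Finset.mem_singleton] at h3 ⊢
        omega
      · exact ⟨5, Or.inr rfl, by simp [h5]⟩
      · omega
  obtain ⟨l, hl, ha⟩ := ha
  have hlp : l.Prime := by rcases hl with rfl | rfl <;> norm_num
  have hlq : ¬ l ∣ 2 * q := by rcases hl with rfl | rfl <;> omega
  have hdvd := fun l hl hlq hgood hlp =>
    dvd_apOfModel_sub (W := FA.SquareEquation.squareCurve x T) (E := E) hp hN hm hpm hcong hEf
      (l := l) hl hlq hgood hlp
  simp only [Finset.mem_insert, Finset.mem_singleton] at ha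
  by_cases hgood : (FA.SquareEquation.squareCurve x T).IsGoodPrimeFor l
  · have hw := apOfModel_squareCurve hl hgood
    simp only [Finset.mem_insert, Finset.mem_singleton] at hw
    have h' := Int.natCast_dvd.mp (hdvd l hlp hlq hgood (by omega))
    have := Nat.le_of_dvd (by omega) h'
    omega
  · have h' := dvd_apOfModel_sub_or_add (by omega) hΔ hW hEΔ (2 * q).primeFactors
      (fun l hl hlS hWg _ hlp => dvd_sub_comm.mp (hdvd l hl (fun hd => hlS
        (Nat.mem_primeFactors.mpr ⟨hl, hd, by omega⟩)) hWg hlp))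
      hlp (by omega) (not_not.mp hgood) (hEgood l hlp hlq)
    rcases h' with h' | h' <;>
      have := Nat.le_of_dvd (by omega) (Int.natCast_dvd.mp h') <;> omega

end FA.Ribet

end
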