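import Fermat.Agent.Root.EtaEleven
import Fermat.Agent.Ribet.SerreMore

/-!
# The eigenforms of the level `23`

`η(z)² η(23z)²` and its image under `T₂` span the cusp forms of weight two of level `23`, as `23`
is congruent to `11` modulo twelve. So the eigenvalue at two of an eigenform is a root of
`u² + u - 1`: it is irrational.
-/

set_option autoImplicit false
set_option linter.style.haveILetI false
set_option linter.unusedSectionVars false

noncomputable section

namespace FA.EtaTwentyThree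

open UpperHalfPlane hiding I
open Complex Filter Topology CongruenceSubgroup ModularForm FA.ModField FA.ModField.EtaQ
open FA.EtaEleven (prodFun hasQ_prodFun exists_scaled formula3 etaPow_three_smul etaPow_four_smul
  formula4_neg coeff_etaProd coeff_mul_congr)
open scoped Real MatrixGroups Manifold

local notation "𝕢" => Function.Periodic.qParam

/-- `η(z)² η(23z)²`. -/
def eta23 (z : ℍ) : ℂ := η (z : ℂ) ^ 2 * η (scaleH 23 z : ℂ) ^ 2

theorem eta23_pow (w : ℕ) (z : ℍ) :
    eta23 z ^ w = etaPow w z * etaPow w (scaleH 23 z) := by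
  rw [eta23, etaPow, etaPow, mul_pow, ← pow_mul, ← pow_mul]

theorem eta23_ne_zero (z : ℍ) : eta23 z ≠ 0 :=
  mul_ne_zero (pow_ne_zero 2 (eta_ne_zero z.im_pos))
    (pow_ne_zero 2 (eta_ne_zero (scaleH 23 z).im_pos))

/-- The transformation of the cube and the fourth power. -/
theorem eta23_pow_smul {g : SL(2, ℤ)} (hg : g ∈ Gamma0 23) (z : ℍ) :
    eta23 (g • z) ^ 3 = (denom g z ^ 2 * eta23 z) ^ 3 ∧
      eta23 (g • z) ^ 4 = (denom g z ^ 2 * eta23 z) ^ 4 := by
  rw [Gamma0_mem, ZMod.intCast_zmod_eq_zero_iff_dvd] at hg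
  obtain ⟨c, hc⟩ := hg
  obtain ⟨gb, hgb, hb⟩ := exists_scaled (d := 23) (g := g) (c := c) hc
  push_cast at hc
  have hdet : g 0 0 * g 1 1 - g 0 1 * g 1 0 = 1 := by
    have := g.det_coe; rwa [Matrix.det_fin_two] at this
  constructor
  · rw [eta23_pow, mul_pow, eta23_pow, (hb z).1, etaPow_three_smul, etaPow_three_smul gb, (hb z).2]
    have e : formula4 (g 0 0) (g 0 1) (g 1 0) (g 1 1) +
        formula4 (gb 0 0) (gb 0 1) (gb 1 0) (gb 1 1) = (0 : ZMod 4) := by
      have hd' : ((g 0 0 : ℤ) : ZMod 4) * ((g 1 1 : ℤ) : ZMod 4) -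
          ((g 0 1 : ℤ) : ZMod 4) * -((c : ℤ) : ZMod 4) = 1 := by
        have := congrArg (Int.cast : ℤ → ZMod 4) hdet
        rw [hc] at this
        push_cast at this
        rw [show (23 : ZMod 4) = -1 from rfl] at this
        linear_combination this
      simpa [hgb, hc, show (23 : ZMod 4) = -1 from rfl] using formula4_neg _ _ _ _ hd'
    have hr := rootC_pow_add 4 (formula4 (g 0 0) (g 0 1) (g 1 0) (g 1 1))
      (formula4 (gb 0 0) (gb 0 1) (gb 1 0) (gb 1 1))
    rw [e, ZMod.val_zero, pow_zero] at hr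
    linear_combination -(denom g z ^ 6 * etaPow 3 z * etaPow 3 (scaleH 23 z)) * hr
  · rw [eta23_pow, mul_pow, eta23_pow, (hb z).1, etaPow_four_smul, etaPow_four_smul gb, (hb z).2]
    have e : formula3 (g 0 0) (g 0 1) (g 1 0) (g 1 1) +
        formula3 (gb 0 0) (gb 0 1) (gb 1 0) (gb 1 1) = (0 : ZMod 3) := by
      simp [formula3, hgb, hc, show (23 : ZMod 3) = -1 from rfl]
    have hr := rootC_pow_add 3 (formula3 (g 0 0) (g 0 1) (g 1 0) (g 1 1))
      (formula3 (gb 0 0) (gb 0 1) (gb 1 0) (gb 1 1))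
    rw [e, ZMod.val_zero, pow_zero] at hr
    linear_combination -(denom g z ^ 8 * etaPow 4 z * etaPow 4 (scaleH 23 z)) * hr

theorem eta23_slash {g : SL(2, ℤ)} (hg : g ∈ Gamma0 23) : eta23 ∣[(2 : ℤ)] g = eta23 := by
  funext z
  obtain ⟨h3, h4⟩ := eta23_pow_smul hg z
  have hd : denom g z ≠ 0 := denom_ne_zero _ _
  have h0 : (denom g z ^ 2 * eta23 z) ^ 3 ≠ 0 :=
    pow_ne_zero 3 (mul_ne_zero (pow_ne_zero 2 hd) (eta23_ne_zero z))
  have h : eta23 (g • z) = denom g z ^ 2 * eta23 z :=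
    mul_left_cancel₀ h0 (by rw [← pow_succ]; exact (h3 ▸ pow_succ (eta23 (g • z)) 3).symm.trans h4)
  rw [ModularForm.SL_slash_apply, h, zpow_neg, zpow_two]
  field_simp

/-- `q² ∏ (1 - qⁿ)² (1 - q²³ⁿ)²`. -/
def series : PowerSeries ℤ :=
  PowerSeries.X * (PowerSeries.X * (ModularCurve.etaProd ^ 2 *
    PowerSeries.expand 23 (by norm_num) (ModularCurve.etaProd ^ 2)))

theorem hasQ_eta23 : FA.Eis.HasQ 1 eta23 (series.map (Int.castRingHom ℂ)) := by
  have hX : FA.Eis.HasQ 1 (fun z : ℍ => 𝕢 1 (z : ℂ)) PowerSeries.X := fun z => by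
    convert hasSum_single (f := fun n => PowerSeries.coeff n (PowerSeries.X : PowerSeries ℂ) *
      𝕢 (1 : ℝ) (z : ℂ) ^ n) 1 (fun n hn => by simp [PowerSeries.coeff_X, hn]) using 1
    simp
  have hP := hasQ_prodFun.pow one_pos 2
  have hfun : eta23 = (fun z : ℍ => 𝕢 1 (z : ℂ)) * ((fun z : ℍ => 𝕢 1 (z : ℂ)) *
      (prodFun ^ 2 * FA.Eis.dil 23 (prodFun ^ 2))) := by
    funext z
    have hs : FA.Eis.scalePt 23 z = scaleH 23 z := by
      ext; rw [FA.Eis.coe_scalePt, coe_scaleH]
    have e := eta23_pow 1 z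
    rw [pow_one, etaPow_eq, etaPow_eq] at e
    rw [e]
    simp only [Pi.mul_apply, Pi.pow_apply, FA.Eis.dil, hs, prodFun, mul_one]
    rw [← mul_assoc (𝕢 1 (z : ℂ)), show 𝕢 1 (z : ℂ) * 𝕢 1 (z : ℂ) =
        cexp (2 * π * I * z * (2 * (1 : ℕ)) / 24) *
        cexp (2 * π * I * (scaleH 23 z : ℍ) * (2 * (1 : ℕ)) / 24) by
      rw [Function.Periodic.qParam, ← Complex.exp_add, ← Complex.exp_add, coe_scaleH]
      congr 1
      push_cast
      ring]
    ring
  rw [hfun, series, map_mul, map_mul, map_mul, PowerSeries.map_X, PowerSeries.map_expand, map_pow]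
  exact hX.mul one_pos (hX.mul one_pos (hP.mul one_pos (hP.dil 23)))

/-- It vanishes at every cusp. -/
theorem eta23_isZero (γ : SL(2, ℤ)) : IsZeroAtImInfty (eta23 ∣[(2 : ℤ)] γ) := by
  obtain ⟨Fa, hFa, hA⟩ := FA.CM.exists_tendsto_scaled 1 γ
  obtain ⟨Fb, hFb, hB⟩ := FA.CM.exists_tendsto_scaled 23 γ
  have h1 : ∀ z : ℍ, scaleH 1 z = z := fun z => by ext; rw [coe_scaleH, Nat.cast_one, one_mul]
  have hpow : ∀ z, (eta23 ∣[(2 : ℤ)] γ) z ^ 12 = Fa z * Fb z := fun z => by
    have hd : denom γ z ≠ 0 := denom_ne_zero _ _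
    have hA' := hA z
    rw [h1] at hA'
    rw [ModularForm.SL_slash_apply, mul_pow, eta23_pow, hA', hB, zpow_neg, zpow_two, inv_pow]
    field_simp
  have h : Tendsto (fun z => ‖(eta23 ∣[(2 : ℤ)] γ) z‖ ^ 12) atImInfty (𝓝 0) := by
    simp only [← norm_pow, hpow]
    simpa using (hFa.mul hFb).norm
  show Tendsto _ _ _
  rw [tendsto_zero_iff_norm_tendsto_zero]
  have := h.rpow_const (p := ((12 : ℕ) : ℝ)⁻¹) (Or.inr (by positivity))
  rw [Real.zero_rpow (by norm_num)] at this
  exact this.congr fun z => Real.pow_rpow_inv_natCast (norm_nonneg _) (by norm_num)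

/-- **The cusp form `η(z)² η(23z)²` of level 23.** -/
def formTwentyThree : CuspForm (Gamma0 23) 2 where
  toFun := eta23
  slash_action_eq' := by
    rintro _ ⟨M, hM, rfl⟩
    exact eta23_slash hM
  holo' := hasQ_eta23.mdiff one_pos
  zero_at_cusps' := fun hc => by
    rw [Subgroup.IsArithmetic.isCusp_iff_isCusp_SL2Z] at hc
    exact (OnePoint.isZeroAt_iff_forall_SL2Z hc).mpr fun M _ => eta23_isZero M

/-- The coefficients of `∏ (1 - qⁿ)²` up to six. -/
def sqCoeff : ℕ → ℤ
  | 0 => 1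
  | 1 => -2
  | 2 => -1
  | 3 => 2
  | 4 => 1
  | 5 => 2
  | 6 => -2
  | _ => 0

theorem coeff_etaProd_sq {n : ℕ} (hn : n ≤ 6) :
    PowerSeries.coeff n (ModularCurve.etaProd ^ 2) = sqCoeff n := by
  let S : PowerSeries ℤ := 1 - PowerSeries.X - PowerSeries.X ^ 2 + PowerSeries.X ^ 5
  have hS : ∀ i ≤ n, PowerSeries.coeff i ModularCurve.etaProd = PowerSeries.coeff i S := by
    intro i hi
    rw [coeff_etaProd (m := 6) (by omega), show (∏ k ∈ Finset.range 6,
        ((1 : PowerSeries ℤ) - PowerSeries.X ^ (k + 1))) = S + PowerSeries.X ^ 7 *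
          (2 - PowerSeries.X ^ 2 - PowerSeries.X ^ 3 - PowerSeries.X ^ 4 - PowerSeries.X ^ 5
            + 2 * PowerSeries.X ^ 7 + PowerSeries.X ^ 9 - PowerSeries.X ^ 12 - PowerSeries.X ^ 13
            + PowerSeries.X ^ 14) by
      simp only [Finset.prod_range_succ, Finset.prod_range_zero, S]
      ring,
      map_add, PowerSeries.coeff_X_pow_mul', if_neg (by omega), add_zero]
  rw [pow_two, coeff_mul_congr hS hS, show S * S = 1 - PowerSeries.C 2 * PowerSeries.X ^ 1
      - PowerSeries.X ^ 2 + PowerSeries.C 2 * PowerSeries.X ^ 3 + PowerSeries.X ^ 4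
      + PowerSeries.C 2 * PowerSeries.X ^ 5 - PowerSeries.C 2 * PowerSeries.X ^ 6
      - PowerSeries.C 2 * PowerSeries.X ^ 7 + PowerSeries.X ^ 10 by
    simp only [S, map_ofNat]
    ring]
  simp only [map_add, map_sub, PowerSeries.coeff_one, PowerSeries.coeff_C_mul,
    PowerSeries.coeff_X_pow]
  interval_cases n <;> rfl

/-- The first coefficients of the form. -/
theorem qCoeff_formTwentyThree {n : ℕ} (hn : n ≤ 6) :
    ModularFormClass.qCoeff formTwentyThree (n + 2) = (sqCoeff n : ℂ) := by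
  show PowerSeries.coeff (n + 2) (UpperHalfPlane.qExpansion 1 eta23) = _
  rw [hasQ_eta23.qExpansion_eq one_pos, PowerSeries.coeff_map, series,
    PowerSeries.coeff_succ_X_mul, PowerSeries.coeff_succ_X_mul,
    coeff_mul_congr (B := ModularCurve.etaProd ^ 2) (D := 1) (fun _ _ => rfl) (fun i hi => ?_),
    mul_one, coeff_etaProd_sq hn]
  · simp
  · rw [PowerSeries.coeff_expand, PowerSeries.coeff_one]
    split_ifs with h h' h'
    · subst h'
      rw [PowerSeries.coeff_zero_eq_constantCoeff, map_pow, ModularCurve.constantCoeff_etaProd,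
        one_pow]
    · exact absurd (Nat.le_of_dvd (by omega) h) (by omega)
    · exact absurd (h' ▸ dvd_zero 23) h
    · rfl

theorem qCoeff_formTwentyThree_one : ModularFormClass.qCoeff formTwentyThree 1 = 0 := by
  show PowerSeries.coeff 1 (UpperHalfPlane.qExpansion 1 eta23) = _
  rw [hasQ_eta23.qExpansion_eq one_pos, PowerSeries.coeff_map, series,
    PowerSeries.coeff_succ_X_mul, PowerSeries.coeff_zero_X_mul, map_zero]

theorem genusFormula_23 : ModularCurve.genusFormula 23 = 2 := by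
  have s23 : Squarefree 23 := (show Nat.Prime 23 by norm_num).prime.squarefree
  simp only [ModularCurve.genusFormula, ModularCurve.nuTwo, ModularCurve.nuThree,
    ModularCurve.cuspCount, ModularCurve.dedekindPsi, Nat.card_eq_fintype_card]
  rw [show Fintype.card {x : ZMod 23 // x ^ 2 + 1 = 0} = 0 from rfl,
    show Fintype.card {x : ZMod 23 // x ^ 2 + x + 1 = 0} = 0 from rfl,
    show Nat.divisors 23 = {1, 23} by decide]
  simp [Finset.sum_filter, s23, Nat.totient]; norm_num

/-- **The eigenvalue at two in level 23** is a root of `u² + u - 1`. -/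
theorem qCoeff_two_twentyThree {N : ℕ} (hN : N ∣ 23) {f : CuspForm (Gamma0 N) 2}
    (hf : f.IsNormalizedEigenform) :
    ModularFormClass.qCoeff f 2 ^ 2 + ModularFormClass.qCoeff f 2 - 1 = 0 := by
  obtain rfl | rfl := (Nat.dvd_prime (show Nat.Prime 23 by norm_num)).mp hN
  · exact absurd (FA.Ribet.cuspForm_eq_zero_of_genusFormula
      (FA.Ribet.genusFormula_eq_zero (Or.inl rfl) (one_dvd 6)) f) hf.ne_zero
  have hdim : Module.finrank ℂ (CuspForm (Gamma0 23) 2) = 2 :=
    Nat.cast_inj.mp ((Fermat.Agent.S20.result 23).trans (by simpa using genusFormula_23))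
  set g := formTwentyThree
  have h2 : ¬ 2 ∣ 23 := by norm_num
  set h := CuspForm.heckeTLin 2 Nat.prime_two h2 g with hh
  have g1 : ModularFormClass.qCoeff g 1 = 0 := qCoeff_formTwentyThree_one
  have g2 : ModularFormClass.qCoeff g 2 = 1 := by
    simpa [sqCoeff] using qCoeff_formTwentyThree (n := 0) (by norm_num)
  have g4 : ModularFormClass.qCoeff g 4 = -1 := by
    simpa [sqCoeff] using qCoeff_formTwentyThree (n := 2) (by norm_num)
  have g8 : ModularFormClass.qCoeff g 8 = -2 := by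
    simpa [sqCoeff] using qCoeff_formTwentyThree (n := 6) (by norm_num)
  have hcoef : ∀ n, ModularFormClass.qCoeff h n = ModularFormClass.qCoeff g (n * 2) +
      if 2 ∣ n then (2 : ℂ) * ModularFormClass.qCoeff g (n / 2) else 0 := fun n => by
    rw [hh, ← FA.Deform.qLin_apply, FA.Deform.qLin_heckeT Nat.prime_two h2]
    simp [FA.Deform.qLin_apply]
  have h1 : ModularFormClass.qCoeff h 1 = 1 := by
    rw [hcoef]; simp [g2]
  have hh2 : ModularFormClass.qCoeff h 2 = -1 := by
    rw [hcoef]; simp [g4, g1]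
  have hh4 : ModularFormClass.qCoeff h 4 = 0 := by
    rw [hcoef]; simp [g8, g2]
  obtain ⟨x, y, rfl⟩ := FA.Ribet.exists_eq_smul_add hdim g h (fun x y hxy => by
    have c1 := FA.Ribet.qCoeff_smul_add x y g h 1
    have c2 := FA.Ribet.qCoeff_smul_add x y g h 2
    rw [hxy, ← FA.Deform.qLin_apply, map_zero, Pi.zero_apply] at c1 c2
    rw [g1, h1] at c1
    rw [g2, hh2] at c2
    have hy : y = 0 := by linear_combination -c1
    exact ⟨by linear_combination -c2 + hy, hy⟩) f
  have e1 := hf.qCoeff_one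
  have e4 := hf.qCoeff_prime_pow_of_not_dvd 2 0 Nat.prime_two h2
  simp only [Nat.reducePow, Nat.reduceAdd, FA.Ribet.qCoeff_smul_add] at e1 e4 ⊢
  norm_num [g1, g2, g4, h1, hh2, hh4] at e1 e4
  rw [g2, hh2]
  subst e1
  linear_combination -e4

end FA.EtaTwentyThree

end
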